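/-
PROGRAM C / C-F1 (helper18): exchange lemma for function fields in one variable.
If `F` is algebraic over `K⟮x⟯` and `t ∈ F` is transcendental over `K`, then `F` is algebraic
over `K⟮t⟯`.
-/
import Mathlib

set_option autoImplicit false
set_option linter.style.haveILetI false
set_option linter.unusedSectionVars false

namespace Fermat.Agent.X0.FF

open IntermediateField Cardinal

variable {K F : Type*} [Field K] [Field F] [Algebra K F]

/-- `F` algebraic over the field `K⟮x⟯` implies algebraic over the ring `K[x]`. -/
theorem ffx_isAlgebraic_algebraAdjoin (x : F) (halg : Algebra.IsAlgebraic K⟮x⟯ F) :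
    Algebra.IsAlgebraic (Algebra.adjoin K {x}) F := by
  refine ⟨fun f => ?_⟩
  open IntermediateField.algebraAdjoinAdjoin in
  exact (IsFractionRing.isAlgebraic_iff (Algebra.adjoin K {x}) K⟮x⟯ F).mpr (halg.isAlgebraic f)

/-- Exchange lemma. -/
theorem ffx_isAlgebraic_of_transcendental (x t : F) (halg : Algebra.IsAlgebraic K⟮x⟯ F)
    (ht : Transcendental K t) : Algebra.IsAlgebraic K⟮t⟯ F := by
  haveI := ffx_isAlgebraic_algebraAdjoin x halg
  have h1 : Algebra.trdeg K F ≤ 1 := by
    have := Algebra.IsAlgebraic.trdeg_le_cardinalMk (R := K) (A := F) (s := ({x} : Set F))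
    simpa using this
  have hind : AlgebraicIndependent K (fun _ : Unit => t) :=
    algebraicIndependent_unique_type_iff.mpr ht
  have hb : IsTranscendenceBasis K (fun _ : Unit => t) := by
    refine hind.isTranscendenceBasis_of_lift_trdeg_le_of_finite ?_
    have h2 := lift_le.{0}.mpr h1
    simpa using h2
  have h3 := hb.isAlgebraic_field
  have h4 : (Set.range fun _ : Unit => t) = {t} := Set.range_const
  rw [h4] at h3
  exact h3

/-- Finite-dimensionality is also exchanged. -/
theorem ffx_finiteDimensional_of_transcendental (x t : F) [hfin : FiniteDimensional K⟮x⟯ F]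
    (ht : Transcendental K t) : FiniteDimensional K⟮t⟯ F := by
  classical
  have halg : Algebra.IsAlgebraic K⟮x⟯ F := Algebra.IsAlgebraic.of_finite _ _
  haveI halg' := ffx_isAlgebraic_of_transcendental x t halg ht
  -- a finite generating set
  let b := Module.finBasis K⟮x⟯ F
  let S : Set F := insert x (Set.range b)
  have hSfin : S.Finite := (Set.finite_range b).insert x
  have htop : IntermediateField.adjoin K⟮t⟯ S = ⊤ := by
    rw [eq_top_iff]
    intro f _
    -- `K⟮x⟯ ≤ adjoin`
    have hxS : x ∈ IntermediateField.adjoin K⟮t⟯ S :=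
      IntermediateField.subset_adjoin K⟮t⟯ S (Set.mem_insert x (Set.range b))
    have hx : ∀ c : K⟮x⟯, (c : F) ∈ IntermediateField.adjoin K⟮t⟯ S := by
      rintro ⟨c, hc⟩
      show c ∈ IntermediateField.adjoin K⟮t⟯ S
      induction hc using IntermediateField.adjoin_induction with
      | mem y hy =>
        rw [Set.mem_singleton_iff] at hy
        rw [hy]; exact hxS
      | algebraMap a =>
        have : algebraMap K F a = algebraMap K⟮t⟯ F (algebraMap K K⟮t⟯ a) := rfl
        rw [this]
        exact (IntermediateField.adjoin K⟮t⟯ S).algebraMap_mem _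
      | add y z _ _ hy hz => exact add_mem hy hz
      | inv y _ hy => exact inv_mem hy
      | mul y z _ _ hy hz => exact mul_mem hy hz
    have hf : f = ∑ i, ((b.repr f i : K⟮x⟯) : F) * b i := by
      conv_lhs => rw [← b.sum_repr f]
      exact Finset.sum_congr rfl fun i _ => Algebra.smul_def _ _
    rw [hf]
    refine Subfield.sum_mem (IntermediateField.adjoin K⟮t⟯ S).toSubfield fun i _ => ?_
    refine Subfield.mul_mem (IntermediateField.adjoin K⟮t⟯ S).toSubfield (hx _) ?_
    exact IntermediateField.subset_adjoin _ _ (Set.mem_insert_of_mem _ ⟨i, rfl⟩)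
  haveI : FiniteDimensional K⟮t⟯ (IntermediateField.adjoin K⟮t⟯ S) := by
    haveI := hSfin.to_subtype
    exact IntermediateField.finiteDimensional_adjoin fun s _ =>
      (halg'.isAlgebraic s).isIntegral
  rw [htop] at this
  exact (IntermediateField.topEquiv (F := K⟮t⟯) (E := F)).toLinearEquiv.finiteDimensional

end Fermat.Agent.X0.FF
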