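/-
PROGRAM C / C-F1 (helper18): basic facts on places (Prelude `AlgebraicCurve.Place`):
`ord` versus membership in the valuation ring, elements with nonzero order are transcendental,
and the residue field of a place of a function field in one variable over an algebraically
closed field is the constant field.
-/
import Mathlib
import Fermat.Prelude.Def_AlgebraicCurve_DivisorClassGroup
import Fermat.Agent.X0.FFExchange

set_option autoImplicit false
set_option linter.style.haveILetI false
set_option linter.unusedSectionVars false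

namespace Fermat.Agent.X0.FF

open AlgebraicCurve IsLocalRing IntermediateField Polynomial

variable {K F : Type*} [Field K] [Field F] [Algebra K F]

section Ord

variable (v : Place K F)

/-- A chosen uniformizer of a place, as an element of the valuation ring. -/
theorem ffp_exists_irreducible : ∃ π : v.toValuationSubring, Irreducible π :=
  IsDiscreteValuationRing.exists_irreducible _

theorem ffp_mem_of_ord_nonneg {f : F} (h : 0 ≤ v.ord f) : f ∈ v.toValuationSubring := by
  rcases eq_or_ne f 0 with rfl | hf
  · exact zero_mem _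
  obtain ⟨π, hπ⟩ := ffp_exists_irreducible v
  obtain ⟨u, hu⟩ := v.exists_unit_mul_zpow hf hπ
  rw [hu]
  obtain ⟨n, hn⟩ := Int.eq_ofNat_of_zero_le h
  rw [hn, zpow_natCast]
  exact mul_mem (u : v.toValuationSubring).2 (pow_mem π.2 n)

theorem ffp_ord_nonneg_of_mem {f : F} (h : f ∈ v.toValuationSubring) : 0 ≤ v.ord f := by
  rcases eq_or_ne f 0 with rfl | hf
  · simp
  obtain ⟨π, hπ⟩ := ffp_exists_irreducible v
  obtain ⟨u, hu⟩ := v.exists_unit_mul_zpow hf hπ
  by_contra hneg
  rw [not_le] at hneg
  -- `u = f * π ^ (-ord f)` would be a nonunit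
  obtain ⟨m, hm⟩ : ∃ m : ℕ, v.ord f = -((m : ℤ) + 1) :=
    ⟨(-(v.ord f) - 1).toNat, by omega⟩
  have hπF : (π : F) ≠ 0 := by
    simpa [ne_eq, ZeroMemClass.coe_eq_zero] using hπ.ne_zero
  have h1 : ((u : v.toValuationSubring) : F) = f * (π : F) ^ (m + 1) := by
    rw [hu, hm, zpow_neg, ← zpow_natCast]
    push_cast
    field_simp
  have h2 : (u : v.toValuationSubring) = ⟨f, h⟩ * π ^ (m + 1) := Subtype.ext (by simpa using h1)
  have h3 : IsUnit (π ^ (m + 1)) := isUnit_of_mul_isUnit_right (h2 ▸ u.isUnit)
  exact hπ.not_isUnit (isUnit_of_dvd_unit (dvd_pow_self π (Nat.succ_ne_zero m)) h3)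

theorem ffp_mem_iff_ord_nonneg {f : F} : f ∈ v.toValuationSubring ↔ 0 ≤ v.ord f :=
  ⟨ffp_ord_nonneg_of_mem v, ffp_mem_of_ord_nonneg v⟩

/-- For an element of the valuation ring: positive order iff in the maximal ideal. -/
theorem ffp_mem_maximalIdeal_iff (a : v.toValuationSubring) (ha : a ≠ 0) :
    a ∈ maximalIdeal v.toValuationSubring ↔ 0 < v.ord (a : F) := by
  obtain ⟨π, hπ⟩ := ffp_exists_irreducible v
  have haF : (a : F) ≠ 0 := by simpa [ne_eq, ZeroMemClass.coe_eq_zero] using ha
  constructor
  · intro hmem
    rw [hπ.maximalIdeal_eq, Ideal.mem_span_singleton] at hmem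
    obtain ⟨b, rfl⟩ := hmem
    have hb : b ≠ 0 := by rintro rfl; simp at ha
    have hbF : (b : F) ≠ 0 := by simpa [ne_eq, ZeroMemClass.coe_eq_zero] using hb
    have hπF : (π : F) ≠ 0 := by simpa [ne_eq, ZeroMemClass.coe_eq_zero] using hπ.ne_zero
    have : v.ord ((π * b : v.toValuationSubring) : F) = 1 + v.ord (b : F) := by
      push_cast
      rw [v.ord_mul hπF hbF, v.ord_coe_irreducible hπ]
    rw [this]
    have := ffp_ord_nonneg_of_mem v b.2
    omega
  · intro hpos
    by_contra hnot
    have hu : IsUnit a := by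
      rwa [mem_maximalIdeal, mem_nonunits_iff, not_not] at hnot
    have := v.ord_coe_unit hu.unit
    rw [IsUnit.unit_spec] at this
    omega

theorem ffp_ord_eq_zero_of_isUnit {a : v.toValuationSubring} (ha : IsUnit a) :
    v.ord (a : F) = 0 := by
  have := v.ord_coe_unit ha.unit
  rwa [IsUnit.unit_spec] at this

/-- Nonzero constants have order zero. -/
theorem ffp_ord_algebraMap (c : K) : v.ord (algebraMap K F c) = 0 := by
  rcases eq_or_ne c 0 with rfl | hc
  · simp
  have hu : IsUnit (algebraMap K v.toValuationSubring c) := (IsUnit.mk0 c hc).map _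
  have := ffp_ord_eq_zero_of_isUnit v hu
  rwa [v.coe_algebraMap] at this

/-- Elements integral over `K` lie in every valuation ring. -/
theorem ffp_mem_of_isIntegral {f : F} (hf : IsIntegral K f) : f ∈ v.toValuationSubring := by
  have h1 : IsIntegral v.toValuationSubring f := hf.tower_top
  obtain ⟨y, hy⟩ := (IsIntegrallyClosed.isIntegral_iff (R := v.toValuationSubring) (K := F)).mp h1
  rw [← hy]
  exact y.2

/-- Elements of nonzero order are transcendental over `K`. -/
theorem ffp_transcendental_of_ord_ne_zero {f : F} (h : v.ord f ≠ 0) : Transcendental K f := by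
  intro halg
  have hf0 : f ≠ 0 := by rintro rfl; simp at h
  have h1 : f ∈ v.toValuationSubring := ffp_mem_of_isIntegral v halg.isIntegral
  have h2 : f⁻¹ ∈ v.toValuationSubring := ffp_mem_of_isIntegral v halg.inv.isIntegral
  have h3 := ffp_ord_nonneg_of_mem v h1
  have h4 := ffp_ord_nonneg_of_mem v h2
  rw [v.ord_inv] at h4
  omega

end Ord

end Fermat.Agent.X0.FF
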