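/-
PROGRAM C / C-F1 (helper18): `ord` of sums, and the residue field of a place of a function field
in one variable over an algebraically closed field is the constant field.
-/
import Mathlib
import Fermat.Prelude.Def_AlgebraicCurve_DivisorClassGroup
import Fermat.Agent.X0.FFPlace

set_option autoImplicit false
set_option linter.style.haveILetI false
set_option linter.unusedSectionVars false

namespace Fermat.Agent.X0.FF

open AlgebraicCurve IsLocalRing IntermediateField Polynomial

variable {K F : Type*} [Field K] [Field F] [Algebra K F]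

section OrdAdd

variable (v : Place K F)

theorem ffp_ord_neg (f : F) : v.ord (-f) = v.ord f := by
  rcases eq_or_ne f 0 with rfl | hf
  · simp
  have h1 : v.ord (-1 : F) = 0 := by
    have := ffp_ord_algebraMap v (-1 : K)
    simpa using this
  have : -f = (-1 : F) * f := by ring
  rw [this, v.ord_mul (by simp) hf, h1, zero_add]

/-- The ultrametric inequality. -/
theorem ffp_le_ord_add {f g : F} {n : ℤ} (hf : n ≤ v.ord f) (hg : n ≤ v.ord g)
    (hfg : f + g ≠ 0) : n ≤ v.ord (f + g) := by
  obtain ⟨π, hπ⟩ := ffp_exists_irreducible v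
  have hπF : (π : F) ≠ 0 := by
    simpa [ne_eq, ZeroMemClass.coe_eq_zero] using hπ.ne_zero
  have hπn : (π : F) ^ (-n) ≠ 0 := zpow_ne_zero _ hπF
  have hordπ : v.ord ((π : F) ^ (-n)) = -n := by
    rw [v.ord_zpow, v.ord_coe_irreducible hπ, mul_one]
  have key : ∀ h : F, n ≤ v.ord h → h * (π : F) ^ (-n) ∈ v.toValuationSubring := by
    intro h hh
    rcases eq_or_ne h 0 with rfl | h0
    · simp
    · apply ffp_mem_of_ord_nonneg
      rw [v.ord_mul h0 hπn, hordπ]
      omega
  have h1 := add_mem (key f hf) (key g hg)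
  rw [← add_mul] at h1
  have h2 := ffp_ord_nonneg_of_mem v h1
  rw [v.ord_mul hfg hπn, hordπ] at h2
  omega

/-- The order of a sum of two elements of different orders. -/
theorem ffp_ord_add_eq_of_lt {f g : F} (hf : f ≠ 0) (h : v.ord f < v.ord g) :
    v.ord (f + g) = v.ord f := by
  have hfg : f + g ≠ 0 := by
    intro h0
    have : f = -g := eq_neg_of_add_eq_zero_left h0
    rw [this, ffp_ord_neg] at h
    exact lt_irrefl _ h
  have h1 : v.ord f ≤ v.ord (f + g) := ffp_le_ord_add v le_rfl h.le hfg
  by_contra hne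
  have h2 : v.ord f + 1 ≤ v.ord (f + g) := by omega
  have h3 : v.ord f + 1 ≤ v.ord (-g) := by rw [ffp_ord_neg]; omega
  have h4 : (f + g) + (-g) ≠ 0 := by simpa using hf
  have h5 := ffp_le_ord_add v h2 h3 h4
  rw [add_neg_cancel_right] at h5
  omega

theorem ffp_ord_multiset_prod_eq_zero (s : Multiset F)
    (h : ∀ y ∈ s, y ≠ 0 ∧ v.ord y = 0) : s.prod ≠ 0 ∧ v.ord s.prod = 0 := by
  induction s using Multiset.induction with
  | empty => simp
  | cons a s ih =>
    have ha := h a (Multiset.mem_cons_self a s)
    have hs := ih fun y hy => h y (Multiset.mem_cons_of_mem hy)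
    rw [Multiset.prod_cons]
    refine ⟨mul_ne_zero ha.1 hs.1, ?_⟩
    rw [v.ord_mul ha.1 hs.1, ha.2, hs.2, add_zero]

end OrdAdd

section Residue

variable [IsAlgClosed K] (v : Place K F)

/-- Over an algebraically closed field, algebraic elements are constants. -/
theorem ffp_eq_algebraMap_of_isAlgebraic {y : F} (hy : IsAlgebraic K y) :
    ∃ c : K, y = algebraMap K F c := by
  have hint : IsIntegral K y := hy.isIntegral
  have hdeg : (minpoly K y).degree = 1 :=
    IsAlgClosed.degree_eq_one_of_irreducible K (minpoly.irreducible hint)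
  obtain ⟨c, hc⟩ := minpoly.degree_eq_one_iff.mp hdeg
  exact ⟨c, hc.symm⟩

/-- **The residue field of a place is the constant field.** -/
theorem ffp_exists_sub_mem_maximalIdeal (x : F) (halg : Algebra.IsAlgebraic K⟮x⟯ F)
    (a : v.toValuationSubring) :
    ∃ c : K, a - algebraMap K v.toValuationSubring c ∈ maximalIdeal v.toValuationSubring := by
  by_contra hcon
  push Not at hcon
  -- Step 1: all `a - c` are units
  have h1 : ∀ c : K, (a : F) - algebraMap K F c ≠ 0 ∧ v.ord ((a : F) - algebraMap K F c) = 0 := by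
    intro c
    have hu : IsUnit (a - algebraMap K v.toValuationSubring c) := by
      have := hcon c
      rwa [mem_maximalIdeal, mem_nonunits_iff, not_not] at this
    have h0 := ffp_ord_eq_zero_of_isUnit v hu
    have hne : a - algebraMap K v.toValuationSubring c ≠ 0 := hu.ne_zero
    have hcoe : ((a - algebraMap K v.toValuationSubring c : v.toValuationSubring) : F) =
        (a : F) - algebraMap K F c := by
      push_cast
      rw [v.coe_algebraMap]
    rw [hcoe] at h0
    refine ⟨?_, h0⟩
    rw [← hcoe]
    intro hz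
    exact hne (Subtype.ext hz)
  -- Step 2: `a` is transcendental
  have htr : Transcendental K (a : F) := by
    intro halg'
    obtain ⟨c, hc⟩ := ffp_eq_algebraMap_of_isAlgebraic halg'
    exact (h1 c).1 (by rw [hc, sub_self])
  -- Step 3: nonzero polynomials in `a` have order zero
  have h3 : ∀ q : K[X], q ≠ 0 → aeval (a : F) q ≠ 0 ∧ v.ord (aeval (a : F) q) = 0 := by
    intro q hq
    have hsplit := (IsAlgClosed.splits q).eq_prod_roots
    have hlead : q.leadingCoeff ≠ 0 := leadingCoeff_ne_zero.mpr hq
    have hprod := ffp_ord_multiset_prod_eq_zero v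
      (q.roots.map fun c => (a : F) - algebraMap K F c) (by
        intro y hy
        obtain ⟨c, -, rfl⟩ := Multiset.mem_map.mp hy
        exact h1 c)
    have hev : aeval (a : F) q = algebraMap K F q.leadingCoeff *
        (q.roots.map fun c => (a : F) - algebraMap K F c).prod := by
      conv_lhs => rw [hsplit]
      rw [map_mul, aeval_C, map_multiset_prod, Multiset.map_map]
      congr 2
      refine Multiset.map_congr rfl fun c _ => ?_
      simp
    have hl0 : algebraMap K F q.leadingCoeff ≠ 0 := by
      rw [ne_eq, map_eq_zero_iff _ (algebraMap K F).injective]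
      exact hlead
    rw [hev]
    refine ⟨mul_ne_zero hl0 hprod.1, ?_⟩
    rw [v.ord_mul hl0 hprod.1, ffp_ord_algebraMap, hprod.2, add_zero]
  -- Step 4: `K⟮a⟯ ⊆ O_v`
  have h4 : ∀ y : K⟮(a : F)⟯, (y : F) ∈ v.toValuationSubring := by
    rintro ⟨y, hy⟩
    obtain ⟨r, s, rfl⟩ := (IntermediateField.mem_adjoin_simple_iff K y).mp hy
    show aeval (a : F) r / aeval (a : F) s ∈ v.toValuationSubring
    rcases eq_or_ne r 0 with rfl | hr
    · simp
    rcases eq_or_ne s 0 with rfl | hs
    · simp
    apply ffp_mem_of_ord_nonneg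
    rw [div_eq_mul_inv, v.ord_mul (h3 r hr).1 (inv_ne_zero (h3 s hs).1), v.ord_inv,
      (h3 r hr).2, (h3 s hs).2]
    simp
  -- Step 5: the inverse of a uniformizer is integral over `K⟮a⟯`, hence lies in `O_v`
  have halg' : Algebra.IsAlgebraic K⟮(a : F)⟯ F :=
    ffx_isAlgebraic_of_transcendental x (a : F) halg htr
  obtain ⟨π, hπ⟩ := ffp_exists_irreducible v
  let ι : K⟮(a : F)⟯ →+* v.toValuationSubring :=
    (algebraMap K⟮(a : F)⟯ F).codRestrict v.toValuationSubring.toSubring h4
  letI : Algebra K⟮(a : F)⟯ v.toValuationSubring := ι.toAlgebra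
  haveI : IsScalarTower K⟮(a : F)⟯ v.toValuationSubring F :=
    IsScalarTower.of_algebraMap_eq fun _ => rfl
  have hint : IsIntegral K⟮(a : F)⟯ ((π : F)⁻¹) := (halg'.isAlgebraic _).isIntegral
  have hint' : IsIntegral v.toValuationSubring ((π : F)⁻¹) := hint.tower_top
  obtain ⟨y, hy⟩ :=
    (IsIntegrallyClosed.isIntegral_iff (R := v.toValuationSubring) (K := F)).mp hint'
  have hmem : (π : F)⁻¹ ∈ v.toValuationSubring := by rw [← hy]; exact y.2
  have := ffp_ord_nonneg_of_mem v hmem
  rw [v.ord_inv, v.ord_coe_irreducible hπ] at this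
  omega

/-- Version with elements of `F`. -/
theorem ffp_exists_ord_sub_pos (x : F) (halg : Algebra.IsAlgebraic K⟮x⟯ F) {f : F}
    (hf : f ∈ v.toValuationSubring) :
    ∃ c : K, f = algebraMap K F c ∨ 0 < v.ord (f - algebraMap K F c) := by
  obtain ⟨c, hc⟩ := ffp_exists_sub_mem_maximalIdeal v x halg ⟨f, hf⟩
  refine ⟨c, ?_⟩
  by_cases h0 : f = algebraMap K F c
  · exact Or.inl h0
  right
  have hne : (⟨f, hf⟩ : v.toValuationSubring) - algebraMap K v.toValuationSubring c ≠ 0 := by
    intro h
    apply h0
    have := congrArg (fun z : v.toValuationSubring => (z : F)) h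
    simp only [ZeroMemClass.coe_zero] at this
    push_cast at this
    rw [v.coe_algebraMap] at this
    exact sub_eq_zero.mp this
  have := (ffp_mem_maximalIdeal_iff v _ hne).mp hc
  push_cast at this
  rwa [v.coe_algebraMap] at this

end Residue

end Fermat.Agent.X0.FF
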