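import Mathlib
import Fermat.Prelude.Def_AlgebraicCurve_CanonicalDivisor

/-!
# C-F1: shared definitions for the abstract function-field package

Setting: `K` algebraically closed of characteristic zero, `F` a field over `K`,
`x : F` transcendental over `K` with `F` finite over `K⟮x⟯`.
-/

set_option autoImplicit false

open AlgebraicCurve IntermediateField

namespace Fermat.Agent.X0.FF

variable {K F : Type*} [Field K] [Field F] [Algebra K F]

/-- `x` is a transcendental generator: `x` is transcendental over `K` and `F` is finite
over `K⟮x⟯`. -/
structure IsGen (K : Type*) {F : Type*} [Field K] [Field F] [Algebra K F] (x : F) : Prop where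
  transcendental : Transcendental K x
  finite : FiniteDimensional K⟮x⟯ F

theorem IsGen.mk' {x : F} (hx : Transcendental K x) [h : FiniteDimensional K⟮x⟯ F] :
    IsGen K x := ⟨hx, h⟩

theorem IsGen.finiteDimensional {x : F} (hx : IsGen K x) : FiniteDimensional K⟮x⟯ F := hx.finite

theorem IsGen.ne_zero {x : F} (hx : IsGen K x) : x ≠ 0 := by
  rintro rfl
  exact hx.transcendental (isAlgebraic_zero)

theorem IsGen.sub_algebraMap_ne_zero {x : F} (hx : IsGen K x) (c : K) :
    x - algebraMap K F c ≠ 0 := by
  intro h
  apply hx.transcendental
  rw [sub_eq_zero] at h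
  rw [h]
  exact isAlgebraic_algebraMap c

end Fermat.Agent.X0.FF
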