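/-
PROGRAM C / C-F1 (FF2, helper17): principal divisors of a function field in one variable.

Everything is stated against the FF1 interface (places vs. zeros/poles of a generator) as
explicit hypotheses, bundled in the structure `FF1Data`; when FF1 lands, one instance of
`FF1Data` closes all the hypotheses.
-/
import Mathlib
import Fermat.Prelude.Def_AlgebraicCurve_CanonicalDivisor
import Fermat.Agent.X0.FFDefs

set_option autoImplicit false

open AlgebraicCurve IntermediateField

namespace Fermat.Agent.X0.FF

variable {K F : Type*} [Field K] [Field F] [Algebra K F]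

/-- The FF1 interface consumed by FF2 (exact shapes of helper6's `FFIface`). -/
structure FF1Data (K F : Type*) [Field K] [Field F] [Algebra K F] : Prop where
  isGen_of_transcendental : ∀ y : F, Transcendental K y → IsGen K y
  eq_algebraMap_of_isAlgebraic : ∀ y : F, IsAlgebraic K y → ∃ c : K, y = algebraMap K F c
  deg_eq_one : ∀ v : Place K F, v.deg = 1
  finite_zeros : ∀ y : F, IsGen K y → {v : Place K F | 0 < v.ord y}.Finite
  sum_ord_zeros : ∀ y : F, IsGen K y →
    ∑ᶠ (v : Place K F) (_ : 0 < v.ord y), v.ord y = (Module.finrank K⟮y⟯ F : ℤ)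
  finite_poles : ∀ y : F, IsGen K y → {v : Place K F | v.ord y < 0}.Finite
  sum_ord_poles : ∀ y : F, IsGen K y →
    ∑ᶠ (v : Place K F) (_ : v.ord y < 0), -v.ord y = (Module.finrank K⟮y⟯ F : ℤ)

/-- A nonzero constant has order zero at every place. -/
theorem ffq_ord_algebraMap (v : Place K F) {c : K} (hc : c ≠ 0) :
    v.ord (algebraMap K F c) = 0 := by
  have hu : IsUnit (algebraMap K v.toValuationSubring c) := (IsUnit.mk0 c hc).map _
  have := v.ord_coe_unit hu.unit
  simpa using this

/-- The support of `v ↦ v.ord f` is the union of the zeros and the poles. -/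
theorem ffq_support_eq (f : F) :
    {v : Place K F | v.ord f ≠ 0} = {v | 0 < v.ord f} ∪ {v | v.ord f < 0} := by
  ext v
  simp only [Set.mem_ofPred_eq, Set.mem_union]
  constructor
  · intro h
    rcases lt_or_gt_of_ne h with h | h
    · exact Or.inr h
    · exact Or.inl h
  · rintro (h | h)
    · exact ne_of_gt h
    · exact ne_of_lt h

theorem ffq_finite_support_ord (H : FF1Data K F) {f : F} (hf : f ≠ 0) :
    {v : Place K F | v.ord f ≠ 0}.Finite := by
  by_cases ha : IsAlgebraic K f
  · obtain ⟨c, rfl⟩ := H.eq_algebraMap_of_isAlgebraic f ha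
    have hc : c ≠ 0 := by
      rintro rfl
      exact hf (map_zero _)
    have : {v : Place K F | v.ord (algebraMap K F c) ≠ 0} = ∅ := by
      ext v
      simp [ffq_ord_algebraMap v hc]
    rw [this]
    exact Set.finite_empty
  · have hg := H.isGen_of_transcendental f ha
    rw [ffq_support_eq]
    exact (H.finite_zeros f hg).union (H.finite_poles f hg)

/-- The degree of a divisor when all places have degree one. -/
theorem ffq_degree_eq_sum (H : FF1Data K F) (D : Divisor K F) :
    Divisor.degree D = ∑ v ∈ D.support, D v := by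
  rw [Divisor.degree, Finsupp.liftAddHom_apply, Finsupp.sum]
  refine Finset.sum_congr rfl fun v _ => ?_
  simp [H.deg_eq_one v]

theorem ffq_degree_eq_zero_of_principal (H : FF1Data K F) {f : F} (hf : f ≠ 0)
    (D : Divisor K F) (hD : ∀ v, D v = v.ord f) : Divisor.degree D = 0 := by
  classical
  rw [ffq_degree_eq_sum H]
  by_cases ha : IsAlgebraic K f
  · obtain ⟨c, rfl⟩ := H.eq_algebraMap_of_isAlgebraic f ha
    have hc : c ≠ 0 := by
      rintro rfl
      exact hf (map_zero _)
    refine Finset.sum_eq_zero fun v _ => ?_
    rw [hD v, ffq_ord_algebraMap v hc]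
  · have hg := H.isGen_of_transcendental f ha
    have hz := H.sum_ord_zeros f hg
    have hp := H.sum_ord_poles f hg
    have hzf := H.finite_zeros f hg
    have hpf := H.finite_poles f hg
    -- rewrite the two finsums as finite sums over `D.support`
    have hz' : ∑ᶠ (v : Place K F) (_ : 0 < v.ord f), v.ord f
        = ∑ v ∈ D.support, (if 0 < v.ord f then v.ord f else 0) := by
      show ∑ᶠ (v : Place K F) (_ : v ∈ {v : Place K F | 0 < v.ord f}), v.ord f = _
      rw [finsum_mem_eq_finite_toFinset_sum _ hzf, Finset.sum_ite, Finset.sum_const_zero,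
        add_zero]
      refine Finset.sum_congr ?_ fun _ _ => rfl
      ext v
      simp only [Set.Finite.mem_toFinset, Set.mem_ofPred_eq, Finset.mem_filter,
        Finsupp.mem_support_iff, hD v]
      exact ⟨fun h => ⟨ne_of_gt h, h⟩, fun h => h.2⟩
    have hp' : ∑ᶠ (v : Place K F) (_ : v.ord f < 0), -v.ord f
        = ∑ v ∈ D.support, (if v.ord f < 0 then -v.ord f else 0) := by
      show ∑ᶠ (v : Place K F) (_ : v ∈ {v : Place K F | v.ord f < 0}), -v.ord f = _
      rw [finsum_mem_eq_finite_toFinset_sum _ hpf, Finset.sum_ite, Finset.sum_const_zero,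
        add_zero]
      refine Finset.sum_congr ?_ fun _ _ => rfl
      ext v
      simp only [Set.Finite.mem_toFinset, Set.mem_ofPred_eq, Finset.mem_filter,
        Finsupp.mem_support_iff, hD v]
      exact ⟨fun h => ⟨ne_of_lt h, h⟩, fun h => h.2⟩
    have hsplit : ∑ v ∈ D.support, D v
        = ∑ v ∈ D.support, (if 0 < v.ord f then v.ord f else 0)
          - ∑ v ∈ D.support, (if v.ord f < 0 then -v.ord f else 0) := by
      rw [← Finset.sum_sub_distrib]
      refine Finset.sum_congr rfl fun v _ => ?_
      rw [hD v]
      split_ifs <;> omega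
    rw [hsplit, ← hz', ← hp', hz, hp, sub_self]

theorem ffq_hasPrincipalDivisors (H : FF1Data K F) : HasPrincipalDivisors K F := by
  refine ⟨fun f hf => ?_⟩
  let D : Divisor K F := Finsupp.ofSupportFinite (fun v => v.ord f) (by
    have := ffq_finite_support_ord H hf
    exact this.subset fun v hv => by simpa [Function.mem_support] using hv)
  have hD : ∀ v, D v = v.ord f := fun v => rfl
  exact ⟨D, hD, ffq_degree_eq_zero_of_principal H hf D hD⟩

end Fermat.Agent.X0.FF
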