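/-
PROGRAM C / C-F1 (FF3a, helper18): Kähler differentials of a function field in one variable.
`Ω[F⁄K]` is free of rank one over `F`, generated by `D x`, for `x` transcendental over `K`
with `F` algebraic over `K⟮x⟯` (characteristic zero).
-/
import Mathlib

set_option autoImplicit false
set_option linter.style.haveILetI false
set_option linter.unusedSectionVars false

namespace Fermat.Agent.X0.FF

open KaehlerDifferential Polynomial IntermediateField TensorProduct

variable {K F : Type*} [Field K] [Field F] [Algebra K F] [CharZero K]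

section Setup

variable (x : F) (hx : Transcendental K x)

/-- `F` as an algebra over `K[X]` via `X ↦ x`. -/
@[reducible] noncomputable def ffd_polyAlgebra : Algebra K[X] F := (aeval x).toRingHom.toAlgebra

theorem ffd_algebraMap_apply (p : K[X]) :
    letI := ffd_polyAlgebra (K := K) x
    algebraMap K[X] F p = aeval x p := rfl

theorem ffd_isScalarTower :
    letI := ffd_polyAlgebra (K := K) x
    IsScalarTower K K[X] F := by
  letI := ffd_polyAlgebra (K := K) x
  refine IsScalarTower.of_algebraMap_eq fun a => ?_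
  rw [ffd_algebraMap_apply, Polynomial.algebraMap_apply, aeval_C]
  simp

include hx in
theorem ffd_faithfulSMul :
    letI := ffd_polyAlgebra (K := K) x
    FaithfulSMul K[X] F := by
  letI := ffd_polyAlgebra (K := K) x
  rw [faithfulSMul_iff_algebraMap_injective]
  exact transcendental_iff_injective.mp hx

end Setup

section Etale

variable (x : F) (hx : Transcendental K x) (halg : Algebra.IsAlgebraic K⟮x⟯ F)

include hx halg in
/-- `F` is formally étale over `K[X]` (via `X ↦ x`). -/
theorem ffd_formallyEtale :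
    letI := ffd_polyAlgebra (K := K) x
    Algebra.FormallyEtale K[X] F := by
  letI := ffd_polyAlgebra (K := K) x
  haveI := ffd_isScalarTower (K := K) x
  haveI := ffd_faithfulSMul x hx
  letI : Algebra (RatFunc K) F := RatFunc.liftAlgebra K F
  haveI : IsScalarTower K[X] (RatFunc K) F := RatFunc.isScalarTower_liftAlgebra K F
  -- `F` is algebraic over `RatFunc K`
  have halg' : Algebra.IsAlgebraic (RatFunc K) F := by
    refine ⟨fun f => ?_⟩
    -- `f` is algebraic over `K⟮x⟯`, hence over `K[x]`, hence over `K[X]`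
    have h1 : IsAlgebraic K⟮x⟯ f := halg.isAlgebraic f
    have h2 : IsAlgebraic (Algebra.adjoin K {x}) f := by
      open IntermediateField.algebraAdjoinAdjoin in
      exact (IsFractionRing.isAlgebraic_iff (Algebra.adjoin K {x}) K⟮x⟯ F).mpr h1
    have h3 : IsAlgebraic K[X] f := by
      let e := Polynomial.algEquivOfTranscendental K x hx
      refine IsAlgebraic.of_ringHom_of_comp_eq (R := K[X]) (S := Algebra.adjoin K {x}) (A := F)
        (B := F) (e : K[X] →+* Algebra.adjoin K {x}) (RingHom.id F) (a := f) h2 e.surjective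
        Function.injective_id ?_
      refine RingHom.ext fun p => ?_
      show ((e p : Algebra.adjoin K {x}) : F) = aeval x p
      rw [Polynomial.algEquivOfTranscendental_apply, ← Subalgebra.coe_val, ← AlgHom.coe_toRingHom]
      simp
    exact h3.extendScalars (FaithfulSMul.algebraMap_injective K[X] (RatFunc K))
  haveI : Algebra.IsSeparable (RatFunc K) F := Algebra.IsAlgebraic.isSeparable_of_perfectField
  haveI : Algebra.FormallyEtale (RatFunc K) F := Algebra.FormallyEtale.of_isSeparable _ _
  haveI : Algebra.FormallyEtale K[X] (RatFunc K) :=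
    Algebra.FormallyEtale.of_isLocalization (nonZeroDivisors K[X])
  exact Algebra.FormallyEtale.comp K[X] (RatFunc K) F

end Etale

section Main

variable (x : F) (hx : Transcendental K x) (halg : Algebra.IsAlgebraic K⟮x⟯ F)

include hx halg in
/-- The comparison isomorphism `F ⊗[K[X]] Ω[K[X]⁄K] ≃ Ω[F⁄K]`. -/
theorem ffd_exists_equiv :
    ∃ e : F ≃ₗ[F] Ω[F⁄K], e 1 = D K F x := by
  letI := ffd_polyAlgebra (K := K) x
  haveI := ffd_isScalarTower (K := K) x
  haveI := ffd_formallyEtale x hx halg
  let e1 : F ⊗[K[X]] Ω[K[X]⁄K] ≃ₗ[F] Ω[F⁄K] := tensorKaehlerEquivOfFormallyEtale K K[X] F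
  let e2 : F ⊗[K[X]] Ω[K[X]⁄K] ≃ₗ[F] F ⊗[K[X]] K[X] :=
    TensorProduct.AlgebraTensorModule.congr (LinearEquiv.refl F F)
      (KaehlerDifferential.polynomialEquiv K)
  let e3 : F ⊗[K[X]] K[X] ≃ₗ[F] F := TensorProduct.AlgebraTensorModule.rid K[X] F F
  refine ⟨(e3.symm.trans e2.symm).trans e1, ?_⟩
  have h1 : e3.symm 1 = (1 : F) ⊗ₜ[K[X]] (1 : K[X]) := by
    rw [LinearEquiv.symm_apply_eq]
    simp [e3]
  have h2 : e2.symm ((1 : F) ⊗ₜ[K[X]] (1 : K[X])) = (1 : F) ⊗ₜ[K[X]] D K K[X] X := by
    rw [LinearEquiv.symm_apply_eq]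
    simp [e2, KaehlerDifferential.polynomialEquiv_D]
  have h3 : e1 ((1 : F) ⊗ₜ[K[X]] D K K[X] X) = D K F x := by
    simp only [e1, tensorKaehlerEquivOfFormallyEtale_apply, mapBaseChange_tmul, one_smul, map_D]
    congr 1
    rw [ffd_algebraMap_apply, aeval_X]
  simp only [LinearEquiv.trans_apply]
  rw [h1, h2, h3]

include hx halg in
/-- `D x` is nonzero. -/
theorem ffd_D_ne_zero : D K F x ≠ 0 := by
  obtain ⟨e, he⟩ := ffd_exists_equiv x hx halg
  rw [← he]
  exact (LinearEquiv.map_ne_zero_iff e).mpr one_ne_zero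

include hx halg in
/-- `D x` spans the Kähler differentials. -/
theorem ffd_span_D : Submodule.span F {D K F x} = ⊤ := by
  obtain ⟨e, he⟩ := ffd_exists_equiv x hx halg
  rw [eq_top_iff]
  intro ω _
  rw [Submodule.mem_span_singleton]
  refine ⟨e.symm ω, ?_⟩
  rw [← he, ← map_smul, smul_eq_mul, mul_one, LinearEquiv.apply_symm_apply]

include hx halg in
/-- Every differential is a multiple of `D x`. -/
theorem ffd_exists_smul_D (ω : Ω[F⁄K]) : ∃ f : F, ω = f • D K F x := by
  have h : ω ∈ Submodule.span F {D K F x} := by rw [ffd_span_D x hx halg]; trivial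
  obtain ⟨f, hf⟩ := Submodule.mem_span_singleton.mp h
  exact ⟨f, hf.symm⟩

include hx halg in
theorem ffd_finrank : Module.finrank F Ω[F⁄K] = 1 := by
  obtain ⟨e, -⟩ := ffd_exists_equiv x hx halg
  rw [← e.finrank_eq, Module.finrank_self]

include hx halg in
theorem ffd_kaehler_free_rank_one :
    Module.Free F Ω[F⁄K] ∧ Module.finrank F Ω[F⁄K] = 1 :=
  ⟨Module.Free.of_divisionRing F _, ffd_finrank x hx halg⟩

end Main

end Fermat.Agent.X0.FF
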