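/-
PROGRAM C / C-F1 (helper18): compatibility shim.  The residue-field lemmas `ffp_*` live in
`X0/FFResidue.lean`; this module only re-exports it (short-lived file-name collision).
-/
import Fermat.Agent.X0.FFResidue
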