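/-
PROGRAM C / C-F1 (FF3, helper18): differentials of a function field in one variable, in the
Prelude API (`AlgebraicCurve.Place`, `dCoord`, `DCoordGenerates`, `ordDifferential`).
Final exports (shapes of helper6's FFIface): `span_D_eq_top`, `D_ne_zero`, `nontrivial_kaehler`,
`dCoordGenerates`, `ordDifferential_D_of_ord_ne_zero`, `ordDifferential_smul'`.
-/
import Mathlib
import Fermat.Prelude.Def_AlgebraicCurve_CanonicalDivisor
import Fermat.Agent.X0.FFDefs
import Fermat.Agent.X0.FFDiff1
import Fermat.Agent.X0.FFDeriv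
import Fermat.Agent.X0.FFResK

set_option autoImplicit false
set_option linter.style.haveILetI false
set_option linter.unusedSectionVars false

namespace Fermat.Agent.X0.FF

open AlgebraicCurve IsLocalRing IntermediateField Polynomial KaehlerDifferential

variable {K F : Type*} [Field K] [Field F] [Algebra K F]

section Uniformizer

variable (v : Place K F)

/-- The uniformizer used by the Prelude in `Place.dCoord`. -/
noncomputable def ffu : v.toValuationSubring :=
  (IsDiscreteValuationRing.exists_irreducible v.toValuationSubring).choose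

theorem ffu_irreducible : Irreducible (ffu v) :=
  (IsDiscreteValuationRing.exists_irreducible v.toValuationSubring).choose_spec

theorem ffu_dCoord : v.dCoord = D K F ((ffu v : v.toValuationSubring) : F) := rfl

theorem ffu_ord : v.ord ((ffu v : v.toValuationSubring) : F) = 1 :=
  v.ord_coe_irreducible (ffu_irreducible v)

theorem ffu_ne_zero : ((ffu v : v.toValuationSubring) : F) ≠ 0 := by
  intro h
  have := ffu_ord v
  rw [h, v.ord_zero] at this
  exact zero_ne_one this

theorem ffu_transcendental : Transcendental K ((ffu v : v.toValuationSubring) : F) :=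
  ffp_transcendental_of_ord_ne_zero v (by rw [ffu_ord]; exact one_ne_zero)

end Uniformizer

variable [CharZero K] {x : F}

theorem ffg_isAlgebraic (hx : IsGen K x) : Algebra.IsAlgebraic K⟮x⟯ F :=
  haveI := hx.finite
  Algebra.IsAlgebraic.of_finite _ _

/-- `Ω[F⁄K]` is spanned by `D x`. -/
theorem span_D_eq_top (hx : IsGen K x) : Submodule.span F {D K F x} = ⊤ :=
  ffd_span_D x hx.transcendental (ffg_isAlgebraic hx)

theorem D_ne_zero (hx : IsGen K x) : D K F x ≠ 0 :=
  ffd_D_ne_zero x hx.transcendental (ffg_isAlgebraic hx)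

theorem nontrivial_kaehler (hx : IsGen K x) : Nontrivial Ω[F⁄K] :=
  ⟨⟨D K F x, 0, D_ne_zero hx⟩⟩

theorem ffg_isAlgebraic_ffu (hx : IsGen K x) (v : Place K F) :
    Algebra.IsAlgebraic K⟮((ffu v : v.toValuationSubring) : F)⟯ F :=
  ffx_isAlgebraic_of_transcendental x _ (ffg_isAlgebraic hx) (ffu_transcendental v)

/-- Every place has a generating coordinate differential. -/
theorem dCoordGenerates (hx : IsGen K x) (v : Place K F) : v.DCoordGenerates :=
  ⟨by
    rw [ffu_dCoord]
    exact ffd_span_D _ (ffu_transcendental v) (ffg_isAlgebraic_ffu hx v)⟩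

theorem ffg_differentialCoeff_ne_zero (hx : IsGen K x) (v : Place K F) {ω : Ω[F⁄K]}
    (hω : ω ≠ 0) : v.differentialCoeff ω ≠ 0 := by
  haveI := dCoordGenerates hx v
  intro h
  apply hω
  rw [← v.differentialCoeff_smul_dCoord ω, h, zero_smul]

/-- `ord_v (g ω) = ord_v g + ord_v ω`. -/
theorem ordDifferential_smul' (hx : IsGen K x) (v : Place K F) {g : F} (hg : g ≠ 0)
    {ω : Ω[F⁄K]} (hω : ω ≠ 0) :
    v.ordDifferential (g • ω) = v.ord g + v.ordDifferential ω := by
  haveI := dCoordGenerates hx v
  haveI := nontrivial_kaehler hx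
  exact v.ordDifferential_smul hg (ffg_differentialCoeff_ne_zero hx v hω)

section Hurwitz

variable [IsAlgClosed K]

/-- **Derivative lemma** in the Prelude API: the coefficient of `D a` with respect to the
coordinate differential is regular at `v` if `a` is. -/
theorem differentialCoeff_D_mem (hx : IsGen K x) (v : Place K F) {a : F}
    (ha : a ∈ v.toValuationSubring) :
    v.differentialCoeff (D K F a) ∈ v.toValuationSubring := by
  haveI := dCoordGenerates hx v
  have h := (v.differentialCoeff_smul_dCoord (D K F a)).symm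
  rw [ffu_dCoord] at h
  obtain ⟨b, hb⟩ := ffv_deriv_mem (K := K) (O := v.toValuationSubring) (F := F)
    (ffu_irreducible v)
    (fun a => ffp_exists_sub_mem_maximalIdeal v x (ffg_isAlgebraic hx) a)
    ⟨a, ha⟩ (v.differentialCoeff (D K F a)) h
  rw [← hb]
  exact b.2

theorem ord_differentialCoeff_D_nonneg (hx : IsGen K x) (v : Place K F) {a : F}
    (ha : 0 ≤ v.ord a) : 0 ≤ v.ord (v.differentialCoeff (D K F a)) :=
  ffp_ord_nonneg_of_mem v (differentialCoeff_D_mem hx v (ffp_mem_of_ord_nonneg v ha))

/-- **Local Riemann–Hurwitz** (tame case): if `ord_v y = e ≠ 0` then `ord_v (dy) = e - 1`. -/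
theorem ordDifferential_D_of_ord_ne_zero (hx : IsGen K x) (v : Place K F) {y : F}
    (hy : v.ord y ≠ 0) : v.ordDifferential (D K F y) = v.ord y - 1 := by
  haveI := dCoordGenerates hx v
  haveI := nontrivial_kaehler hx
  have hy0 : y ≠ 0 := by rintro rfl; simp at hy
  set e : ℤ := v.ord y with he
  set t : F := ((ffu v : v.toValuationSubring) : F) with ht
  have ht0 : t ≠ 0 := ffu_ne_zero v
  have htord : v.ord t = 1 := ffu_ord v
  obtain ⟨u, hu⟩ := v.exists_unit_mul_zpow hy0 (ffu_irreducible v)
  rw [← he, ← ht] at hu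
  set uF : F := ((u : v.toValuationSubring) : F) with huF
  have hu0 : uF ≠ 0 := by
    rw [huF]
    simp [ne_eq, ZeroMemClass.coe_eq_zero]
  have huord : v.ord uF = 0 := v.ord_coe_unit u
  set δ : F := v.differentialCoeff (D K F uF) with hδ
  have hδmem : δ ∈ v.toValuationSubring :=
    differentialCoeff_D_mem hx v (u : v.toValuationSubring).2
  have hDu : D K F uF = δ • D K F t := by
    have := (v.differentialCoeff_smul_dCoord (D K F uF)).symm
    rwa [ffu_dCoord] at this
  -- compute `D y`
  have hDy : D K F y = (uF * ((e : F) * t ^ (e - 1)) + t ^ e * δ) • D K F t := by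
    rw [hu, Derivation.leibniz, Derivation.leibniz_zpow, hDu]
    rw [add_smul, mul_smul, mul_smul, mul_smul]
    congr 2
    rw [← Int.cast_smul_eq_zsmul F e]
  have hcoeff : v.differentialCoeff (D K F y) = uF * ((e : F) * t ^ (e - 1)) + t ^ e * δ := by
    apply v.differentialCoeff_unique
    rw [ffu_dCoord]
    exact hDy
  rw [Place.ordDifferential, hcoeff]
  -- orders of the two terms
  have heF : (e : F) ≠ 0 := by
    have : (e : F) = algebraMap K F (e : K) := by simp
    rw [this, ne_eq, map_eq_zero_iff _ (algebraMap K F).injective]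
    exact_mod_cast hy
  have heord : v.ord (e : F) = 0 := by
    have : (e : F) = algebraMap K F (e : K) := by simp
    rw [this, ffp_ord_algebraMap]
  have htpow : ∀ n : ℤ, t ^ n ≠ 0 := fun n => zpow_ne_zero n ht0
  have h1ne : uF * ((e : F) * t ^ (e - 1)) ≠ 0 := mul_ne_zero hu0 (mul_ne_zero heF (htpow _))
  have h1ord : v.ord (uF * ((e : F) * t ^ (e - 1))) = e - 1 := by
    rw [v.ord_mul hu0 (mul_ne_zero heF (htpow _)), v.ord_mul heF (htpow _), v.ord_zpow,
      huord, heord, htord]
    ring
  rcases eq_or_ne δ 0 with hδ0 | hδ0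
  · rw [hδ0, mul_zero, add_zero, h1ord]
  · have h2ord : v.ord (t ^ e * δ) = e + v.ord δ := by
      rw [v.ord_mul (htpow _) hδ0, v.ord_zpow, htord, mul_one]
    have hδord : 0 ≤ v.ord δ := ffp_ord_nonneg_of_mem v hδmem
    rw [ffp_ord_add_eq_of_lt v h1ne (by rw [h1ord, h2ord]; omega), h1ord]

end Hurwitz

end Fermat.Agent.X0.FF
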