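/-
PROGRAM C / C-F1 (FF4, helper21): Riemann–Hurwitz for a function field in one variable, in the
Prelude API: the degree of the divisor of a nonzero differential and the genus, in terms of the
fibres of a generator `x`.

Everything is stated against the FF1/FF2/FF3 interface as explicit hypotheses, bundled in the
structure `GenusHyp`; the wrapper `FFGenus.lean` instantiates it.
-/
import Mathlib
import Fermat.Prelude.Def_AlgebraicCurve_CanonicalDivisor
import Fermat.Agent.X0.FFDefs
import Fermat.Agent.X0.FFOrdLemmas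

set_option autoImplicit false

open AlgebraicCurve IntermediateField KaehlerDifferential

namespace Fermat.Agent.X0.FF

variable {K F : Type*} [Field K] [Field F] [Algebra K F]

/-- The FF1/FF2/FF3 interface consumed by FF4 (exact shapes of helper6's `FFIface`). -/
structure GenusHyp (K : Type*) {F : Type*} [Field K] [Field F] [Algebra K F] (x : F) : Prop where
  transcendental : Transcendental K x
  deg_eq_one : ∀ v : Place K F, v.deg = 1
  exists_ord_sub_pos : ∀ (v : Place K F) (f : F), f ∈ v.toValuationSubring →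
    ∃ c : K, f = algebraMap K F c ∨ 0 < v.ord (f - algebraMap K F c)
  finite_fibre : ∀ c : K, {v : Place K F | 0 < v.ord (x - algebraMap K F c)}.Finite
  sum_ord_fibre : ∀ c : K,
    ∑ᶠ (v : Place K F) (_ : 0 < v.ord (x - algebraMap K F c)), v.ord (x - algebraMap K F c)
      = (Module.finrank K⟮x⟯ F : ℤ)
  finite_poles : {v : Place K F | v.ord x < 0}.Finite
  sum_ord_poles :
    ∑ᶠ (v : Place K F) (_ : v.ord x < 0), -v.ord x = (Module.finrank K⟮x⟯ F : ℤ)
  finite_support_ord : ∀ f : F, f ≠ 0 → {v : Place K F | v.ord f ≠ 0}.Finite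
  degree_eq_zero_of_principal : ∀ f : F, f ≠ 0 → ∀ D : Divisor K F,
    (∀ v, D v = v.ord f) → Divisor.degree D = 0
  span_D_eq_top : Submodule.span F {D K F x} = ⊤
  D_ne_zero : D K F x ≠ 0
  ordDifferential_D_of_ord_ne_zero : ∀ (v : Place K F) (y : F), v.ord y ≠ 0 →
    v.ordDifferential (D K F y) = v.ord y - 1
  ordDifferential_smul' : ∀ (v : Place K F) (g : F), g ≠ 0 → ∀ ω : Ω[F⁄K], ω ≠ 0 →
    v.ordDifferential (g • ω) = v.ord g + v.ordDifferential ω

namespace GenusHyp

variable {x : F} (H : GenusHyp K x)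

include H

theorem sub_ne_zero' (c : K) : x - algebraMap K F c ≠ 0 := by
  intro h
  apply H.transcendental
  rw [sub_eq_zero] at h
  rw [h]
  exact isAlgebraic_algebraMap c

/-- Every place is a pole of `x` or lies over a unique finite value `c`. -/
theorem pole_or_zero (v : Place K F) :
    v.ord x < 0 ∨ ∃ c : K, 0 < v.ord (x - algebraMap K F c) := by
  by_cases h : v.ord x < 0
  · exact Or.inl h
  · right
    obtain ⟨c, hc | hc⟩ := H.exists_ord_sub_pos v x (ffp_mem_of_ord_nonneg v (not_lt.mp h))
    · exact absurd (sub_eq_zero.mpr hc) (H.sub_ne_zero' c)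
    · exact ⟨c, hc⟩

omit H in
theorem not_pole_of_zero {v : Place K F} {c : K} (h : 0 < v.ord (x - algebraMap K F c)) :
    ¬ v.ord x < 0 := by
  have h1 : x - algebraMap K F c ∈ v.toValuationSubring := ffp_mem_of_ord_nonneg v h.le
  have h2 : x ∈ v.toValuationSubring := by
    have := add_mem h1 (v.algebraMap_mem' c)
    rwa [sub_add_cancel] at this
  exact not_lt.mpr (ffp_ord_nonneg_of_mem v h2)

theorem zero_unique {v : Place K F} {c c' : K} (h : 0 < v.ord (x - algebraMap K F c))
    (h' : 0 < v.ord (x - algebraMap K F c')) : c = c' := by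
  by_contra hne
  have h1 : x - algebraMap K F c ∈ v.toValuationSubring := ffp_mem_of_ord_nonneg v h.le
  have h1' : x - algebraMap K F c' ∈ v.toValuationSubring := ffp_mem_of_ord_nonneg v h'.le
  have ha : (⟨_, h1⟩ : v.toValuationSubring) ≠ 0 := by
    intro h0
    exact H.sub_ne_zero' c (congrArg Subtype.val h0)
  have ha' : (⟨_, h1'⟩ : v.toValuationSubring) ≠ 0 := by
    intro h0
    exact H.sub_ne_zero' c' (congrArg Subtype.val h0)
  have hm := (ffp_mem_maximalIdeal_iff v ⟨_, h1⟩ ha).mpr h
  have hm' := (ffp_mem_maximalIdeal_iff v ⟨_, h1'⟩ ha').mpr h'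
  have hsub := Ideal.sub_mem _ hm' hm
  have heq : (⟨_, h1'⟩ : v.toValuationSubring) - ⟨_, h1⟩ =
      algebraMap K v.toValuationSubring (c - c') := by
    apply Subtype.ext
    simp
  rw [heq] at hsub
  have hu : IsUnit (algebraMap K v.toValuationSubring (c - c')) :=
    (IsUnit.mk0 (c - c') (sub_ne_zero.mpr hne)).map _
  exact (IsLocalRing.mem_maximalIdeal _).mp hsub hu

theorem ordDifferential_dx_of_pole {v : Place K F} (h : v.ord x < 0) :
    v.ordDifferential (D K F x) = v.ord x - 1 :=
  H.ordDifferential_D_of_ord_ne_zero v x h.ne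

theorem ordDifferential_dx_of_zero {v : Place K F} {c : K}
    (h : 0 < v.ord (x - algebraMap K F c)) :
    v.ordDifferential (D K F x) = v.ord (x - algebraMap K F c) - 1 := by
  have := H.ordDifferential_D_of_ord_ne_zero v (x - algebraMap K F c) h.ne'
  rwa [map_sub, Derivation.map_algebraMap, sub_zero] at this

theorem card_poles :
    (Nat.card {v : Place K F // v.ord x < 0} : ℤ) = (H.finite_poles.toFinset.card : ℤ) := by
  have h1 : Nat.card {v : Place K F // v.ord x < 0} = Nat.card ↥{v : Place K F | v.ord x < 0} := rfl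
  rw [h1, Nat.card_coe_set_eq, Set.ncard_eq_toFinset_card _ H.finite_poles]

theorem card_fibre (c : K) :
    (Nat.card {v : Place K F // 0 < v.ord (x - algebraMap K F c)} : ℤ)
      = ((H.finite_fibre c).toFinset.card : ℤ) := by
  have h1 : Nat.card {v : Place K F // 0 < v.ord (x - algebraMap K F c)}
      = Nat.card ↥{v : Place K F | 0 < v.ord (x - algebraMap K F c)} := rfl
  rw [h1, Nat.card_coe_set_eq, Set.ncard_eq_toFinset_card _ (H.finite_fibre c)]

/-- The contribution of the poles of `x` to `deg div(dx)`. -/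
theorem sum_poles :
    ∑ v ∈ H.finite_poles.toFinset, v.ordDifferential (D K F x)
      = -(Module.finrank K⟮x⟯ F : ℤ) - Nat.card {v : Place K F // v.ord x < 0} := by
  have h1 : ∑ v ∈ H.finite_poles.toFinset, v.ordDifferential (D K F x)
      = ∑ v ∈ H.finite_poles.toFinset, (-(-v.ord x) - 1) := by
    refine Finset.sum_congr rfl fun v hv => ?_
    have hv' : v ∈ {v : Place K F | v.ord x < 0} := (Set.Finite.mem_toFinset _).mp hv
    rw [H.ordDifferential_dx_of_pole hv']
    ring
  have h2 : ∑ᶠ (v : Place K F) (_ : v.ord x < 0), -v.ord x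
      = ∑ v ∈ H.finite_poles.toFinset, -v.ord x := by
    show ∑ᶠ (v : Place K F) (_ : v ∈ {v : Place K F | v.ord x < 0}), -v.ord x = _
    rw [finsum_mem_eq_finite_toFinset_sum _ H.finite_poles]
  rw [h1, Finset.sum_sub_distrib, Finset.sum_neg_distrib, ← h2, H.sum_ord_poles, H.card_poles]
  simp

/-- The contribution of the fibre over `c` to `deg div(dx)`. -/
theorem sum_fibre (c : K) :
    ∑ v ∈ (H.finite_fibre c).toFinset, v.ordDifferential (D K F x)
      = (Module.finrank K⟮x⟯ F : ℤ)
        - Nat.card {v : Place K F // 0 < v.ord (x - algebraMap K F c)} := by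
  have h1 : ∑ v ∈ (H.finite_fibre c).toFinset, v.ordDifferential (D K F x)
      = ∑ v ∈ (H.finite_fibre c).toFinset, (v.ord (x - algebraMap K F c) - 1) := by
    refine Finset.sum_congr rfl fun v hv => ?_
    have hv' : v ∈ {v : Place K F | 0 < v.ord (x - algebraMap K F c)} :=
      (Set.Finite.mem_toFinset _).mp hv
    rw [H.ordDifferential_dx_of_zero hv']
  have h2 : ∑ᶠ (v : Place K F) (_ : 0 < v.ord (x - algebraMap K F c)),
        v.ord (x - algebraMap K F c)
      = ∑ v ∈ (H.finite_fibre c).toFinset, v.ord (x - algebraMap K F c) := by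
    show ∑ᶠ (v : Place K F) (_ : v ∈ {v : Place K F | 0 < v.ord (x - algebraMap K F c)}),
      v.ord (x - algebraMap K F c) = _
    rw [finsum_mem_eq_finite_toFinset_sum _ (H.finite_fibre c)]
  rw [h1, Finset.sum_sub_distrib, ← h2, H.sum_ord_fibre, H.card_fibre]
  simp

/-- `deg div(dx)`, as a finite sum over the poles and the fibres over `S`. -/
theorem sum_ordDifferential_dx (S : Finset K)
    (hS : ∀ c ∉ S, ∀ v : Place K F, 0 < v.ord (x - algebraMap K F c) →
      v.ord (x - algebraMap K F c) = 1)
    (W : Finset (Place K F))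
    (hW : ∀ v : Place K F, v.ordDifferential (D K F x) ≠ 0 → v ∈ W) :
    ∑ v ∈ W, v.ordDifferential (D K F x)
      = ∑ c ∈ S, ((Module.finrank K⟮x⟯ F : ℤ) -
          Nat.card {v : Place K F // 0 < v.ord (x - algebraMap K F c)})
        - (Module.finrank K⟮x⟯ F : ℤ) - Nat.card {v : Place K F // v.ord x < 0} := by
  classical
  set P : Finset (Place K F) := H.finite_poles.toFinset with hP
  set Z : K → Finset (Place K F) := fun c => (H.finite_fibre c).toFinset with hZ
  have memP : ∀ v, v ∈ P ↔ v.ord x < 0 := fun v => Set.Finite.mem_toFinset _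
  have memZ : ∀ c v, v ∈ Z c ↔ 0 < v.ord (x - algebraMap K F c) :=
    fun c v => Set.Finite.mem_toFinset _
  -- outside `P ∪ ⋃ c ∈ S, Z c` the differential `dx` has order `0`
  have hout : ∀ v, v ∉ P ∪ S.biUnion Z → v.ordDifferential (D K F x) = 0 := by
    intro v hv
    rw [Finset.mem_union, not_or, Finset.mem_biUnion] at hv
    rcases H.pole_or_zero v with h | ⟨c, hc⟩
    · exact absurd ((memP v).mpr h) hv.1
    · have hcS : c ∉ S := fun hcS => hv.2 ⟨c, hcS, (memZ c v).mpr hc⟩
      rw [H.ordDifferential_dx_of_zero hc, hS c hcS v hc, sub_self]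
  have hsub : P ∪ S.biUnion Z ⊆ W ∪ (P ∪ S.biUnion Z) := Finset.subset_union_right
  have h1 : ∑ v ∈ W, v.ordDifferential (D K F x)
      = ∑ v ∈ W ∪ (P ∪ S.biUnion Z), v.ordDifferential (D K F x) := by
    refine Finset.sum_subset Finset.subset_union_left fun v _ hv => ?_
    by_contra h0
    exact hv (hW v h0)
  have h2 : ∑ v ∈ P ∪ S.biUnion Z, v.ordDifferential (D K F x)
      = ∑ v ∈ W ∪ (P ∪ S.biUnion Z), v.ordDifferential (D K F x) :=
    Finset.sum_subset hsub fun v _ hv => hout v hv
  have hdisj : Disjoint P (S.biUnion Z) := by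
    rw [Finset.disjoint_left]
    intro v hvP hvZ
    obtain ⟨c, _, hc⟩ := Finset.mem_biUnion.mp hvZ
    exact not_pole_of_zero ((memZ c v).mp hc) ((memP v).mp hvP)
  have hpair : (S : Set K).PairwiseDisjoint Z := by
    intro c _ c' _ hne
    show Disjoint (Z c) (Z c')
    rw [Finset.disjoint_left]
    intro v hv hv'
    exact hne (H.zero_unique ((memZ c v).mp hv) ((memZ c' v).mp hv'))
  rw [h1, ← h2, Finset.sum_union hdisj, Finset.sum_biUnion hpair, H.sum_poles]
  have h3 : ∀ c ∈ S, ∑ v ∈ Z c, v.ordDifferential (D K F x)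
      = (Module.finrank K⟮x⟯ F : ℤ)
        - Nat.card {v : Place K F // 0 < v.ord (x - algebraMap K F c)} :=
    fun c _ => H.sum_fibre c
  rw [Finset.sum_congr rfl h3]
  ring

/-- **Riemann–Hurwitz** (FF4): the degree of the divisor of a nonzero differential. -/
theorem degree_canonical {ω : Ω[F⁄K]} (hω : ω ≠ 0) (Dv : Divisor K F)
    (hD : ∀ v, Dv v = v.ordDifferential ω) (S : Finset K)
    (hS : ∀ c ∉ S, ∀ v : Place K F, 0 < v.ord (x - algebraMap K F c) →
      v.ord (x - algebraMap K F c) = 1) :
    Divisor.degree Dv = ∑ c ∈ S, ((Module.finrank K⟮x⟯ F : ℤ) -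
        Nat.card {v : Place K F // 0 < v.ord (x - algebraMap K F c)})
      - (Module.finrank K⟮x⟯ F : ℤ) - Nat.card {v : Place K F // v.ord x < 0} := by
  classical
  -- `ω = g • dx`
  obtain ⟨g, hg⟩ : ∃ g : F, g • D K F x = ω := by
    have : ω ∈ Submodule.span F {D K F x} := H.span_D_eq_top ▸ Submodule.mem_top
    exact Submodule.mem_span_singleton.mp this
  have hg0 : g ≠ 0 := by
    rintro rfl
    exact hω (by rw [← hg, zero_smul])
  have hDv : ∀ v, Dv v = v.ord g + v.ordDifferential (D K F x) := by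
    intro v
    rw [hD v, ← hg, H.ordDifferential_smul' v g hg0 _ H.D_ne_zero]
  -- the principal divisor of `g`
  let Dg : Divisor K F := Finsupp.ofSupportFinite (fun v => v.ord g)
    ((H.finite_support_ord g hg0).subset fun v hv => by simpa [Function.mem_support] using hv)
  have hDg : ∀ v, Dg v = v.ord g := fun v => rfl
  have hdegDg : Divisor.degree Dg = 0 := H.degree_eq_zero_of_principal g hg0 Dg hDg
  -- the divisor of `dx`
  have hDe : ∀ v, (Dv - Dg) v = v.ordDifferential (D K F x) := by
    intro v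
    rw [Finsupp.sub_apply, hDv v, hDg v, add_sub_cancel_left]
  have hdeg : Divisor.degree Dv = Divisor.degree (Dv - Dg) := by
    rw [map_sub, hdegDg, sub_zero]
  have hsum : Divisor.degree (Dv - Dg) = ∑ v ∈ (Dv - Dg).support, (Dv - Dg) v := by
    rw [Divisor.degree, Finsupp.liftAddHom_apply, Finsupp.sum]
    refine Finset.sum_congr rfl fun v _ => ?_
    simp [H.deg_eq_one v]
  rw [hdeg, hsum, Finset.sum_congr rfl (fun v _ => hDe v)]
  refine H.sum_ordDifferential_dx S hS _ fun v hv => ?_
  rw [Finsupp.mem_support_iff, hDe v]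
  exact hv

/-- The genus in terms of the ramification data of `x` (FF4). -/
theorem genus_eq [HasCanonicalDivisor (K := K) (F := F)] (S : Finset K)
    (hS : ∀ c ∉ S, ∀ v : Place K F, 0 < v.ord (x - algebraMap K F c) →
      v.ord (x - algebraMap K F c) = 1) :
    genus K F = ((∑ c ∈ S, ((Module.finrank K⟮x⟯ F : ℤ) -
        Nat.card {v : Place K F // 0 < v.ord (x - algebraMap K F c)})
      - (Module.finrank K⟮x⟯ F : ℤ) - Nat.card {v : Place K F // v.ord x < 0}) + 2).toNat / 2 := by
  have hex : ∃ ω : Ω[F⁄K], ω ≠ 0 := ⟨D K F x, H.D_ne_zero⟩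
  rw [genus, dif_pos hex]
  rw [H.degree_canonical hex.choose_spec (canonicalDivisorOf hex.choose_spec)
    (fun v => canonicalDivisorOf_apply hex.choose_spec v) S hS]

end GenusHyp

end Fermat.Agent.X0.FF
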