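import Mathlib
import Fermat.Prelude.Def_AlgebraicCurve_Repartitions
import Fermat.Agent.X0.FFDefs

/-!
# C-F1 (FF1a): basic facts about places, and the dictionary with Dedekind domains

* `Place` basics: membership in the valuation ring / maximal ideal in terms of `ord`,
  ultrametric inequality for `ord`, constants have `ord = 0`.
* `dict_ord_ofHeightOneSpectrum`: `ord` of the place attached to a height one prime `w` of a Dedekind
  domain with fraction field `F` is `-log (w.valuation F f)`.
* `exists_eq_ofHeightOneSpectrum`: a place whose valuation ring contains a Dedekind domain `R`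
  with fraction field `F` comes from a unique height one prime of `R` (its centre).
-/

set_option autoImplicit false

open AlgebraicCurve IsDedekindDomain WithZero

namespace Fermat.Agent.X0.FF

variable {K F : Type*} [Field K] [Field F] [Algebra K F]

section Basic

variable (v : Place K F)

theorem mem_iff_ord_nonneg {f : F} : f ∈ v.toValuationSubring ↔ f = 0 ∨ 0 ≤ v.ord f := by
  rw [← v.adicValuation_le_one_iff]
  constructor
  · exact fun h => v.adicValuation_le_one_of_mem h
  · intro h
    rcases eq_or_ne f 0 with rfl | hf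
    · exact zero_mem _
    by_contra hmem
    have hinv : f⁻¹ ∈ v.toValuationSubring :=
      (v.toValuationSubring.mem_or_inv_mem f).resolve_left hmem
    have h2 := v.adicValuation_le_one_of_mem hinv
    rw [map_inv₀] at h2
    have h3 : v.adicValuation f = 1 := by
      refine le_antisymm h ?_
      have hne := v.adicValuation_ne_zero hf
      rwa [inv_le_one₀ (zero_lt_iff.mpr hne)] at h2
    -- then `f` is a unit of the valuation ring
    have h4 : (v.adicValuation ((⟨f⁻¹, hinv⟩ : v.toValuationSubring) : F)) = 1 := by
      show v.adicValuation f⁻¹ = 1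
      rw [map_inv₀, h3, inv_one]
    obtain ⟨u, hu⟩ := (v.adicValuation_coe_eq_one_iff _).mp h4
    apply hmem
    have : f = ((u⁻¹ : v.toValuationSubringˣ) : v.toValuationSubring) := by
      have h5 : ((u : v.toValuationSubring) : F) *
          (((u⁻¹ : v.toValuationSubringˣ) : v.toValuationSubring) : F) = 1 := by
        rw [← MulMemClass.coe_mul, Units.mul_inv]; rfl
      rw [hu] at h5
      change f⁻¹ * _ = 1 at h5
      field_simp at h5
      exact h5.symm
    rw [this]
    exact SetLike.coe_mem _

theorem mem_of_ord_nonneg {f : F} (h : 0 ≤ v.ord f) : f ∈ v.toValuationSubring :=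
  (mem_iff_ord_nonneg v).mpr (Or.inr h)

theorem ord_nonneg_of_mem {f : F} (h : f ∈ v.toValuationSubring) : 0 ≤ v.ord f := by
  rcases (mem_iff_ord_nonneg v).mp h with rfl | h
  · simp
  · exact h

theorem ord_add_ge {f g : F} (hfg : f + g ≠ 0) : min (v.ord f) (v.ord g) ≤ v.ord (f + g) := by
  rcases eq_or_ne f 0 with rfl | hf
  · simp
  rcases eq_or_ne g 0 with rfl | hg
  · simp
  have h := v.adicValuation.map_add f g
  rw [v.adicValuation_eq_exp_neg_ord hf, v.adicValuation_eq_exp_neg_ord hg,
    v.adicValuation_eq_exp_neg_ord hfg] at h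
  rcases le_max_iff.mp h with h | h
  · rw [exp_le_exp] at h; exact le_trans (min_le_left _ _) (by omega)
  · rw [exp_le_exp] at h; exact le_trans (min_le_right _ _) (by omega)

theorem ord_neg (f : F) : v.ord (-f) = v.ord f := by
  simp [Place.ord]

theorem ord_sub_ge {f g : F} (hfg : f - g ≠ 0) : min (v.ord f) (v.ord g) ≤ v.ord (f - g) := by
  have := ord_add_ge v (f := f) (g := -g) (by rwa [← sub_eq_add_neg])
  rwa [ord_neg, ← sub_eq_add_neg] at this

theorem ord_algebraMap (c : K) : v.ord (algebraMap K F c) = 0 := by
  rcases eq_or_ne c 0 with rfl | hc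
  · simp
  have h1 := ord_nonneg_of_mem v (v.algebraMap_mem' c)
  have h2 := ord_nonneg_of_mem v (v.algebraMap_mem' c⁻¹)
  rw [map_inv₀, v.ord_inv] at h2
  omega

theorem ord_pow (f : F) (n : ℕ) : v.ord (f ^ n) = n * v.ord f := by
  have := v.ord_zpow f n
  rwa [zpow_natCast] at this

/-- if `ord f < ord g` then `ord (f + g) = ord f` -/
theorem ord_add_eq_of_lt {f g : F} (hf : f ≠ 0) (h : v.ord f < v.ord g) :
    v.ord (f + g) = v.ord f := by
  rcases eq_or_ne g 0 with rfl | hg
  · simp
  have hfg : f + g ≠ 0 := by
    intro h0
    have : f = -g := eq_neg_of_add_eq_zero_left h0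
    rw [this, ord_neg] at h
    exact lt_irrefl _ h
  apply le_antisymm
  · by_contra hlt
    replace hlt := not_le.mp hlt
    have h1 := ord_sub_ge v (f := f + g) (g := g) (by simpa using hf)
    rw [add_sub_cancel_right] at h1
    have : min (v.ord (f + g)) (v.ord g) > v.ord f := lt_min hlt h
    omega
  · have := ord_add_ge v hfg
    rwa [min_eq_left h.le] at this

theorem mem_maximalIdeal_iff (a : v.toValuationSubring) :
    a ∈ IsLocalRing.maximalIdeal v.toValuationSubring ↔ a = 0 ∨ 0 < v.ord (a : F) := by
  rw [IsLocalRing.mem_maximalIdeal, mem_nonunits_iff, ← v.adicValuation_coe_eq_one_iff]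
  rcases eq_or_ne a 0 with rfl | ha
  · simp
  have haF : (a : F) ≠ 0 := fun h => ha (Subtype.ext h)
  rw [v.adicValuation_eq_exp_neg_ord haF, or_iff_right ha, ← exp_zero, exp_injective.eq_iff]
  have := ord_nonneg_of_mem v a.2
  omega

end Basic

/-- an element of a valuation subring outside the maximal ideal has its inverse in the subring -/
theorem inv_mem_of_not_mem_maximalIdeal (A : ValuationSubring F) (a : A)
    (ha : a ∉ IsLocalRing.maximalIdeal A) : (a : F)⁻¹ ∈ A := by
  have h1 : A.valuation (a : F) = 1 := by
    have hle : A.valuation (a : F) ≤ 1 := (A.valuation_le_one_iff _).mpr a.2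
    have hnlt : ¬ A.valuation (a : F) < 1 := fun h => ha ((A.valuation_lt_one_iff a).mpr h)
    exact le_antisymm hle (not_lt.mp hnlt)
  rw [← A.valuation_le_one_iff, map_inv₀, h1, inv_one]

section Dedekind

variable {R : Type*} [CommRing R] [IsDedekindDomain R] [Algebra R F] [IsFractionRing R F]
  [Algebra K R] [IsScalarTower K R F]

/-- a uniformizer of `w.valuation` is irreducible in the valuation subring -/
theorem irreducible_of_valuation_eq (w : HeightOneSpectrum R)
    (π : (Place.ofHeightOneSpectrum (K := K) (F := F) w).toValuationSubring)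
    (hπ : w.valuation F (π : F) = exp (-1 : ℤ)) : Irreducible π := by
  rw [IsDiscreteValuationRing.irreducible_iff_uniformizer]
  have hπ0 : (π : F) ≠ 0 := by
    intro h
    rw [h, map_zero] at hπ
    exact (exp_ne_zero).symm hπ
  apply le_antisymm
  · intro a ha
    rw [Ideal.mem_span_singleton]
    have hanu : ¬ IsUnit a := by
      rwa [IsLocalRing.mem_maximalIdeal, mem_nonunits_iff] at ha
    have ha1 : w.valuation F (a : F) ≤ 1 := a.2
    have ha2 : w.valuation F (a : F) < 1 := by
      refine lt_of_le_of_ne ha1 fun h1 => hanu ?_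
      have := (Valuation.valuationSubring.integers (w.valuation F)).isUnit_iff_valuation_eq_one
        (x := a)
      exact this.mpr h1
    have ha3 : w.valuation F (a : F) ≤ exp (-1 : ℤ) := by
      rcases eq_or_ne (w.valuation F (a : F)) 0 with h0 | h0
      · rw [h0]; exact zero_le
      · rw [← log_le_iff_le_exp h0]
        have : log (w.valuation F (a : F)) < 0 := by
          rw [log_lt_iff_lt_exp h0, exp_zero]; exact ha2
        omega
    have hmem : (a : F) / (π : F) ∈
        (Place.ofHeightOneSpectrum (K := K) (F := F) w).toValuationSubring := by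
      show w.valuation F ((a : F) / (π : F)) ≤ 1
      rw [map_div₀, hπ]
      exact div_le_one_of_le₀ ha3 zero_le
    refine ⟨⟨_, hmem⟩, ?_⟩
    ext
    show (a : F) = (π : F) * ((a : F) / (π : F))
    field_simp
  · rw [Ideal.span_le, Set.singleton_subset_iff, SetLike.mem_coe, IsLocalRing.mem_maximalIdeal,
      mem_nonunits_iff]
    intro hu
    have := ((Valuation.valuationSubring.integers (w.valuation F)).isUnit_iff_valuation_eq_one
        (x := π)).mp hu
    change w.valuation F (π : F) = 1 at this
    rw [hπ] at this
    have h2 : (-1 : ℤ) = 0 := by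
      have := congrArg log this
      simp at this
    omega

/-- `ord` at the place attached to a height one prime of a Dedekind domain -/
theorem dict_ord_ofHeightOneSpectrum (w : HeightOneSpectrum R) (f : F) :
    (Place.ofHeightOneSpectrum (K := K) w).ord f = -(log (w.valuation F f)) := by
  set v := Place.ofHeightOneSpectrum (K := K) (F := F) w with hv
  rcases eq_or_ne f 0 with rfl | hf
  · simp
  obtain ⟨ϖ, hϖ⟩ := w.valuation_exists_uniformizer F
  have hmem : ϖ ∈ v.toValuationSubring := by
    show w.valuation F ϖ ≤ 1
    rw [hϖ, ← exp_zero, exp_le_exp]; omega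
  have hirr := irreducible_of_valuation_eq (K := K) w ⟨ϖ, hmem⟩ hϖ
  obtain ⟨u, hu⟩ := v.exists_unit_mul_zpow hf hirr
  have hu1 : w.valuation F ((u : v.toValuationSubring) : F) = 1 :=
    ((Valuation.valuationSubring.integers (w.valuation F)).isUnit_iff_valuation_eq_one
        (x := (u : v.toValuationSubring))).mp u.isUnit
  have : w.valuation F f = exp (-(v.ord f)) := by
    conv_lhs => rw [hu]
    rw [map_mul, hu1, one_mul, map_zpow₀]
    show (w.valuation F ϖ) ^ (v.ord f) = _
    rw [hϖ, ← exp_zsmul]
    simp
  rw [this, log_exp, neg_neg]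

/-- membership in the prime `w` in terms of `ord` at the corresponding place -/
theorem mem_asIdeal_iff_ord_pos (w : HeightOneSpectrum R) (r : R) :
    r ∈ w.asIdeal ↔ r = 0 ∨ 0 < (Place.ofHeightOneSpectrum (K := K) w).ord (algebraMap R F r) := by
  rcases eq_or_ne r 0 with rfl | hr
  · simp
  rw [or_iff_right hr, dict_ord_ofHeightOneSpectrum, ← w.valuation_lt_one_iff_mem (K := F)]
  have h0 : w.valuation F (algebraMap R F r) ≠ 0 := by
    rw [Valuation.ne_zero_iff]
    exact (map_ne_zero_iff _ (IsFractionRing.injective R F)).mpr hr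
  rw [← exp_zero, ← log_lt_iff_lt_exp h0]
  omega

theorem dict_ofHeightOneSpectrum_injective :
    Function.Injective (Place.ofHeightOneSpectrum (K := K) (F := F) (R := R)) := by
  intro w w' h
  ext r
  rw [mem_asIdeal_iff_ord_pos (K := K) (F := F), mem_asIdeal_iff_ord_pos (K := K) (F := F), h]

/-- the center of a place on a Dedekind domain contained in its valuation ring -/
theorem exists_eq_ofHeightOneSpectrum (v : Place K F)
    (hR : ∀ r : R, algebraMap R F r ∈ v.toValuationSubring) :
    ∃ w : HeightOneSpectrum R, v = Place.ofHeightOneSpectrum (K := K) w := by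
  classical
  -- the ring hom R → O_v
  let φ : R →+* v.toValuationSubring :=
    (algebraMap R F).codRestrict v.toValuationSubring.toSubring hR
  have hφ : ∀ r, ((φ r : v.toValuationSubring) : F) = algebraMap R F r := fun r => rfl
  let P : Ideal R := (IsLocalRing.maximalIdeal v.toValuationSubring).comap φ
  have hPprime : P.IsPrime := Ideal.comap_isPrime φ _
  have hinv : ∀ s : R, s ∉ P → (algebraMap R F s)⁻¹ ∈ v.toValuationSubring := by
    intro s hs
    have := inv_mem_of_not_mem_maximalIdeal v.toValuationSubring (φ s) (by simpa [P] using hs)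
    rwa [hφ] at this
  have hPne : P ≠ ⊥ := by
    intro hbot
    -- every nonzero element of R is a unit of O_v, so F ⊆ O_v
    apply v.ne_top'
    rw [eq_top_iff]
    intro f _
    obtain ⟨a, s, hs, rfl⟩ := IsFractionRing.div_surjective (A := R) f
    have hs0 : s ≠ 0 := nonZeroDivisors.ne_zero hs
    have hsP : s ∉ P := by rw [hbot]; simpa using hs0
    rw [div_eq_mul_inv]
    exact mul_mem (hR a) (hinv s hsP)
  let w : HeightOneSpectrum R := ⟨P, hPprime, hPne⟩
  refine ⟨w, ?_⟩
  apply Place.ext
  rw [Place.ofHeightOneSpectrum_toValuationSubring,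
    ← HeightOneSpectrum.valuationSubringAtPrime_eq_valuationSubring]
  symm
  refine ValuationSubring.eq_of_le_of_ne_top _ ?_ v.ne_top'
  rintro f ⟨a, s, hs, rfl⟩
  exact mul_mem (hR a) (hinv s hs)

end Dedekind

end Fermat.Agent.X0.FF
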