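import Mathlib
import Fermat.Agent.X0.FFDict

/-!
# C-F1 (FF1b): transcendence degree one and residue fields

* `IsGen.of_transcendental`: if `F` is finite over `K(x)`, it is finite over `K(y)` for every
  `y` transcendental over `K`.
* `eq_algebraMap_of_isAlgebraic`: elements algebraic over the (algebraically closed) field `K`
  are constants.
* `exists_ord_sub_pos`: every element of the valuation ring of a place is congruent to a
  constant; `finiteResidue`, `deg_eq_one`.
-/

set_option autoImplicit false

open AlgebraicCurve IntermediateField Polynomial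
open scoped IntermediateField.algebraAdjoinAdjoin

namespace Fermat.Agent.X0.FF

variable {K F : Type*} [Field K] [Field F] [Algebra K F]

theorem IsGen.isAlgebraic_adjoin {x : F} (hx : IsGen K x) :
    Algebra.IsAlgebraic (Algebra.adjoin K {x}) F := by
  have := hx.finite
  have : Algebra.IsAlgebraic K⟮x⟯ F := Algebra.IsAlgebraic.of_finite _ _
  exact Algebra.IsAlgebraic.trans (Algebra.adjoin K {x}) K⟮x⟯ F

theorem IsGen.essFiniteType {x : F} (hx : IsGen K x) : Algebra.EssFiniteType K F := by
  have := hx.finite
  have : Algebra.EssFiniteType K K⟮x⟯ :=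
    IntermediateField.essFiniteType_iff.mpr ⟨{x}, by simp⟩
  exact Algebra.EssFiniteType.comp K K⟮x⟯ F

theorem IsGen.of_transcendental {x : F} (hx : IsGen K x) {y : F} (hy : Transcendental K y) :
    IsGen K y := by
  refine ⟨hy, ?_⟩
  have := hx.isAlgebraic_adjoin
  have h1 : Algebra.trdeg K F ≤ 1 := by
    have := Algebra.IsAlgebraic.trdeg_le_cardinalMk K ({x} : Set F)
    simpa using this
  have h2 : AlgebraicIndependent K (fun _ : Unit => y) :=
    (algebraicIndependent_unique_type_iff (ι := Unit)).mpr hy
  have h3 : IsTranscendenceBasis K (fun _ : Unit => y) :=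
    h2.isTranscendenceBasis_of_lift_trdeg_le_of_finite (by simpa using h1)
  have h4 := h3.isAlgebraic_field
  rw [Set.range_const] at h4
  have := hx.essFiniteType
  have : Algebra.EssFiniteType K⟮y⟯ F := Algebra.EssFiniteType.of_comp K K⟮y⟯ F
  exact Algebra.finite_of_essFiniteType_of_isAlgebraic


/-- the valuation ring of a place as a `K`-subalgebra -/
def placeSubalgebra (v : Place K F) : Subalgebra K F :=
  { v.toValuationSubring.toSubring with
    algebraMap_mem' := v.algebraMap_mem' }

@[simp] theorem mem_placeSubalgebra (v : Place K F) (f : F) :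
    f ∈ placeSubalgebra v ↔ f ∈ v.toValuationSubring := Iff.rfl

theorem aeval_mem_of_mem (v : Place K F) {f : F} (hf : f ∈ v.toValuationSubring) (P : K[X]) :
    aeval f P ∈ v.toValuationSubring := by
  have h1 : Algebra.adjoin K {f} ≤ placeSubalgebra v :=
    Algebra.adjoin_le (by simpa using hf)
  exact h1 (aeval_mem_adjoin_singleton K f)

/-- a valuation ring containing a subfield over which `F` is algebraic is everything -/
theorem eq_top_of_intermediateField_le (A : ValuationSubring F) (E : IntermediateField K F)
    [Algebra.IsAlgebraic E F] (hE : ∀ g ∈ E, g ∈ A) : A = ⊤ := by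
  rw [eq_top_iff]
  intro y _
  have hF : ∀ g : E, algebraMap E F g ∈ A.toSubring := fun g => hE _ g.2
  let : Algebra E A := ((algebraMap E F).codRestrict A.toSubring hF).toAlgebra
  have : IsScalarTower E A F := IsScalarTower.of_algebraMap_eq fun f => rfl
  have : Algebra.IsIntegral E F := Algebra.IsAlgebraic.isIntegral
  have hy : IsIntegral A y := (Algebra.IsIntegral.isIntegral (R := E) y).tower_top
  obtain ⟨z, hz⟩ := IsIntegrallyClosed.isIntegral_iff.mp hy
  exact hz ▸ z.2

variable [IsAlgClosed K]

theorem eq_algebraMap_of_isAlgebraic {y : F} (hy : IsAlgebraic K y) :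
    ∃ c : K, y = algebraMap K F c := by
  have hint : IsIntegral K y := hy.isIntegral
  have hirr := minpoly.irreducible hint
  have hdeg := IsAlgClosed.degree_eq_one_of_irreducible K hirr
  obtain ⟨c, hc⟩ := minpoly.mem_range_of_degree_eq_one K y hdeg
  exact ⟨c, hc.symm⟩

/-- **Residue fields are `K`**: every element of the valuation ring is congruent to a constant. -/
theorem exists_ord_sub_pos {x : F} (hx : IsGen K x) (v : Place K F) {f : F}
    (hf : f ∈ v.toValuationSubring) :
    ∃ c : K, f = algebraMap K F c ∨ 0 < v.ord (f - algebraMap K F c) := by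
  classical
  by_cases hfa : IsAlgebraic K f
  · obtain ⟨c, hc⟩ := eq_algebraMap_of_isAlgebraic hfa
    exact ⟨c, Or.inl hc⟩
  have hft : Transcendental K f := hfa
  have hgen : IsGen K f := hx.of_transcendental hft
  -- there is a nonzero polynomial `P` with `P(f)` in the maximal ideal
  have hex : ∃ P : K[X], P ≠ 0 ∧ 0 < v.ord (aeval f P) := by
    by_contra hne
    push Not at hne
    apply v.ne_top'
    have := hgen.finite
    have : Algebra.IsAlgebraic K⟮f⟯ F := Algebra.IsAlgebraic.of_finite _ _
    refine eq_top_of_intermediateField_le v.toValuationSubring K⟮f⟯ ?_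
    intro g hg
    obtain ⟨r, s, rfl⟩ := (IntermediateField.mem_adjoin_simple_iff K g).mp hg
    rcases eq_or_ne s 0 with rfl | hs
    · simp [zero_mem]
    have hsf : aeval f s ≠ 0 := fun h0 => hft ⟨s, hs, h0⟩
    have h1 := hne s hs
    have h2 := ord_nonneg_of_mem v (aeval_mem_of_mem v hf s)
    have h3 : v.ord (aeval f s) = 0 := le_antisymm h1 h2
    rw [div_eq_mul_inv]
    refine mul_mem (aeval_mem_of_mem v hf r) (mem_of_ord_nonneg v ?_)
    rw [v.ord_inv, h3, neg_zero]
  obtain ⟨P, hP0, hPord⟩ := hex
  -- split `P`
  have hsplit := IsAlgClosed.splits P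
  have hPeq := hsplit.eq_prod_roots
  have hlc : P.leadingCoeff ≠ 0 := leadingCoeff_ne_zero.mpr hP0
  have hev : aeval f P = algebraMap K F P.leadingCoeff *
      (P.roots.map (fun c => f - algebraMap K F c)).prod := by
    conv_lhs => rw [hPeq]
    rw [map_mul, aeval_C, map_multiset_prod, Multiset.map_map]
    congr 2
    ext c
    simp
  -- some factor has positive order
  have key : ∀ s : Multiset K, (∀ c ∈ s, f - algebraMap K F c ≠ 0) →
      (∀ c ∈ s, ¬ 0 < v.ord (f - algebraMap K F c)) →
      v.ord ((s.map (fun c => f - algebraMap K F c)).prod) = 0 ∧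
      (s.map (fun c => f - algebraMap K F c)).prod ≠ 0 := by
    intro s
    induction s using Multiset.induction_on with
    | empty => intro _ _; simp
    | cons a s ih =>
      intro h1 h2
      have ih' := ih (fun c hc => h1 c (Multiset.mem_cons_of_mem hc))
        (fun c hc => h2 c (Multiset.mem_cons_of_mem hc))
      rw [Multiset.map_cons, Multiset.prod_cons]
      have ha0 := h1 a (Multiset.mem_cons_self a s)
      refine ⟨?_, mul_ne_zero ha0 ih'.2⟩
      rw [v.ord_mul ha0 ih'.2, ih'.1, add_zero]
      have h3 := h2 a (Multiset.mem_cons_self a s)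
      have hmem : f - algebraMap K F a ∈ v.toValuationSubring :=
        sub_mem hf (v.algebraMap_mem' a)
      have h4 := ord_nonneg_of_mem v hmem
      omega
  by_contra hcon
  push Not at hcon
  have h1 : ∀ c ∈ P.roots, f - algebraMap K F c ≠ 0 := fun c _ h0 =>
    (hcon c).1 (sub_eq_zero.mp h0)
  have h2 : ∀ c ∈ P.roots, ¬ 0 < v.ord (f - algebraMap K F c) := fun c _ =>
    not_lt.mpr (hcon c).2
  obtain ⟨h3, h4⟩ := key P.roots h1 h2
  rw [hev, v.ord_mul ((_root_.map_ne_zero _).mpr hlc) h4, ord_algebraMap, h3] at hPord
  omega


theorem algebraMap_residueField_surjective {x : F} (hx : IsGen K x) (v : Place K F) :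
    Function.Surjective (algebraMap K v.ResidueField) := by
  intro z
  obtain ⟨a, rfl⟩ := IsLocalRing.residue_surjective z
  obtain ⟨c, hc⟩ := exists_ord_sub_pos hx v a.2
  refine ⟨c, ?_⟩
  have hmem : a - algebraMap K v.toValuationSubring c ∈
      IsLocalRing.maximalIdeal v.toValuationSubring := by
    rw [mem_maximalIdeal_iff]
    rcases hc with hc | hc
    · left
      ext
      simp [hc]
    · right
      simpa using hc
  have h0 : IsLocalRing.residue v.toValuationSubring (a - algebraMap K v.toValuationSubring c)
      = 0 := (IsLocalRing.residue_eq_zero_iff _).mpr hmem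
  rw [map_sub, sub_eq_zero] at h0
  rw [h0]
  rfl

theorem algebraMap_residueField_bijective {x : F} (hx : IsGen K x) (v : Place K F) :
    Function.Bijective (algebraMap K v.ResidueField) :=
  ⟨(algebraMap K v.ResidueField).injective, algebraMap_residueField_surjective hx v⟩

theorem finiteResidue {x : F} (hx : IsGen K x) (v : Place K F) :
    Module.Finite K v.ResidueField := by
  let e : K ≃ₗ[K] v.ResidueField :=
    LinearEquiv.ofBijective (Algebra.linearMap K v.ResidueField)
      (algebraMap_residueField_bijective hx v)
  exact Module.Finite.equiv e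

theorem deg_eq_one {x : F} (hx : IsGen K x) (v : Place K F) : v.deg = 1 := by
  let e : K ≃ₗ[K] v.ResidueField :=
    LinearEquiv.ofBijective (Algebra.linearMap K v.ResidueField)
      (algebraMap_residueField_bijective hx v)
  rw [Place.deg, ← e.finrank_eq, Module.finrank_self]

end Fermat.Agent.X0.FF
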