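import Mathlib
import Fermat.Agent.X0.FFConst

/-!
# C-F1 (FF1c): the fundamental identity `∑_{v | x = 0} ord_v x = [F : K(x)]`

* `sum_ord_of_dedekind`: abstract form for a finite flat extension of Dedekind domains.
* `finite_zeros`, `sum_ord_zeros`: for a transcendental generator `x` of a function field `F/K`
  (`K` algebraically closed of characteristic zero).
* `finite_fibre`, `sum_ord_fibre`, `finite_poles`, `sum_ord_poles`: variants for `x - c`, `1/x`.
-/

set_option autoImplicit false

open AlgebraicCurve IntermediateField Polynomial IsDedekindDomain WithZero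
open scoped IntermediateField.algebraAdjoinAdjoin

namespace Fermat.Agent.X0.FF

theorem inertiaDeg_eq_one_of_forall {A B : Type*} [CommRing A] [CommRing B] [Algebra A B]
    (p : Ideal A) (q : Ideal B) [hp : p.IsMaximal] [hq : q.IsMaximal] [q.LiesOver p]
    (h : ∀ b : B, ∃ a : A, algebraMap A B a - b ∈ q) : q.inertiaDeg A = 1 := by
  rw [Ideal.inertiaDeg_eq_of_isMaximal p q]
  let _ : Field (A ⧸ p) := Ideal.Quotient.field p
  have h1ne : (1 : B ⧸ q) ≠ 0 := fun h0 =>
    hq.ne_top ((Ideal.eq_top_iff_one _).mpr (Ideal.Quotient.eq_zero_iff_mem.mp h0))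
  rw [finrank_eq_one_iff_of_nonzero' (1 : B ⧸ q) h1ne]
  intro z
  obtain ⟨b, rfl⟩ := Ideal.Quotient.mk_surjective z
  obtain ⟨a, ha⟩ := h b
  refine ⟨Ideal.Quotient.mk p a, ?_⟩
  rw [Algebra.smul_def, mul_one, Ideal.Quotient.algebraMap_mk_of_liesOver, Ideal.Quotient.eq]
  exact ha

/-- **Fundamental identity, abstract form.**  `A ⊆ B` Dedekind domains, `B` finite flat over `A`
with fraction field `F`, `(a) ⊆ A` a maximal ideal, all residue fields of places equal to `K`.
Then the places of `F` centred on `B` at which `a` vanishes are finite in number and the orders of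
`a` at them sum to the rank of `B` over `A`. -/
theorem sum_ord_of_dedekind {K F A B : Type*} [Field K] [Field F] [Algebra K F]
    [CommRing A] [IsDomain A] [CommRing B] [IsDedekindDomain B] [Algebra A B]
    [Module.Finite A B] [Module.Flat A B] [FaithfulSMul A B]
    [Algebra B F] [IsFractionRing B F] [Algebra K A] [Algebra K B] [IsScalarTower K A B]
    [IsScalarTower K B F]
    (a : A) (ha : a ≠ 0) (hmax : (Ideal.span {a}).IsMaximal)
    (hres : ∀ v : Place K F, ∀ f ∈ v.toValuationSubring,
      ∃ c : K, f = algebraMap K F c ∨ 0 < v.ord (f - algebraMap K F c)) :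
    {v : Place K F | (∀ b : B, algebraMap B F b ∈ v.toValuationSubring) ∧
        0 < v.ord (algebraMap B F (algebraMap A B a))}.Finite ∧
    ∑ᶠ v ∈ {v : Place K F | (∀ b : B, algebraMap B F b ∈ v.toValuationSubring) ∧
        0 < v.ord (algebraMap B F (algebraMap A B a))}, v.ord (algebraMap B F (algebraMap A B a))
      = (Module.finrank A B : ℤ) := by
  classical
  set p : Ideal A := Ideal.span {a} with hp
  have hp0 : p ≠ ⊥ := by rw [hp, Ne, Ideal.span_singleton_eq_bot]; exact ha
  have hsum := Ideal.sum_ramification_inertia_eq_finrank p B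
  -- `a` as an element of `B`
  set xB : B := algebraMap A B a with hxB
  set x : F := algebraMap B F xB with hx
  have hxB0 : xB ≠ 0 := by
    rw [hxB, Ne, FaithfulSMul.algebraMap_eq_zero_iff]; exact ha
  have hpmap : p.map (algebraMap A B) = Ideal.span {xB} := by
    rw [hp, Ideal.map_span, Set.image_singleton]
  have hpmap0 : p.map (algebraMap A B) ≠ ⊥ := by
    rw [hpmap, Ne, Ideal.span_singleton_eq_bot]; exact hxB0
  -- the place attached to a prime over `p`
  have hq0 : ∀ q : p.primesOver B, q.1 ≠ ⊥ := fun q =>
    Ideal.ne_bot_of_mem_primesOver hp0 q.2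
  let W : p.primesOver B → HeightOneSpectrum B := fun q => ⟨q.1, q.2.1, hq0 q⟩
  let Φ : p.primesOver B → Place K F := fun q => Place.ofHeightOneSpectrum (K := K) (W q)
  have hΦinj : Function.Injective Φ := by
    intro q q' h
    have := dict_ofHeightOneSpectrum_injective (K := K) (F := F) h
    exact Subtype.ext (congrArg HeightOneSpectrum.asIdeal this)
  -- ord of x at Φ q is the ramification index
  have hord : ∀ q : p.primesOver B, (Φ q).ord x = (q.1.ramificationIdx A : ℤ) := by
    intro q
    have h1 := Ideal.IsDedekindDomain.ramificationIdx_eq_multiplicity p q.1 hpmap0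
    rw [hpmap] at h1
    have h2 : (W q).valuation F x = exp (-(multiplicity q.1 (Ideal.span {xB}) : ℤ)) := by
      have h3 : (W q).valuation F (algebraMap B F xB) = _ :=
        HeightOneSpectrum.valuation_of_algebraMap (W q) xB
      rw [(W q).intValuation_eq_exp_neg_multiplicity hxB0] at h3
      exact h3
    rw [dict_ord_ofHeightOneSpectrum, h2, log_exp, neg_neg, h1]
  -- membership of `xB` in primes over `p`
  have hxq : ∀ q : p.primesOver B, xB ∈ q.1 := by
    intro q
    have hlies : q.1.LiesOver p := q.2.2
    have : a ∈ q.1.under A := by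
      rw [← Ideal.over_def q.1 p]
      exact Ideal.subset_span (Set.mem_singleton _)
    exact this
  -- range of Φ
  have hrange : Set.range Φ = {v : Place K F | (∀ b : B, algebraMap B F b ∈ v.toValuationSubring) ∧
        0 < v.ord x} := by
    ext v
    constructor
    · rintro ⟨q, rfl⟩
      refine ⟨fun b => (W q).valuation_le_one b, ?_⟩
      have h1 := (mem_asIdeal_iff_ord_pos (K := K) (F := F) (W q) xB).mp (hxq q)
      rcases h1 with h1 | h1
      · exact absurd h1 hxB0
      · exact h1
    · rintro ⟨hvB, hv'⟩
      obtain ⟨w, hw⟩ := exists_eq_ofHeightOneSpectrum (K := K) (F := F) (R := B) v hvB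
      have hxw : xB ∈ w.asIdeal := by
        rw [mem_asIdeal_iff_ord_pos (K := K) (F := F), ← hw]
        exact Or.inr hv'
      have hlies : w.asIdeal.LiesOver p := by
        constructor
        have hle : p ≤ w.asIdeal.under A := by
          rw [hp, Ideal.span_le, Set.singleton_subset_iff]
          exact hxw
        exact hmax.eq_of_le (Ideal.IsPrime.under A w.asIdeal).ne_top hle
      refine ⟨⟨w.asIdeal, w.isPrime, hlies⟩, ?_⟩
      rw [hw]
  -- inertia degrees are one
  have hinert : ∀ q : p.primesOver B, q.1.inertiaDeg A = 1 := by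
    intro q
    have hlies : q.1.LiesOver p := q.2.2
    have hqprime : q.1.IsPrime := q.2.1
    have hqmax : q.1.IsMaximal := Ideal.IsPrime.isMaximal hqprime (hq0 q)
    refine inertiaDeg_eq_one_of_forall p q.1 ?_
    intro b
    have hbmem : algebraMap B F b ∈ (Φ q).toValuationSubring :=
      (W q).valuation_le_one b
    obtain ⟨c, hc⟩ := hres (Φ q) _ hbmem
    refine ⟨algebraMap K A c, ?_⟩
    show algebraMap A B (algebraMap K A c) - b ∈ (W q).asIdeal
    rw [mem_asIdeal_iff_ord_pos (K := K) (F := F)]
    have hF : algebraMap B F (algebraMap A B (algebraMap K A c) - b) =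
        algebraMap K F c - algebraMap B F b := by
      rw [map_sub, ← IsScalarTower.algebraMap_apply K A B, ← IsScalarTower.algebraMap_apply K B F]
    rcases hc with hc | hc
    · left
      apply IsFractionRing.injective B F
      rw [hF, hc, sub_self, map_zero]
    · right
      rw [hF, ← ord_neg, neg_sub]
      exact hc
  rw [← hrange]
  constructor
  · exact Set.finite_range Φ
  · have h2 : ∑ᶠ q : p.primesOver B, (Φ q).ord x = ∑ q : p.primesOver B, (Φ q).ord x :=
      finsum_eq_sum_of_fintype _
    rw [finsum_mem_range hΦinj, h2, ← hsum, Nat.cast_sum]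
    refine Finset.sum_congr rfl fun q _ => ?_
    rw [hord q, hinert q, mul_one]

end Fermat.Agent.X0.FF

namespace Fermat.Agent.X0.FF

variable {K F : Type*} [Field K] [Field F] [Algebra K F]

section Setup

variable (K) (x : F)

/-- the polynomial ring `K[x] ⊆ F` -/
abbrev polyRing : Subalgebra K F := Algebra.adjoin K {x}

/-- the integral closure of `K[x]` in `F` -/
abbrev intRing : Subalgebra (polyRing K x) F := integralClosure (polyRing K x) F

/-- `x` as an element of `K[x]` -/
abbrev genA : polyRing K x := ⟨x, Algebra.self_mem_adjoin_singleton K x⟩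

variable {K x}

theorem isPrincipalIdealRing_polyRing (hx : Transcendental K x) :
    IsPrincipalIdealRing (polyRing K x) :=
  IsPrincipalIdealRing.of_surjective
    (Polynomial.algEquivOfTranscendental K x hx).toRingEquiv.toRingHom
    (Polynomial.algEquivOfTranscendental K x hx).surjective

end Setup

end Fermat.Agent.X0.FF

namespace Fermat.Agent.X0.FF

variable {K F : Type*} [Field K] [Field F] [Algebra K F] [CharZero K] {x : F}

theorem isDedekindDomain_intRing (hx : IsGen K x) : IsDedekindDomain (intRing K x) := by
  have := hx.finite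
  have := isPrincipalIdealRing_polyRing hx.transcendental
  have : CharZero K⟮x⟯ := charZero_of_injective_algebraMap (algebraMap K K⟮x⟯).injective
  have : Algebra.IsSeparable K⟮x⟯ F := Algebra.IsAlgebraic.isSeparable_of_perfectField
  exact integralClosure.isDedekindDomain (polyRing K x) K⟮x⟯ F

omit [CharZero K] in
theorem isFractionRing_intRing (hx : IsGen K x) : IsFractionRing (intRing K x) F := by
  have := hx.finite
  exact integralClosure.isFractionRing_of_finite_extension K⟮x⟯ F

theorem finite_intRing (hx : IsGen K x) : Module.Finite (polyRing K x) (intRing K x) := by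
  have := hx.finite
  have := isPrincipalIdealRing_polyRing hx.transcendental
  have : CharZero K⟮x⟯ := charZero_of_injective_algebraMap (algebraMap K K⟮x⟯).injective
  have : Algebra.IsSeparable K⟮x⟯ F := Algebra.IsAlgebraic.isSeparable_of_perfectField
  exact IsIntegralClosure.finite (polyRing K x) K⟮x⟯ F (intRing K x)

omit [CharZero K] in
theorem finrank_intRing (hx : IsGen K x) :
    Module.finrank (polyRing K x) (intRing K x) = Module.finrank K⟮x⟯ F := by
  have := isFractionRing_intRing hx
  exact (IsFractionRing.finrank_eq (polyRing K x) K⟮x⟯ (intRing K x) F).symm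

end Fermat.Agent.X0.FF

namespace Fermat.Agent.X0.FF

variable {K F : Type*} [Field K] [Field F] [Algebra K F] {x : F}

/-- the ideal `(x)` of `K[x]` -/
abbrev idealX (K : Type*) {F : Type*} [Field K] [Field F] [Algebra K F] (x : F) :
    Ideal (polyRing K x) := Ideal.span {genA K x}

theorem genA_ne_zero (hx : Transcendental K x) : genA K x ≠ 0 := by
  intro h
  apply hx
  have : x = 0 := congrArg Subtype.val h
  rw [this]
  exact isAlgebraic_zero

theorem idealX_ne_bot (hx : Transcendental K x) : idealX K x ≠ ⊥ := by
  rw [Ne, Ideal.span_singleton_eq_bot]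
  exact genA_ne_zero hx

theorem idealX_isMaximal (hx : Transcendental K x) : (idealX K x).IsMaximal := by
  let e := Polynomial.algEquivOfTranscendental K x hx
  have he : e X = genA K x := by
    ext
    simp [e]
  have h1 : (Ideal.span {(X : K[X])}).IsMaximal := by
    have := isPrincipalIdealRing_polyRing hx
    exact PrincipalIdealRing.isMaximal_of_irreducible Polynomial.irreducible_X
  have h2 : idealX K x = Ideal.map e.toRingEquiv (Ideal.span {(X : K[X])}) := by
    rw [Ideal.map_span, Set.image_singleton]
    show Ideal.span {genA K x} = Ideal.span {e X}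
    rw [he]
  rw [h2]
  exact Ideal.map_isMaximal_of_equiv e.toRingEquiv

end Fermat.Agent.X0.FF

namespace Fermat.Agent.X0.FF

variable {K F : Type*} [Field K] [Field F] [Algebra K F] {x : F}

/-- if `x ∈ O_v` then the integral closure of `K[x]` is contained in `O_v` -/
theorem intRing_le_of_mem (v : Place K F) (hxv : x ∈ v.toValuationSubring)
    (b : intRing K x) : algebraMap (intRing K x) F b ∈ v.toValuationSubring := by
  have hA : ∀ a : polyRing K x, algebraMap (polyRing K x) F a ∈ v.toValuationSubring.toSubring := by
    intro a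
    have h1 : Algebra.adjoin K {x} ≤ placeSubalgebra v :=
      Algebra.adjoin_le (by simpa using hxv)
    exact h1 a.2
  let _ : Algebra (polyRing K x) v.toValuationSubring :=
    ((algebraMap (polyRing K x) F).codRestrict v.toValuationSubring.toSubring hA).toAlgebra
  have : IsScalarTower (polyRing K x) v.toValuationSubring F :=
    IsScalarTower.of_algebraMap_eq fun f => rfl
  have hb : IsIntegral (polyRing K x) (algebraMap (intRing K x) F b) := b.2
  have hb' : IsIntegral v.toValuationSubring (algebraMap (intRing K x) F b) := hb.tower_top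
  obtain ⟨z, hz⟩ := IsIntegrallyClosed.isIntegral_iff.mp hb'
  exact hz ▸ z.2

end Fermat.Agent.X0.FF

namespace Fermat.Agent.X0.FF

variable {K F : Type*} [Field K] [Field F] [Algebra K F] [IsAlgClosed K] [CharZero K] {x : F}

theorem zeros_aux (hx : IsGen K x) :
    {v : Place K F | 0 < v.ord x}.Finite ∧
    ∑ᶠ (v : Place K F) (_ : 0 < v.ord x), v.ord x = (Module.finrank K⟮x⟯ F : ℤ) := by
  have := hx.finite
  have hPID := isPrincipalIdealRing_polyRing hx.transcendental
  have hDedB := isDedekindDomain_intRing hx
  have hFracB := isFractionRing_intRing hx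
  have hFinB := finite_intRing hx
  have hfaith : FaithfulSMul (polyRing K x) (intRing K x) :=
    (faithfulSMul_iff_algebraMap_injective _ _).mpr
      (fun a b h => Subtype.ext (congrArg (fun z : intRing K x => (z : F)) h))
  have key := sum_ord_of_dedekind (K := K) (F := F) (A := polyRing K x) (B := intRing K x)
    (genA K x) (genA_ne_zero hx.transcendental) (idealX_isMaximal hx.transcendental)
    (fun v f hf => exists_ord_sub_pos hx v hf)
  have hset : {v : Place K F | (∀ b : intRing K x,
        algebraMap (intRing K x) F b ∈ v.toValuationSubring) ∧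
      0 < v.ord (algebraMap (intRing K x) F (algebraMap (polyRing K x) (intRing K x) (genA K x)))}
      = {v : Place K F | 0 < v.ord x} := by
    ext v
    constructor
    · exact fun h => h.2
    · intro hv
      have hv' : 0 < v.ord x := hv
      exact ⟨intRing_le_of_mem v (mem_of_ord_nonneg v hv'.le), hv'⟩
  rw [hset, finrank_intRing hx] at key
  exact key

end Fermat.Agent.X0.FF

namespace Fermat.Agent.X0.FF

variable {K F : Type*} [Field K] [Field F] [Algebra K F] [IsAlgClosed K] [CharZero K] {x : F}

/-- the zeros of a transcendental generator are finite in number -/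
theorem finite_zeros (hx : IsGen K x) : {v : Place K F | 0 < v.ord x}.Finite := (zeros_aux hx).1

/-- **fundamental identity**: the orders of the zeros of `x` sum to `[F : K(x)]` -/
theorem sum_ord_zeros (hx : IsGen K x) :
    ∑ᶠ (v : Place K F) (_ : 0 < v.ord x), v.ord x = (Module.finrank K⟮x⟯ F : ℤ) :=
  (zeros_aux hx).2

omit [IsAlgClosed K] [CharZero K] in
theorem adjoin_sub_algebraMap (x : F) (c : K) : K⟮x - algebraMap K F c⟯ = K⟮x⟯ := by
  apply le_antisymm
  · rw [adjoin_simple_le_iff]
    exact sub_mem (mem_adjoin_simple_self K x) (IntermediateField.algebraMap_mem _ c)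
  · rw [adjoin_simple_le_iff]
    have h1 : x - algebraMap K F c ∈ K⟮x - algebraMap K F c⟯ := mem_adjoin_simple_self K _
    have h2 : algebraMap K F c ∈ K⟮x - algebraMap K F c⟯ := IntermediateField.algebraMap_mem _ c
    have := add_mem h1 h2
    rwa [sub_add_cancel] at this

omit [IsAlgClosed K] [CharZero K] in
theorem adjoin_inv (x : F) : K⟮x⁻¹⟯ = K⟮x⟯ := by
  apply le_antisymm
  · rw [adjoin_simple_le_iff]
    exact inv_mem (mem_adjoin_simple_self K x)
  · rw [adjoin_simple_le_iff]
    have h1 : x⁻¹ ∈ K⟮x⁻¹⟯ := mem_adjoin_simple_self K _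
    have := inv_mem h1
    rwa [inv_inv] at this

omit [IsAlgClosed K] [CharZero K] in
theorem IsGen.sub_algebraMap (hx : IsGen K x) (c : K) : IsGen K (x - algebraMap K F c) := by
  refine ⟨?_, ?_⟩
  · intro h
    apply hx.transcendental
    have := h.add (isAlgebraic_algebraMap (R := K) (A := F) c)
    rwa [sub_add_cancel] at this
  · rw [adjoin_sub_algebraMap]
    exact hx.finite

omit [IsAlgClosed K] [CharZero K] in
theorem IsGen.inv (hx : IsGen K x) : IsGen K x⁻¹ := by
  refine ⟨?_, ?_⟩
  · intro h
    apply hx.transcendental
    have := h.inv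
    rwa [inv_inv] at this
  · rw [adjoin_inv]
    exact hx.finite

theorem finite_fibre (hx : IsGen K x) (c : K) :
    {v : Place K F | 0 < v.ord (x - algebraMap K F c)}.Finite :=
  finite_zeros (hx.sub_algebraMap c)

theorem sum_ord_fibre (hx : IsGen K x) (c : K) :
    ∑ᶠ (v : Place K F) (_ : 0 < v.ord (x - algebraMap K F c)), v.ord (x - algebraMap K F c)
      = (Module.finrank K⟮x⟯ F : ℤ) := by
  rw [sum_ord_zeros (hx.sub_algebraMap c), adjoin_sub_algebraMap]

theorem finite_poles (hx : IsGen K x) : {v : Place K F | v.ord x < 0}.Finite := by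
  have := finite_zeros hx.inv
  convert this using 3 with v
  rw [v.ord_inv]
  omega

theorem sum_ord_poles (hx : IsGen K x) :
    ∑ᶠ (v : Place K F) (_ : v.ord x < 0), -v.ord x = (Module.finrank K⟮x⟯ F : ℤ) := by
  have := sum_ord_zeros hx.inv
  rw [adjoin_inv] at this
  rw [← this]
  refine finsum_congr fun v => ?_
  rw [v.ord_inv]
  have : (v.ord x < 0) = (0 < -v.ord x) := by
    apply propext; constructor <;> intro h <;> omega
  rw [this]

end Fermat.Agent.X0.FF
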