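/-
PROGRAM C / C-F1 (FF4 wrapper, helper21): Riemann–Hurwitz and the genus formula for a function
field in one variable `F / K` (`K` algebraically closed of characteristic zero) with a
transcendental generator `x` (`IsGen K x`), hypothesis-free: plugs FF1 (helper6: `FFConst`,
`FFSum`), FF2 (helper17: `FFPrincipal`) and FF3 (helper18: `FFDiff`) into `FFGenusCore`.
-/
import Mathlib
import Fermat.Agent.X0.FFGenusCore
import Fermat.Agent.X0.FFSum
import Fermat.Agent.X0.FFPrincipal
import Fermat.Agent.X0.FFDiff

set_option autoImplicit false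
set_option linter.unusedSectionVars false

open AlgebraicCurve IntermediateField KaehlerDifferential Fermat.Agent.X0.FF

namespace Fermat.Agent.X0.FFGenus

variable {K F : Type*} [Field K] [Field F] [Algebra K F] [IsAlgClosed K] [CharZero K] {x : F}

/-- The FF1 interface holds as soon as `F` has one transcendental generator. -/
theorem ff1Data (hx : IsGen K x) : FF1Data K F where
  isGen_of_transcendental := fun _ hy => hx.of_transcendental hy
  eq_algebraMap_of_isAlgebraic := fun _ hy => eq_algebraMap_of_isAlgebraic hy
  deg_eq_one := fun v => deg_eq_one hx v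
  finite_zeros := fun _ hy => finite_zeros hy
  sum_ord_zeros := fun _ hy => sum_ord_zeros hy
  finite_poles := fun _ hy => finite_poles hy
  sum_ord_poles := fun _ hy => sum_ord_poles hy

/-- The FF1/FF2/FF3 interface consumed by `FFGenusCore`. -/
theorem genusHyp (hx : IsGen K x) : GenusHyp K x where
  transcendental := hx.transcendental
  deg_eq_one := fun v => deg_eq_one hx v
  exists_ord_sub_pos := fun v _ hf => exists_ord_sub_pos hx v hf
  finite_fibre := fun c => finite_fibre hx c
  sum_ord_fibre := fun c => sum_ord_fibre hx c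
  finite_poles := finite_poles hx
  sum_ord_poles := sum_ord_poles hx
  finite_support_ord := fun _ hf => ffq_finite_support_ord (ff1Data hx) hf
  degree_eq_zero_of_principal := fun _ hf D hD =>
    ffq_degree_eq_zero_of_principal (ff1Data hx) hf D hD
  span_D_eq_top := span_D_eq_top hx
  D_ne_zero := D_ne_zero hx
  ordDifferential_D_of_ord_ne_zero := fun v _ hy => ordDifferential_D_of_ord_ne_zero hx v hy
  ordDifferential_smul' := fun v _ hg _ hω => ordDifferential_smul' hx v hg hω

/-- `F / K` has principal divisors (FF2). -/
theorem hasPrincipalDivisors (hx : IsGen K x) : HasPrincipalDivisors K F :=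
  ffq_hasPrincipalDivisors (ff1Data hx)

/-- **Riemann–Hurwitz**: the degree of the divisor of a nonzero differential, in terms of the
fibres of `x` over a finite set `S` containing all finite branch values. -/
theorem degree_canonical (hx : IsGen K x) {ω : Ω[F⁄K]} (hω : ω ≠ 0) (D : Divisor K F)
    (hD : ∀ v, D v = v.ordDifferential ω) (S : Finset K)
    (hS : ∀ c ∉ S, ∀ v : Place K F, 0 < v.ord (x - algebraMap K F c) →
      v.ord (x - algebraMap K F c) = 1) :
    Divisor.degree D = ∑ c ∈ S, ((Module.finrank K⟮x⟯ F : ℤ) -
        Nat.card {v : Place K F // 0 < v.ord (x - algebraMap K F c)})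
      - (Module.finrank K⟮x⟯ F : ℤ) - Nat.card {v : Place K F // v.ord x < 0} :=
  (genusHyp hx).degree_canonical hω D hD S hS

/-- The genus of `F / K` from the ramification data of `x`. -/
theorem genus_eq (hx : IsGen K x) [HasCanonicalDivisor (K := K) (F := F)] (S : Finset K)
    (hS : ∀ c ∉ S, ∀ v : Place K F, 0 < v.ord (x - algebraMap K F c) →
      v.ord (x - algebraMap K F c) = 1) :
    genus K F = ((∑ c ∈ S, ((Module.finrank K⟮x⟯ F : ℤ) -
        Nat.card {v : Place K F // 0 < v.ord (x - algebraMap K F c)})
      - (Module.finrank K⟮x⟯ F : ℤ) - Nat.card {v : Place K F // v.ord x < 0}) + 2).toNat / 2 :=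
  (genusHyp hx).genus_eq S hS

/-- There is a nonzero differential. -/
theorem exists_differential_ne_zero (hx : IsGen K x) : ∃ ω : Ω[F⁄K], ω ≠ 0 :=
  ⟨D K F x, D_ne_zero hx⟩

/-- The degree of the canonical divisor of ANY nonzero differential (the shape consumed by
`GNGenus.gn_genus_eq_genusFormula`). -/
theorem degree_canonicalDivisorOf (hx : IsGen K x) [HasCanonicalDivisor (K := K) (F := F)]
    {ω : Ω[F⁄K]} (hω : ω ≠ 0) (S : Finset K)
    (hS : ∀ c ∉ S, ∀ v : Place K F, 0 < v.ord (x - algebraMap K F c) →
      v.ord (x - algebraMap K F c) = 1) :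
    Divisor.degree (canonicalDivisorOf hω) = ∑ c ∈ S, ((Module.finrank K⟮x⟯ F : ℤ) -
        Nat.card {v : Place K F // 0 < v.ord (x - algebraMap K F c)})
      - (Module.finrank K⟮x⟯ F : ℤ) - Nat.card {v : Place K F // v.ord x < 0} :=
  degree_canonical hx hω _ (fun v => canonicalDivisorOf_apply hω v) S hS

end Fermat.Agent.X0.FFGenus
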