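/-
Program C (S24 and friends): shared definitions for the analytic side.
Keep this file SMALL and STABLE: everybody imports it.
-/
import Mathlib
import Fermat.Prelude.Def_ModularCurve_ArithmeticGalois
import Fermat.Prelude.Def_ModularCurve_GenusNumerics

set_option autoImplicit false

open UpperHalfPlane ModularForm EisensteinSeries
open scoped MatrixGroups

noncomputable section

namespace Fermat.Agent.X0

/-- The field of constants `K = ℚbar`. -/
abbrev Kbar : Type := AlgebraicClosure ℚ

/-- A fixed embedding `ℚbar → ℂ`. -/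
def iotaK : Kbar →+* ℂ :=
  haveI : Algebra.IsAlgebraic ℚ Kbar := AlgebraicClosure.isAlgebraic ℚ
  (IsAlgClosed.lift (R := ℚ) (M := ℂ) (S := Kbar) : Kbar →ₐ[ℚ] ℂ).toRingHom

theorem iotaK_injective : Function.Injective iotaK := iotaK.injective

/-- The analytic `j`-function `E₄³ / Δ` on the upper half plane. -/
def jFun (z : ℍ) : ℂ := (E₄ z) ^ 3 / ModularForm.discriminant z

/-- The point `i`. -/
abbrev ptI : ℍ := UpperHalfPlane.I

/-- The point `ρ = e^{2πi/3} = (-1 + i√3)/2`. -/
def ptRho : ℍ := ⟨⟨-1 / 2, Real.sqrt 3 / 2⟩, by simp⟩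

/-- The local ramification order of `j` at `z`: `3` on the orbit of `ρ`, `2` on the orbit of `i`,
`1` elsewhere. -/
def ellOrder (z : ℍ) : ℕ :=
  open scoped Classical in
  if ∃ γ : SL(2, ℤ), γ • ptRho = z then 3 else if ∃ γ : SL(2, ℤ), γ • ptI = z then 2 else 1

/-- The formal `j` as an element of `ℚbar((q))`. -/
def jqK : LaurentSeries Kbar := ModularCurve.coeffEmb Kbar ModularCurve.jq

end Fermat.Agent.X0
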