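/-
Program C: shared definitions for the analytic/formal bridge (C-F2, C-P1).
Keep this file SMALL and STABLE: everybody imports it.
-/
import Fermat.Agent.X0.Defs

set_option autoImplicit false

open UpperHalfPlane ModularForm EisensteinSeries
open scoped MatrixGroups Manifold

noncomputable section

namespace Fermat.Agent.X0

/-- The `ℂ`-algebra of holomorphic functions on the upper half plane. -/
def HolH : Subalgebra ℂ (ℍ → ℂ) where
  carrier := {f | MDifferentiable 𝓘(ℂ) 𝓘(ℂ) f}
  mul_mem' := fun {f g} hf hg => MDifferentiable.mul hf hg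
  one_mem' := mdifferentiable_const
  add_mem' := fun {f g} hf hg => MDifferentiable.add hf hg
  zero_mem' := mdifferentiable_const
  algebraMap_mem' := fun _ => mdifferentiable_const

theorem mem_HolH {f : ℍ → ℂ} : f ∈ HolH ↔ MDifferentiable 𝓘(ℂ) 𝓘(ℂ) f := Iff.rfl

/-- The order of vanishing of a function on `ℍ` at a point `z₀` (`⊤` iff identically zero near
`z₀`; junk `0`... for non-analytic functions as in Mathlib's `analyticOrderAt`). -/
def ordH (f : ℍ → ℂ) (z₀ : ℍ) : ℕ∞ := analyticOrderAt (f ∘ ofComplex) (z₀ : ℂ)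

/-- Precomposition with the action of `γ ∈ SL(2, ℤ)`. -/
def compSL (f : ℍ → ℂ) (γ : SL(2, ℤ)) : ℍ → ℂ := fun z => f (γ • z)

/-- Scaling `z ↦ d z` on the upper half plane. -/
def scaleH (d : ℕ) [NeZero d] (z : ℍ) : ℍ :=
  ⟨(d : ℂ) * z, by
    have hd : 0 < (d : ℝ) := by exact_mod_cast Nat.pos_of_ne_zero (NeZero.ne d)
    have : ((d : ℂ) * (z : ℂ)).im = d * z.im := by simp
    rw [this]
    exact mul_pos hd z.im_pos⟩

@[simp] theorem coe_scaleH (d : ℕ) [NeZero d] (z : ℍ) : (scaleH d z : ℂ) = (d : ℂ) * z := rfl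

/-- The analytic function `z ↦ j(d z)`. -/
def jdFun (d : ℕ) [NeZero d] : ℍ → ℂ := fun z => jFun (scaleH d z)

/-- The parameter `q_h(z) = exp(2 π i z / h)`. -/
def qh (h : ℕ) (z : ℍ) : ℂ := Function.Periodic.qParam (h : ℝ) (z : ℂ)

/-- `f` has the `q_h`-expansion `q_h^{-m} * P(q_h)` on ALL of `ℍ` (absolutely convergent since it
is a power series in `q_h`, `‖q_h‖ < 1`). -/
def IsQExp (h : ℕ) (f : ℍ → ℂ) (m : ℕ) (P : PowerSeries ℂ) : Prop :=
  ∀ z : ℍ, HasSum (fun n : ℕ => PowerSeries.coeff n P * qh h z ^ n) (f z * qh h z ^ m)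

/-- The Laurent series `q^{-m} P` attached to an expansion datum. -/
def laurentOf {R : Type*} [CommRing R] (m : ℕ) (P : PowerSeries R) : LaurentSeries R :=
  HahnSeries.single (-(m : ℤ)) (1 : R) * HahnSeries.ofPowerSeries ℤ R P

section FormalSide

variable (N : ℕ) [NeZero N]

/-- The function field `F = ℚbar(j(q^d) : d ∣ N) ⊆ ℚbar((q))` of the Prelude. -/
abbrev FF : Type := ↥(ModularCurve.modularFunctionFieldBar N)

/-- The formal `j(q^d)` as an element of `F`, for `d ∣ N`. -/
def jdF (d : ℕ) [NeZero d] (hd : d ∣ N) : FF N :=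
  ⟨ModularCurve.coeffEmb Kbar (ModularCurve.qExpand ℚ d ModularCurve.jq),
    ModularCurve.coeffEmb_mem_laurentBaseChange Kbar (ModularCurve.jqd_mem_full N hd)⟩

/-- The formal `j` as an element of `F`. -/
def jF : FF N := jdF N 1 (one_dvd N)

/-- The generators `j_d`, `d ∣ N`, of `F`. -/
def genSet : Set (FF N) := {x | ∃ (d : ℕ) (_ : NeZero d) (hd : d ∣ N), x = jdF N d hd}

/-- The `ℚbar`-subalgebra `R = ℚbar[j_d : d ∣ N]` of `F`. -/
def Rsub : Subalgebra Kbar (FF N) := Algebra.adjoin Kbar (genSet N)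

/-- The subfield `ℚbar(j)` of `F`. -/
def Kj : IntermediateField Kbar (FF N) := IntermediateField.adjoin Kbar {jF N}

end FormalSide

end Fermat.Agent.X0
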