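/-
C-J1a (helper19): formal <-> analytic bridge for the `q`-expansion of `j`.
Taylor power series on the unit disc, the eta product, `E₄`, `Δ` and `q * j`.
-/
import Mathlib.NumberTheory.ModularForms.Discriminant
import Mathlib.NumberTheory.ModularForms.EisensteinSeries.QExpansion
import Mathlib.NumberTheory.ModularForms.LevelOne.Basic
import Fermat.Prelude.Def_ModularCurve_X0

set_option autoImplicit false

noncomputable section

namespace Fermat.Agent.X0.JQExp

open Filter Topology Complex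
open scoped Nat
open scoped PowerSeries.WithPiTopology

/-! ### Taylor power series at `0` -/

/-- The Taylor power series at `0` of a function `ℂ → ℂ`. -/
def tps (f : ℂ → ℂ) : PowerSeries ℂ :=
  PowerSeries.mk fun m => ((m ! : ℕ) : ℂ)⁻¹ * iteratedDeriv m f 0

lemma tps_coeff (f : ℂ → ℂ) (m : ℕ) :
    PowerSeries.coeff m (tps f) = ((m ! : ℕ) : ℂ)⁻¹ * iteratedDeriv m f 0 := by
  simp [tps]

lemma tps_congr {f g : ℂ → ℂ} (h : f =ᶠ[𝓝 0] g) : tps f = tps g := by
  ext m
  rw [tps_coeff, tps_coeff, h.iteratedDeriv_eq m]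

lemma tps_mul {f g : ℂ → ℂ} (hf : AnalyticAt ℂ f 0) (hg : AnalyticAt ℂ g 0) :
    tps (f * g) = tps f * tps g := by
  ext m
  simp only [tps_coeff, iteratedDeriv_mul hf.contDiffAt hg.contDiffAt, Finset.mul_sum,
    PowerSeries.coeff_mul, Finset.Nat.sum_antidiagonal_eq_sum_range_succ_mk, Nat.succ_eq_add_one]
  refine Finset.sum_congr rfl fun i hi ↦ ?_
  rw [Nat.cast_choose _ (by grind)]
  field_simp [Nat.factorial_ne_zero]

lemma tps_add {f g : ℂ → ℂ} (hf : AnalyticAt ℂ f 0) (hg : AnalyticAt ℂ g 0) :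
    tps (f + g) = tps f + tps g := by
  ext m
  simp [tps_coeff, iteratedDeriv_add hf.contDiffAt hg.contDiffAt, mul_add]

lemma tps_sub {f g : ℂ → ℂ} (hf : AnalyticAt ℂ f 0) (hg : AnalyticAt ℂ g 0) :
    tps (f - g) = tps f - tps g := by
  ext m
  simp [tps_coeff, iteratedDeriv_sub hf.contDiffAt hg.contDiffAt, mul_sub]

lemma tps_const (c : ℂ) : tps (fun _ => c) = PowerSeries.C c := by
  ext m
  rw [tps_coeff, iteratedDeriv_const, PowerSeries.coeff_C]
  split_ifs with h
  · subst h; simp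
  · simp

lemma tps_one : tps (1 : ℂ → ℂ) = 1 := by
  have := tps_const 1
  simpa [Pi.one_def] using this

lemma tps_monomial (m : ℕ) : tps (fun q : ℂ => q ^ m) = PowerSeries.X ^ m := by
  ext n
  rw [tps_coeff, iteratedDeriv_fun_pow_zero, PowerSeries.coeff_X_pow]
  split_ifs with h
  · subst h
    have : ((n ! : ℕ) : ℂ) ≠ 0 := by exact_mod_cast Nat.factorial_ne_zero n
    field_simp
  · simp

lemma tps_pow {f : ℂ → ℂ} (hf : AnalyticAt ℂ f 0) (k : ℕ) : tps (f ^ k) = tps f ^ k := by
  induction k with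
  | zero => simpa using tps_one
  | succ k ih => rw [pow_succ, pow_succ, tps_mul (hf.pow k) hf, ih]

lemma tps_finset_prod {ι : Type*} (s : Finset ι) (f : ι → ℂ → ℂ)
    (hf : ∀ i ∈ s, AnalyticAt ℂ (f i) 0) :
    tps (∏ i ∈ s, f i) = ∏ i ∈ s, tps (f i) := by
  classical
  induction s using Finset.induction_on with
  | empty => simpa using tps_one
  | insert a s ha ih =>
    rw [Finset.prod_insert ha, Finset.prod_insert ha,
      tps_mul (hf a (Finset.mem_insert_self a s))
        (Finset.analyticAt_prod _ fun i hi => hf i (Finset.mem_insert_of_mem hi)),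
      ih fun i hi => hf i (Finset.mem_insert_of_mem hi)]

/-- A function differentiable on the open unit disc is the sum of its Taylor series there. -/
lemma hasSum_tps {f : ℂ → ℂ} (hf : DifferentiableOn ℂ f (Metric.ball 0 1)) {q : ℂ}
    (hq : ‖q‖ < 1) : HasSum (fun m : ℕ => PowerSeries.coeff m (tps f) * q ^ m) (f q) := by
  have := hasSum_taylorSeries_on_ball hf (z := q) (by simpa using hq)
  refine this.congr_fun fun m => ?_
  rw [tps_coeff, sub_zero, smul_eq_mul, smul_eq_mul]
  ring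

lemma analyticAt_of_differentiableOn_ball {f : ℂ → ℂ}
    (hf : DifferentiableOn ℂ f (Metric.ball 0 1)) {q : ℂ} (hq : ‖q‖ < 1) : AnalyticAt ℂ f q :=
  hf.analyticAt (Metric.isOpen_ball.mem_nhds (by simpa using hq))

/-! ### Taylor coefficients of locally uniform limits -/

lemma tendstoLocallyUniformlyOn_iteratedDeriv {ι : Type*} {l : Filter ι} [l.NeBot] {U : Set ℂ}
    (hU : IsOpen U) (k : ℕ) :
    ∀ {F : ι → ℂ → ℂ} {f : ℂ → ℂ}, TendstoLocallyUniformlyOn F f l U →
      (∀ᶠ n in l, DifferentiableOn ℂ (F n) U) →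
      TendstoLocallyUniformlyOn (fun n => iteratedDeriv k (F n)) (iteratedDeriv k f) l U := by
  induction k with
  | zero =>
    intro F f hf _
    simpa [iteratedDeriv_zero] using hf
  | succ k ih =>
    intro F f hf hF
    have h1 := hf.deriv hF hU
    have h2 : ∀ᶠ n in l, DifferentiableOn ℂ ((deriv ∘ F) n) U := by
      filter_upwards [hF] with n hn using hn.deriv hU
    have h3 := ih h1 h2
    simpa only [iteratedDeriv_succ', Function.comp_def] using h3

/-- Taylor coefficients at `0` pass to locally uniform limits on the unit disc. -/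
lemma tendsto_tps_coeff {ι : Type*} {l : Filter ι} [l.NeBot] {F : ι → ℂ → ℂ} {f : ℂ → ℂ}
    (hf : TendstoLocallyUniformlyOn F f l (Metric.ball 0 1))
    (hF : ∀ᶠ n in l, DifferentiableOn ℂ (F n) (Metric.ball 0 1)) (k : ℕ) :
    Tendsto (fun n => PowerSeries.coeff k (tps (F n))) l (𝓝 (PowerSeries.coeff k (tps f))) := by
  have h := (tendstoLocallyUniformlyOn_iteratedDeriv Metric.isOpen_ball k hf hF).tendsto_at
    (Metric.mem_ball_self one_pos)
  simp only [tps_coeff]
  exact h.const_mul _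

/-! ### The eta product -/

/-- The analytic eta product `∏ (1 - q ^ (n + 1))` on the unit disc. -/
def etaFun (q : ℂ) : ℂ := ∏' n : ℕ, (1 - q ^ (n + 1))

lemma differentiableOn_etaFun : DifferentiableOn ℂ etaFun (Metric.ball 0 1) :=
  ModularForm.differentiableOn_tprod_one_sub_pow

lemma etaFun_ne_zero {q : ℂ} (hq : ‖q‖ < 1) : etaFun q ≠ 0 := by
  refine tprod_one_add_ne_zero_of_summable (f := fun n => -q ^ (n + 1)) ?_ ?_ |> fun h => by
    simpa [etaFun, sub_eq_add_neg] using h
  · intro i h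
    have h1 : q ^ (i + 1) = 1 := by
      have : 1 + -q ^ (i + 1) = 0 := h
      linear_combination -this
    have h2 : ‖q‖ ^ (i + 1) = 1 := by rw [← norm_pow, h1, norm_one]
    have h3 : ‖q‖ ^ (i + 1) < 1 := pow_lt_one₀ (norm_nonneg _) hq (Nat.succ_ne_zero i)
    linarith
  · simpa using (summable_nat_add_iff 1).mpr (summable_geometric_of_lt_one (norm_nonneg _) hq)

lemma tps_partial_prod (N : ℕ) :
    tps (fun q : ℂ => ∏ n ∈ Finset.range N, (1 - q ^ (n + 1)))
      = ∏ n ∈ Finset.range N, (1 - PowerSeries.X ^ (n + 1)) := by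
  have h : (fun q : ℂ => ∏ n ∈ Finset.range N, (1 - q ^ (n + 1)))
      = ∏ n ∈ Finset.range N, ((fun _ => (1 : ℂ)) - fun q : ℂ => q ^ (n + 1)) := by
    funext q
    simp [Finset.prod_apply]
  rw [h, tps_finset_prod]
  · refine Finset.prod_congr rfl fun n _ => ?_
    rw [tps_sub (by fun_prop) (by fun_prop), tps_const, tps_monomial, map_one]
  · intro n _
    exact AnalyticAt.sub (by fun_prop) (by fun_prop)

/-- KEY: the Taylor series of the analytic eta product is the formal eta product. -/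
theorem tps_etaFun : tps etaFun = PowerSeries.map (Int.castRingHom ℂ) ModularCurve.etaProd := by
  ext k
  -- analytic side
  have hA : Tendsto (fun N => PowerSeries.coeff k
        (tps (fun q : ℂ => ∏ n ∈ Finset.range N, (1 - q ^ (n + 1))))) atTop
      (𝓝 (PowerSeries.coeff k (tps etaFun))) := by
    refine tendsto_tps_coeff ?_ ?_ k
    · exact ModularForm.multipliableLocallyUniformlyOn_one_sub_pow.hasProdLocallyUniformlyOn
        |>.tendstoLocallyUniformlyOn_finsetRange
    · refine .of_forall fun N => ?_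
      exact DifferentiableOn.fun_finsetProd fun _ _ => by fun_prop
  -- formal side
  have hB : Tendsto (fun N => (∏ n ∈ Finset.range N, (1 - PowerSeries.X ^ (n + 1)) :
        PowerSeries ℤ)) atTop (𝓝 ModularCurve.etaProd) :=
    (PowerSeries.WithPiTopology.multipliable_one_sub_X_pow ℤ).hasProd.tendsto_prod_nat
  have hB' : Tendsto (fun N => PowerSeries.coeff k
      (∏ n ∈ Finset.range N, (1 - PowerSeries.X ^ (n + 1)) : PowerSeries ℤ)) atTop
      (𝓝 (PowerSeries.coeff k ModularCurve.etaProd)) :=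
    ((PowerSeries.WithPiTopology.continuous_coeff ℤ k).tendsto _).comp hB
  have hC : Tendsto (fun N => ((PowerSeries.coeff k
      (∏ n ∈ Finset.range N, (1 - PowerSeries.X ^ (n + 1)) : PowerSeries ℤ) : ℤ) : ℂ)) atTop
      (𝓝 ((PowerSeries.coeff k ModularCurve.etaProd : ℤ) : ℂ)) :=
    (continuous_of_discreteTopology.tendsto _).comp hB'
  rw [PowerSeries.coeff_map]
  refine tendsto_nhds_unique hA (hC.congr fun N => ?_)
  rw [tps_partial_prod]
  have : (∏ n ∈ Finset.range N, (1 - PowerSeries.X ^ (n + 1)) : PowerSeries ℂ)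
      = PowerSeries.map (Int.castRingHom ℂ)
        (∏ n ∈ Finset.range N, (1 - PowerSeries.X ^ (n + 1))) := by
    simp [map_prod]
  rw [this, PowerSeries.coeff_map]
  rfl

/-! ### `E₄` -/

open UpperHalfPlane ModularForm in
lemma tps_cuspFunction_E₄ :
    tps (cuspFunction 1 E₄) = PowerSeries.map (Int.castRingHom ℂ) ModularCurve.eisenstein4 := by
  ext m
  have h := EisensteinSeries.E_qExpansion_coeff (k := 4) (by norm_num) (by decide) m
  rw [qExpansion_coeff] at h
  rw [tps_coeff, h, PowerSeries.coeff_map, ModularCurve.eisenstein4, PowerSeries.coeff_mk]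
  have hb : bernoulli 4 = -1 / 30 := by
    rw [bernoulli_eq_bernoulli'_of_ne_one (by norm_num), bernoulli'_four]
  split_ifs with hm
  · simp
  · rw [hb, ArithmeticFunction.sigma_apply, eq_intCast]
    push_cast
    ring

/-! ### Inverses -/

lemma tps_mul_tps_inv {f : ℂ → ℂ} (hf : AnalyticAt ℂ f 0) (h0 : f 0 ≠ 0) :
    tps f * tps f⁻¹ = 1 := by
  rw [← tps_mul hf (hf.inv h0), ← tps_one]
  refine tps_congr ?_
  filter_upwards [hf.continuousAt.eventually_ne h0] with q hq
  simp [hq]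

lemma tps_inv_eq {f : ℂ → ℂ} (hf : AnalyticAt ℂ f 0) (h0 : f 0 ≠ 0) {a b : PowerSeries ℂ}
    (ha : tps f = a) (hab : a * b = 1) : tps f⁻¹ = b := by
  have h := tps_mul_tps_inv hf h0
  rw [ha] at h
  calc tps f⁻¹ = (a * b) * tps f⁻¹ := by rw [hab, one_mul]
    _ = b * (a * tps f⁻¹) := by ring
    _ = b := by rw [h, mul_one]

/-! ### `Δ` and `q * j` on the disc -/

lemma etaFun_zero : etaFun 0 = 1 := by
  simp [etaFun]

lemma analyticAt_etaFun {q : ℂ} (hq : ‖q‖ < 1) : AnalyticAt ℂ etaFun q :=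
  analyticAt_of_differentiableOn_ball differentiableOn_etaFun hq

lemma tps_etaFun_pow :
    tps (etaFun ^ 24) = PowerSeries.map (Int.castRingHom ℂ) ModularCurve.dedekindEtaUnit := by
  rw [tps_pow (analyticAt_etaFun (by simp)), tps_etaFun, ModularCurve.dedekindEtaUnit, map_pow]

lemma tps_etaFun_pow_inv :
    tps (etaFun ^ 24)⁻¹
      = PowerSeries.map (Int.castRingHom ℂ) ModularCurve.dedekindEtaUnitInv := by
  refine tps_inv_eq ((analyticAt_etaFun (by simp)).pow 24) (by simp [etaFun_zero])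
    tps_etaFun_pow ?_
  rw [← map_mul, ModularCurve.dedekindEtaUnit_mul_inv, map_one]

open UpperHalfPlane ModularForm

local notation "𝕢" => Function.Periodic.qParam

/-- The cusp function of `E₄` on the unit disc. -/
def e4Fun : ℂ → ℂ := cuspFunction 1 E₄

lemma differentiableOn_e4Fun : DifferentiableOn ℂ e4Fun (Metric.ball 0 1) := fun _ hq =>
  (ModularFormClass.differentiableAt_cuspFunction E₄ one_pos one_mem_strictPeriods_SL
    (mem_ball_zero_iff.mp hq)).differentiableWithinAt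

lemma e4Fun_qParam (τ : ℍ) : e4Fun (𝕢 1 τ) = E₄ τ :=
  SlashInvariantFormClass.eq_cuspFunction E₄ τ one_mem_strictPeriods_SL one_ne_zero

lemma tps_e4Fun :
    tps e4Fun = PowerSeries.map (Int.castRingHom ℂ) ModularCurve.eisenstein4 :=
  tps_cuspFunction_E₄

/-- The function `q * j` on the unit disc, `j = E₄ ^ 3 / Δ`. -/
def jDisc (q : ℂ) : ℂ := e4Fun q ^ 3 / etaFun q ^ 24

lemma jDisc_eq : jDisc = e4Fun ^ 3 * (etaFun ^ 24)⁻¹ := by
  funext q
  simp [jDisc, div_eq_mul_inv]

theorem differentiableOn_jDisc : DifferentiableOn ℂ jDisc (Metric.ball 0 1) := by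
  unfold jDisc
  refine DifferentiableOn.div (differentiableOn_e4Fun.pow 3) (differentiableOn_etaFun.pow 24) ?_
  intro q hq
  exact pow_ne_zero _ (etaFun_ne_zero (mem_ball_zero_iff.mp hq))

theorem tps_jDisc : tps jDisc = PowerSeries.map (Int.castRingHom ℂ) ModularCurve.jNum := by
  have h4 : AnalyticAt ℂ e4Fun 0 :=
    analyticAt_of_differentiableOn_ball differentiableOn_e4Fun (by simp)
  have he : AnalyticAt ℂ (etaFun ^ 24) 0 := (analyticAt_etaFun (by simp)).pow 24
  rw [jDisc_eq, tps_mul (h4.pow 3) (he.inv (by simp [etaFun_zero])), tps_pow h4, tps_e4Fun,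
    tps_etaFun_pow_inv, ModularCurve.jNum, map_mul, map_pow]

/-- The `q`-expansion of `q * j` on the whole unit disc, with the formal coefficients `jNum`. -/
theorem hasSum_jDisc {q : ℂ} (hq : ‖q‖ < 1) :
    HasSum (fun n : ℕ => ((PowerSeries.coeff n ModularCurve.jNum : ℤ) : ℂ) * q ^ n) (jDisc q) := by
  have h := hasSum_tps differentiableOn_jDisc hq
  simpa [tps_jDisc, PowerSeries.coeff_map] using h

lemma discriminant_eq_etaFun (τ : ℍ) : discriminant τ = 𝕢 1 τ * etaFun (𝕢 1 τ) ^ 24 := by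
  rw [discriminant_eq_q_prod, etaFun]
  congr 1
  have hq : ‖𝕢 1 (τ : ℂ)‖ < 1 := by simpa using norm_qParam_lt_one 1 τ
  exact (multipliable_one_sub_pow hq).tprod_pow 24

theorem jDisc_qParam (τ : ℍ) :
    jDisc (𝕢 1 τ) = 𝕢 1 τ * (E₄ τ ^ 3 / discriminant τ) := by
  have hq0 : 𝕢 1 (τ : ℂ) ≠ 0 := Function.Periodic.qParam_ne_zero _
  have hq : ‖𝕢 1 (τ : ℂ)‖ < 1 := by simpa using norm_qParam_lt_one 1 τ
  have he : etaFun (𝕢 1 τ) ^ 24 ≠ 0 := pow_ne_zero _ (etaFun_ne_zero hq)
  rw [jDisc, e4Fun_qParam, discriminant_eq_etaFun]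
  field_simp

theorem jDisc_zero : jDisc 0 = 1 := by
  have h := hasSum_jDisc (q := 0) (by simp)
  have h2 : HasSum (fun n : ℕ => ((PowerSeries.coeff n ModularCurve.jNum : ℤ) : ℂ) * 0 ^ n)
      ((PowerSeries.coeff 0 ModularCurve.jNum : ℤ) : ℂ) := by
    convert hasSum_single (α := ℂ) 0 ?_ using 1
    · simp
    · intro n hn
      simp [hn]
  rw [h.unique h2, PowerSeries.coeff_zero_eq_constantCoeff_apply, ModularCurve.constantCoeff_jNum]
  simp

/-- The `q`-expansion of `j = E₄ ^ 3 / Δ`, with the formal coefficients `jNum`. -/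
theorem hasSum_j (τ : ℍ) :
    HasSum (fun n : ℕ => ((PowerSeries.coeff n ModularCurve.jNum : ℤ) : ℂ) * 𝕢 1 τ ^ n)
      (𝕢 1 τ * (E₄ τ ^ 3 / discriminant τ)) := by
  have hq : ‖𝕢 1 (τ : ℂ)‖ < 1 := by simpa using norm_qParam_lt_one 1 τ
  rw [← jDisc_qParam]
  exact hasSum_jDisc hq

theorem hasSum_E₄ (τ : ℍ) :
    HasSum (fun n : ℕ => ((PowerSeries.coeff n ModularCurve.eisenstein4 : ℤ) : ℂ) * 𝕢 1 τ ^ n)
      (E₄ τ) := by
  have hq : ‖𝕢 1 (τ : ℂ)‖ < 1 := by simpa using norm_qParam_lt_one 1 τ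
  have h := hasSum_tps differentiableOn_e4Fun hq
  rw [e4Fun_qParam] at h
  simpa [tps_e4Fun, PowerSeries.coeff_map] using h

theorem hasSum_discriminant (τ : ℍ) :
    HasSum (fun n : ℕ =>
        ((PowerSeries.coeff n ModularCurve.dedekindEtaUnit : ℤ) : ℂ) * 𝕢 1 τ ^ (n + 1))
      (discriminant τ) := by
  have hq : ‖𝕢 1 (τ : ℂ)‖ < 1 := by simpa using norm_qParam_lt_one 1 τ
  have h := hasSum_tps (differentiableOn_etaFun.pow 24) hq
  rw [tps_etaFun_pow] at h
  rw [discriminant_eq_etaFun]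
  have h2 := h.mul_left (𝕢 1 (τ : ℂ))
  refine h2.congr_fun fun n => ?_
  simp only [PowerSeries.coeff_map, eq_intCast]
  ring

end Fermat.Agent.X0.JQExp
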