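/-
C-J1 (row 132): basic properties of the analytic `j`-function `jFun = E₄ ^ 3 / Δ`:
holomorphy, `SL(2, ℤ)`-invariance, special values at `i` and `ρ`, surjectivity.
-/
import Fermat.Agent.X0.Defs
import Fermat.Agent.X0.JQExp

set_option autoImplicit false

noncomputable section

namespace Fermat.Agent.X0

open UpperHalfPlane ModularForm EisensteinSeries Filter Topology
open scoped MatrixGroups Manifold

theorem jFun_mdifferentiable : MDifferentiable 𝓘(ℂ) 𝓘(ℂ) jFun := by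
  have h4 : MDifferentiable 𝓘(ℂ) 𝓘(ℂ) (fun z : ℍ => E₄ z ^ 3) := (E₄.holo').pow 3
  exact h4.div CuspForm.discriminant.holo' discriminant_ne_zero

theorem E₄_smul (γ : SL(2, ℤ)) (z : ℍ) : E₄ (γ • z) = denom γ z ^ (4 : ℤ) * E₄ z :=
  SlashInvariantForm.slash_action_eqn'' (Γ := 𝒮ℒ) E₄ (γ := (γ : GL (Fin 2) ℝ)) ⟨γ, rfl⟩ z

theorem E₆_smul (γ : SL(2, ℤ)) (z : ℍ) : E₆ (γ • z) = denom γ z ^ (6 : ℤ) * E₆ z :=
  SlashInvariantForm.slash_action_eqn'' (Γ := 𝒮ℒ) E₆ (γ := (γ : GL (Fin 2) ℝ)) ⟨γ, rfl⟩ z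

theorem discriminant_smul (γ : SL(2, ℤ)) (z : ℍ) :
    discriminant (γ • z) = denom γ z ^ (12 : ℤ) * discriminant z :=
  SlashInvariantForm.slash_action_eqn'' (Γ := 𝒮ℒ) CuspForm.discriminant
    (γ := (γ : GL (Fin 2) ℝ)) ⟨γ, rfl⟩ z

theorem jFun_smul (γ : SL(2, ℤ)) (z : ℍ) : jFun (γ • z) = jFun z := by
  have hd : denom γ z ≠ 0 := denom_ne_zero γ z
  have hΔ : discriminant z ≠ 0 := discriminant_ne_zero z
  rw [jFun, jFun, E₄_smul, discriminant_smul]
  have h4 : denom γ z ^ (4 : ℤ) = denom γ z ^ 4 := by norm_cast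
  have h12 : denom γ z ^ (12 : ℤ) = denom γ z ^ 12 := by norm_cast
  rw [h4, h12]
  field_simp

theorem S_smul_ptI : ModularGroup.S • ptI = ptI := by
  rw [modular_S_smul]
  ext
  simp [ptI, UpperHalfPlane.coe_I]

theorem E₆_ptI : E₆ ptI = 0 := by
  have h := E₆_smul ModularGroup.S ptI
  rw [S_smul_ptI, ModularGroup.denom_S] at h
  have h6 : ((ptI : ℍ) : ℂ) ^ (6 : ℤ) = -1 := by
    have : ((ptI : ℍ) : ℂ) = Complex.I := rfl
    rw [this]
    have h2 : Complex.I ^ (6 : ℤ) = Complex.I ^ 6 := by norm_cast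
    rw [h2, show (6 : ℕ) = 2 * 3 by norm_num, pow_mul, Complex.I_sq]
    norm_num
  rw [h6] at h
  have h' : (2 : ℂ) * E₆ ptI = 0 := by linear_combination h
  simpa using h'

theorem ptRho_coe : ((ptRho : ℍ) : ℂ) = ⟨-1 / 2, Real.sqrt 3 / 2⟩ := rfl

theorem ptRho_sq_add : ((ptRho : ℍ) : ℂ) ^ 2 + (ptRho : ℂ) + 1 = 0 := by
  have hs : Real.sqrt 3 * Real.sqrt 3 = 3 := Real.mul_self_sqrt (by norm_num)
  rw [ptRho_coe]
  apply Complex.ext
  · simp [pow_two]
    nlinarith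
  · simp [pow_two]
    ring

theorem ptRho_cube : ((ptRho : ℍ) : ℂ) ^ 3 = 1 := by
  linear_combination ((ptRho : ℂ) - 1) * ptRho_sq_add

theorem ptRho_ne_one : ((ptRho : ℍ) : ℂ) ≠ 1 := by
  intro h
  have h2 := ptRho_sq_add
  rw [h] at h2
  norm_num at h2

theorem S_smul_ptRho : ModularGroup.S • ptRho = ModularGroup.T • ptRho := by
  rw [modular_S_smul, modular_T_smul]
  ext
  rw [UpperHalfPlane.coe_vadd]
  simp only [Complex.ofReal_one]
  have hne : ((ptRho : ℍ) : ℂ) ≠ 0 := ne_zero ptRho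
  rw [inv_eq_iff_eq_inv, ← one_div, eq_div_iff (by
    intro h0
    have h2 := ptRho_sq_add
    have : ((ptRho : ℍ) : ℂ) = -1 := by linear_combination h0
    rw [this] at h2
    norm_num at h2)]
  linear_combination -ptRho_sq_add

theorem E₄_ptRho : E₄ ptRho = 0 := by
  have hS := E₄_smul ModularGroup.S ptRho
  have hT := E₄_smul ModularGroup.T ptRho
  rw [ModularGroup.denom_S] at hS
  have hdT : denom ModularGroup.T ptRho = 1 := by
    rw [ModularGroup.denom_apply]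
    simp [ModularGroup.T]
  rw [hdT, one_zpow, one_mul] at hT
  rw [S_smul_ptRho, hT] at hS
  have h4 : ((ptRho : ℍ) : ℂ) ^ (4 : ℤ) = ptRho := by
    have h2 : ((ptRho : ℍ) : ℂ) ^ (4 : ℤ) = (ptRho : ℂ) ^ 4 := by norm_cast
    rw [h2, show (4 : ℕ) = 3 + 1 by norm_num, pow_succ, ptRho_cube, one_mul]
  rw [h4] at hS
  have h' : (1 - (ptRho : ℂ)) * E₄ ptRho = 0 := by linear_combination hS
  rcases mul_eq_zero.mp h' with h0 | h0
  · exact absurd (by linear_combination -h0) ptRho_ne_one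
  · exact h0

theorem jFun_sub_mul_discriminant (c : ℂ) (z : ℍ) :
    (jFun z - c) * discriminant z = E₄ z ^ 3 - c * discriminant z := by
  have hΔ : discriminant z ≠ 0 := discriminant_ne_zero z
  rw [jFun]
  field_simp

theorem jFun_ptRho : jFun ptRho = 0 := by
  rw [jFun, E₄_ptRho]
  simp

theorem jFun_ptI : jFun ptI = 1728 := by
  have hΔ : discriminant ptI ≠ 0 := discriminant_ne_zero ptI
  have h := discriminant_eq_E₄_cube_sub_E₆_sq ptI
  rw [E₆_ptI] at h
  rw [jFun, div_eq_iff hΔ]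
  linear_combination (-1728 : ℂ) * h

/-! ### Surjectivity -/

theorem E₄_tendsto_atImInfty : Tendsto (fun z : ℍ => E₄ z) atImInfty (𝓝 1) := by
  have hc : ContinuousAt JQExp.e4Fun 0 :=
    (JQExp.analyticAt_of_differentiableOn_ball JQExp.differentiableOn_e4Fun
      (by simp)).continuousAt
  have h0 : JQExp.e4Fun 0 = 1 := by
    have h := JQExp.hasSum_tps JQExp.differentiableOn_e4Fun (q := 0) (by simp)
    have h2 : HasSum (fun m : ℕ => PowerSeries.coeff m (JQExp.tps JQExp.e4Fun) * 0 ^ m)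
        (PowerSeries.coeff 0 (JQExp.tps JQExp.e4Fun)) := by
      convert hasSum_single (α := ℂ) 0 ?_ using 1
      · simp
      · intro n hn
        simp [hn]
    rw [h.unique h2, JQExp.tps_e4Fun, PowerSeries.coeff_map,
      PowerSeries.coeff_zero_eq_constantCoeff_apply, ModularCurve.constantCoeff_eisenstein4]
    simp
  have h1 := hc.tendsto.comp (qParam_tendsto_atImInfty one_pos)
  rw [h0] at h1
  refine h1.congr fun z => ?_
  simp only [Function.comp_apply]
  exact JQExp.e4Fun_qParam z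

/-- For `c : ℂ`, the function `E₄ ^ 3 - c Δ`. -/
def jNumer (c : ℂ) (z : ℍ) : ℂ := E₄ z ^ 3 - c * discriminant z

theorem jNumer_smul (c : ℂ) (γ : SL(2, ℤ)) (z : ℍ) :
    jNumer c (γ • z) = denom γ z ^ 12 * jNumer c z := by
  rw [jNumer, jNumer, E₄_smul, discriminant_smul]
  have h4 : denom γ z ^ (4 : ℤ) = denom γ z ^ 4 := by norm_cast
  have h12 : denom γ z ^ (12 : ℤ) = denom γ z ^ 12 := by norm_cast
  rw [h4, h12]
  ring

theorem jNumer_tendsto (c : ℂ) : Tendsto (jNumer c) atImInfty (𝓝 1) := by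
  have h1 := (E₄_tendsto_atImInfty.pow 3).sub
    ((discriminant_isZeroAtImInfty : Tendsto discriminant atImInfty (𝓝 0)).const_mul c)
  have h2 : (1 : ℂ) ^ 3 - c * 0 = 1 := by norm_num
  rw [h2] at h1
  exact h1

theorem jNumer_mdifferentiable (c : ℂ) : MDifferentiable 𝓘(ℂ) 𝓘(ℂ) (jNumer c) := by
  have h4 : MDifferentiable 𝓘(ℂ) 𝓘(ℂ) (fun z : ℍ => E₄ z ^ 3) := (E₄.holo').pow 3
  have hΔ : MDifferentiable 𝓘(ℂ) 𝓘(ℂ) (fun z : ℍ => c * discriminant z) :=
    (mdifferentiable_const (c := c)).mul CuspForm.discriminant.holo'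
  exact h4.sub hΔ

/-- The auxiliary function `Δ / (E₄ ^ 3 - c Δ)`. -/
def jAux (c : ℂ) (z : ℍ) : ℂ := discriminant z / jNumer c z

theorem jAux_slash (c : ℂ) (hne : ∀ z, jNumer c z ≠ 0) (γ : SL(2, ℤ)) :
    jAux c ∣[(0 : ℤ)] γ = jAux c := by
  funext z
  have hd : denom γ z ≠ 0 := denom_ne_zero γ z
  have h12 : denom γ z ^ (12 : ℤ) = denom γ z ^ 12 := by norm_cast
  rw [SL_slash_apply, neg_zero, zpow_zero, mul_one, jAux, jAux, jNumer_smul, discriminant_smul,
    h12]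
  have := hne z
  field_simp

theorem jAux_tendsto (c : ℂ) : Tendsto (jAux c) atImInfty (𝓝 0) := by
  have h := (discriminant_isZeroAtImInfty : Tendsto discriminant atImInfty (𝓝 0)).div
    (jNumer_tendsto c) one_ne_zero
  rw [zero_div] at h
  exact h

/-- If `E₄ ^ 3 - c Δ` had no zero, `Δ / (E₄ ^ 3 - c Δ)` would be a modular form of weight `0`. -/
def jAuxForm (c : ℂ) (hne : ∀ z, jNumer c z ≠ 0) : ModularForm 𝒮ℒ 0 where
  toFun := jAux c
  slash_action_eq' := fun _ ⟨γ, hγ⟩ ↦ hγ ▸ jAux_slash c hne γ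
  holo' := CuspForm.discriminant.holo'.div (jNumer_mdifferentiable c) hne
  bdd_at_cusps' {x} hx := by
    rw [Subgroup.IsArithmetic.isCusp_iff_isCusp_SL2Z] at hx
    rw [OnePoint.isBoundedAt_iff_forall_SL2Z hx]
    intro γ _
    rw [jAux_slash c hne γ, IsBoundedAtImInfty, BoundedAtFilter]
    exact (jAux_tendsto c).isBigO_one ℝ

theorem exists_jNumer_eq_zero (c : ℂ) : ∃ z, jNumer c z = 0 := by
  by_contra hcon
  have hcon : ∀ z, jNumer c z ≠ 0 := fun z hz => hcon ⟨z, hz⟩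
  obtain ⟨a, ha⟩ := ModularFormClass.levelOne_weight_zero_const (jAuxForm c hcon)
  have ha' : ∀ z, jAux c z = a := fun z => congrFun ha z
  have h0 : a = 0 := by
    have h1 : Tendsto (jAux c) atImInfty (𝓝 a) := by
      rw [show jAux c = fun _ => a from funext ha']
      exact tendsto_const_nhds
    exact tendsto_nhds_unique h1 (jAux_tendsto c)
  have h2 := ha' ptI
  rw [h0, jAux, div_eq_zero_iff] at h2
  rcases h2 with h2 | h2
  · exact discriminant_ne_zero _ h2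
  · exact hcon _ h2

theorem jFun_surjective : Function.Surjective jFun := by
  intro c
  obtain ⟨z, hz⟩ := exists_jNumer_eq_zero c
  refine ⟨z, ?_⟩
  have h := jFun_sub_mul_discriminant c z
  rw [← jNumer, hz] at h
  rcases mul_eq_zero.mp h with h | h
  · exact sub_eq_zero.mp h
  · exact absurd h (discriminant_ne_zero z)

end Fermat.Agent.X0
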