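/-
C-F2c parts B, C (helper1): analytic realisation of `R = ℚbar[j_d : d ∣ N]` by holomorphic
functions on the upper half plane.

* `Analytic.HasQExp f g` : the Laurent series `f : ℂ((q))` is the convergent `q`-expansion of
  `g : ℍ → ℂ` (closure under ring operations, uniqueness in both directions, holomorphy,
  substitution `z ↦ d z`).
* `realize N : Rsub N →+* (ℍ → ℂ)`, injective, `j_d ↦ j(d z)`, `Γ₀(N)`-invariant values.
-/
import Mathlib
import Fermat.Agent.X0.AnDefs
import Fermat.Agent.X0.JQExp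
import Fermat.Agent.X0.JBasic
import Fermat.Prelude.Def_ModularCurve_JqCoeff

set_option autoImplicit false
set_option linter.unusedSectionVars false

open ModularCurve HahnSeries UpperHalfPlane
open scoped Topology Manifold MatrixGroups

noncomputable section

namespace Fermat.Agent.X0

namespace Analytic

open Fermat.Agent.X0.JQExp

/-! ### (B) convergent `q`-expansions -/

/-- The parameter `q = exp (2 π i z)` of a point of the upper half plane. -/
def qH (z : ℍ) : ℂ := Function.Periodic.qParam 1 (z : ℂ)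

lemma qH_ne_zero (z : ℍ) : qH z ≠ 0 := by
  unfold qH; exact Function.Periodic.qParam_ne_zero _

lemma norm_qH_lt_one (z : ℍ) : ‖qH z‖ < 1 := by
  unfold qH; exact Function.Periodic.norm_qParam_lt_one one_pos z.im_pos

lemma qH_mem_ball (z : ℍ) : qH z ∈ Metric.ball (0 : ℂ) 1 := by
  simpa using norm_qH_lt_one z

/-- every point of the punctured unit disc is `qH z` for some `z`. -/
lemma exists_qH_eq {q : ℂ} (hq : ‖q‖ < 1) (hq0 : q ≠ 0) : ∃ z : ℍ, qH z = q := by
  have h1 := Function.Periodic.im_invQParam_pos_of_norm_lt_one (h := 1) one_pos hq hq0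
  refine ⟨⟨Function.Periodic.invQParam 1 q, h1⟩, ?_⟩
  unfold qH
  exact Function.Periodic.qParam_right_inv one_ne_zero hq0

/-- A Laurent series `single (-m) 1 * p` with `p` a power series (`= laurentOf m p`). -/
def lau (m : ℕ) (p : PowerSeries ℂ) : LaurentSeries ℂ :=
  HahnSeries.single (-(m : ℤ)) (1 : ℂ) * HahnSeries.ofPowerSeries ℤ ℂ p

lemma lau_eq_laurentOf (m : ℕ) (p : PowerSeries ℂ) : lau m p = laurentOf m p := rfl

lemma lau_shift (m k : ℕ) (p : PowerSeries ℂ) :
    lau m p = lau (m + k) (PowerSeries.X ^ k * p) := by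
  unfold lau
  rw [map_mul, HahnSeries.ofPowerSeries_X_pow, ← mul_assoc, HahnSeries.single_mul_single, mul_one]
  have h : -((m + k : ℕ) : ℤ) + (k : ℤ) = -(m : ℤ) := by push_cast; ring
  rw [h]

lemma lau_mul (m n : ℕ) (p r : PowerSeries ℂ) :
    lau m p * lau n r = lau (m + n) (p * r) := by
  unfold lau
  rw [map_mul, mul_mul_mul_comm, HahnSeries.single_mul_single, mul_one]
  have h : -(m : ℤ) + -(n : ℤ) = -((m + n : ℕ) : ℤ) := by push_cast; ring
  rw [h]

lemma lau_add (m : ℕ) (p r : PowerSeries ℂ) :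
    lau m p + lau m r = lau m (p + r) := by
  unfold lau
  rw [map_add, mul_add]

lemma lau_injective (m : ℕ) : Function.Injective (lau m) := by
  intro p r h
  unfold lau at h
  have hne : HahnSeries.single (-(m : ℤ)) (1 : ℂ) ≠ 0 := by simp
  exact HahnSeries.ofPowerSeries_injective (mul_left_cancel₀ hne h)

lemma lau_zero_C (c : ℂ) : lau 0 (PowerSeries.C c) = HahnSeries.C c := by
  unfold lau
  rw [HahnSeries.ofPowerSeries_C]
  simp

/-- uniqueness of power-series coefficients on the unit disc. -/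
lemma tps_eq_of_hasSum {G : ℂ → ℂ} {c : ℕ → ℂ}
    (h : ∀ q : ℂ, ‖q‖ < 1 → HasSum (fun n => c n * q ^ n) (G q)) :
    tps G = PowerSeries.mk c := by
  have H1 : HasFPowerSeriesOnBall G (FormalMultilinearSeries.ofScalars ℂ c) 0 1 := by
    constructor
    · refine le_of_forall_lt_imp_le_of_dense fun r hr ↦ ?_
      lift r to NNReal using hr.ne_top
      apply FormalMultilinearSeries.le_radius_of_summable
      have hr' : ‖((r : ℝ) : ℂ)‖ < 1 := by
        rw [Complex.norm_real, Real.norm_eq_abs, NNReal.abs_eq]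
        exact_mod_cast hr
      simpa [norm_mul, mul_comm, mul_left_comm, mul_assoc] using (h _ hr').summable.norm
    · simp
    · intro y hy
      rw [← ENNReal.coe_one, Metric.eball_coe, NNReal.coe_one, mem_ball_zero_iff] at hy
      simpa [mul_comm] using h y hy
  have h1 := H1.hasFPowerSeriesAt
  have h2 := H1.analyticAt.hasFPowerSeriesAt
  have h3 := h1.eq_formalMultilinearSeries h2
  ext n
  have h4 := congr_arg (FormalMultilinearSeries.coeff · n) h3
  simp only [FormalMultilinearSeries.coeff_ofScalars] at h4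
  rw [tps_coeff, PowerSeries.coeff_mk, h4]
  rw [div_eq_inv_mul]

/-- `f : ℂ((q))` is the (convergent) `q`-expansion of the function `g` on the upper half plane:
`q ^ m * g` is a holomorphic function `G` of `q` on the whole unit disc, and `q ^ m * f` is the
Taylor series of `G`. -/
def HasQExp (f : LaurentSeries ℂ) (g : ℍ → ℂ) : Prop :=
  ∃ (m : ℕ) (G : ℂ → ℂ), DifferentiableOn ℂ G (Metric.ball 0 1) ∧
    f = lau m (tps G) ∧ ∀ z : ℍ, g z * qH z ^ m = G (qH z)

lemma analyticAt_zero_of_diffOn {G : ℂ → ℂ} (hG : DifferentiableOn ℂ G (Metric.ball 0 1)) :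
    AnalyticAt ℂ G 0 :=
  analyticAt_of_differentiableOn_ball hG (by simp)

lemma tps_pow_mul {G : ℂ → ℂ} (hG : DifferentiableOn ℂ G (Metric.ball 0 1)) (k : ℕ) :
    tps (fun q => q ^ k * G q) = PowerSeries.X ^ k * tps G := by
  have h := tps_mul (f := fun q : ℂ => q ^ k) (g := G) (analyticAt_id.pow k)
    (analyticAt_zero_of_diffOn hG)
  rw [tps_monomial] at h
  exact h

lemma diffOn_pow_mul {G : ℂ → ℂ} (hG : DifferentiableOn ℂ G (Metric.ball 0 1)) (k : ℕ) :
    DifferentiableOn ℂ (fun q => q ^ k * G q) (Metric.ball 0 1) :=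
  (differentiableOn_id.pow k).mul hG

theorem HasQExp.const (c : ℂ) : HasQExp (HahnSeries.C c) (fun _ => c) := by
  refine ⟨0, fun _ => c, differentiableOn_const c, ?_, fun z => by simp⟩
  rw [tps_const, lau_zero_C]

theorem HasQExp.mul {f₁ f₂ : LaurentSeries ℂ} {g₁ g₂ : ℍ → ℂ} (h₁ : HasQExp f₁ g₁)
    (h₂ : HasQExp f₂ g₂) : HasQExp (f₁ * f₂) (g₁ * g₂) := by
  obtain ⟨m₁, G₁, hG₁, hf₁, hg₁⟩ := h₁
  obtain ⟨m₂, G₂, hG₂, hf₂, hg₂⟩ := h₂
  refine ⟨m₁ + m₂, G₁ * G₂, hG₁.mul hG₂, ?_, fun z => ?_⟩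
  · rw [hf₁, hf₂, lau_mul, tps_mul (analyticAt_zero_of_diffOn hG₁) (analyticAt_zero_of_diffOn hG₂)]
  · rw [Pi.mul_apply, Pi.mul_apply, ← hg₁, ← hg₂]
    ring

theorem HasQExp.add {f₁ f₂ : LaurentSeries ℂ} {g₁ g₂ : ℍ → ℂ} (h₁ : HasQExp f₁ g₁)
    (h₂ : HasQExp f₂ g₂) : HasQExp (f₁ + f₂) (g₁ + g₂) := by
  obtain ⟨m₁, G₁, hG₁, hf₁, hg₁⟩ := h₁
  obtain ⟨m₂, G₂, hG₂, hf₂, hg₂⟩ := h₂
  refine ⟨m₁ + m₂, (fun q => q ^ m₂ * G₁ q) + (fun q => q ^ m₁ * G₂ q),
    (diffOn_pow_mul hG₁ m₂).add (diffOn_pow_mul hG₂ m₁), ?_, fun z => ?_⟩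
  · rw [tps_add (analyticAt_zero_of_diffOn (diffOn_pow_mul hG₁ m₂))
      (analyticAt_zero_of_diffOn (diffOn_pow_mul hG₂ m₁)), tps_pow_mul hG₁, tps_pow_mul hG₂,
      ← lau_add, ← lau_shift, add_comm m₁ m₂, ← lau_shift, hf₁, hf₂]
  · simp only [Pi.add_apply]
    rw [← hg₁, ← hg₂]
    ring

/-- the function is determined by the series. -/
theorem HasQExp.unique_right {f : LaurentSeries ℂ} {g g' : ℍ → ℂ} (h : HasQExp f g)
    (h' : HasQExp f g') : g = g' := by
  obtain ⟨m, G, hG, hf, hg⟩ := h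
  obtain ⟨m', G', hG', hf', hg'⟩ := h'
  have e1 : PowerSeries.X ^ m' * tps G = PowerSeries.X ^ m * tps G' := by
    apply lau_injective (m + m')
    rw [← lau_shift, add_comm m m', ← lau_shift, ← hf, ← hf']
  rw [← tps_pow_mul hG, ← tps_pow_mul hG'] at e1
  funext z
  have s1 := hasSum_tps (diffOn_pow_mul hG m') (norm_qH_lt_one z)
  have s2 := hasSum_tps (diffOn_pow_mul hG' m) (norm_qH_lt_one z)
  rw [e1] at s1
  have e2 := s1.unique s2
  rw [← hg, ← hg'] at e2
  have hq := qH_ne_zero z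
  have hq1 : qH z ^ m ≠ 0 := pow_ne_zero _ hq
  have hq2 : qH z ^ m' ≠ 0 := pow_ne_zero _ hq
  have e3 : g z * (qH z ^ m * qH z ^ m') = g' z * (qH z ^ m * qH z ^ m') := by
    linear_combination e2
  exact mul_right_cancel₀ (mul_ne_zero hq1 hq2) e3

/-- the series is determined by the function. -/
theorem HasQExp.unique_left {f f' : LaurentSeries ℂ} {g : ℍ → ℂ} (h : HasQExp f g)
    (h' : HasQExp f' g) : f = f' := by
  obtain ⟨m, G, hG, hf, hg⟩ := h
  obtain ⟨m', G', hG', hf', hg'⟩ := h'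
  have hA := diffOn_pow_mul hG m'
  have hB := diffOn_pow_mul hG' m
  have hball : Metric.ball (0 : ℂ) 1 ∈ 𝓝 (0 : ℂ) := Metric.ball_mem_nhds 0 one_pos
  have e0 : (fun q => q ^ m' * G q) =ᶠ[𝓝[≠] (0 : ℂ)] (fun q => q ^ m * G' q) := by
    filter_upwards [self_mem_nhdsWithin, nhdsWithin_le_nhds hball] with q hq0 hq
    obtain ⟨z, rfl⟩ := exists_qH_eq (by simpa using hq) hq0
    rw [← hg, ← hg']
    ring
  have cA : ContinuousAt (fun q => q ^ m' * G q) 0 :=
    (hA.differentiableAt hball).continuousAt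
  have cB : ContinuousAt (fun q => q ^ m * G' q) 0 :=
    (hB.differentiableAt hball).continuousAt
  have e1 := (cA.eventuallyEq_nhds_iff_eventuallyEq_nhdsNE cB).mp e0
  have e2 := tps_congr e1
  rw [tps_pow_mul hG, tps_pow_mul hG'] at e2
  rw [hf, hf', lau_shift m m', e2, add_comm m m', ← lau_shift]

/-! ### substitution `q ↦ q ^ d` -/

lemma qH_scaleH (d : ℕ) [NeZero d] (z : ℍ) : qH (scaleH d z) = qH z ^ d := by
  unfold qH Function.Periodic.qParam
  rw [coe_scaleH, ← Complex.exp_nat_mul]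
  congr 1
  push_cast
  ring

/-- the power series `p (X ^ d)`. -/
def pexp (d : ℕ) (p : PowerSeries ℂ) : PowerSeries ℂ :=
  PowerSeries.mk fun k => if d ∣ k then PowerSeries.coeff (k / d) p else 0

lemma qExpand_ofPowerSeries (d : ℕ) [NeZero d] (p : PowerSeries ℂ) :
    qExpand ℂ d (HahnSeries.ofPowerSeries ℤ ℂ p) = HahnSeries.ofPowerSeries ℤ ℂ (pexp d p) := by
  have hd : (d : ℤ) ≠ 0 := by exact_mod_cast NeZero.ne d
  have hdpos : (0 : ℤ) < d := by exact_mod_cast Nat.pos_of_ne_zero (NeZero.ne d)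
  ext k
  by_cases hk : (d : ℤ) ∣ k
  · obtain ⟨k', rfl⟩ := hk
    rw [qExpand_coeff_mul]
    rcases lt_or_ge k' 0 with hneg | hpos
    · rw [ofPowerSeries_coeff_of_neg _ hneg, ofPowerSeries_coeff_of_neg _ (by nlinarith)]
    · lift k' to ℕ using hpos
      rw [HahnSeries.ofPowerSeries_apply_coeff]
      have : (d : ℤ) * (k' : ℤ) = ((d * k' : ℕ) : ℤ) := by push_cast; ring
      rw [this, HahnSeries.ofPowerSeries_apply_coeff, pexp, PowerSeries.coeff_mk,
        if_pos (Dvd.intro _ rfl), Nat.mul_div_cancel_left _ (Nat.pos_of_ne_zero (NeZero.ne d))]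
  · rw [qExpand_coeff_of_not_dvd _ _ hk]
    rcases lt_or_ge k 0 with hneg | hpos
    · rw [ofPowerSeries_coeff_of_neg _ hneg]
    · lift k to ℕ using hpos
      rw [HahnSeries.ofPowerSeries_apply_coeff, pexp, PowerSeries.coeff_mk, if_neg]
      intro h
      exact hk (by exact_mod_cast h)

lemma qExpand_lau (d : ℕ) [NeZero d] (m : ℕ) (p : PowerSeries ℂ) :
    qExpand ℂ d (lau m p) = lau (d * m) (pexp d p) := by
  unfold lau
  rw [map_mul, qExpand_single, qExpand_ofPowerSeries]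
  have : (d : ℤ) * -(m : ℤ) = -((d * m : ℕ) : ℤ) := by push_cast; ring
  rw [this]

lemma tps_comp_pow {G : ℂ → ℂ} (hG : DifferentiableOn ℂ G (Metric.ball 0 1)) (d : ℕ) [NeZero d] :
    tps (fun q => G (q ^ d)) = pexp d (tps G) := by
  apply tps_eq_of_hasSum
  intro q hq
  have hqd : ‖q ^ d‖ < 1 := by
    rw [norm_pow]
    exact pow_lt_one₀ (norm_nonneg _) hq (NeZero.ne d)
  have h1 := hasSum_tps hG hqd
  have hinj : Function.Injective (fun n : ℕ => d * n) :=
    fun a b hab => Nat.eq_of_mul_eq_mul_left (Nat.pos_of_ne_zero (NeZero.ne d)) hab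
  rw [← hinj.hasSum_iff]
  · refine h1.congr_fun fun n => ?_
    simp only [Function.comp_apply]
    rw [if_pos (Dvd.intro _ rfl), Nat.mul_div_cancel_left _ (Nat.pos_of_ne_zero (NeZero.ne d)),
      pow_mul]
  · intro k hk
    rw [if_neg, zero_mul]
    rintro ⟨n, rfl⟩
    exact hk ⟨n, rfl⟩

theorem HasQExp.qExpand {f : LaurentSeries ℂ} {g : ℍ → ℂ} (h : HasQExp f g) (d : ℕ) [NeZero d] :
    HasQExp (qExpand ℂ d f) (fun z => g (scaleH d z)) := by
  obtain ⟨m, G, hG, hf, hg⟩ := h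
  have hmaps : Set.MapsTo (fun q : ℂ => q ^ d) (Metric.ball 0 1) (Metric.ball 0 1) := by
    intro q hq
    rw [mem_ball_zero_iff] at hq ⊢
    rw [norm_pow]
    exact pow_lt_one₀ (norm_nonneg _) hq (NeZero.ne d)
  refine ⟨d * m, fun q => G (q ^ d), hG.comp (differentiableOn_id.pow d) hmaps, ?_, fun z => ?_⟩
  · rw [hf, qExpand_lau, tps_comp_pow hG]
  · have h1 := hg (scaleH d z)
    rw [qH_scaleH] at h1
    show g (scaleH d z) * qH z ^ (d * m) = G (qH z ^ d)
    rw [← h1, pow_mul]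

/-! ### holomorphy -/

theorem HasQExp.differentiableOn {f : LaurentSeries ℂ} {g : ℍ → ℂ} (h : HasQExp f g) :
    DifferentiableOn ℂ (g ∘ UpperHalfPlane.ofComplex) {w : ℂ | 0 < w.im} := by
  obtain ⟨m, G, hG, -, hg⟩ := h
  have key : ∀ w : ℂ, 0 < w.im → (g ∘ UpperHalfPlane.ofComplex) w
      = G (Function.Periodic.qParam 1 w) / Function.Periodic.qParam 1 w ^ m := by
    intro w hw
    have h1 := hg ⟨w, hw⟩
    have hq : Function.Periodic.qParam 1 w ≠ 0 := Function.Periodic.qParam_ne_zero _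
    rw [Function.comp_apply, UpperHalfPlane.ofComplex_apply_of_im_pos hw, eq_div_iff
      (pow_ne_zero _ hq)]
    exact h1
  have hd : DifferentiableOn ℂ
      (fun w : ℂ => G (Function.Periodic.qParam 1 w) / Function.Periodic.qParam 1 w ^ m)
      {w : ℂ | 0 < w.im} := by
    intro w hw
    have hq : Function.Periodic.qParam 1 w ≠ 0 := Function.Periodic.qParam_ne_zero _
    have hb : Function.Periodic.qParam 1 w ∈ Metric.ball (0 : ℂ) 1 := by
      rw [mem_ball_zero_iff]
      exact Function.Periodic.norm_qParam_lt_one one_pos hw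
    have h1 : DifferentiableAt ℂ G (Function.Periodic.qParam 1 w) :=
      hG.differentiableAt (Metric.isOpen_ball.mem_nhds hb)
    have h2 : DifferentiableAt ℂ (Function.Periodic.qParam 1) w :=
      Function.Periodic.differentiable_qParam w
    exact ((h1.comp w h2).div (h2.pow m) (pow_ne_zero _ hq)).differentiableWithinAt
  exact hd.congr fun w hw => key w hw

theorem HasQExp.mdifferentiable {f : LaurentSeries ℂ} {g : ℍ → ℂ} (h : HasQExp f g) :
    MDifferentiable 𝓘(ℂ) 𝓘(ℂ) g :=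
  UpperHalfPlane.mdifferentiable_iff.mpr h.differentiableOn

/-! ### the `j`-function -/

theorem hasQExp_jqModC : HasQExp (jqModC ℂ) jFun := by
  refine ⟨1, jDisc, differentiableOn_jDisc, ?_, fun z => ?_⟩
  · rw [tps_jDisc, jqModC, lau]
    norm_num
  · have h := jDisc_qParam z
    unfold qH jFun
    rw [h]
    ring

/-! ### from `ℚbar((q))` to `ℂ((q))` -/

/-- complexification of a Laurent series over `ℚbar` (via `iotaK`). -/
def toC : LaurentSeries Kbar →+* LaurentSeries ℂ := ModularCurve.coeffMap iotaK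

lemma toC_coeff (x : LaurentSeries Kbar) (k : ℤ) : (toC x).coeff k = iotaK (x.coeff k) := rfl

lemma toC_injective : Function.Injective toC := by
  intro x y h
  ext k
  have h1 := congrArg (fun s : LaurentSeries ℂ => s.coeff k) h
  exact iotaK_injective h1

lemma coeffMap_qExpand {R S : Type*} [CommRing R] [CommRing S] (φ : R →+* S) (d : ℕ) [NeZero d]
    (x : LaurentSeries R) :
    ModularCurve.coeffMap φ (qExpand R d x) = qExpand S d (ModularCurve.coeffMap φ x) := by
  ext k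
  by_cases hk : (d : ℤ) ∣ k
  · obtain ⟨k', rfl⟩ := hk
    rw [coeffMap_coeff, qExpand_coeff_mul, qExpand_coeff_mul, coeffMap_coeff]
  · rw [coeffMap_coeff, qExpand_coeff_of_not_dvd _ _ hk, qExpand_coeff_of_not_dvd _ _ hk, map_zero]

lemma toC_coeffEmb_jq : toC (coeffEmb Kbar jq) = jqModC ℂ := by
  have h1 : coeffEmb Kbar jq = jqModC Kbar := by
    rw [← jqModC_rat]
    exact map_jqModC (algebraMap ℚ Kbar)
  rw [h1]
  exact map_jqModC iotaK

lemma toC_jd (d : ℕ) [NeZero d] :
    toC (coeffEmb Kbar (qExpand ℚ d jq)) = qExpand ℂ d (jqModC ℂ) := by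
  rw [coeffEmb, coeffMap_qExpand, toC, coeffMap_qExpand]
  congr 1
  exact toC_coeffEmb_jq

lemma toC_algebraMap (c : Kbar) :
    toC (algebraMap Kbar (LaurentSeries Kbar) c) = HahnSeries.C (iotaK c) := by
  rw [algebraMap_laurentSeries_eq_single, toC, coeffMap_single]
  rfl

theorem hasQExp_jd (d : ℕ) [NeZero d] :
    HasQExp (toC (coeffEmb Kbar (qExpand ℚ d jq))) (jdFun d) := by
  rw [toC_jd]
  exact hasQExp_jqModC.qExpand d

variable (N : ℕ) [NeZero N]

theorem exists_hasQExp_of_mem {x : FF N} (hx : x ∈ Rsub N) :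
    ∃ g : ℍ → ℂ, HasQExp (toC (x : LaurentSeries Kbar)) g := by
  unfold Rsub at hx
  induction hx using Algebra.adjoin_induction with
  | mem y hy =>
      obtain ⟨d, hd0, hd, rfl⟩ := hy
      exact ⟨jdFun d, hasQExp_jd d⟩
  | algebraMap c =>
      refine ⟨fun _ => iotaK c, ?_⟩
      have : ((algebraMap Kbar (FF N) c : FF N) : LaurentSeries Kbar)
          = algebraMap Kbar (LaurentSeries Kbar) c := rfl
      rw [this, toC_algebraMap]
      exact HasQExp.const _
  | add y z _ _ hy hz =>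
      obtain ⟨g₁, h₁⟩ := hy
      obtain ⟨g₂, h₂⟩ := hz
      refine ⟨g₁ + g₂, ?_⟩
      have : ((y + z : FF N) : LaurentSeries Kbar) = (y : LaurentSeries Kbar) + z := rfl
      rw [this, map_add]
      exact h₁.add h₂
  | mul y z _ _ hy hz =>
      obtain ⟨g₁, h₁⟩ := hy
      obtain ⟨g₂, h₂⟩ := hz
      refine ⟨g₁ * g₂, ?_⟩
      have : ((y * z : FF N) : LaurentSeries Kbar) = (y : LaurentSeries Kbar) * z := rfl
      rw [this, map_mul]
      exact h₁.mul h₂

/-- the holomorphic function attached to an element of `R`. -/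
def anFun (u : Rsub N) : ℍ → ℂ := (exists_hasQExp_of_mem N u.2).choose

theorem hasQExp_anFun (u : Rsub N) :
    HasQExp (toC (((u : FF N)) : LaurentSeries Kbar)) (anFun N u) :=
  (exists_hasQExp_of_mem N u.2).choose_spec

theorem anFun_eq {u : Rsub N} {g : ℍ → ℂ}
    (h : HasQExp (toC (((u : FF N)) : LaurentSeries Kbar)) g) : anFun N u = g :=
  (hasQExp_anFun N u).unique_right h

/-- the analytic realisation, as a ring hom. -/
def realizeHom : Rsub N →+* (ℍ → ℂ) where
  toFun := anFun N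
  map_one' := by
    apply anFun_eq
    have : (((1 : Rsub N) : FF N) : LaurentSeries Kbar) = 1 := rfl
    rw [this, map_one]
    have h := HasQExp.const 1
    rw [map_one] at h
    exact h
  map_mul' u w := by
    apply anFun_eq
    have : (((u * w : Rsub N) : FF N) : LaurentSeries Kbar)
        = ((u : FF N) : LaurentSeries Kbar) * ((w : FF N) : LaurentSeries Kbar) := rfl
    rw [this, map_mul]
    exact (hasQExp_anFun N u).mul (hasQExp_anFun N w)
  map_zero' := by
    apply anFun_eq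
    have : (((0 : Rsub N) : FF N) : LaurentSeries Kbar) = 0 := rfl
    rw [this, map_zero]
    have h := HasQExp.const 0
    rw [map_zero] at h
    exact h
  map_add' u w := by
    apply anFun_eq
    have : (((u + w : Rsub N) : FF N) : LaurentSeries Kbar)
        = ((u : FF N) : LaurentSeries Kbar) + ((w : FF N) : LaurentSeries Kbar) := rfl
    rw [this, map_add]
    exact (hasQExp_anFun N u).add (hasQExp_anFun N w)

theorem realizeHom_apply (u : Rsub N) : realizeHom N u = anFun N u := rfl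

theorem realizeHom_injective : Function.Injective (realizeHom N) := by
  intro u w h
  have h1 := hasQExp_anFun N u
  have h2 := hasQExp_anFun N w
  rw [realizeHom_apply, realizeHom_apply] at h
  rw [h] at h1
  have h3 := toC_injective (h1.unique_left h2)
  exact Subtype.ext (Subtype.ext h3)

/-- from `HasQExp` to the `IsQExp` datum of `AnDefs`. -/
theorem HasQExp.exists_isQExp {f : LaurentSeries ℂ} {g : ℍ → ℂ} (h : HasQExp f g) :
    ∃ (m : ℕ) (P : PowerSeries ℂ), IsQExp 1 g m P ∧ f = laurentOf m P := by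
  obtain ⟨m, G, hG, hf, hg⟩ := h
  refine ⟨m, tps G, fun z => ?_, hf⟩
  have hq : qh 1 z = qH z := by
    unfold qh qH
    rw [Nat.cast_one]
  rw [hq, hg]
  exact hasSum_tps hG (norm_qH_lt_one z)

end Analytic

open Analytic

variable (N : ℕ) [NeZero N]

/-- The analytic realisation `Θ : R = ℚbar[j_d : d ∣ N] → Hol(ℍ)`. -/
def realize : Rsub N →+* (ℍ → ℂ) := Analytic.realizeHom N

theorem realize_injective : Function.Injective (realize N) := Analytic.realizeHom_injective N

theorem hasQExp_realize (u : Rsub N) :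
    Analytic.HasQExp (Analytic.toC ((u : FF N) : LaurentSeries Kbar)) (realize N u) :=
  Analytic.hasQExp_anFun N u

theorem realize_eq_of_hasQExp {u : Rsub N} {g : ℍ → ℂ}
    (h : Analytic.HasQExp (Analytic.toC ((u : FF N) : LaurentSeries Kbar)) g) :
    realize N u = g :=
  Analytic.anFun_eq N h

theorem realize_algebraMap (c : Kbar) :
    realize N (algebraMap Kbar (Rsub N) c) = fun _ => iotaK c := by
  apply realize_eq_of_hasQExp
  have : (((algebraMap Kbar (Rsub N) c : Rsub N) : FF N) : LaurentSeries Kbar)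
      = algebraMap Kbar (LaurentSeries Kbar) c := rfl
  rw [this, Analytic.toC_algebraMap]
  exact Analytic.HasQExp.const _

theorem realize_jdF (d : ℕ) [NeZero d] (hd : d ∣ N) :
    realize N ⟨jdF N d hd, Algebra.subset_adjoin ⟨d, inferInstance, hd, rfl⟩⟩ = jdFun d := by
  apply realize_eq_of_hasQExp
  exact Analytic.hasQExp_jd d

theorem realize_mem_HolH (u : Rsub N) : realize N u ∈ HolH :=
  (hasQExp_realize N u).mdifferentiable

theorem realize_isQExp (u : Rsub N) :
    ∃ (m : ℕ) (P : PowerSeries ℂ), IsQExp 1 (realize N u) m P ∧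
      ModularCurve.coeffMap iotaK ((u : FF N) : LaurentSeries Kbar) = laurentOf m P :=
  (hasQExp_realize N u).exists_isQExp

theorem exists_realize : ∃ Θ : Rsub N →+* (ℍ → ℂ), Function.Injective Θ ∧
    (∀ c : Kbar, Θ (algebraMap Kbar (Rsub N) c) = fun _ => iotaK c) ∧
    (∀ (d : ℕ) [NeZero d] (hd : d ∣ N),
      Θ ⟨jdF N d hd, Algebra.subset_adjoin ⟨d, inferInstance, hd, rfl⟩⟩ = jdFun d) ∧
    (∀ u, Θ u ∈ HolH) ∧
    (∀ u : Rsub N, ∃ (m : ℕ) (P : PowerSeries ℂ), IsQExp 1 (Θ u) m P ∧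
      ModularCurve.coeffMap iotaK ((u : FF N) : LaurentSeries Kbar) = laurentOf m P) :=
  ⟨realize N, realize_injective N, realize_algebraMap N, fun d _ hd => realize_jdF N d hd,
    realize_mem_HolH N, realize_isQExp N⟩

/-! ### `Γ₀(N)`-invariance -/

namespace Analytic

/-- the conjugated matrix `diag(d,1) γ diag(d,1)⁻¹` for `d ∣ γ 1 0`. -/
def conjMat (γ : SL(2, ℤ)) (d : ℕ) (hd : (d : ℤ) ∣ γ 1 0) : SL(2, ℤ) :=
  ⟨!![γ 0 0, γ 0 1 * d; γ 1 0 / d, γ 1 1], by
    have h1 : γ 1 0 / (d : ℤ) * d = γ 1 0 := Int.ediv_mul_cancel hd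
    have h2 := Matrix.SpecialLinearGroup.det_coe γ
    rw [Matrix.det_fin_two] at h2
    rw [Matrix.det_fin_two_of]
    calc γ 0 0 * γ 1 1 - γ 0 1 * d * (γ 1 0 / d)
        = γ 0 0 * γ 1 1 - γ 0 1 * (γ 1 0 / d * d) := by ring
      _ = 1 := by rw [h1]; exact h2⟩

lemma denom_ne_zero' (γ : SL(2, ℤ)) (z : ℍ) : ((γ 1 0 : ℤ) : ℂ) * z + ((γ 1 1 : ℤ) : ℂ) ≠ 0 := by
  intro h
  have him := congrArg Complex.im h
  have hre := congrArg Complex.re h
  simp only [Complex.add_im, Complex.mul_im, Complex.intCast_re, Complex.intCast_im, zero_mul,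
    add_zero, Complex.zero_im, Complex.add_re, Complex.mul_re, sub_zero, Complex.zero_re,
    UpperHalfPlane.coe_im, UpperHalfPlane.coe_re] at him hre
  have hc : ((γ 1 0 : ℤ) : ℝ) = 0 := by
    rcases mul_eq_zero.mp him with h1 | h1
    · exact h1
    · exact absurd h1 z.im_pos.ne'
  rw [hc, zero_mul, zero_add] at hre
  have hc' : γ 1 0 = 0 := by exact_mod_cast hc
  have hd' : γ 1 1 = 0 := by exact_mod_cast hre
  have h2 := Matrix.SpecialLinearGroup.det_coe γ
  rw [Matrix.det_fin_two, hc', hd'] at h2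
  simp at h2

lemma scaleH_smul (γ : SL(2, ℤ)) (d : ℕ) [NeZero d] (hd : (d : ℤ) ∣ γ 1 0) (z : ℍ) :
    scaleH d (γ • z) = conjMat γ d hd • scaleH d z := by
  apply UpperHalfPlane.ext
  rw [coe_scaleH, UpperHalfPlane.coe_specialLinearGroup_apply,
    UpperHalfPlane.coe_specialLinearGroup_apply, coe_scaleH]
  have hden := denom_ne_zero' γ z
  have hd0 : (d : ℂ) ≠ 0 := by exact_mod_cast NeZero.ne d
  have h1 : ((γ 1 0 / (d : ℤ) : ℤ) : ℂ) * (d : ℂ) = ((γ 1 0 : ℤ) : ℂ) := by
    have := Int.ediv_mul_cancel hd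
    exact_mod_cast congrArg (fun t : ℤ => (t : ℂ)) this
  simp only [conjMat, algebraMap_int_eq, Int.coe_castRingHom, Complex.ofReal_intCast,
    Matrix.SpecialLinearGroup.coe_mk, Matrix.of_apply, Matrix.cons_val', Matrix.cons_val_zero,
    Matrix.cons_val_one, Matrix.cons_val_fin_one, Int.cast_mul, Int.cast_natCast]
  have hden2 : ((γ 1 0 / (d : ℤ) : ℤ) : ℂ) * ((d : ℂ) * z) + ((γ 1 1 : ℤ) : ℂ)
      = ((γ 1 0 : ℤ) : ℂ) * z + ((γ 1 1 : ℤ) : ℂ) := by
    rw [← mul_assoc, h1]
  rw [hden2]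
  field_simp
  push_cast
  ring

lemma jdFun_smul_of_dvd (γ : SL(2, ℤ)) (d : ℕ) [NeZero d] (hd : (d : ℤ) ∣ γ 1 0) (z : ℍ) :
    jdFun d (γ • z) = jdFun d z := by
  unfold jdFun
  rw [scaleH_smul γ d hd, jFun_smul]

end Analytic

theorem realize_Gamma0_invariant (u : Rsub N) (γ : SL(2, ℤ))
    (hγ : γ ∈ CongruenceSubgroup.Gamma0 N) : compSL (realize N u) γ = realize N u := by
  have hN : (N : ℤ) ∣ γ 1 0 := by
    rw [CongruenceSubgroup.Gamma0_mem] at hγ
    exact (ZMod.intCast_zmod_eq_zero_iff_dvd _ _).mp hγ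
  obtain ⟨x, hx⟩ := u
  unfold Rsub at hx
  induction hx using Algebra.adjoin_induction with
  | mem y hy =>
      obtain ⟨d, hd0, hd, rfl⟩ := hy
      have h1 := realize_jdF N d hd
      rw [h1]
      funext z
      have hd' : (d : ℤ) ∣ γ 1 0 := (Int.natCast_dvd_natCast.mpr hd).trans hN
      exact Analytic.jdFun_smul_of_dvd γ d hd' z
  | algebraMap c =>
      have h1 := realize_algebraMap N c
      have : (⟨algebraMap Kbar (FF N) c, Subalgebra.algebraMap_mem _ c⟩ : Rsub N)
          = algebraMap Kbar (Rsub N) c := rfl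
      rw [this, h1]
      rfl
  | add y z hy hz ihy ihz =>
      have : (⟨y + z, add_mem hy hz⟩ : Rsub N) = ⟨y, hy⟩ + ⟨z, hz⟩ := rfl
      rw [this, map_add]
      show compSL (realize N ⟨y, hy⟩) γ + compSL (realize N ⟨z, hz⟩) γ = _
      rw [ihy, ihz]
  | mul y z hy hz ihy ihz =>
      have : (⟨y * z, mul_mem hy hz⟩ : Rsub N) = ⟨y, hy⟩ * ⟨z, hz⟩ := rfl
      rw [this, map_mul]
      show compSL (realize N ⟨y, hy⟩) γ * compSL (realize N ⟨z, hz⟩) γ = _
      rw [ihy, ihz]

end Fermat.Agent.X0
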