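/-
C-F2a (helper7): orders of holomorphic functions on the upper half plane:
valuation properties of `ordH`, Moebius invariance, and the symmetry lemma at elliptic points.
-/
import Fermat.Agent.X0.AnDefs

set_option autoImplicit false

open UpperHalfPlane Complex Filter Topology
open scoped MatrixGroups Manifold

namespace Fermat.Agent.X0

noncomputable section

/-! ### Analyticity of the extension to `ℂ` -/

theorem analyticAt_comp_ofComplex {f : ℍ → ℂ} (hf : f ∈ HolH) (z : ℍ) :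
    AnalyticAt ℂ (f ∘ ofComplex) (z : ℂ) :=
  (UpperHalfPlane.mdifferentiable_iff.mp hf).analyticAt
    (isOpen_upperHalfPlaneSet.mem_nhds z.im_pos)

theorem analyticOnNhd_comp_ofComplex {f : ℍ → ℂ} (hf : f ∈ HolH) :
    AnalyticOnNhd ℂ (f ∘ ofComplex) upperHalfPlaneSet :=
  (UpperHalfPlane.mdifferentiable_iff.mp hf).analyticOnNhd isOpen_upperHalfPlaneSet

theorem comp_ofComplex_apply (f : ℍ → ℂ) (z : ℍ) : (f ∘ ofComplex) (z : ℂ) = f z := by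
  simp [ofComplex_apply]

/-! ### Item 1: identity theorem -/

theorem eq_zero_of_ordH_eq_top {f : ℍ → ℂ} (hf : f ∈ HolH) (z₀ : ℍ) (h : ordH f z₀ = ⊤) :
    f = 0 := by
  have h1 : ∀ᶠ z in 𝓝 (z₀ : ℂ), (f ∘ ofComplex) z = 0 := analyticOrderAt_eq_top.mp h
  have := (analyticOnNhd_comp_ofComplex hf).eqOn_zero_of_preconnected_of_eventuallyEq_zero
    (convex_halfSpace_im_gt 0).isPreconnected z₀.im_pos h1
  ext w
  have hw := this w.im_pos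
  simpa [ofComplex_apply] using hw

theorem ordH_ne_top {f : ℍ → ℂ} (hf : f ∈ HolH) (hf0 : f ≠ 0) (z₀ : ℍ) : ordH f z₀ ≠ ⊤ :=
  fun h => hf0 (eq_zero_of_ordH_eq_top hf z₀ h)

/-! ### Items 2-5: valuation properties -/

theorem ordH_mul {f g : ℍ → ℂ} (hf : f ∈ HolH) (hg : g ∈ HolH) (z₀ : ℍ) :
    ordH (f * g) z₀ = ordH f z₀ + ordH g z₀ := by
  unfold ordH
  have : (f * g) ∘ ofComplex = (f ∘ ofComplex) * (g ∘ ofComplex) := rfl
  rw [this]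
  exact analyticOrderAt_mul (analyticAt_comp_ofComplex hf z₀) (analyticAt_comp_ofComplex hg z₀)

theorem le_ordH_add {f g : ℍ → ℂ} (hf : f ∈ HolH) (hg : g ∈ HolH) (z₀ : ℍ) :
    min (ordH f z₀) (ordH g z₀) ≤ ordH (f + g) z₀ := by
  unfold ordH
  have : (f + g) ∘ ofComplex = (f ∘ ofComplex) + (g ∘ ofComplex) := rfl
  rw [this]
  exact le_analyticOrderAt_add

theorem ordH_eq_zero_iff {f : ℍ → ℂ} (hf : f ∈ HolH) (z₀ : ℍ) : ordH f z₀ = 0 ↔ f z₀ ≠ 0 := by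
  unfold ordH
  rw [(analyticAt_comp_ofComplex hf z₀).analyticOrderAt_eq_zero, comp_ofComplex_apply]

theorem ordH_const {c : ℂ} (hc : c ≠ 0) (z₀ : ℍ) : ordH (fun _ => c) z₀ = 0 :=
  (ordH_eq_zero_iff (f := fun _ => c) (HolH.algebraMap_mem c) z₀).mpr hc

theorem mul_eq_zero_HolH {f g : ℍ → ℂ} (hf : f ∈ HolH) (hg : g ∈ HolH) (h : f * g = 0) :
    f = 0 ∨ g = 0 :=
  (UpperHalfPlane.mul_eq_zero_iff hf hg).mp h

/-! ### Item 6: `compSL` -/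

theorem compSL_mem_HolH {f : ℍ → ℂ} (hf : f ∈ HolH) (γ : SL(2, ℤ)) : compSL f γ ∈ HolH := by
  have h : MDifferentiable 𝓘(ℂ) 𝓘(ℂ) (fun τ : ℍ => ((γ : GL (Fin 2) ℝ) • τ)) :=
    UpperHalfPlane.mdifferentiable_smul (g := (γ : GL (Fin 2) ℝ)) (by simp)
  exact MDifferentiable.comp (g := f) hf h

theorem compSL_apply (f : ℍ → ℂ) (γ : SL(2, ℤ)) (z : ℍ) : compSL f γ z = f (γ • z) := rfl

theorem compSL_one (f : ℍ → ℂ) : compSL f 1 = f := by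
  ext z; simp [compSL]

theorem compSL_mul (f : ℍ → ℂ) (γ δ : SL(2, ℤ)) :
    compSL f (γ * δ) = compSL (compSL f γ) δ := by
  ext z; simp [compSL, mul_smul]

theorem compSL_add_fun (f g : ℍ → ℂ) (γ : SL(2, ℤ)) :
    compSL (f + g) γ = compSL f γ + compSL g γ := rfl

theorem compSL_mul_fun (f g : ℍ → ℂ) (γ : SL(2, ℤ)) :
    compSL (f * g) γ = compSL f γ * compSL g γ := rfl

theorem compSL_one_fun (γ : SL(2, ℤ)) : compSL (1 : ℍ → ℂ) γ = 1 := rfl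

theorem compSL_zero_fun (γ : SL(2, ℤ)) : compSL (0 : ℍ → ℂ) γ = 0 := rfl

theorem compSL_const (c : ℂ) (γ : SL(2, ℤ)) : compSL (fun _ => c) γ = fun _ => c := rfl

theorem compSL_sub_fun (f g : ℍ → ℂ) (γ : SL(2, ℤ)) :
    compSL (f - g) γ = compSL f γ - compSL g γ := rfl

theorem compSL_neg_fun (f : ℍ → ℂ) (γ : SL(2, ℤ)) : compSL (-f) γ = -compSL f γ := rfl

theorem compSL_pow_fun (f : ℍ → ℂ) (n : ℕ) (γ : SL(2, ℤ)) :
    compSL (f ^ n) γ = compSL f γ ^ n := rfl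

/-- `compSL · γ` as a ring homomorphism of `HolH`. -/
def compSLHom (γ : SL(2, ℤ)) : HolH →+* HolH where
  toFun f := ⟨compSL f.1 γ, compSL_mem_HolH f.2 γ⟩
  map_one' := rfl
  map_mul' _ _ := rfl
  map_zero' := rfl
  map_add' _ _ := rfl

@[simp] theorem coe_compSLHom (γ : SL(2, ℤ)) (f : HolH) :
    ((compSLHom γ f : HolH) : ℍ → ℂ) = compSL f.1 γ := rfl

/-! ### Item 7: Moebius invariance -/


/-- The Moebius map of `γ` as a function `ℂ → ℂ`. -/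
def moebC (γ : SL(2, ℤ)) (w : ℂ) : ℂ :=
  ((γ 0 0 : ℤ) * w + (γ 0 1 : ℤ)) / ((γ 1 0 : ℤ) * w + (γ 1 1 : ℤ))

theorem coe_smul_eq_moebC (γ : SL(2, ℤ)) (z : ℍ) : ((γ • z : ℍ) : ℂ) = moebC γ z := by
  rw [UpperHalfPlane.coe_specialLinearGroup_apply]
  simp [moebC]

theorem moebC_denom_ne_zero (γ : SL(2, ℤ)) (z : ℍ) :
    ((γ 1 0 : ℤ) : ℂ) * z + (γ 1 1 : ℤ) ≠ 0 := by
  have := UpperHalfPlane.denom_ne_zero (γ : GL (Fin 2) ℝ) z
  simpa [UpperHalfPlane.denom] using this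

theorem hasDerivAt_moebC (γ : SL(2, ℤ)) (z : ℍ) :
    HasDerivAt (moebC γ) (1 / (((γ 1 0 : ℤ) : ℂ) * z + (γ 1 1 : ℤ)) ^ 2) (z : ℂ) := by
  have hden := moebC_denom_ne_zero γ z
  have h1 : HasDerivAt (fun w : ℂ => ((γ 0 0 : ℤ) : ℂ) * w + (γ 0 1 : ℤ)) ((γ 0 0 : ℤ) : ℂ) z := by
    simpa using ((hasDerivAt_id (z : ℂ)).const_mul ((γ 0 0 : ℤ) : ℂ)).add_const ((γ 0 1 : ℤ) : ℂ)
  have h2 : HasDerivAt (fun w : ℂ => ((γ 1 0 : ℤ) : ℂ) * w + (γ 1 1 : ℤ)) ((γ 1 0 : ℤ) : ℂ) z := by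
    simpa using ((hasDerivAt_id (z : ℂ)).const_mul ((γ 1 0 : ℤ) : ℂ)).add_const ((γ 1 1 : ℤ) : ℂ)
  have h := h1.div h2 hden
  have hdet : ((γ 0 0 : ℤ) : ℂ) * (γ 1 1 : ℤ) - ((γ 0 1 : ℤ) : ℂ) * (γ 1 0 : ℤ) = 1 := by
    have := γ.det_coe
    rw [Matrix.det_fin_two] at this
    exact_mod_cast this
  have h' : HasDerivAt (moebC γ) _ (z : ℂ) := h
  refine h'.congr_deriv ?_
  rw [div_eq_div_iff (pow_ne_zero 2 hden) (pow_ne_zero 2 hden)]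
  linear_combination (((γ 1 0 : ℤ) : ℂ) * z + (γ 1 1 : ℤ)) ^ 2 * hdet

theorem analyticAt_moebC (γ : SL(2, ℤ)) (z : ℍ) : AnalyticAt ℂ (moebC γ) (z : ℂ) := by
  have h : DifferentiableOn ℂ (moebC γ) upperHalfPlaneSet := fun w hw =>
    (hasDerivAt_moebC γ ⟨w, hw⟩).differentiableAt.differentiableWithinAt
  exact h.analyticAt (isOpen_upperHalfPlaneSet.mem_nhds z.im_pos)

theorem deriv_moebC_ne_zero (γ : SL(2, ℤ)) (z : ℍ) : deriv (moebC γ) (z : ℂ) ≠ 0 := by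
  rw [(hasDerivAt_moebC γ z).deriv]
  exact one_div_ne_zero (pow_ne_zero 2 (moebC_denom_ne_zero γ z))

theorem compSL_comp_ofComplex_eventuallyEq (f : ℍ → ℂ) (γ : SL(2, ℤ)) (z₀ : ℍ) :
    (compSL f γ) ∘ ofComplex =ᶠ[𝓝 (z₀ : ℂ)] (f ∘ ofComplex) ∘ moebC γ := by
  filter_upwards [isOpen_upperHalfPlaneSet.mem_nhds z₀.im_pos] with w hw
  simp only [Function.comp_apply, compSL]
  congr 1
  rw [ofComplex_apply_of_im_pos hw, ← coe_smul_eq_moebC γ ⟨w, hw⟩, ofComplex_apply]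

/-- Item 7: Moebius invariance of the order. -/
theorem ordH_compSL {f : ℍ → ℂ} (hf : f ∈ HolH) (γ : SL(2, ℤ)) (z₀ : ℍ) :
    ordH (compSL f γ) z₀ = ordH f (γ • z₀) := by
  unfold ordH
  rw [analyticOrderAt_congr (compSL_comp_ofComplex_eventuallyEq f γ z₀),
    analyticOrderAt_comp_of_deriv_ne_zero (analyticAt_moebC γ z₀) (deriv_moebC_ne_zero γ z₀),
    ← coe_smul_eq_moebC]


end

end Fermat.Agent.X0
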