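/-
Program C: INTERFACE structures (helper12).  Downstream files are written against
`(D : RealizeData N) (C : CuspData N D)` and instantiated at the very end
(`Analytic.lean` builds a `RealizeData N`, `CuspExpand.lean` builds a `CuspData N D`).
Keep this file SMALL and STABLE.
-/
import Fermat.Agent.X0.AnDefs

set_option autoImplicit false

open UpperHalfPlane
open scoped MatrixGroups

noncomputable section

namespace Fermat.Agent.X0

variable (N : ℕ) [NeZero N]

/-- The generator `j_d` (`d ∣ N`) as an element of the subalgebra `R = ℚbar[j_d : d ∣ N]`. -/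
def jdR (d : ℕ) [NeZero d] (hd : d ∣ N) : Rsub N :=
  ⟨jdF N d hd, Algebra.subset_adjoin ⟨d, inferInstance, hd, rfl⟩⟩

omit [NeZero N] in
@[simp] theorem coe_jdR (d : ℕ) [NeZero d] (hd : d ∣ N) :
    ((jdR N d hd : Rsub N) : FF N) = jdF N d hd :=
  rfl

/-- Analytic realisation of `R = ℚbar[j_d : d ∣ N]` as holomorphic functions on `ℍ`:
an injective ring hom `Θ` with `Θ j_d = j(d ·)`, `Θ c = ι c` on constants, holomorphic and
`Γ₀(N)`-invariant values, and whose values have as `q`-expansion (after `ι`) the formal element. -/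
structure RealizeData where
  /-- the realisation map -/
  Θ : Rsub N →+* (ℍ → ℂ)
  injective : Function.Injective Θ
  algebraMap_eq : ∀ c : Kbar, Θ (algebraMap Kbar (Rsub N) c) = fun _ => iotaK c
  jd_eq : ∀ (d : ℕ) [NeZero d] (hd : d ∣ N), Θ (jdR N d hd) = jdFun d
  mem_HolH : ∀ u : Rsub N, Θ u ∈ HolH
  isQExp : ∀ u : Rsub N, ∃ (m : ℕ) (P : PowerSeries Kbar),
    IsQExp 1 (Θ u) m (P.map iotaK) ∧ (((u : FF N) : LaurentSeries Kbar)) = laurentOf m P
  invariant : ∀ (u : Rsub N) (γ : SL(2, ℤ)), γ ∈ CongruenceSubgroup.Gamma0 N →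
    compSL (Θ u) γ = Θ u

/-- Cusp expansions: for every `γ ∈ SL(2, ℤ)` a ring hom `T γ : F → ℚbar((q_N))`, which on
`u ∈ R` is the `q_N`-expansion of `Θ u ∘ γ`. (Everything else - `T 1 = qExpand N`, invariance under
`Γ₀(N)` on the left, the rotation of coefficients under `γ ↦ γ T`, the width lemma, values on
constants and on `j` - is DERIVED from `spec`.) -/
structure CuspData (D : RealizeData N) where
  /-- the expansion maps -/
  T : SL(2, ℤ) → (FF N →+* LaurentSeries Kbar)
  spec : ∀ (γ : SL(2, ℤ)) (u : Rsub N), ∃ (m : ℕ) (P : PowerSeries Kbar),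
    IsQExp N (compSL (D.Θ u) γ) m (P.map iotaK) ∧ T γ (u : FF N) = laurentOf m P

open Classical in
/-- A primitive `N`-th root of unity in `ℚbar` mapping to `exp(2πi/N)` under `ι`
(spec lemma `iotaK_zetaK` proved in `CuspExpand.lean`/`RootsK.lean`). -/
def zetaK : Kbar :=
  if h : ∃ a : Kbar, iotaK a = Complex.exp (2 * Real.pi * Complex.I / N) then h.choose else 1

end Fermat.Agent.X0
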