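/-
Program C, piece C-J4 (helper24): level-one modular functions which are holomorphic on `ℍ` with a
pole of finite order at `i∞` are polynomials in `j`.
All auxiliary names are prefixed `lof_`.
-/
import Mathlib
import Fermat.Agent.X0.Defs

set_option autoImplicit false

open UpperHalfPlane ModularForm EisensteinSeries CongruenceSubgroup
open scoped MatrixGroups Manifold

noncomputable section

namespace Fermat.Agent.X0

local notation "Δ" => ModularForm.discriminant

/-! ### Building level-one forms from raw functions -/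

/-- A holomorphic function on `ℍ`, slash-invariant of weight `k` under `SL(2, ℤ)` and bounded at
`i∞`, as a level-one modular form. -/
def lof_mk (k : ℤ) (F : ℍ → ℂ) (hF : MDifferentiable 𝓘(ℂ) 𝓘(ℂ) F)
    (hslash : ∀ γ : SL(2, ℤ), F ∣[k] γ = F) (hbdd : IsBoundedAtImInfty F) :
    ModularForm 𝒮ℒ k where
  toFun := F
  slash_action_eq' A hA := by
    obtain ⟨γ, rfl⟩ := hA
    exact hslash γ
  holo' := hF
  bdd_at_cusps' {c} hc := by
    rw [Subgroup.IsArithmetic.isCusp_iff_isCusp_SL2Z] at hc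
    rw [OnePoint.isBoundedAt_iff_forall_SL2Z hc]
    intro γ _
    rw [hslash γ]
    exact hbdd

@[simp] theorem lof_mk_apply (k : ℤ) (F : ℍ → ℂ) (hF : MDifferentiable 𝓘(ℂ) 𝓘(ℂ) F)
    (hslash : ∀ γ : SL(2, ℤ), F ∣[k] γ = F) (hbdd : IsBoundedAtImInfty F) (z : ℍ) :
    lof_mk k F hF hslash hbdd z = F z := rfl

/-- Transformation of `Δ` under `SL(2, ℤ)`. -/
theorem lof_discriminant_smul (γ : SL(2, ℤ)) (τ : ℍ) :
    Δ (γ • τ) = Δ τ * denom γ τ ^ (12 : ℤ) := by
  have h1 : (⇑CuspForm.discriminant ∣[(12 : ℤ)] γ) = ⇑CuspForm.discriminant :=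
    CuspForm.discriminant.slash_action_eq' _ ⟨γ, rfl⟩
  have h2 := congrFun h1 τ
  rw [SL_slash_apply] at h2
  have hd : denom γ τ ≠ 0 := denom_ne_zero γ τ
  have h3 : Δ (γ • τ) * denom γ τ ^ (-(12 : ℤ)) = Δ τ := h2
  rw [← h3, mul_assoc, ← zpow_add₀ hd]
  simp

/-- Transformation of `E₄` under `SL(2, ℤ)`. -/
theorem lof_E₄_smul (γ : SL(2, ℤ)) (τ : ℍ) :
    E₄ (γ • τ) = E₄ τ * denom γ τ ^ (4 : ℤ) := by
  have h1 : (⇑E₄ ∣[(4 : ℤ)] γ) = ⇑E₄ := E₄.slash_action_eq' _ ⟨γ, rfl⟩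
  have h2 := congrFun h1 τ
  rw [SL_slash_apply] at h2
  have hd : denom γ τ ≠ 0 := denom_ne_zero γ τ
  rw [← h2, mul_assoc, ← zpow_add₀ hd]
  simp

/-- `j` is `SL(2, ℤ)`-invariant. -/
theorem lof_jFun_smul (γ : SL(2, ℤ)) (τ : ℍ) : jFun (γ • τ) = jFun τ := by
  have hd : denom γ τ ≠ 0 := denom_ne_zero γ τ
  have hΔ : Δ τ ≠ 0 := discriminant_ne_zero τ
  unfold jFun
  rw [lof_E₄_smul, lof_discriminant_smul, mul_pow, ← zpow_natCast (denom γ τ ^ (4 : ℤ)) 3,
    ← zpow_mul]
  have : ((4 : ℤ) * ((3 : ℕ) : ℤ)) = 12 := by norm_num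
  rw [this]
  field_simp

theorem lof_mdifferentiable_discriminant : MDifferentiable 𝓘(ℂ) 𝓘(ℂ) (Δ : ℍ → ℂ) :=
  CuspForm.discriminant.holo'

theorem lof_mdifferentiable_pow {F : ℍ → ℂ} (hF : MDifferentiable 𝓘(ℂ) 𝓘(ℂ) F) (n : ℕ) :
    MDifferentiable 𝓘(ℂ) 𝓘(ℂ) (fun z => F z ^ n) := by
  induction n with
  | zero => simpa using (mdifferentiable_const : MDifferentiable 𝓘(ℂ) 𝓘(ℂ) (fun _ : ℍ => (1 : ℂ)))
  | succ n ih =>
    have h1 : (fun z => F z ^ (n + 1)) = (fun z => F z ^ n) * F := by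
      ext z
      simp [pow_succ]
    rw [h1]
    exact MDifferentiable.mul ih hF

/-- `j` is holomorphic. -/
theorem lof_jFun_mdifferentiable : MDifferentiable 𝓘(ℂ) 𝓘(ℂ) jFun := by
  have h1 : MDifferentiable 𝓘(ℂ) 𝓘(ℂ) (fun z => E₄ z ^ 3) := lof_mdifferentiable_pow E₄.holo' 3
  exact h1.div lof_mdifferentiable_discriminant discriminant_ne_zero

/-- Slash invariance of `f Δ ^ m` in weight `12 m` for an invariant function `f`. -/
theorem lof_slash_mul_discriminant_pow {f : ℍ → ℂ}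
    (hinv : ∀ (γ : SL(2, ℤ)) z, f (γ • z) = f z) (m : ℕ) (k : ℤ) (hk : k = 12 * (m : ℤ))
    (γ : SL(2, ℤ)) :
    (fun z => f z * Δ z ^ m) ∣[k] γ = fun z => f z * Δ z ^ m := by
  ext τ
  have hd : denom γ τ ≠ 0 := denom_ne_zero γ τ
  rw [SL_slash_apply, hinv, lof_discriminant_smul, mul_pow, ← zpow_natCast (denom γ τ ^ (12 : ℤ)) m,
    ← zpow_mul, hk, mul_assoc, mul_assoc, ← zpow_add₀ hd]
  simp

theorem lof_isBoundedAtImInfty_of_modularForm {k : ℤ} (g : ModularForm 𝒮ℒ k) :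
    IsBoundedAtImInfty (g : ℍ → ℂ) := ModularFormClass.bdd_at_infty g

/-! ### The main theorem -/

/-- **C-J4.** A holomorphic `SL(2, ℤ)`-invariant function on `ℍ` such that `f Δ ^ m` is bounded at
`i∞` is a polynomial of degree at most `m` in `j`. -/
theorem exists_polynomial_jFun {f : ℍ → ℂ} (hf : MDifferentiable 𝓘(ℂ) 𝓘(ℂ) f)
    (hinv : ∀ (γ : SL(2, ℤ)) z, f (γ • z) = f z) (m : ℕ)
    (hm : IsBoundedAtImInfty (fun z => f z * Δ z ^ m)) :
    ∃ P : Polynomial ℂ, P.natDegree ≤ m ∧ ∀ z, f z = P.eval (jFun z) := by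
  induction m generalizing f with
  | zero =>
    have hb : IsBoundedAtImInfty f := by simpa using hm
    have hsl : ∀ γ : SL(2, ℤ), f ∣[(0 : ℤ)] γ = f := by
      intro γ
      ext τ
      rw [SL_slash_apply, hinv]
      simp
    obtain ⟨c, hc⟩ := ModularFormClass.levelOne_weight_zero_const (lof_mk 0 f hf hsl hb)
    refine ⟨Polynomial.C c, by simp, fun z => ?_⟩
    have := congrFun hc z
    simpa using this
  | succ m ih =>
    -- the weight `12 (m+1)`, written as `(3 (m+1)) * 4`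
    set n : ℕ := 3 * (m + 1) with hn
    have hk : ((n : ℕ) : ℤ) * 4 = 12 * ((m + 1 : ℕ) : ℤ) := by
      rw [hn]; push_cast; ring
    have hFhol : MDifferentiable 𝓘(ℂ) 𝓘(ℂ) (fun z => f z * Δ z ^ (m + 1)) :=
      MDifferentiable.mul hf (lof_mdifferentiable_pow lof_mdifferentiable_discriminant (m + 1))
    let G : ModularForm 𝒮ℒ ((n : ℤ) * 4) := lof_mk _ (fun z => f z * Δ z ^ (m + 1)) hFhol
      (lof_slash_mul_discriminant_pow hinv (m + 1) _ hk) hm
    let E : ModularForm 𝒮ℒ ((n : ℤ) * 4) := E₄.pow n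
    set c : ℂ := (qExpansion 1 G).coeff 0 with hc
    have hE0 : (qExpansion 1 E).coeff 0 = 1 := by
      show (qExpansion 1 (E₄.pow n)).coeff 0 = 1
      rw [ModularForm.qExpansion_pow one_pos one_mem_strictPeriods_SL,
        PowerSeries.coeff_zero_eq_constantCoeff, map_pow,
        ← PowerSeries.coeff_zero_eq_constantCoeff,
        E_qExpansion_coeff_zero (by norm_num : 3 ≤ 4) ⟨2, rfl⟩, one_pow]
    have hH0 : (qExpansion 1 (G - c • E)).coeff 0 = 0 := by
      have h1 : qExpansion 1 (⇑(G - c • E)) = qExpansion 1 G - c • qExpansion 1 E := by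
        have h2 := ModularForm.qExpansion_sub one_pos one_mem_strictPeriods_SL G (c • E)
        have h3 := ModularForm.qExpansion_smul one_pos one_mem_strictPeriods_SL c E
        rw [show (⇑(G - c • E) : ℍ → ℂ) = ⇑G - ⇑(c • E) from rfl, h2,
          show (⇑(c • E) : ℍ → ℂ) = c • ⇑E from rfl, h3]
      show (qExpansion 1 (⇑(G - c • E))).coeff 0 = 0
      rw [h1, map_sub, PowerSeries.coeff_smul, hE0]
      simp [hc]
    let Hc : CuspForm 𝒮ℒ ((n : ℤ) * 4) := ModularForm.toCuspForm (G - c • E) hH0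
    let h : ModularForm 𝒮ℒ ((n : ℤ) * 4 - 12) := CuspForm.discriminantEquiv Hc
    -- the new function
    have hf₁ : MDifferentiable 𝓘(ℂ) 𝓘(ℂ) (fun z => f z - c * jFun z ^ (m + 1)) :=
      MDifferentiable.sub hf
        (MDifferentiable.mul mdifferentiable_const
          (lof_mdifferentiable_pow lof_jFun_mdifferentiable (m + 1)))
    have hinv₁ : ∀ (γ : SL(2, ℤ)) z,
        (fun z => f z - c * jFun z ^ (m + 1)) (γ • z) =
          (fun z => f z - c * jFun z ^ (m + 1)) z := by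
      intro γ z
      simp only [hinv, lof_jFun_smul]
    have hb₁ : IsBoundedAtImInfty
        (fun z => (fun z => f z - c * jFun z ^ (m + 1)) z * Δ z ^ m) := by
      have hEq : (fun z => (fun z => f z - c * jFun z ^ (m + 1)) z * Δ z ^ m) = (h : ℍ → ℂ) := by
        ext z
        have hΔ : Δ z ≠ 0 := discriminant_ne_zero z
        have h1 : h z = (f z * Δ z ^ (m + 1) - c * E₄ z ^ n) / Δ z := by
          show (CuspForm.discriminantEquiv Hc) z = _
          rw [CuspForm.discriminantEquiv_apply]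
          show ((G - c • E) z) / Δ z = _
          congr 1
          show G z - (c • E) z = _
          have hEz : E z = E₄ z ^ n := by
            show (E₄.pow n) z = _
            rw [ModularForm.coe_pow]; rfl
          rw [show (c • E) z = c * E z from rfl, hEz]
          rfl
        rw [h1, eq_div_iff hΔ]
        have e1 : (E₄ z ^ 3 / Δ z) ^ (m + 1) * Δ z ^ (m + 1) = E₄ z ^ n := by
          rw [div_pow, div_mul_cancel₀ _ (pow_ne_zero _ hΔ), ← pow_mul, hn]
        have e2 : (f z - c * jFun z ^ (m + 1)) * Δ z ^ m * Δ z =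
            f z * Δ z ^ (m + 1) - c * ((E₄ z ^ 3 / Δ z) ^ (m + 1) * Δ z ^ (m + 1)) := by
          simp only [jFun]
          ring
        rw [e2, e1]
      rw [hEq]
      exact lof_isBoundedAtImInfty_of_modularForm h
    obtain ⟨P₁, hP₁deg, hP₁⟩ := ih hf₁ hinv₁ hb₁
    refine ⟨P₁ + Polynomial.C c * Polynomial.X ^ (m + 1), ?_, fun z => ?_⟩
    · refine (Polynomial.natDegree_add_le _ _).trans (max_le (hP₁deg.trans (Nat.le_succ m)) ?_)
      exact Polynomial.natDegree_C_mul_X_pow_le c (m + 1)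
    · have := hP₁ z
      simp only [Polynomial.eval_add, Polynomial.eval_mul, Polynomial.eval_C, Polynomial.eval_pow,
        Polynomial.eval_X]
      rw [← this]
      ring

end Fermat.Agent.X0
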