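/-
Program C (C-J4, K-rational refinement; helper24).

Formal rationality lemma: let `J = q^{-r} U(q)` be a Laurent series with coefficients in `K`
(`r > 0`, `U(0) = 1`), `ι : K → L` an injective ring hom, `P ∈ L[X]`.  If all coefficients of
`P(ι J) ∈ L((q))` lie in the range of `ι`, then `P` has coefficients in the range of `ι`.
(Triangular induction on the degree: the coefficient of `q^{-r m}` of `P(J)` is the leading
coefficient of `P`.)
-/
import Fermat.Agent.X0.AnDefs

set_option autoImplicit false

noncomputable section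

namespace Fermat.Agent.X0

open Polynomial

/-- Coefficients of `laurentOf` (local copy, to keep the imports of this file minimal). -/
theorem lor_laurentOf_coeff {R : Type*} [CommRing R] (m : ℕ) (P : PowerSeries R) (k : ℤ) :
    (laurentOf m P).coeff k = if 0 ≤ k + m then PowerSeries.coeff (k + m).toNat P else 0 := by
  rw [laurentOf, HahnSeries.coeff_single_mul, one_mul, sub_neg_eq_add]
  split_ifs with h
  · obtain ⟨n, hn⟩ := Int.eq_ofNat_of_zero_le h
    rw [hn, Int.toNat_natCast, HahnSeries.ofPowerSeries_apply_coeff]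
  · exact ModularCurve.ofPowerSeries_coeff_of_neg _ (by omega)

/-- The constant Laurent series. -/
theorem lor_algebraMap_eq_single {R : Type*} [CommRing R] (c : R) :
    algebraMap R (LaurentSeries R) c = HahnSeries.single 0 c := by
  have h1 : algebraMap R (PowerSeries R) c = PowerSeries.C c := by
    simp
  rw [HahnSeries.algebraMap_apply', h1, HahnSeries.ofPowerSeries_C]
  rfl

/-- Coefficients of a constant multiple. -/
theorem lor_coeff_algebraMap_mul {R : Type*} [CommRing R] (c : R) (x : LaurentSeries R) (n : ℤ) :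
    (algebraMap R (LaurentSeries R) c * x).coeff n = c * x.coeff n := by
  rw [lor_algebraMap_eq_single, HahnSeries.coeff_single_mul, sub_zero]

/-- Powers of `laurentOf`. -/
theorem lor_laurentOf_pow {R : Type*} [CommRing R] (r : ℕ) (U : PowerSeries R) (i : ℕ) :
    laurentOf r U ^ i = laurentOf (r * i) (U ^ i) := by
  have h : i • (-(r : ℤ)) = -((r * i : ℕ) : ℤ) := by
    simp only [Nat.cast_mul]; ring
  rw [laurentOf, laurentOf, mul_pow, HahnSeries.single_pow, one_pow, h, ← map_pow]

/-- `coeffMap` of `laurentOf`. -/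
theorem lor_coeffMap_laurentOf {R S : Type*} [CommRing R] [CommRing S] (f : R →+* S) (m : ℕ)
    (P : PowerSeries R) :
    ModularCurve.coeffMap f (laurentOf m P) = laurentOf m (P.map f) := by
  ext k
  rw [ModularCurve.coeffMap_coeff, lor_laurentOf_coeff, lor_laurentOf_coeff]
  split_ifs with h
  · rw [PowerSeries.coeff_map]
  · rw [map_zero]

/-- The coefficient of `q^{-r m}` of `J ^ i`, `J = q^{-r} U`, `U(0) = 1`, for `i ≤ m`. -/
theorem lor_coeff_pow {R : Type*} [CommRing R] (r : ℕ) (hr : 0 < r) (U : PowerSeries R)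
    (hU0 : PowerSeries.constantCoeff U = 1) (i m : ℕ) (him : i ≤ m) :
    (laurentOf r U ^ i).coeff (-((r * m : ℕ) : ℤ)) = if i = m then 1 else 0 := by
  rw [lor_laurentOf_pow, lor_laurentOf_coeff]
  rcases him.eq_or_lt with rfl | hlt
  · rw [if_pos rfl, if_pos (by omega)]
    have : (-((r * i : ℕ) : ℤ) + ((r * i : ℕ) : ℤ)).toNat = 0 := by simp
    rw [this, PowerSeries.coeff_zero_eq_constantCoeff, map_pow, hU0, one_pow]
  · rw [if_neg hlt.ne, if_neg]
    have : r * i < r * m := Nat.mul_lt_mul_of_pos_left hlt hr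
    push_cast
    have : ((r : ℤ) * i) < (r : ℤ) * m := by exact_mod_cast this
    omega

/-- The coefficient of `q^{-r m}` of `P(J)` is the `m`-th coefficient of `P`, if `deg P ≤ m`. -/
theorem lor_coeff_aeval {R : Type*} [CommRing R] (r : ℕ) (hr : 0 < r) (U : PowerSeries R)
    (hU0 : PowerSeries.constantCoeff U = 1) (P : R[X]) (m : ℕ) (hm : P.natDegree ≤ m) :
    (aeval (laurentOf r U) P).coeff (-((r * m : ℕ) : ℤ)) = P.coeff m := by
  rw [aeval_eq_sum_range' (Nat.lt_succ_of_le hm)]
  rw [HahnSeries.coeff_sum]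
  rw [Finset.sum_eq_single m]
  · rw [Algebra.smul_def, lor_coeff_algebraMap_mul, lor_coeff_pow r hr U hU0 m m le_rfl,
      if_pos rfl, mul_one]
  · intro i hi hne
    have hi' : i ≤ m := Nat.lt_succ_iff.mp (Finset.mem_range.mp hi)
    rw [Algebra.smul_def, lor_coeff_algebraMap_mul, lor_coeff_pow r hr U hU0 i m hi', if_neg hne,
      mul_zero]
  · intro h
    exact absurd (Finset.mem_range.mpr (Nat.lt_succ_self m)) h

/-- **Rationality, subring form.** `J = q^{-r} U` with coefficients in the subring `S`,
`U(0) = 1`, `r > 0`. If all coefficients of `P(J)` lie in `S` then so do those of `P`. -/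
theorem lor_coeff_mem_of_aeval_mem {L : Type*} [CommRing L] (S : Subring L) (r : ℕ) (hr : 0 < r)
    (U : PowerSeries L) (hU0 : PowerSeries.constantCoeff U = 1)
    (hU : ∀ n, PowerSeries.coeff n U ∈ S) :
    ∀ (P : L[X]), (∀ n : ℤ, (aeval (laurentOf r U) P).coeff n ∈ S) → ∀ i, P.coeff i ∈ S := by
  -- coefficients of powers of `J` lie in `S`
  have hUpow : ∀ (i n : ℕ), PowerSeries.coeff n (U ^ i) ∈ S := by
    intro i
    induction i with
    | zero =>
      intro n
      rw [pow_zero, PowerSeries.coeff_one]
      split_ifs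
      · exact S.one_mem
      · exact S.zero_mem
    | succ i ih =>
      intro n
      rw [pow_succ, PowerSeries.coeff_mul]
      exact S.sum_mem fun p _ => S.mul_mem (ih _) (hU _)
  have hJpow : ∀ (i : ℕ) (n : ℤ), (laurentOf r U ^ i).coeff n ∈ S := by
    intro i n
    rw [lor_laurentOf_pow, lor_laurentOf_coeff]
    split_ifs
    · exact hUpow _ _
    · exact S.zero_mem
  -- induction on a bound for the degree
  suffices H : ∀ (d : ℕ) (P : L[X]), P.natDegree ≤ d →
      (∀ n : ℤ, (aeval (laurentOf r U) P).coeff n ∈ S) → ∀ i, P.coeff i ∈ S from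
    fun P hP => H P.natDegree P le_rfl hP
  intro d
  induction d with
  | zero =>
    intro P hd hP i
    have htop := lor_coeff_aeval r hr U hU0 P 0 hd
    rcases Nat.eq_zero_or_pos i with rfl | hi
    · rw [← htop]
      exact hP _
    · rw [coeff_eq_zero_of_natDegree_lt (lt_of_le_of_lt hd hi)]
      exact S.zero_mem
  | succ d ih =>
    intro P hd hP i
    have htop := lor_coeff_aeval r hr U hU0 P (d + 1) hd
    have hlead : P.coeff (d + 1) ∈ S := by
      rw [← htop]
      exact hP _
    -- remove the top term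
    set Q : L[X] := P - C (P.coeff (d + 1)) * X ^ (d + 1) with hQ
    have hQcoeff : ∀ i, Q.coeff i = if i = d + 1 then 0 else P.coeff i := by
      intro i
      rw [hQ, coeff_sub, coeff_C_mul, coeff_X_pow]
      split_ifs with h
      · rw [h]; ring
      · ring
    have hQdeg : Q.natDegree ≤ d := by
      rw [natDegree_le_iff_coeff_eq_zero]
      intro n hn
      rw [hQcoeff]
      split_ifs with h
      · rfl
      · exact coeff_eq_zero_of_natDegree_lt (by omega)
    have hQmem : ∀ n : ℤ, (aeval (laurentOf r U) Q).coeff n ∈ S := by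
      intro n
      rw [hQ, map_sub, map_mul, aeval_C, map_pow, aeval_X, HahnSeries.coeff_sub,
        lor_coeff_algebraMap_mul]
      exact S.sub_mem (hP n) (S.mul_mem hlead (hJpow _ _))
    have hQi := ih Q hQdeg hQmem i
    rw [hQcoeff] at hQi
    split_ifs at hQi with h
    · rw [h]; exact hlead
    · exact hQi

/-- **Rationality, ring hom form.** `J = q^{-r} U` over `K`, `U(0) = 1`, `r > 0`, `ι : K →+* L`.
If `P ∈ L[X]` and all coefficients of `P(ι J)` lie in the range of `ι` then `P = p.map ι` for some
`p ∈ K[X]`. -/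
theorem lor_exists_map_eq {K L : Type*} [CommRing K] [CommRing L] (ι : K →+* L) (r : ℕ)
    (hr : 0 < r) (U : PowerSeries K) (hU0 : PowerSeries.constantCoeff U = 1) (P : L[X])
    (hP : ∀ n : ℤ, (aeval (ModularCurve.coeffMap ι (laurentOf r U)) P).coeff n ∈ ι.range) :
    ∃ p : K[X], p.map ι = P := by
  rw [lor_coeffMap_laurentOf] at hP
  have hU0' : PowerSeries.constantCoeff (U.map ι) = 1 := by
    rw [← PowerSeries.coeff_zero_eq_constantCoeff_apply, PowerSeries.coeff_map,
      PowerSeries.coeff_zero_eq_constantCoeff_apply, hU0, map_one]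
  have hU' : ∀ n, PowerSeries.coeff n (U.map ι) ∈ ι.range := fun n => by
    rw [PowerSeries.coeff_map]; exact ⟨_, rfl⟩
  have h := lor_coeff_mem_of_aeval_mem ι.range r hr (U.map ι) hU0' hU' P hP
  have hmem : P ∈ Polynomial.lifts ι := by
    rw [Polynomial.lifts_iff_coeff_lifts]
    intro n
    exact h n
  obtain ⟨p, hp⟩ := hmem
  exact ⟨p, hp⟩

/-- `aeval` commutes with `coeffMap`. -/
theorem lor_coeffMap_aeval {K L : Type*} [CommRing K] [CommRing L] (ι : K →+* L)
    (J : LaurentSeries K) (p : K[X]) :
    ModularCurve.coeffMap ι (aeval J p) = aeval (ModularCurve.coeffMap ι J) (p.map ι) := by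
  induction p using Polynomial.induction_on' with
  | add p q hp hq => rw [map_add, map_add, Polynomial.map_add, map_add, hp, hq]
  | monomial n a =>
    rw [Polynomial.map_monomial, aeval_monomial, aeval_monomial, map_mul, map_pow]
    congr 1
    rw [lor_algebraMap_eq_single, lor_algebraMap_eq_single, ModularCurve.coeffMap_single]

/-- **Rationality, final form.** If `P(ι J) = ι E` in `L((q))` with `J = q^{-r} U` and `E` over `K`
and `ι` injective, then `P = p.map ι` with `E = p(J)`. -/
theorem lor_exists_aeval_eq {K L : Type*} [CommRing K] [CommRing L] (ι : K →+* L)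
    (hι : Function.Injective ι) (r : ℕ) (hr : 0 < r) (U : PowerSeries K)
    (hU0 : PowerSeries.constantCoeff U = 1) (P : L[X]) (E : LaurentSeries K)
    (h : aeval (ModularCurve.coeffMap ι (laurentOf r U)) P = ModularCurve.coeffMap ι E) :
    ∃ p : K[X], p.map ι = P ∧ E = aeval (laurentOf r U) p := by
  obtain ⟨p, hp⟩ := lor_exists_map_eq ι r hr U hU0 P (fun n => by
    rw [h, ModularCurve.coeffMap_coeff]; exact ⟨_, rfl⟩)
  refine ⟨p, hp, ?_⟩
  have hinj : Function.Injective (ModularCurve.coeffMap ι) := by
    intro x y hxy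
    ext k
    apply hι
    rw [← ModularCurve.coeffMap_coeff, ← ModularCurve.coeffMap_coeff, hxy]
  apply hinj
  rw [lor_coeffMap_aeval, hp, h]

end Fermat.Agent.X0
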