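/-
Program C (C-F2e (2), INTEGRALITY; helper24).

For an arbitrary interface pair `(D : RealizeData N) (C : CuspData N D)`:
the coefficients of `∏_x (X - C.T (rep x)⁻¹ u)`, `x ∈ SL(2,ℤ)/Γ₀(N)`, `u ∈ R = ℚbar[j_d]`,
are polynomials in `j(q_N^N)` with coefficients in `ℚbar`.

Method: the coefficients are the `q_N`-expansions of `SL(2,ℤ)`-invariant holomorphic functions with
a finite-order pole at `∞`; those are polynomials in `j` over `ℂ` (`exists_polynomial_jFun`),
and the polynomial is defined over `ℚbar` since its `q_N`-expansion is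
(`lor_exists_aeval_eq`).
-/
import Fermat.Agent.X0.Analytic
import Fermat.Agent.X0.Iface
import Fermat.Agent.X0.HolOrder
import Fermat.Agent.X0.LevelOneFunctions
import Fermat.Agent.X0.LevelOneRational

set_option autoImplicit false
set_option linter.unusedSectionVars false

open ModularCurve UpperHalfPlane ModularForm
open scoped Topology Manifold MatrixGroups

noncomputable section

namespace Fermat.Agent.X0

open Analytic JQExp Polynomial

/-! ### Level `N` expansions through `z ↦ N z` -/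

/-- Division by `N` on the upper half plane. -/
def intg_divH (N : ℕ) [NeZero N] (z : ℍ) : ℍ :=
  ⟨(z : ℂ) / (N : ℂ), by
    have hN : 0 < (N : ℝ) := by exact_mod_cast Nat.pos_of_ne_zero (NeZero.ne N)
    have : ((z : ℂ) / (N : ℂ)).im = z.im / N := by
      rw [Complex.div_natCast_im]; rfl
    rw [this]
    exact div_pos z.im_pos hN⟩

theorem intg_scaleH_divH (N : ℕ) [NeZero N] (z : ℍ) : scaleH N (intg_divH N z) = z := by
  apply UpperHalfPlane.ext
  rw [coe_scaleH]
  show (N : ℂ) * ((z : ℂ) / (N : ℂ)) = z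
  have hN : (N : ℂ) ≠ 0 := by exact_mod_cast NeZero.ne N
  field_simp

theorem intg_qh_scaleH (N : ℕ) [NeZero N] (z : ℍ) : qh N (scaleH N z) = qH z := by
  unfold qh qH Function.Periodic.qParam
  rw [coe_scaleH]
  have hN : (N : ℂ) ≠ 0 := by exact_mod_cast NeZero.ne N
  congr 1
  push_cast
  field_simp

/-- A power series converging on the unit disc defines a holomorphic function there, with that
Taylor series. -/
theorem intg_differentiableOn_of_hasSum {G : ℂ → ℂ} {c : ℕ → ℂ}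
    (h : ∀ q : ℂ, ‖q‖ < 1 → HasSum (fun n => c n * q ^ n) (G q)) :
    DifferentiableOn ℂ G (Metric.ball 0 1) := by
  have H1 : HasFPowerSeriesOnBall G (FormalMultilinearSeries.ofScalars ℂ c) 0 1 := by
    constructor
    · refine le_of_forall_lt_imp_le_of_dense fun r hr ↦ ?_
      lift r to NNReal using hr.ne_top
      apply FormalMultilinearSeries.le_radius_of_summable
      have hr' : ‖((r : ℝ) : ℂ)‖ < 1 := by
        rw [Complex.norm_real, Real.norm_eq_abs, NNReal.abs_eq]
        exact_mod_cast hr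
      simpa [norm_mul, mul_comm, mul_left_comm, mul_assoc] using (h _ hr').summable.norm
    · simp
    · intro y hy
      rw [← ENNReal.coe_one, Metric.eball_coe, NNReal.coe_one, mem_ball_zero_iff] at hy
      simpa [mul_comm] using h y hy
  have := H1.analyticOnNhd.differentiableOn
  rwa [← ENNReal.coe_one, Metric.eball_coe, NNReal.coe_one] at this

/-- From the `IsQExp` datum of `AnDefs` (level one) to `HasQExp`. -/
theorem intg_hasQExp_of_isQExp {g : ℍ → ℂ} {m : ℕ} {P : PowerSeries ℂ} (h : IsQExp 1 g m P) :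
    HasQExp (laurentOf m P) g := by
  have hq1 : ∀ z : ℍ, qh 1 z = qH z := fun z => by unfold qh qH; rw [Nat.cast_one]
  have hsum : ∀ q : ℂ, ‖q‖ < 1 → HasSum (fun n => PowerSeries.coeff n P * q ^ n)
      (∑' n, PowerSeries.coeff n P * q ^ n) := by
    intro q hq
    by_cases hq0 : q = 0
    · subst hq0
      have : ∀ n : ℕ, n ≠ 0 → PowerSeries.coeff n P * (0 : ℂ) ^ n = 0 := fun n hn => by
        rw [zero_pow hn, mul_zero]
      exact (hasSum_single 0 this).summable.hasSum
    · obtain ⟨z, rfl⟩ := exists_qH_eq hq hq0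
      have := (h z).summable
      rw [hq1] at this
      exact this.hasSum
  have hG := intg_differentiableOn_of_hasSum hsum
  have htps := tps_eq_of_hasSum hsum
  refine ⟨m, _, hG, ?_, fun z => ?_⟩
  · rw [htps, lau_eq_laurentOf]
    congr 1
    ext n
    rw [PowerSeries.coeff_mk]
  · have := (h z).tsum_eq
    rw [hq1] at this
    exact this.symm

/-- `T` is the `q_N`-expansion of `g`: stated through `z ↦ N z`, which turns `q_N` into `q`. -/
def IntgQN (N : ℕ) [NeZero N] (g : ℍ → ℂ) (T : LaurentSeries ℂ) : Prop :=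
  HasQExp T (fun z => g (scaleH N z))

theorem intg_qn_of_isQExp (N : ℕ) [NeZero N] {g : ℍ → ℂ} {m : ℕ} {P : PowerSeries ℂ}
    (h : IsQExp N g m P) : IntgQN N g (laurentOf m P) := by
  apply intg_hasQExp_of_isQExp
  intro z
  have := h (scaleH N z)
  rw [intg_qh_scaleH] at this
  have hq1 : qh 1 z = qH z := by unfold qh qH; rw [Nat.cast_one]
  rw [hq1]
  exact this

theorem intg_qn_const (N : ℕ) [NeZero N] (c : ℂ) : IntgQN N (fun _ => c) (HahnSeries.C c) :=
  HasQExp.const c

theorem intg_qn_mul (N : ℕ) [NeZero N] {g₁ g₂ : ℍ → ℂ} {T₁ T₂ : LaurentSeries ℂ}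
    (h₁ : IntgQN N g₁ T₁) (h₂ : IntgQN N g₂ T₂) : IntgQN N (g₁ * g₂) (T₁ * T₂) :=
  HasQExp.mul h₁ h₂

theorem intg_qn_add (N : ℕ) [NeZero N] {g₁ g₂ : ℍ → ℂ} {T₁ T₂ : LaurentSeries ℂ}
    (h₁ : IntgQN N g₁ T₁) (h₂ : IntgQN N g₂ T₂) : IntgQN N (g₁ + g₂) (T₁ + T₂) :=
  HasQExp.add h₁ h₂

theorem intg_qn_unique (N : ℕ) [NeZero N] {g : ℍ → ℂ} {T T' : LaurentSeries ℂ}
    (h : IntgQN N g T) (h' : IntgQN N g T') : T = T' :=
  HasQExp.unique_left h h'

theorem intg_qn_unique_right (N : ℕ) [NeZero N] {g g' : ℍ → ℂ} {T : LaurentSeries ℂ}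
    (h : IntgQN N g T) (h' : IntgQN N g' T) : g = g' := by
  have := HasQExp.unique_right h h'
  funext z
  have h1 := congrFun this (intg_divH N z)
  simp only [intg_scaleH_divH] at h1
  exact h1

theorem intg_qn_jFun (N : ℕ) [NeZero N] : IntgQN N jFun (qExpand ℂ N (jqModC ℂ)) :=
  hasQExp_jqModC.qExpand N

/-- Polynomials in `j`. -/
theorem intg_qn_eval_jFun (N : ℕ) [NeZero N] (P : ℂ[X]) :
    IntgQN N (fun z => P.eval (jFun z)) (aeval (qExpand ℂ N (jqModC ℂ)) P) := by
  induction P using Polynomial.induction_on' with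
  | add p q hp hq =>
    have := intg_qn_add N hp hq
    have hfun : (fun z => (p + q).eval (jFun z))
        = (fun z => p.eval (jFun z)) + (fun z => q.eval (jFun z)) := by
      funext z
      simp [Polynomial.eval_add]
    rw [map_add, hfun]
    exact this
  | monomial n a =>
    have hpow : ∀ n : ℕ, IntgQN N (fun z => jFun z ^ n) (qExpand ℂ N (jqModC ℂ) ^ n) := by
      intro n
      induction n with
      | zero =>
        have := intg_qn_const N 1
        simpa using this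
      | succ n ih =>
        have := intg_qn_mul N ih (intg_qn_jFun N)
        have hfun : (fun z => jFun z ^ (n + 1)) = (fun z => jFun z ^ n) * jFun := by
          funext z
          simp [pow_succ]
        rw [pow_succ, hfun]
        exact this
    have := intg_qn_mul N (intg_qn_const N a) (hpow n)
    have hfun : (fun z => (monomial n a).eval (jFun z))
        = (fun _ => a) * (fun z => jFun z ^ n) := by
      funext z
      simp [Polynomial.eval_monomial]
    rw [aeval_monomial, lor_algebraMap_eq_single, hfun]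
    exact this

/-- Finite order pole at `∞`. -/
theorem intg_qn_bounded (N : ℕ) [NeZero N] {g : ℍ → ℂ} {T : LaurentSeries ℂ}
    (h : IntgQN N g T) :
    ∃ M : ℕ, IsBoundedAtImInfty (fun z => g z * discriminant z ^ M) := by
  obtain ⟨m, G, hG, -, hg⟩ := h
  refine ⟨m, ?_⟩
  have hNpos : 0 < (N : ℝ) := by exact_mod_cast Nat.pos_of_ne_zero (NeZero.ne N)
  -- the function of `w = q_N`
  set H : ℂ → ℂ := fun w => G w * (w ^ (N - 1)) ^ m * (etaFun (w ^ N) ^ 24) ^ m with hH
  have hmaps : Set.MapsTo (fun q : ℂ => q ^ N) (Metric.ball 0 1) (Metric.ball 0 1) := by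
    intro q hq
    rw [mem_ball_zero_iff] at hq ⊢
    rw [norm_pow]
    exact pow_lt_one₀ (norm_nonneg _) hq (NeZero.ne N)
  have hHd : DifferentiableOn ℂ H (Metric.ball 0 1) := by
    refine (hG.mul ((differentiableOn_id.pow (N - 1)).pow m)).mul ?_
    exact (((differentiableOn_etaFun.comp (differentiableOn_id.pow N) hmaps)).pow 24).pow m
  have hHc : ContinuousAt H 0 :=
    (hHd.differentiableAt (Metric.ball_mem_nhds 0 one_pos)).continuousAt
  have hkey : ∀ z : ℍ, g z * discriminant z ^ m = H (qh N z) := by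
    intro z
    have h1 : g (scaleH N (intg_divH N z)) * qH (intg_divH N z) ^ m = G (qH (intg_divH N z)) :=
      hg (intg_divH N z)
    rw [intg_scaleH_divH] at h1
    have h2 : qH (intg_divH N z) = qh N z := by
      rw [← intg_qh_scaleH N (intg_divH N z), intg_scaleH_divH]
    rw [h2] at h1
    have h3 : discriminant z = qh N z ^ N * etaFun (qh N z ^ N) ^ 24 := by
      rw [discriminant_eq_etaFun]
      have : Function.Periodic.qParam 1 (z : ℂ) = qh N z ^ N := by
        have := qH_scaleH N (intg_divH N z)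
        rw [intg_scaleH_divH, h2] at this
        exact this
      rw [this]
    rw [hH]
    show g z * discriminant z ^ m
      = G (qh N z) * (qh N z ^ (N - 1)) ^ m * (etaFun (qh N z ^ N) ^ 24) ^ m
    rw [← h1, h3, mul_pow]
    have hN1 : N = (N - 1) + 1 := (Nat.succ_pred_eq_of_pos (Nat.pos_of_ne_zero (NeZero.ne N))).symm
    have : (qh N z ^ N) ^ m = qh N z ^ m * (qh N z ^ (N - 1)) ^ m := by
      rw [← mul_pow, ← pow_succ', ← hN1]
    rw [this]
    ring
  have htend : Filter.Tendsto (fun z : ℍ => qh N z) atImInfty (𝓝 0) :=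
    UpperHalfPlane.qParam_tendsto_atImInfty hNpos
  have h4 : Filter.Tendsto (fun z : ℍ => H (qh N z)) atImInfty (𝓝 (H 0)) :=
    hHc.tendsto.comp htend
  have h5 : (fun z : ℍ => g z * discriminant z ^ m) = fun z : ℍ => H (qh N z) := funext hkey
  rw [h5]
  exact h4.isBigO_one ℝ

/-! ### The ring of pairs (function, expansion over `ℚbar`) -/

/-- Pairs of a holomorphic function and a Laurent series over `ℚbar` which is its
`q_N`-expansion. -/
def intgPairs (N : ℕ) [NeZero N] : Subring ((ℍ → ℂ) × LaurentSeries Kbar) where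
  carrier := {a | a.1 ∈ HolH ∧ IntgQN N a.1 (toC a.2)}
  mul_mem' := by
    rintro a b ⟨ha1, ha2⟩ ⟨hb1, hb2⟩
    refine ⟨HolH.mul_mem ha1 hb1, ?_⟩
    show IntgQN N (a.1 * b.1) (toC (a.2 * b.2))
    rw [map_mul]
    exact intg_qn_mul N ha2 hb2
  one_mem' := by
    refine ⟨HolH.one_mem, ?_⟩
    show IntgQN N (1 : ℍ → ℂ) (toC 1)
    have := intg_qn_const N 1
    rw [map_one] at this ⊢
    exact this
  add_mem' := by
    rintro a b ⟨ha1, ha2⟩ ⟨hb1, hb2⟩
    refine ⟨HolH.add_mem ha1 hb1, ?_⟩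
    show IntgQN N (a.1 + b.1) (toC (a.2 + b.2))
    rw [map_add]
    exact intg_qn_add N ha2 hb2
  zero_mem' := by
    refine ⟨HolH.zero_mem, ?_⟩
    show IntgQN N (0 : ℍ → ℂ) (toC 0)
    have := intg_qn_const N 0
    rw [map_zero] at this ⊢
    exact this
  neg_mem' := by
    rintro a ⟨ha1, ha2⟩
    refine ⟨HolH.neg_mem ha1, ?_⟩
    show IntgQN N (-a.1) (toC (-a.2))
    have := intg_qn_mul N (intg_qn_const N (-1)) ha2
    have hfun : (fun _ : ℍ => (-1 : ℂ)) * a.1 = -a.1 := by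
      funext z
      simp
    have e : HahnSeries.C (-1 : ℂ) * toC a.2 = toC (-a.2) := by
      rw [map_neg, map_neg, map_one, neg_mul, one_mul]
    rw [hfun, e] at this
    exact this

/-- The `q_N`-expansion of `j`, as a `laurentOf`. -/
theorem intg_jN_eq (N : ℕ) [NeZero N] :
    qExpand ℂ N (jqModC ℂ)
      = laurentOf N (pexp N (jNum.map (Int.castRingHom ℂ))) := by
  have h1 : jqModC ℂ = lau 1 (jNum.map (Int.castRingHom ℂ)) := by
    rw [jqModC, lau]
    norm_num
  rw [h1, qExpand_lau, mul_one, lau_eq_laurentOf]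

theorem intg_toC_jN (N : ℕ) [NeZero N] :
    toC (qExpand Kbar N jqK) = qExpand ℂ N (jqModC ℂ) := by
  rw [toC, coeffMap_qExpand]
  congr 1
  exact toC_coeffEmb_jq

/-- **Integrality, abstract form.** A finite family of holomorphic functions `g x` on `ℍ`,
permuted by `SL(2,ℤ)`, with `q_N`-expansions `T x` over `ℚbar`: the coefficients of
`∏ (X - T x)` are polynomials over `ℚbar` in `j(q_N^N)`, and these polynomials evaluated at `j`
are the coefficients of `∏ (X - g x z)`. -/
theorem intg_core (N : ℕ) [NeZero N] {ι : Type*} [Fintype ι] (g : ι → ℍ → ℂ)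
    (T : ι → LaurentSeries Kbar) (hhol : ∀ x, g x ∈ HolH)
    (hexp : ∀ x, IntgQN N (g x) (toC (T x)))
    (hperm : ∀ δ : SL(2, ℤ), ∃ σ : Equiv.Perm ι, ∀ x z, g x (δ • z) = g (σ x) z) (k : ℕ) :
    ∃ p : Kbar[X], (∏ x, (X - C (T x))).coeff k = aeval (qExpand Kbar N jqK) p ∧
      ∀ z, (p.map iotaK).eval (jFun z) = (∏ x, (X - C (g x z))).coeff k := by
  classical
  -- the polynomial over the ring of pairs
  let a : ι → intgPairs N := fun x => ⟨(g x, T x), hhol x, hexp x⟩
  let Q : (intgPairs N)[X] := ∏ x, (X - C (a x))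
  let ck : (ℍ → ℂ) × LaurentSeries Kbar := (Q.coeff k : intgPairs N)
  have hck : ck.1 ∈ HolH ∧ IntgQN N ck.1 (toC ck.2) := (Q.coeff k).2
  -- second projection
  have hsnd : ck.2 = (∏ x, (X - C (T x))).coeff k := by
    let φ : intgPairs N →+* LaurentSeries Kbar :=
      (RingHom.snd (ℍ → ℂ) (LaurentSeries Kbar)).comp (intgPairs N).subtype
    have : (Q.map φ) = ∏ x, (X - C (T x)) := by
      simp only [Q, Polynomial.map_prod, Polynomial.map_sub, Polynomial.map_X, Polynomial.map_C]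
      rfl
    rw [← this, Polynomial.coeff_map]
    rfl
  -- first projection, pointwise
  have hfst : ∀ z, ck.1 z = (∏ x, (X - C (g x z))).coeff k := by
    intro z
    let φ : intgPairs N →+* ℂ :=
      (Pi.evalRingHom (fun _ : ℍ => ℂ) z).comp
        ((RingHom.fst (ℍ → ℂ) (LaurentSeries Kbar)).comp (intgPairs N).subtype)
    have : (Q.map φ) = ∏ x, (X - C (g x z)) := by
      simp only [Q, Polynomial.map_prod, Polynomial.map_sub, Polynomial.map_X, Polynomial.map_C]
      rfl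
    rw [← this, Polynomial.coeff_map]
    rfl
  -- invariance
  have hinv : ∀ (δ : SL(2, ℤ)) (z : ℍ), ck.1 (δ • z) = ck.1 z := by
    intro δ z
    obtain ⟨σ, hσ⟩ := hperm δ
    rw [hfst, hfst]
    congr 1
    rw [← Equiv.prod_comp σ (fun x => (X - C (g x z) : ℂ[X]))]
    refine Finset.prod_congr rfl fun x _ => ?_
    rw [hσ]
  -- pole of finite order
  obtain ⟨M, hM⟩ := intg_qn_bounded N hck.2
  obtain ⟨P, -, hP⟩ := exists_polynomial_jFun (mem_HolH.mp hck.1) hinv M hM
  -- the expansion of `P(j)`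
  have hPexp : IntgQN N ck.1 (aeval (qExpand ℂ N (jqModC ℂ)) P) := by
    have := intg_qn_eval_jFun N P
    have hfun : (fun z => P.eval (jFun z)) = ck.1 := funext fun z => (hP z).symm
    rwa [hfun] at this
  have heq : aeval (qExpand ℂ N (jqModC ℂ)) P = toC ck.2 := intg_qn_unique N hPexp hck.2
  -- rationality
  have hN : 0 < N := Nat.pos_of_ne_zero (NeZero.ne N)
  have hU0 : PowerSeries.constantCoeff (pexp N (jNum.map (Int.castRingHom ℂ))) = 1 := by
    rw [← PowerSeries.coeff_zero_eq_constantCoeff_apply, pexp, PowerSeries.coeff_mk,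
      if_pos (dvd_zero N), Nat.zero_div, PowerSeries.coeff_map,
      PowerSeries.coeff_zero_eq_constantCoeff_apply, constantCoeff_jNum]
    simp
  have hU : ∀ n, PowerSeries.coeff n (pexp N (jNum.map (Int.castRingHom ℂ))) ∈ iotaK.range := by
    intro n
    rw [pexp, PowerSeries.coeff_mk]
    split_ifs
    · rw [PowerSeries.coeff_map]
      exact ⟨((PowerSeries.coeff (n / N) jNum : ℤ) : Kbar), by simp⟩
    · exact iotaK.range.zero_mem
  have hcoef : ∀ i, P.coeff i ∈ iotaK.range := by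
    refine lor_coeff_mem_of_aeval_mem iotaK.range N hN _ hU0 hU P fun n => ?_
    rw [← intg_jN_eq, heq, toC_coeff]
    exact ⟨_, rfl⟩
  obtain ⟨p, hp'⟩ : P ∈ Polynomial.lifts iotaK := by
    rw [Polynomial.lifts_iff_coeff_lifts]
    exact hcoef
  have hp : p.map iotaK = P := hp'
  refine ⟨p, ?_, fun z => ?_⟩
  · rw [← hsnd]
    apply toC_injective
    rw [← heq, toC, lor_coeffMap_aeval, hp]
    have := intg_toC_jN N
    rw [toC] at this
    rw [this]
  · rw [hp, ← hP, hfst]

/-! ### The concrete statement for an interface pair `(D, C)` -/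

section Concrete

variable (N : ℕ) [NeZero N] (D : RealizeData N) (C : CuspData N D)

/-- `C.T γ u` is the `q_N`-expansion of `Θ u ∘ γ`. -/
theorem intg_T_spec (γ : SL(2, ℤ)) (u : Rsub N) :
    IntgQN N (compSL (D.Θ u) γ) (toC (C.T γ (u : FF N))) := by
  obtain ⟨m, P, hP, hT⟩ := C.spec γ u
  rw [hT, toC, lor_coeffMap_laurentOf]
  exact intg_qn_of_isQExp N hP

/-- `C.T γ u` is determined by the `q_N`-expansion of `Θ u ∘ γ`. -/
theorem intg_T_eq_of_qn (γ : SL(2, ℤ)) (u : Rsub N) (E : LaurentSeries Kbar)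
    (h : IntgQN N (compSL (D.Θ u) γ) (toC E)) : C.T γ (u : FF N) = E :=
  toC_injective (intg_qn_unique N (intg_T_spec N D C γ u) h)

theorem intg_T_algebraMap (γ : SL(2, ℤ)) (c : Kbar) :
    C.T γ (algebraMap Kbar (FF N) c) = algebraMap Kbar (LaurentSeries Kbar) c := by
  have h1 : ((algebraMap Kbar (Rsub N) c : Rsub N) : FF N) = algebraMap Kbar (FF N) c := rfl
  rw [← h1]
  apply intg_T_eq_of_qn
  rw [D.algebraMap_eq, toC_algebraMap]
  exact intg_qn_const N (iotaK c)

theorem intg_compSL_jdFun_one (γ : SL(2, ℤ)) : compSL (jdFun 1) γ = jFun := by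
  funext z
  show jFun (scaleH 1 (γ • z)) = jFun z
  have : scaleH 1 (γ • z) = γ • z := by
    apply UpperHalfPlane.ext
    rw [coe_scaleH]
    simp
  rw [this, jFun_smul]

theorem intg_T_jF (γ : SL(2, ℤ)) : C.T γ (jF N) = qExpand Kbar N jqK := by
  have h1 : ((jdR N 1 (one_dvd N) : Rsub N) : FF N) = jF N := rfl
  rw [← h1]
  apply intg_T_eq_of_qn
  rw [D.jd_eq 1 (one_dvd N), intg_compSL_jdFun_one, intg_toC_jN]
  exact intg_qn_jFun N

/-- `C.T γ` on polynomials in `j` over `ℚbar`. -/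
theorem intg_T_aeval_jF (γ : SL(2, ℤ)) (p : Kbar[X]) :
    C.T γ (aeval (jF N) p) = aeval (qExpand Kbar N jqK) p := by
  rw [aeval_def, aeval_def, Polynomial.hom_eval₂, intg_T_jF]
  congr 1
  refine RingHom.ext fun c => ?_
  exact intg_T_algebraMap N D C γ c

/-- The permutation of the cosets induced by `δ ∈ SL(2,ℤ)`. -/
theorem intg_perm (rep : SL(2, ℤ) ⧸ CongruenceSubgroup.Gamma0 N → SL(2, ℤ))
    (hrep : ∀ x, (rep x : SL(2, ℤ) ⧸ CongruenceSubgroup.Gamma0 N) = x) (u : Rsub N)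
    (δ : SL(2, ℤ)) :
    ∃ σ : Equiv.Perm (SL(2, ℤ) ⧸ CongruenceSubgroup.Gamma0 N), ∀ x z,
      compSL (D.Θ u) (rep x)⁻¹ (δ • z) = compSL (D.Θ u) (rep (σ x))⁻¹ z := by
  refine ⟨MulAction.toPerm δ⁻¹, fun x z => ?_⟩
  set a := rep x with ha
  set b := rep ((MulAction.toPerm δ⁻¹ : Equiv.Perm _) x) with hb
  have hcoset : ((b : SL(2, ℤ)) : SL(2, ℤ) ⧸ CongruenceSubgroup.Gamma0 N)
      = ((δ⁻¹ * a : SL(2, ℤ)) : SL(2, ℤ) ⧸ CongruenceSubgroup.Gamma0 N) := by
    rw [hb, hrep, MulAction.toPerm_apply]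
    conv_lhs => rw [← hrep x]
    rfl
  have hmem : b⁻¹ * (δ⁻¹ * a) ∈ CongruenceSubgroup.Gamma0 N := QuotientGroup.eq.mp hcoset
  have hmem' : (b⁻¹ * (δ⁻¹ * a))⁻¹ ∈ CongruenceSubgroup.Gamma0 N := inv_mem hmem
  have hinv := D.invariant u _ hmem'
  show D.Θ u (a⁻¹ • δ • z) = D.Θ u (b⁻¹ • z)
  have h1 : a⁻¹ • δ • z = (b⁻¹ * (δ⁻¹ * a))⁻¹ • (b⁻¹ • z) := by
    rw [← mul_smul, ← mul_smul]
    congr 1
    group
  rw [h1]
  exact congrFun hinv (b⁻¹ • z)

/-- **INTEGRALITY** (C-F2e (2)). For `u ∈ R = ℚbar[j_d : d ∣ N]` the coefficients of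
`∏_x (X - T_{(rep x)⁻¹} u)`, `x ∈ SL(2,ℤ)/Γ₀(N)`, are of the form `T_1 (p(j))`, `p ∈ ℚbar[X]`;
analytically `p(j(z))` is the corresponding coefficient of `∏_x (X - (Θ u)((rep x)⁻¹ z))`. -/
theorem integrality [Fintype (SL(2, ℤ) ⧸ CongruenceSubgroup.Gamma0 N)]
    (rep : SL(2, ℤ) ⧸ CongruenceSubgroup.Gamma0 N → SL(2, ℤ))
    (hrep : ∀ x, (rep x : SL(2, ℤ) ⧸ CongruenceSubgroup.Gamma0 N) = x) (u : Rsub N) (k : ℕ) :
    ∃ p : Kbar[X],
      (∏ x, (X - Polynomial.C (C.T (rep x)⁻¹ (u : FF N)))).coeff k = C.T 1 (aeval (jF N) p) ∧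
      ∀ z, (p.map iotaK).eval (jFun z)
        = (∏ x, (X - Polynomial.C (compSL (D.Θ u) (rep x)⁻¹ z))).coeff k := by
  obtain ⟨p, hp1, hp2⟩ := intg_core N (fun x => compSL (D.Θ u) (rep x)⁻¹)
    (fun x => C.T (rep x)⁻¹ (u : FF N)) (fun x => compSL_mem_HolH (D.mem_HolH u) _)
    (fun x => intg_T_spec N D C _ u) (intg_perm N D rep hrep u) k
  exact ⟨p, by rw [hp1, intg_T_aeval_jF], hp2⟩

/-- **Analytic norm formula.** If the product of the `T_{(rep x)⁻¹} u` is `T_1 (p(j))` then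
`p(j(z))` is the product of the conjugates `(Θ u)((rep x)⁻¹ z)`. -/
theorem integrality_prod_of_eq [Fintype (SL(2, ℤ) ⧸ CongruenceSubgroup.Gamma0 N)]
    (rep : SL(2, ℤ) ⧸ CongruenceSubgroup.Gamma0 N → SL(2, ℤ)) (u : Rsub N) (p : Kbar[X])
    (hp : ∏ x, C.T (rep x)⁻¹ (u : FF N) = C.T 1 (aeval (jF N) p)) (z : ℍ) :
    (p.map iotaK).eval (jFun z) = ∏ x, compSL (D.Θ u) (rep x)⁻¹ z := by
  classical
  let a : SL(2, ℤ) ⧸ CongruenceSubgroup.Gamma0 N → intgPairs N := fun x =>
    ⟨(compSL (D.Θ u) (rep x)⁻¹, C.T (rep x)⁻¹ (u : FF N)),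
      compSL_mem_HolH (D.mem_HolH u) _, intg_T_spec N D C _ u⟩
  have hprod : ((∏ x, a x : intgPairs N) : (ℍ → ℂ) × LaurentSeries Kbar)
      = (∏ x, compSL (D.Θ u) (rep x)⁻¹, ∏ x, C.T (rep x)⁻¹ (u : FF N)) := by
    show (intgPairs N).subtype (∏ x, a x) = _
    rw [map_prod]
    ext1
    · rw [Prod.fst_prod]
      rfl
    · rw [Prod.snd_prod]
      rfl
  have h1 : IntgQN N (∏ x, compSL (D.Θ u) (rep x)⁻¹) (toC (∏ x, C.T (rep x)⁻¹ (u : FF N))) := by
    have := (∏ x, a x : intgPairs N).2.2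
    rw [hprod] at this
    exact this
  have h2 : toC (∏ x, C.T (rep x)⁻¹ (u : FF N))
      = aeval (qExpand ℂ N (jqModC ℂ)) (p.map iotaK) := by
    rw [hp, intg_T_aeval_jF, toC, lor_coeffMap_aeval]
    have := intg_toC_jN N
    rw [toC] at this
    rw [this]
  rw [h2] at h1
  have h3 := intg_qn_unique_right N (intg_qn_eval_jFun N (p.map iotaK)) h1
  have := congrFun h3 z
  rw [Finset.prod_apply] at this
  exact this

/-- The shape consumed by the abstract degree lemma (ABS-DEG, HYP2). -/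
theorem integrality_mem_range [Fintype (SL(2, ℤ) ⧸ CongruenceSubgroup.Gamma0 N)]
    (rep : SL(2, ℤ) ⧸ CongruenceSubgroup.Gamma0 N → SL(2, ℤ))
    (hrep : ∀ x, (rep x : SL(2, ℤ) ⧸ CongruenceSubgroup.Gamma0 N) = x) (u : Rsub N) (k : ℕ) :
    (∏ x, (X - Polynomial.C (C.T (rep x)⁻¹ (u : FF N)))).coeff k
      ∈ Set.range (C.T 1 ∘ algebraMap (Kj N) (FF N)) := by
  obtain ⟨p, hp, -⟩ := integrality N D C rep hrep u k
  have hmem : aeval (jF N) p ∈ Kj N := by
    rw [Kj, ← IntermediateField.mem_toSubalgebra]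
    have hj : jF N ∈ (IntermediateField.adjoin Kbar {jF N}).toSubalgebra :=
      IntermediateField.subset_adjoin Kbar {jF N} (Set.mem_singleton _)
    have hle : Algebra.adjoin Kbar {jF N} ≤ (IntermediateField.adjoin Kbar {jF N}).toSubalgebra :=
      Algebra.adjoin_le (Set.singleton_subset_iff.mpr hj)
    exact hle (Polynomial.aeval_mem_adjoin_singleton Kbar (jF N))
  exact ⟨⟨_, hmem⟩, hp.symm⟩

end Concrete

end Fermat.Agent.X0
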