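/-
C-J2a (helper5): a period lattice is determined by its invariants `g₂`, `g₃`
(Program C / S24, piece C-J2: injectivity of `j` modulo `SL(2, ℤ)`).

Main result: `Fermat.Agent.X0.WPUnique.lattice_eq_of_g₂_eq_of_g₃_eq`.

Proof: `u := ℘[L₁ - 0] - ℘[L₂ - 0]` is analytic at `0`; the two differential equations
`℘'² = 4℘³ - g₂℘ - g₃` give `u' * (z⁴ (d₁ + d₂) - 4 z) = u * (12 + z² * (...))`; if `u` had finite
order `n` at `0` the leading coefficients would give `-4 n = 12`.  Hence `℘[L₁] = ℘[L₂]` near `0`,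
hence on the (connected) complement of `L₁ ∪ L₂`, and the pole sets coincide.
-/
import Mathlib

set_option autoImplicit false

open Filter Topology
open scoped PeriodPair

namespace Fermat.Agent.X0.WPUnique

open PeriodPair

variable (L : PeriodPair)

lemma wp_eq_except_add (z : ℂ) : ℘[L] z = ℘[L - (0 : ℂ)] z + 1 / z ^ 2 := by
  have h := L.weierstrassPExcept_def (0 : L.lattice) z
  simp only [ZeroMemClass.coe_zero, sub_zero] at h
  rw [h]
  simp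

lemma dwp_eq_except_sub (z : ℂ) : ℘'[L] z = ℘'[L - (0 : ℂ)] z - 2 / z ^ 3 := by
  have h := L.derivWeierstrassPExcept_def (0 : L.lattice) z
  simp only [ZeroMemClass.coe_zero, sub_zero] at h
  rw [h]
  ring

lemma ode_except (z : ℂ) (hz0 : z ≠ 0) (hz : z ∉ L.lattice) :
    z ^ 4 * ℘'[L - (0 : ℂ)] z ^ 2 - 4 * z * ℘'[L - (0 : ℂ)] z =
      4 * z ^ 4 * ℘[L - (0 : ℂ)] z ^ 3 + 12 * z ^ 2 * ℘[L - (0 : ℂ)] z ^ 2 + 12 * ℘[L - (0 : ℂ)] z
        - L.g₂ * z ^ 4 * ℘[L - (0 : ℂ)] z - L.g₂ * z ^ 2 - L.g₃ * z ^ 4 := by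
  have h := L.derivWeierstrassP_sq z hz
  rw [wp_eq_except_add, dwp_eq_except_sub] at h
  set e := ℘[L - (0 : ℂ)] z
  set d := ℘'[L - (0 : ℂ)] z
  field_simp at h
  have h2 : z ^ 2 * ((z ^ 4 * d ^ 2 - 4 * z * d) - (4 * z ^ 4 * e ^ 3 + 12 * z ^ 2 * e ^ 2 + 12 * e
        - L.g₂ * z ^ 4 * e - L.g₂ * z ^ 2 - L.g₃ * z ^ 4)) = 0 := by
    linear_combination h
  have h3 := (mul_eq_zero.mp h2).resolve_left (pow_ne_zero 2 hz0)
  linear_combination h3

variable (L₁ L₂ : PeriodPair)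

lemma ode_diff (h₂ : L₁.g₂ = L₂.g₂) (h₃ : L₁.g₃ = L₂.g₃) (z : ℂ) (hz0 : z ≠ 0)
    (hz₁ : z ∉ L₁.lattice) (hz₂ : z ∉ L₂.lattice) :
    (℘'[L₁ - (0 : ℂ)] z - ℘'[L₂ - (0 : ℂ)] z) *
        (z ^ 4 * (℘'[L₁ - (0 : ℂ)] z + ℘'[L₂ - (0 : ℂ)] z) - 4 * z) =
      (℘[L₁ - (0 : ℂ)] z - ℘[L₂ - (0 : ℂ)] z) *
        (4 * z ^ 4 * (℘[L₁ - (0 : ℂ)] z ^ 2 + ℘[L₁ - (0 : ℂ)] z * ℘[L₂ - (0 : ℂ)] z
            + ℘[L₂ - (0 : ℂ)] z ^ 2)
          + 12 * z ^ 2 * (℘[L₁ - (0 : ℂ)] z + ℘[L₂ - (0 : ℂ)] z) + 12 - L₁.g₂ * z ^ 4) := by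
  have e₁ := ode_except L₁ z hz0 hz₁
  have e₂ := ode_except L₂ z hz0 hz₂
  rw [← h₂, ← h₃] at e₂
  linear_combination e₁ - e₂

/-- Points near `0` other than `0` are not in the lattice. -/
lemma eventually_notMem_lattice : ∀ᶠ z in 𝓝[≠] (0 : ℂ), z ∉ L.lattice := by
  have h := L.compl_lattice_sdiff_singleton_mem_nhds (0 : ℂ)
  filter_upwards [mem_nhdsWithin_of_mem_nhds h, self_mem_nhdsWithin] with z hz hz0
  intro hzL
  exact hz ⟨hzL, hz0⟩

/-- Near `0`, the derivative of `℘[L - 0]` is `℘'[L - 0]`. -/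
lemma eventually_deriv_except :
    ∀ᶠ z in 𝓝 (0 : ℂ), deriv ℘[L - (0 : ℂ)] z = ℘'[L - (0 : ℂ)] z := by
  have h := L.compl_lattice_sdiff_singleton_mem_nhds (0 : ℂ)
  filter_upwards [h] with z hz
  exact L.eqOn_deriv_weierstrassPExcept_derivWeierstrassPExcept 0 hz

lemma continuousAt_except : ContinuousAt ℘[L - (0 : ℂ)] 0 :=
  (L.analyticAt_weierstrassPExcept 0).continuousAt

lemma continuousAt_derivExcept : ContinuousAt ℘'[L - (0 : ℂ)] 0 :=
  (L.analyticAt_derivWeierstrassPExcept 0).continuousAt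

theorem eventually_except_eq (h₂ : L₁.g₂ = L₂.g₂) (h₃ : L₁.g₃ = L₂.g₃) :
    ∀ᶠ z in 𝓝 (0 : ℂ), ℘[L₁ - (0 : ℂ)] z = ℘[L₂ - (0 : ℂ)] z := by
  set e₁ := ℘[L₁ - (0 : ℂ)] with he₁
  set e₂ := ℘[L₂ - (0 : ℂ)] with he₂
  set d₁ := ℘'[L₁ - (0 : ℂ)] with hd₁
  set d₂ := ℘'[L₂ - (0 : ℂ)] with hd₂
  have hu : AnalyticAt ℂ (fun z => e₁ z - e₂ z) 0 :=
    (L₁.analyticAt_weierstrassPExcept 0).sub (L₂.analyticAt_weierstrassPExcept 0)
  by_contra hcon
  have hcon' : ¬ ∀ᶠ z in 𝓝 (0 : ℂ), (fun z => e₁ z - e₂ z) z = 0 := by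
    intro h
    apply hcon
    filter_upwards [h] with z hz
    exact sub_eq_zero.mp hz
  obtain ⟨n, g, hg, hg0, hug⟩ := hu.exists_eventuallyEq_pow_smul_nonzero_iff.mpr hcon'
  simp only [sub_zero, smul_eq_mul] at hug
  -- derivative of `u`
  have hgd : ∀ᶠ z in 𝓝 (0 : ℂ), DifferentiableAt ℂ g z :=
    hg.eventually_analyticAt.mono fun z hz => hz.differentiableAt
  have hderiv : ∀ᶠ z in 𝓝 (0 : ℂ), d₁ z - d₂ z = n * z ^ (n - 1) * g z + z ^ n * deriv g z := by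
    filter_upwards [hug.eventually_nhds, hgd, eventually_deriv_except L₁,
      eventually_deriv_except L₂, (L₁.analyticAt_weierstrassPExcept 0).eventually_analyticAt,
      (L₂.analyticAt_weierstrassPExcept 0).eventually_analyticAt] with z hz hgz h1 h2 ha1 ha2
    have : deriv (fun z => e₁ z - e₂ z) z = deriv (fun z => z ^ n * g z) z :=
      Filter.EventuallyEq.deriv_eq hz
    rw [deriv_fun_sub ha1.differentiableAt ha2.differentiableAt, h1, h2] at this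
    rw [this, deriv_fun_mul (by fun_prop) hgz]
    simp
  -- the key identity on a punctured neighbourhood
  set Φ : ℂ → ℂ := fun z => (n * g z + z * deriv g z) * (z ^ 3 * (d₁ z + d₂ z) - 4)
      - g z * (4 * z ^ 4 * (e₁ z ^ 2 + e₁ z * e₂ z + e₂ z ^ 2)
          + 12 * z ^ 2 * (e₁ z + e₂ z) + 12 - L₁.g₂ * z ^ 4) with hΦ
  have hΦ0 : ∀ᶠ z in 𝓝[≠] (0 : ℂ), Φ z = 0 := by
    filter_upwards [eventually_notMem_lattice L₁, eventually_notMem_lattice L₂,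
      mem_nhdsWithin_of_mem_nhds hug, mem_nhdsWithin_of_mem_nhds hderiv,
      self_mem_nhdsWithin] with z hz1 hz2 hzu hzd hz0
    have hz0' : z ≠ 0 := hz0
    have key := ode_diff L₁ L₂ h₂ h₃ z hz0' hz1 hz2
    rw [← he₁, ← he₂, ← hd₁, ← hd₂] at key
    rw [hzd, hzu] at key
    have hzn : z ^ n ≠ 0 := pow_ne_zero n hz0'
    have hpow : (n : ℂ) * z ^ (n - 1) * z = n * z ^ n := by
      rcases Nat.eq_zero_or_pos n with h | h
      · simp [h]
      · rw [mul_assoc, ← pow_succ, Nat.sub_add_cancel h]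
    have : z ^ n * Φ z = 0 := by
      simp only [hΦ]
      linear_combination key - (g z * (z ^ 3 * (d₁ z + d₂ z) - 4)) * hpow
    exact (mul_eq_zero.mp this).resolve_left hzn
  have hcont : ContinuousAt Φ 0 := by
    have c1 := continuousAt_except L₁
    have c2 := continuousAt_except L₂
    have c3 := continuousAt_derivExcept L₁
    have c4 := continuousAt_derivExcept L₂
    have c5 : ContinuousAt g 0 := hg.continuousAt
    have c6 : ContinuousAt (deriv g) 0 := hg.deriv.continuousAt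
    rw [← he₁] at c1
    rw [← he₂] at c2
    rw [← hd₁] at c3
    rw [← hd₂] at c4
    simp only [hΦ]
    fun_prop
  have hlim : Tendsto Φ (𝓝[≠] (0 : ℂ)) (𝓝 (Φ 0)) := hcont.tendsto.mono_left nhdsWithin_le_nhds
  have hlim0 : Tendsto Φ (𝓝[≠] (0 : ℂ)) (𝓝 0) :=
    (tendsto_congr' hΦ0).mpr tendsto_const_nhds
  have hΦz : Φ 0 = 0 := tendsto_nhds_unique hlim hlim0
  simp only [hΦ] at hΦz
  have : (n : ℂ) * g 0 * (-4) - g 0 * 12 = 0 := by
    have := hΦz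
    simp at this
    linear_combination this
  have h4 : ((n : ℂ) + 3) * g 0 = 0 := by linear_combination (-1 / 4 : ℂ) * this
  rcases mul_eq_zero.mp h4 with h | h
  · have : ((n + 3 : ℕ) : ℂ) = 0 := by push_cast; exact h
    exact absurd (Nat.cast_eq_zero.mp this) (by omega)
  · exact hg0 h

open Complex in
lemma countable_lattice : (L.lattice : Set ℂ).Countable := by
  have : Countable L.lattice := Countable.of_equiv _ L.latticeEquivProd.toEquiv.symm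
  exact Set.countable_coe_iff.mp this

lemma isPreconnected_compl_union :
    IsPreconnected (((L₁.lattice : Set ℂ) ∪ L₂.lattice)ᶜ) := by
  have hc : ((L₁.lattice : Set ℂ) ∪ L₂.lattice).Countable :=
    (countable_lattice L₁).union (countable_lattice L₂)
  exact (hc.isConnected_compl_of_one_lt_rank
    (by simp only [Complex.rank_real_complex, Nat.one_lt_ofNat])).isPreconnected

theorem eqOn_weierstrassP (h₂ : L₁.g₂ = L₂.g₂) (h₃ : L₁.g₃ = L₂.g₃) :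
    Set.EqOn ℘[L₁] ℘[L₂] (((L₁.lattice : Set ℂ) ∪ L₂.lattice)ᶜ) := by
  set U : Set ℂ := ((L₁.lattice : Set ℂ) ∪ L₂.lattice)ᶜ with hU
  have hUopen : IsOpen U :=
    (L₁.isClosed_lattice.union L₂.isClosed_lattice).isOpen_compl
  have hf₁ : AnalyticOnNhd ℂ ℘[L₁] U :=
    L₁.analyticOnNhd_weierstrassP.mono (fun z hz h => hz (Or.inl h))
  have hf₂ : AnalyticOnNhd ℂ ℘[L₂] U :=
    L₂.analyticOnNhd_weierstrassP.mono (fun z hz h => hz (Or.inr h))
  -- a good point near `0`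
  have hev : ∀ᶠ z in 𝓝[≠] (0 : ℂ), z ∈ U ∧ ℘[L₁] z = ℘[L₂] z := by
    filter_upwards [eventually_notMem_lattice L₁, eventually_notMem_lattice L₂,
      mem_nhdsWithin_of_mem_nhds (eventually_except_eq L₁ L₂ h₂ h₃)] with z h1 h2 h3
    refine ⟨fun h => h.elim h1 h2, ?_⟩
    rw [wp_eq_except_add, wp_eq_except_add, h3]
  -- the set where they agree is open around z₀: use `eventually_nhdsWithin`
  have hev' : ∀ᶠ z in 𝓝[≠] (0 : ℂ), ∀ᶠ w in 𝓝 z, ℘[L₁] w = ℘[L₂] w := by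
    rw [eventually_nhdsWithin_iff] at hev ⊢
    have := hev.eventually_nhds
    filter_upwards [this] with z hz hz0
    filter_upwards [hz, isOpen_compl_singleton.mem_nhds hz0] with w hw hw0
    exact (hw hw0).2
  obtain ⟨z₁, hz₁⟩ := (hev.and hev').exists
  exact hf₁.eqOn_of_preconnected_of_eventuallyEq hf₂ (isPreconnected_compl_union L₁ L₂)
    hz₁.1.1 hz₁.2

lemma lattice_le_of_eqOn
    (h : Set.EqOn ℘[L₁] ℘[L₂] (((L₁.lattice : Set ℂ) ∪ L₂.lattice)ᶜ)) :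
    L₁.lattice ≤ L₂.lattice := by
  intro l hl
  by_contra hl2
  -- near `l` (away from `l`), no point of `L₁ ∪ L₂`
  have h1 : ∀ᶠ z in 𝓝[≠] l, z ∉ (L₁.lattice : Set ℂ) := by
    have := L₁.compl_lattice_sdiff_singleton_mem_nhds l
    filter_upwards [mem_nhdsWithin_of_mem_nhds this, self_mem_nhdsWithin] with z hz hzl
    exact fun hzL => hz ⟨hzL, hzl⟩
  have h2 : ∀ᶠ z in 𝓝[≠] l, z ∉ (L₂.lattice : Set ℂ) :=
    mem_nhdsWithin_of_mem_nhds (L₂.isClosed_lattice.isOpen_compl.mem_nhds hl2)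
  have hcongr : ℘[L₁] =ᶠ[𝓝[≠] l] ℘[L₂] := by
    filter_upwards [h1, h2] with z hz1 hz2
    exact h (fun hz => hz.elim hz1 hz2)
  have ho := meromorphicOrderAt_congr hcongr
  rw [L₁.order_weierstrassP l hl] at ho
  have hnn := (L₂.analyticOnNhd_weierstrassP l hl2).meromorphicOrderAt_nonneg
  rw [← ho] at hnn
  exact absurd hnn (by decide)

theorem lattice_eq_of_g₂_eq_of_g₃_eq (h₂ : L₁.g₂ = L₂.g₂) (h₃ : L₁.g₃ = L₂.g₃) :
    L₁.lattice = L₂.lattice := by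
  have h := eqOn_weierstrassP L₁ L₂ h₂ h₃
  refine le_antisymm (lattice_le_of_eqOn L₁ L₂ h) (lattice_le_of_eqOn L₂ L₁ ?_)
  rw [Set.union_comm]
  exact h.symm

end Fermat.Agent.X0.WPUnique
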