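/-
C-J2c (helper5): injectivity of the analytic `j`-function modulo `SL(2, ℤ)`.

Main results (namespace `Fermat.Agent.X0`):
* `JInjective.exists_SL2_smul_eq_of_j_eq` : cross-multiplied form, independent of `jFun`;
* `exists_SL2_smul_eq_of_jFun_eq` : `jFun z = jFun w → ∃ γ : SL(2, ℤ), γ • z = w`;
* `jFun_eq_iff` : `jFun z = jFun w ↔ ∃ γ : SL(2, ℤ), γ • z = w`.
-/
import Fermat.Agent.X0.Defs
import Fermat.Agent.X0.WPUnique
import Fermat.Agent.X0.LatticeEis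
import Fermat.Agent.X0.JBasic

set_option autoImplicit false

open UpperHalfPlane ModularForm EisensteinSeries
open scoped MatrixGroups

namespace Fermat.Agent.X0

namespace JInjective

open LatticeEis

/-- Pure algebra: from `a₁³ b₂² = a₂³ b₁²` and nonvanishing discriminants, find a scaling. -/
lemma exists_scaling {a₁ b₁ a₂ b₂ : ℂ} (hΔ₁ : a₁ ^ 3 - b₁ ^ 2 ≠ 0) (hΔ₂ : a₂ ^ 3 - b₂ ^ 2 ≠ 0)
    (h : a₁ ^ 3 * b₂ ^ 2 = a₂ ^ 3 * b₁ ^ 2) :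
    ∃ c : ℂ, c ≠ 0 ∧ (c ^ 4)⁻¹ * a₂ = a₁ ∧ (c ^ 6)⁻¹ * b₂ = b₁ := by
  by_cases ha₁ : a₁ = 0
  · -- then `a₂ = 0`, `b₁, b₂ ≠ 0`
    have hb₁ : b₁ ≠ 0 := by
      rintro rfl; apply hΔ₁; simp [ha₁]
    have ha₂ : a₂ = 0 := by
      have : a₂ ^ 3 * b₁ ^ 2 = 0 := by rw [← h, ha₁]; simp
      rcases mul_eq_zero.mp this with h' | h'
      · exact pow_eq_zero_iff (by norm_num) |>.mp h'
      · exact absurd (pow_eq_zero_iff (by norm_num) |>.mp h') hb₁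
    have hb₂ : b₂ ≠ 0 := by
      rintro rfl; apply hΔ₂; simp [ha₂]
    obtain ⟨c, hc⟩ := IsAlgClosed.exists_pow_nat_eq (b₂ / b₁) (n := 6) (by norm_num)
    have hc0 : c ≠ 0 := by
      rintro rfl
      have : b₂ / b₁ = 0 := by rw [← hc]; simp
      exact div_ne_zero hb₂ hb₁ this
    refine ⟨c, hc0, by simp [ha₁, ha₂], ?_⟩
    rw [hc]
    field_simp
  by_cases hb₁ : b₁ = 0
  · have hb₂ : b₂ = 0 := by
      have : a₁ ^ 3 * b₂ ^ 2 = 0 := by rw [h, hb₁]; simp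
      rcases mul_eq_zero.mp this with h' | h'
      · exact absurd (pow_eq_zero_iff (by norm_num) |>.mp h') ha₁
      · exact pow_eq_zero_iff (by norm_num) |>.mp h'
    have ha₂ : a₂ ≠ 0 := by
      rintro rfl; apply hΔ₂; simp [hb₂]
    obtain ⟨c, hc⟩ := IsAlgClosed.exists_pow_nat_eq (a₂ / a₁) (n := 4) (by norm_num)
    have hc0 : c ≠ 0 := by
      rintro rfl
      have : a₂ / a₁ = 0 := by rw [← hc]; simp
      exact div_ne_zero ha₂ ha₁ this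
    refine ⟨c, hc0, ?_, by simp [hb₁, hb₂]⟩
    rw [hc]
    field_simp
  -- generic case
  have ha₂ : a₂ ≠ 0 := by
    rintro rfl
    have : a₁ ^ 3 * b₂ ^ 2 = 0 := by rw [h]; simp
    rcases mul_eq_zero.mp this with h' | h'
    · exact ha₁ (pow_eq_zero_iff (by norm_num) |>.mp h')
    · apply hΔ₂; rw [h']; simp
  have hb₂ : b₂ ≠ 0 := by
    rintro rfl
    have : a₂ ^ 3 * b₁ ^ 2 = 0 := by rw [← h]; simp
    rcases mul_eq_zero.mp this with h' | h'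
    · exact ha₂ (pow_eq_zero_iff (by norm_num) |>.mp h')
    · exact hb₁ (pow_eq_zero_iff (by norm_num) |>.mp h')
  -- `μ = (b₁ / b₂) * (a₂ / a₁)`, want `c² = μ⁻¹`
  obtain ⟨c, hc⟩ := IsAlgClosed.exists_pow_nat_eq ((b₂ / b₁) * (a₁ / a₂)) (n := 2) (by norm_num)
  have hc0 : c ≠ 0 := by
    rintro rfl
    have : (b₂ / b₁) * (a₁ / a₂) = 0 := by rw [← hc]; simp
    exact mul_ne_zero (div_ne_zero hb₂ hb₁) (div_ne_zero ha₁ ha₂) this
  refine ⟨c, hc0, ?_, ?_⟩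
  · have : c ^ 4 = ((b₂ / b₁) * (a₁ / a₂)) ^ 2 := by rw [← hc]; ring
    rw [this]
    field_simp
    linear_combination -h
  · have : c ^ 6 = ((b₂ / b₁) * (a₁ / a₂)) ^ 3 := by rw [← hc]; ring
    rw [this]
    field_simp
    linear_combination -h

theorem exists_SL2_smul_eq_of_j_eq (z₁ z₂ : ℍ)
    (h : E₄ z₁ ^ 3 * discriminant z₂ = E₄ z₂ ^ 3 * discriminant z₁) :
    ∃ γ : SL(2, ℤ), γ • z₁ = z₂ := by
  have hΔ₁ := discriminant_ne_zero z₁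
  have hΔ₂ := discriminant_ne_zero z₂
  rw [discriminant_eq_E₄_cube_sub_E₆_sq] at hΔ₁ hΔ₂
  rw [discriminant_eq_E₄_cube_sub_E₆_sq, discriminant_eq_E₄_cube_sub_E₆_sq] at h
  have hΔ₁' : E₄ z₁ ^ 3 - E₆ z₁ ^ 2 ≠ 0 := fun h0 => hΔ₁ (by rw [h0]; simp)
  have hΔ₂' : E₄ z₂ ^ 3 - E₆ z₂ ^ 2 ≠ 0 := fun h0 => hΔ₂ (by rw [h0]; simp)
  have hrel : E₄ z₁ ^ 3 * E₆ z₂ ^ 2 = E₄ z₂ ^ 3 * E₆ z₁ ^ 2 := by
    field_simp at h
    linear_combination -h
  obtain ⟨c, hc0, hc4, hc6⟩ := exists_scaling hΔ₁' hΔ₂' hrel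
  have hζ4 : riemannZeta 4 ≠ 0 := riemannZeta_ne_zero_of_one_lt_re (by norm_num)
  have hζ6 : riemannZeta 6 ≠ 0 := riemannZeta_ne_zero_of_one_lt_re (by norm_num)
  have hlat : (pairOfUHP z₁).lattice = (scalePair c hc0 (pairOfUHP z₂)).lattice := by
    apply WPUnique.lattice_eq_of_g₂_eq_of_g₃_eq
    · rw [g₂_scalePair, g₂_pairOfUHP, g₂_pairOfUHP, ← hc4]; ring
    · rw [g₃_scalePair, g₃_pairOfUHP, g₃_pairOfUHP, ← hc6]; ring
  obtain ⟨γ, hγ⟩ := exists_SL2_smul_eq_of_lattice_eq z₁ z₂ c hc0 hlat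
  exact ⟨γ⁻¹, by rw [← hγ, inv_smul_smul]⟩

end JInjective

/-- Injectivity of `j` modulo `SL(2, ℤ)` (the hard direction of `jFun_eq_iff`). -/
theorem exists_SL2_smul_eq_of_jFun_eq {z w : ℍ} (h : jFun z = jFun w) :
    ∃ γ : SL(2, ℤ), γ • z = w := by
  apply JInjective.exists_SL2_smul_eq_of_j_eq
  unfold jFun at h
  have h1 := discriminant_ne_zero z
  have h2 := discriminant_ne_zero w
  field_simp at h
  linear_combination h

/-- `j z = j w` iff `z` and `w` are `SL(2, ℤ)`-equivalent. -/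
theorem jFun_eq_iff (z w : ℍ) : jFun z = jFun w ↔ ∃ γ : SL(2, ℤ), γ • z = w := by
  refine ⟨exists_SL2_smul_eq_of_jFun_eq, ?_⟩
  rintro ⟨γ, rfl⟩
  exact (jFun_smul γ z).symm

end Fermat.Agent.X0
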