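import Fermat.Agent.X0.JOrderMain
import Fermat.Agent.X0.JInjective

/-!
# Local orders of `j`: hypothesis-free final statements (helper23, Program C, piece C-J3)

`JOrderMain` with the injectivity of `j` modulo `SL(2, ℤ)` (C-J2, `JInjective.lean`) plugged in.
-/

set_option autoImplicit false

open UpperHalfPlane hiding I
open Real Complex Filter Function
open scoped Manifold MatrixGroups ModularForm Topology

namespace Fermat.Agent.X0.JOrderFinal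

open EisensteinSeries ModularForm Fermat.Agent.X0 Fermat.Agent.X0.JOrder
  Fermat.Agent.X0.JOrderMain

noncomputable section

theorem jInj : JInj := fun _ _ h => exists_SL2_smul_eq_of_jFun_eq h

theorem E₄_eq_zero_iff (z : ℍ) : E₄ z = 0 ↔ ∃ γ : SL(2, ℤ), γ • ptRho = z :=
  E₄_eq_zero_iff_of_inj jInj z

theorem E₆_eq_zero_iff (z : ℍ) : E₆ z = 0 ↔ ∃ γ : SL(2, ℤ), γ • ptI = z :=
  E₆_eq_zero_iff_of_inj jInj z

theorem ellOrder_eq_ordE (z : ℍ) : ellOrder z = ordE z := ellOrder_eq_ordE_of_inj jInj z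

/-- MAIN (row 135 (d)): `j - j(z₀)` vanishes to order exactly `ellOrder z₀` at `z₀`. -/
theorem jFun_order (z₀ : ℍ) :
    ∃ g : ℂ → ℂ, AnalyticAt ℂ g z₀ ∧ g z₀ ≠ 0 ∧
      ∀ᶠ w in 𝓝 (z₀ : ℂ), jFun (ofComplex w) - jFun z₀ = (w - z₀) ^ ellOrder z₀ * g w :=
  jFun_order_of_inj jInj z₀

theorem ordH_jFun_sub (z₀ : ℍ) : ordH (fun z => jFun z - jFun z₀) z₀ = ellOrder z₀ :=
  ordH_jFun_sub_of_inj jInj z₀

theorem ordH_jFun_sub_const (z₀ : ℍ) (c : ℂ) (hc : jFun z₀ = c) :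
    ordH (fun z => jFun z - c) z₀ = ellOrder z₀ :=
  ordH_jFun_sub_const_of_inj jInj z₀ c hc

theorem analyticOrderAt_jFun_sub (z₀ : ℍ) :
    analyticOrderAt (fun w => jFun (ofComplex w) - jFun z₀) (z₀ : ℂ) = ellOrder z₀ := by
  rw [ellOrder_eq_ordE]
  exact analyticOrderAt_jFun z₀

/-- `ellOrder z = 1` iff `z` is not an elliptic point. -/
theorem ellOrder_eq_one_iff (z : ℍ) : ellOrder z = 1 ↔ E₄ z ≠ 0 ∧ E₆ z ≠ 0 := by
  rw [ellOrder_eq_ordE]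
  unfold ordE
  by_cases h4 : E₄ z = 0
  · simp [h4]
  · by_cases h6 : E₆ z = 0
    · simp [h4, h6]
    · simp [h4, h6]

theorem ellOrder_eq_one_of_jFun_ne {z : ℍ} (h0 : jFun z ≠ 0) (h1 : jFun z ≠ 1728) :
    ellOrder z = 1 := by
  rw [ellOrder_eq_one_iff]
  exact ⟨fun h => h0 ((jFun_eq_zero_iff z).mpr h), fun h => h1 ((jFun_eq_1728_iff z).mpr h)⟩

theorem ellOrder_eq_three_of_jFun_eq {z : ℍ} (h0 : jFun z = 0) : ellOrder z = 3 := by
  rw [ellOrder_eq_ordE]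
  unfold ordE
  rw [if_pos ((jFun_eq_zero_iff z).mp h0)]

theorem ellOrder_eq_two_of_jFun_eq {z : ℍ} (h1 : jFun z = 1728) : ellOrder z = 2 := by
  rw [ellOrder_eq_ordE]
  unfold ordE
  have h6 := (jFun_eq_1728_iff z).mp h1
  rw [if_neg (E₄_ne_zero_of_E₆_eq_zero h6), if_pos h6]

theorem exists_smul_ptRho_of_jFun_eq {z : ℍ} (h0 : jFun z = 0) : ∃ γ : SL(2, ℤ), γ • ptRho = z :=
  (E₄_eq_zero_iff z).mp ((jFun_eq_zero_iff z).mp h0)

theorem exists_smul_ptI_of_jFun_eq {z : ℍ} (h1 : jFun z = 1728) : ∃ γ : SL(2, ℤ), γ • ptI = z :=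
  (E₆_eq_zero_iff z).mp ((jFun_eq_1728_iff z).mp h1)

end

end Fermat.Agent.X0.JOrderFinal
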