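/-
Program C / C-G1 (helper21): general orbit counting for a cyclic group `zpowers g` acting on a
finite set, when `g ^ p` acts trivially for a prime `p`.
-/
import Mathlib

set_option autoImplicit false

namespace Fermat.Agent.X0.OrbitCount

open MulAction Subgroup Function

variable {G X : Type*} [Group G] [MulAction G X]

/-- The orbit of `x` under `zpowers g` has `minimalPeriod (g • ·) x` elements. -/
theorem card_orbit_zpowers (g : G) (x : X) :
    Nat.card (orbit (zpowers g) x) = minimalPeriod (g • ·) x := by
  rw [Nat.card_congr (orbitZPowersEquiv g x), Nat.card_zmod]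

theorem card_orbit_zpowers_dvd {g : G} {n : ℕ} {x : X} (h : g ^ n • x = x) :
    Nat.card (orbit (zpowers g) x) ∣ n := by
  rw [card_orbit_zpowers]
  exact pow_smul_eq_iff_minimalPeriod_dvd.mp h

theorem card_orbit_zpowers_eq_one_iff {g : G} {x : X} :
    Nat.card (orbit (zpowers g) x) = 1 ↔ g • x = x := by
  rw [card_orbit_zpowers, minimalPeriod_eq_one_iff_isFixedPt]
  rfl

theorem card_orbit_zpowers_of_prime {g : G} {p : ℕ} (hp : p.Prime) {x : X}
    (h : g ^ p • x = x) (hne : g • x ≠ x) : Nat.card (orbit (zpowers g) x) = p := by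
  rcases (Nat.dvd_prime hp).mp (card_orbit_zpowers_dvd h) with h1 | h1
  · exact absurd (card_orbit_zpowers_eq_one_iff.mp h1) hne
  · exact h1

/-- Two points fixed by `g` in the same `zpowers g`-orbit are equal. -/
theorem eq_of_fixed_of_mem_orbit {g : G} {x y : X} (hx : g • x = x)
    (hy : y ∈ orbit (zpowers g) x) : y = x := by
  obtain ⟨⟨a, ha⟩, rfl⟩ := hy
  obtain ⟨k, rfl⟩ := mem_zpowers_iff.mp ha
  show g ^ k • x = x
  exact zpow_smul_eq_iff_minimalPeriod_dvd.mpr (by
    rw [minimalPeriod_eq_one_iff_isFixedPt.mpr hx]; simp)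

/-- The cardinality of a finite `G`-set is the sum of the cardinalities of the orbits. -/
theorem card_eq_sum_card_orbits (H : Subgroup G) [Finite X] :
    Nat.card X = ∑ᶠ ω : orbitRel.Quotient H X, Nat.card ω.orbit := by
  classical
  have := Fintype.ofFinite (orbitRel.Quotient H X)
  rw [Nat.card_congr (selfEquivSigmaOrbits' H X), Nat.card_sigma, finsum_eq_sum_of_fintype]

/-- If `g ^ p` acts trivially (`p` prime) on a finite set `X`, then
`p * #(orbits of ⟨g⟩) = #X + (p - 1) * #Fix(g)`. -/
theorem card_orbits_zpowers_of_prime [Finite X] {g : G} {p : ℕ} (hp : p.Prime)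
    (hgp : ∀ x : X, g ^ p • x = x) :
    p * Nat.card (orbitRel.Quotient (zpowers g) X) =
      Nat.card X + (p - 1) * Nat.card (fixedBy X g) := by
  classical
  have := Fintype.ofFinite X
  have := Fintype.ofFinite (orbitRel.Quotient (zpowers g) X)
  have := Fintype.ofFinite (fixedBy X g)
  -- the map from fixed points to orbits
  let π : fixedBy X g → orbitRel.Quotient (zpowers g) X := fun x => Quotient.mk'' x.1
  have hπ : Injective π := by
    intro x y hxy
    have h1 : (x : X) ∈ orbit (zpowers g) (y : X) := orbitRel_apply.mp (Quotient.exact' hxy)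
    exact Subtype.ext (eq_of_fixed_of_mem_orbit (mem_fixedBy.mp y.2) h1)
  have hf : ∀ ω : orbitRel.Quotient (zpowers g) X,
      Nat.card ω.orbit = if ω ∈ Set.range π then 1 else p := by
    intro ω
    induction ω using Quotient.inductionOn' with
    | h x =>
      rw [orbitRel.Quotient.orbit_mk]
      by_cases hx : g • x = x
      · rw [if_pos ⟨⟨x, mem_fixedBy.mpr hx⟩, rfl⟩]
        exact card_orbit_zpowers_eq_one_iff.mpr hx
      · rw [if_neg]
        · exact card_orbit_zpowers_of_prime hp (hgp x) hx
        · rintro ⟨y, hy⟩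
          have h1 : (y : X) ∈ orbit (zpowers g) x := orbitRel_apply.mp (Quotient.exact' hy)
          have h2 : x ∈ orbit (zpowers g) (y : X) := by
            rw [orbit_eq_iff.mpr h1]; exact mem_orbit_self x
          have h3 := eq_of_fixed_of_mem_orbit (mem_fixedBy.mp y.2) h2
          exact hx (h3 ▸ mem_fixedBy.mp y.2)
  have hX : Nat.card X = ∑ ω : orbitRel.Quotient (zpowers g) X, Nat.card ω.orbit := by
    rw [card_eq_sum_card_orbits (zpowers g), finsum_eq_sum_of_fintype]
  simp_rw [hf] at hX
  rw [Finset.sum_ite, Finset.sum_const, Finset.sum_const, smul_eq_mul, smul_eq_mul, mul_one] at hX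
  have hA : (Finset.univ.filter (fun ω => ω ∈ Set.range π)) = Finset.univ.image π := by
    ext ω; simp [Set.mem_range]
  have hA' : (Finset.univ.filter (fun ω => ω ∈ Set.range π)).card = Nat.card (fixedBy X g) := by
    rw [hA, Finset.card_image_of_injective _ hπ, Finset.card_univ, Nat.card_eq_fintype_card]
  have hB := Finset.card_filter_add_card_filter_not (s := (Finset.univ : Finset
    (orbitRel.Quotient (zpowers g) X))) (fun ω => ω ∈ Set.range π)
  rw [Finset.card_univ, ← Nat.card_eq_fintype_card] at hB
  rw [hA'] at hX hB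
  obtain ⟨q, rfl⟩ : ∃ q, p = q + 1 := ⟨p - 1, (Nat.succ_pred_eq_of_pos hp.pos).symm⟩
  rw [← hB, hX]
  simp only [Nat.add_sub_cancel]
  ring

/-! ### Transfer along equivariant bijections, conjugation -/

section Transfer

variable {Y : Type*} [MulAction G Y]

/-- An equivariant bijection induces a bijection between the fixed points of any `g`. -/
def fixedByEquiv (e : X ≃ Y) (he : ∀ (g : G) (x : X), e (g • x) = g • e x) (g : G) :
    fixedBy X g ≃ fixedBy Y g :=
  e.subtypeEquiv (fun x => by
    rw [mem_fixedBy, mem_fixedBy, ← he, e.injective.eq_iff])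

theorem card_fixedBy_congr (e : X ≃ Y) (he : ∀ (g : G) (x : X), e (g • x) = g • e x) (g : G) :
    Nat.card (fixedBy X g) = Nat.card (fixedBy Y g) :=
  Nat.card_congr (fixedByEquiv e he g)

/-- An equivariant bijection induces a bijection between the orbit spaces of any subgroup. -/
def orbitQuotientEquiv (e : X ≃ Y) (he : ∀ (g : G) (x : X), e (g • x) = g • e x)
    (H : Subgroup G) : orbitRel.Quotient H X ≃ orbitRel.Quotient H Y :=
  Quotient.congr e (fun a b => by
    show a ∈ orbit H b ↔ e a ∈ orbit H (e b)
    constructor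
    · rintro ⟨h, rfl⟩
      exact ⟨h, (he (h : G) b).symm⟩
    · rintro ⟨h, hh⟩
      refine ⟨h, e.injective ?_⟩
      rw [← hh]
      exact he (h : G) b)

theorem card_orbitQuotient_congr (e : X ≃ Y) (he : ∀ (g : G) (x : X), e (g • x) = g • e x)
    (H : Subgroup G) :
    Nat.card (orbitRel.Quotient H X) = Nat.card (orbitRel.Quotient H Y) :=
  Nat.card_congr (orbitQuotientEquiv e he H)

/-- Conjugate elements have the same number of fixed points. -/
theorem card_fixedBy_conj (g h : G) :
    Nat.card (fixedBy X (h * g * h⁻¹)) = Nat.card (fixedBy X g) := by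
  rw [← smul_fixedBy, Nat.card_coe_set_eq, Nat.card_coe_set_eq, Set.ncard_smul_set]

end Transfer

end Fermat.Agent.X0.OrbitCount
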