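/-
Program C / C-G1 (helper21): the projective line `P¹(ℤ/N)` as a set with an action of `SL(2, ℤ)`.

Points are unimodular column vectors `v : Fin 2 → ZMod N` (i.e. `IsCoprime (v 0) (v 1)`) modulo
scaling by units of `ZMod N`; `SL(2, ℤ)` acts by matrix-vector multiplication (after reduction
modulo `N`).
-/
import Mathlib

set_option autoImplicit false

namespace Fermat.Agent.X0.P1Defs

open Matrix MatrixGroups

/-- Reduction of an integral matrix of determinant one modulo `N`. -/
noncomputable def red (N : ℕ) : SL(2, ℤ) →* SL(2, ZMod N) :=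
  Matrix.SpecialLinearGroup.map (Int.castRingHom (ZMod N))

theorem red_apply (N : ℕ) (g : SL(2, ℤ)) (i j : Fin 2) :
    (red N g : Matrix (Fin 2) (Fin 2) (ZMod N)) i j = ((g i j : ℤ) : ZMod N) := rfl

/-- Unimodular column vectors modulo `N`. -/
def Unimod (N : ℕ) : Type := {v : Fin 2 → ZMod N // IsCoprime (v 0) (v 1)}

namespace Unimod

variable {N : ℕ}

@[ext] theorem ext {v w : Unimod N} (h : v.1 = w.1) : v = w := Subtype.ext h

theorem isCoprime_mulVec (A : SL(2, ZMod N)) {v : Fin 2 → ZMod N}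
    (hv : IsCoprime (v 0) (v 1)) :
    IsCoprime ((A.1 *ᵥ v) 0) ((A.1 *ᵥ v) 1) := by
  obtain ⟨x, y, hxy⟩ := hv
  have hdet : A.1 0 0 * A.1 1 1 - A.1 0 1 * A.1 1 0 = 1 := by
    have := A.2
    rwa [Matrix.det_fin_two] at this
  refine ⟨x * A.1 1 1 - y * A.1 1 0, -x * A.1 0 1 + y * A.1 0 0, ?_⟩
  simp only [Matrix.mulVec, dotProduct, Fin.sum_univ_two]
  linear_combination (x * v 0 + y * v 1) * hdet + hxy

/-- `SL(2, ZMod N)` acts on unimodular vectors. -/
noncomputable instance instMulActionSLMod : MulAction SL(2, ZMod N) (Unimod N) where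
  smul A v := ⟨A.1 *ᵥ v.1, isCoprime_mulVec A v.2⟩
  one_smul v := Unimod.ext (Matrix.one_mulVec v.1)
  mul_smul A B v := Unimod.ext (by
    show (A * B).1 *ᵥ v.1 = A.1 *ᵥ (B.1 *ᵥ v.1)
    rw [Matrix.SpecialLinearGroup.coe_mul, Matrix.mulVec_mulVec])

theorem smulMod_val (A : SL(2, ZMod N)) (v : Unimod N) : (A • v).1 = A.1 *ᵥ v.1 := rfl

/-- `SL(2, ℤ)` acts on unimodular vectors modulo `N` through reduction. -/
noncomputable instance instMulActionSL : MulAction SL(2, ℤ) (Unimod N) :=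
  MulAction.compHom (Unimod N) (red N)

theorem smul_def (g : SL(2, ℤ)) (v : Unimod N) : g • v = red N g • v := rfl

theorem smul_val_zero (g : SL(2, ℤ)) (v : Unimod N) :
    (g • v).1 0 = (g 0 0 : ZMod N) * v.1 0 + (g 0 1 : ZMod N) * v.1 1 := by
  simp [smul_def, smulMod_val, Matrix.mulVec, dotProduct, Fin.sum_univ_two, red_apply]

theorem smul_val_one (g : SL(2, ℤ)) (v : Unimod N) :
    (g • v).1 1 = (g 1 0 : ZMod N) * v.1 0 + (g 1 1 : ZMod N) * v.1 1 := by
  simp [smul_def, smulMod_val, Matrix.mulVec, dotProduct, Fin.sum_univ_two, red_apply]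

/-- Units of `ZMod N` act on unimodular vectors by scaling. -/
instance instMulActionUnits : MulAction (ZMod N)ˣ (Unimod N) where
  smul u v := ⟨(u : ZMod N) • v.1, by
    have h := v.2
    simp only [Pi.smul_apply, smul_eq_mul]
    exact ((isCoprime_mul_unit_left_left u.isUnit _ _).mpr
      ((isCoprime_mul_unit_left_right u.isUnit _ _).mpr h))⟩
  one_smul v := Unimod.ext (by show ((1 : (ZMod N)ˣ) : ZMod N) • v.1 = v.1; simp)
  mul_smul u w v := Unimod.ext (by
    show ((u * w : (ZMod N)ˣ) : ZMod N) • v.1 = (u : ZMod N) • ((w : ZMod N) • v.1)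
    rw [Units.val_mul, mul_smul])

theorem units_smul_val (u : (ZMod N)ˣ) (v : Unimod N) : (u • v).1 = (u : ZMod N) • v.1 := rfl

theorem units_smul_val_apply (u : (ZMod N)ˣ) (v : Unimod N) (i : Fin 2) :
    (u • v).1 i = (u : ZMod N) * v.1 i := rfl

theorem smul_comm_units (g : SL(2, ℤ)) (u : (ZMod N)ˣ) (v : Unimod N) :
    g • (u • v) = u • (g • v) := by
  apply Unimod.ext
  show (red N g).1 *ᵥ ((u : ZMod N) • v.1) = (u : ZMod N) • ((red N g).1 *ᵥ v.1)
  rw [Matrix.mulVec_smul]

instance : SMulCommClass SL(2, ℤ) (ZMod N)ˣ (Unimod N) := ⟨smul_comm_units⟩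

/-- The standard vector `(1, 0)`. -/
def e1 : Unimod N := ⟨![1, 0], by simpa using isCoprime_one_left⟩

@[simp] theorem e1_val_zero : (e1 : Unimod N).1 0 = 1 := rfl
@[simp] theorem e1_val_one : (e1 : Unimod N).1 1 = 0 := rfl

end Unimod

/-- The projective line over `ZMod N`: unimodular vectors modulo units. -/
def P1 (N : ℕ) : Type := MulAction.orbitRel.Quotient (ZMod N)ˣ (Unimod N)

namespace P1

variable {N : ℕ}

/-- The class of a unimodular vector. -/
def mk (v : Unimod N) : P1 N := Quotient.mk'' v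

theorem mk_surjective : Function.Surjective (mk : Unimod N → P1 N) := Quotient.mk''_surjective

theorem mk_eq_mk {v w : Unimod N} : mk v = mk w ↔ ∃ u : (ZMod N)ˣ, u • w = v := by
  show (Quotient.mk'' v : MulAction.orbitRel.Quotient (ZMod N)ˣ (Unimod N)) = Quotient.mk'' w ↔ _
  rw [Quotient.eq'']
  exact MulAction.orbitRel_apply.trans MulAction.mem_orbit_iff

theorem mk_units_smul (u : (ZMod N)ˣ) (v : Unimod N) : mk (u • v) = mk v :=
  mk_eq_mk.mpr ⟨u, rfl⟩

/-- `SL(2, ℤ)` acts on `P¹(ℤ/N)`. -/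
noncomputable instance instMulAction : MulAction SL(2, ℤ) (P1 N) where
  smul g := Quotient.map' (fun v => g • v) (by
    intro v w h
    have h' : ∃ u : (ZMod N)ˣ, u • w = v := MulAction.mem_orbit_iff.mp (MulAction.orbitRel_apply.mp h)
    obtain ⟨u, rfl⟩ := h'
    exact MulAction.orbitRel_apply.mpr (MulAction.mem_orbit_iff.mpr
      ⟨u, (Unimod.smul_comm_units g u w).symm⟩))
  one_smul x := by
    obtain ⟨v, rfl⟩ := mk_surjective x
    show mk ((1 : SL(2, ℤ)) • v) = mk v
    rw [one_smul]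
  mul_smul g h x := by
    obtain ⟨v, rfl⟩ := mk_surjective x
    show mk ((g * h) • v) = mk (g • (h • v))
    rw [mul_smul]

@[simp] theorem smul_mk (g : SL(2, ℤ)) (v : Unimod N) : g • mk v = mk (g • v) := rfl

/-- The base point `(1 : 0)`. -/
def infty : P1 N := mk Unimod.e1

end P1

end Fermat.Agent.X0.P1Defs
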