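/-
Program C / C-G1 (helper21): `SL(2, ℤ) ⧸ Γ₀(N)` is, equivariantly, the projective line `P¹(ℤ/N)`.
-/
import Mathlib
import Fermat.Agent.X0.P1Defs

set_option autoImplicit false

namespace Fermat.Agent.X0.P1Equiv

open Matrix MatrixGroups CongruenceSubgroup Fermat.Agent.X0.P1Defs

variable {N : ℕ}

/-- `g • (1 : 0)` is the class of the first column of `g`. -/
theorem smul_e1_val (g : SL(2, ℤ)) (i : Fin 2) :
    (g • (Unimod.e1 : Unimod N)).1 i = ((g i 0 : ℤ) : ZMod N) := by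
  fin_cases i
  · simp [Unimod.smul_val_zero]
  · simp [Unimod.smul_val_one]

/-- The stabilizer of `(1 : 0)` is `Γ₀(N)`. -/
theorem smul_infty_eq_iff (g : SL(2, ℤ)) :
    g • (P1.infty : P1 N) = P1.infty ↔ g ∈ Gamma0 N := by
  rw [P1.infty, P1.smul_mk, P1.mk_eq_mk, Gamma0_mem]
  constructor
  · rintro ⟨u, hu⟩
    have h1 := congrArg (fun v : Unimod N => v.1 1) hu
    simp only [Unimod.units_smul_val_apply, Unimod.e1_val_one, mul_zero] at h1
    rw [← smul_e1_val g 1]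
    exact h1.symm
  · intro h
    -- `g 0 0` is a unit modulo `N`
    have hdet : ((g 0 0 : ℤ) : ZMod N) * ((g 1 1 : ℤ) : ZMod N) = 1 := by
      have h1 : (g 0 0 : ℤ) * g 1 1 - g 0 1 * g 1 0 = 1 := by
        have := g.2
        rwa [Matrix.det_fin_two] at this
      have h2 := congrArg (Int.cast : ℤ → ZMod N) h1
      push_cast at h2
      rw [h, mul_zero, sub_zero] at h2
      exact h2
    refine ⟨Units.mkOfMulEqOne _ _ hdet, ?_⟩
    apply Unimod.ext
    funext i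
    rw [Unimod.units_smul_val_apply, smul_e1_val]
    fin_cases i
    · simp
    · simpa using h.symm

/-- `SL(2, ℤ)` acts transitively on `P¹(ℤ/N)`. -/
theorem exists_smul_infty (x : P1 N) : ∃ g : SL(2, ℤ), g • (P1.infty : P1 N) = x := by
  obtain ⟨v, rfl⟩ := P1.mk_surjective x
  obtain ⟨a, ha⟩ := ZMod.intCast_surjective (v.1 0)
  obtain ⟨c, hc⟩ := ZMod.intCast_surjective (v.1 1)
  by_cases hg : Int.gcd a c = 0
  · -- then `v = 0`, so the ring is trivial
    have ha0 : a = 0 := (Int.gcd_eq_zero_iff.mp hg).1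
    have hc0 : c = 0 := (Int.gcd_eq_zero_iff.mp hg).2
    have h0 : v.1 0 = 0 := by rw [← ha, ha0]; simp
    have h1 : v.1 1 = 0 := by rw [← hc, hc0]; simp
    have htriv : (1 : ZMod N) = 0 := by
      obtain ⟨x, y, hxy⟩ := v.2
      rw [h0, h1, mul_zero, mul_zero, add_zero] at hxy
      exact hxy.symm
    have : Subsingleton (ZMod N) := subsingleton_of_zero_eq_one htriv.symm
    refine ⟨1, ?_⟩
    rw [one_smul, P1.infty]
    congr 1
    apply Unimod.ext
    funext i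
    exact Subsingleton.elim _ _
  · set g : ℤ := (Int.gcd a c : ℤ) with hgdef
    have hg0 : g ≠ 0 := by rw [hgdef]; exact_mod_cast hg
    obtain ⟨a', ha'⟩ : g ∣ a := Int.gcd_dvd_left a c
    obtain ⟨c', hc'⟩ : g ∣ c := Int.gcd_dvd_right a c
    have hbez : a * Int.gcdA a c + c * Int.gcdB a c = g := (Int.gcd_eq_gcd_ab a c).symm
    have hbez' : a' * Int.gcdA a c + c' * Int.gcdB a c = 1 := by
      have : g * (a' * Int.gcdA a c + c' * Int.gcdB a c) = g * 1 := by
        rw [mul_one]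
        calc g * (a' * Int.gcdA a c + c' * Int.gcdB a c)
            = (g * a') * Int.gcdA a c + (g * c') * Int.gcdB a c := by ring
          _ = g := by rw [← ha', ← hc', hbez]
      exact mul_left_cancel₀ hg0 this
    -- the matrix with first column `(a', c')`
    let γ : SL(2, ℤ) := ⟨!![a', -Int.gcdB a c; c', Int.gcdA a c], by
      rw [Matrix.det_fin_two_of]; linarith⟩
    -- `g` is a unit modulo `N`
    have hunit : IsUnit ((g : ℤ) : ZMod N) := by
      obtain ⟨x, y, hxy⟩ := v.2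
      rw [← ha, ← hc, ha', hc'] at hxy
      push_cast at hxy
      refine isUnit_iff_exists_inv.mpr ⟨x * (a' : ZMod N) + y * (c' : ZMod N), ?_⟩
      linear_combination hxy
    obtain ⟨u, hu⟩ := hunit
    refine ⟨γ, ?_⟩
    rw [P1.infty, P1.smul_mk, P1.mk_eq_mk]
    refine ⟨u⁻¹, ?_⟩
    apply Unimod.ext
    funext i
    rw [Unimod.units_smul_val_apply, smul_e1_val]
    have hui : ((u⁻¹ : (ZMod N)ˣ) : ZMod N) * ((g : ℤ) : ZMod N) = 1 := by
      rw [← hu]; exact u.inv_mul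
    fin_cases i
    · show ((u⁻¹ : (ZMod N)ˣ) : ZMod N) * v.1 0 = ((a' : ℤ) : ZMod N)
      rw [← ha, ha']
      push_cast
      rw [← mul_assoc, hui, one_mul]
    · show ((u⁻¹ : (ZMod N)ˣ) : ZMod N) * v.1 1 = ((c' : ℤ) : ZMod N)
      rw [← hc, hc']
      push_cast
      rw [← mul_assoc, hui, one_mul]

/-- The map `SL(2, ℤ) ⧸ Γ₀(N) → P¹(ℤ/N)`, `g Γ₀(N) ↦ g • (1 : 0)`. -/
noncomputable def toP1 (N : ℕ) : SL(2, ℤ) ⧸ Gamma0 N → P1 N :=
  Quotient.lift (fun g : SL(2, ℤ) => g • (P1.infty : P1 N)) (by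
    intro g h hgh
    have h1 : g⁻¹ * h ∈ Gamma0 N := QuotientGroup.leftRel_apply.mp hgh
    have h2 := (smul_infty_eq_iff (N := N) (g⁻¹ * h)).mpr h1
    show g • (P1.infty : P1 N) = h • P1.infty
    calc g • (P1.infty : P1 N) = g • ((g⁻¹ * h) • (P1.infty : P1 N)) := by rw [h2]
      _ = h • P1.infty := by rw [← mul_smul, mul_inv_cancel_left])

@[simp] theorem toP1_mk (g : SL(2, ℤ)) :
    toP1 N (QuotientGroup.mk g) = g • (P1.infty : P1 N) := rfl

theorem toP1_smul (g : SL(2, ℤ)) (x : SL(2, ℤ) ⧸ Gamma0 N) :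
    toP1 N (g • x) = g • toP1 N x := by
  obtain ⟨h, rfl⟩ := QuotientGroup.mk_surjective x
  show toP1 N (QuotientGroup.mk (g * h)) = _
  rw [toP1_mk, toP1_mk, mul_smul]

theorem toP1_injective : Function.Injective (toP1 N) := by
  intro x y hxy
  obtain ⟨g, rfl⟩ := QuotientGroup.mk_surjective x
  obtain ⟨h, rfl⟩ := QuotientGroup.mk_surjective y
  rw [toP1_mk, toP1_mk] at hxy
  rw [QuotientGroup.eq]
  apply (smul_infty_eq_iff (N := N) (g⁻¹ * h)).mp
  rw [mul_smul, ← hxy, ← mul_smul, inv_mul_cancel, one_smul]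

theorem toP1_surjective : Function.Surjective (toP1 N) := by
  intro x
  obtain ⟨g, rfl⟩ := exists_smul_infty x
  exact ⟨QuotientGroup.mk g, rfl⟩

/-- The equivariant bijection `SL(2, ℤ) ⧸ Γ₀(N) ≃ P¹(ℤ/N)`. -/
noncomputable def equivP1 (N : ℕ) : SL(2, ℤ) ⧸ Gamma0 N ≃ P1 N :=
  Equiv.ofBijective (toP1 N) ⟨toP1_injective, toP1_surjective⟩

@[simp] theorem equivP1_apply (x : SL(2, ℤ) ⧸ Gamma0 N) : equivP1 N x = toP1 N x := rfl

theorem equivP1_smul (g : SL(2, ℤ)) (x : SL(2, ℤ) ⧸ Gamma0 N) :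
    equivP1 N (g • x) = g • equivP1 N x := toP1_smul g x

end Fermat.Agent.X0.P1Equiv
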