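/-
Program C / C-G1 (helper21): fixed points of `S` and `S * T` on `P¹(ℤ/N)`.

`Fix(S) = {(u : 1) | u² + 1 = 0}` and `Fix(ST) = {(1 : x) | x² + x + 1 = 0}`, hence they have
`nuTwo N` resp. `nuThree N` elements.
-/
import Mathlib
import Fermat.Agent.X0.P1Defs
import Fermat.Prelude.Def_ModularCurve_GenusNumerics

set_option autoImplicit false

namespace Fermat.Agent.X0.P1Fixed

open Matrix MatrixGroups ModularGroup Fermat.Agent.X0.P1Defs

variable {N : ℕ}

/-! ### The action of `S`, `T`, `S * T` in coordinates -/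

theorem S_smul_val_zero (v : Unimod N) : (S • v).1 0 = - v.1 1 := by
  rw [Unimod.smul_val_zero]; simp [S]

theorem S_smul_val_one (v : Unimod N) : (S • v).1 1 = v.1 0 := by
  rw [Unimod.smul_val_one]; simp [S]

theorem T_smul_val_zero (v : Unimod N) : (T • v).1 0 = v.1 0 + v.1 1 := by
  rw [Unimod.smul_val_zero]; simp [T]

theorem T_smul_val_one (v : Unimod N) : (T • v).1 1 = v.1 1 := by
  rw [Unimod.smul_val_one]; simp [T]

theorem ST_smul_val_zero (v : Unimod N) : ((S * T) • v).1 0 = - v.1 1 := by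
  rw [mul_smul, S_smul_val_zero, T_smul_val_one]

theorem ST_smul_val_one (v : Unimod N) : ((S * T) • v).1 1 = v.1 0 + v.1 1 := by
  rw [mul_smul, S_smul_val_one, T_smul_val_zero]

/-- The unimodular vector `(a, c)`. -/
def vec (a c : ZMod N) (h : IsCoprime a c) : Unimod N := ⟨![a, c], by simpa using h⟩

@[simp] theorem vec_val_zero (a c : ZMod N) (h : IsCoprime a c) : (vec a c h).1 0 = a := rfl
@[simp] theorem vec_val_one (a c : ZMod N) (h : IsCoprime a c) : (vec a c h).1 1 = c := rfl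

theorem unimod_ext' {v w : Unimod N} (h0 : v.1 0 = w.1 0) (h1 : v.1 1 = w.1 1) : v = w := by
  apply Unimod.ext
  funext i
  fin_cases i
  · exact h0
  · exact h1

/-! ### Fixed points of `S` -/

/-- The point `(u : 1)`. -/
def ptS (u : ZMod N) : P1 N := P1.mk (vec u 1 isCoprime_one_right)

theorem ptS_fixed {u : ZMod N} (hu : u ^ 2 + 1 = 0) : S • ptS u = ptS u := by
  have hunit : u * (-u) = 1 := by linear_combination -hu
  rw [ptS, P1.smul_mk, P1.mk_eq_mk]
  refine ⟨Units.mkOfMulEqOne u (-u) hunit, ?_⟩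
  apply unimod_ext'
  · rw [Unimod.units_smul_val_apply, S_smul_val_zero]
    show u * u = -1
    linear_combination hu
  · rw [Unimod.units_smul_val_apply, S_smul_val_one]
    show u * 1 = u
    ring

theorem ptS_injective : Function.Injective (ptS : ZMod N → P1 N) := by
  intro u u' h
  rw [ptS, ptS, P1.mk_eq_mk] at h
  obtain ⟨w, hw⟩ := h
  have h1 := congrArg (fun v : Unimod N => v.1 1) hw
  have h0 := congrArg (fun v : Unimod N => v.1 0) hw
  simp only [Unimod.units_smul_val_apply, vec_val_one, vec_val_zero, mul_one] at h1 h0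
  rw [h1, one_mul] at h0
  exact h0.symm

theorem exists_ptS_of_fixed {x : P1 N} (hx : S • x = x) :
    ∃ u : ZMod N, u ^ 2 + 1 = 0 ∧ ptS u = x := by
  obtain ⟨v, rfl⟩ := P1.mk_surjective x
  rw [P1.smul_mk, P1.mk_eq_mk] at hx
  obtain ⟨u, hu⟩ := hx
  have h0 := congrArg (fun v : Unimod N => v.1 0) hu
  have h1 := congrArg (fun v : Unimod N => v.1 1) hu
  simp only [Unimod.units_smul_val_apply, S_smul_val_zero, S_smul_val_one] at h0 h1
  -- `h0 : u * a = -c`, `h1 : u * c = a`; `c` is a unit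
  obtain ⟨p, q, hpq⟩ := v.2
  have hcunit : (p * (u : ZMod N) + q) * v.1 1 = 1 := by
    linear_combination hpq + p * h1
  have hu2 : (u : ZMod N) ^ 2 + 1 = 0 := by
    have h2 : v.1 1 * ((u : ZMod N) ^ 2 + 1) = 0 := by
      linear_combination (u : ZMod N) * h1 + h0
    have := congrArg (fun t => (p * (u : ZMod N) + q) * t) h2
    simp only [mul_zero] at this
    rw [← mul_assoc, hcunit, one_mul] at this
    exact this
  refine ⟨(u : ZMod N), hu2, ?_⟩
  rw [ptS, P1.mk_eq_mk]
  refine ⟨Units.mkOfMulEqOne _ _ hcunit, ?_⟩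
  apply unimod_ext'
  · rw [Unimod.units_smul_val_apply]
    show (p * (u : ZMod N) + q) * v.1 0 = u
    linear_combination (u : ZMod N) * hcunit - (p * (u : ZMod N) + q) * h1
  · rw [Unimod.units_smul_val_apply]
    exact hcunit

/-- The fixed points of `S` on `P¹(ℤ/N)` are the points `(u : 1)` with `u² + 1 = 0`. -/
noncomputable def equivFixedS (N : ℕ) :
    {u : ZMod N // u ^ 2 + 1 = 0} ≃ MulAction.fixedBy (P1 N) S :=
  Equiv.ofBijective (fun u => ⟨ptS u.1, ptS_fixed u.2⟩) (by
    constructor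
    · intro u u' h
      exact Subtype.ext (ptS_injective (congrArg Subtype.val h))
    · rintro ⟨x, hx⟩
      obtain ⟨u, hu, rfl⟩ := exists_ptS_of_fixed (MulAction.mem_fixedBy.mp hx)
      exact ⟨⟨u, hu⟩, rfl⟩)

theorem card_fixedBy_S (N : ℕ) :
    Nat.card (MulAction.fixedBy (P1 N) S) = ModularCurve.nuTwo N :=
  (Nat.card_congr (equivFixedS N)).symm

/-! ### Fixed points of `S * T` -/

/-- The point `(1 : x)`. -/
def ptST (x : ZMod N) : P1 N := P1.mk (vec 1 x isCoprime_one_left)

theorem ptST_fixed {x : ZMod N} (hx : x ^ 2 + x + 1 = 0) : (S * T) • ptST x = ptST x := by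
  have hunit : (-x) * (x + 1) = 1 := by linear_combination -hx
  rw [ptST, P1.smul_mk, P1.mk_eq_mk]
  refine ⟨Units.mkOfMulEqOne (-x) (x + 1) hunit, ?_⟩
  apply unimod_ext'
  · rw [Unimod.units_smul_val_apply, ST_smul_val_zero]
    show -x * 1 = -x
    ring
  · rw [Unimod.units_smul_val_apply, ST_smul_val_one]
    show -x * x = 1 + x
    linear_combination -hx

theorem ptST_injective : Function.Injective (ptST : ZMod N → P1 N) := by
  intro x x' h
  rw [ptST, ptST, P1.mk_eq_mk] at h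
  obtain ⟨w, hw⟩ := h
  have h1 := congrArg (fun v : Unimod N => v.1 1) hw
  have h0 := congrArg (fun v : Unimod N => v.1 0) hw
  simp only [Unimod.units_smul_val_apply, vec_val_one, vec_val_zero, mul_one] at h1 h0
  rw [h0, one_mul] at h1
  exact h1.symm

theorem exists_ptST_of_fixed {y : P1 N} (hy : (S * T) • y = y) :
    ∃ x : ZMod N, x ^ 2 + x + 1 = 0 ∧ ptST x = y := by
  obtain ⟨v, rfl⟩ := P1.mk_surjective y
  rw [P1.smul_mk, P1.mk_eq_mk] at hy
  obtain ⟨u, hu⟩ := hy
  have h0 := congrArg (fun v : Unimod N => v.1 0) hu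
  have h1 := congrArg (fun v : Unimod N => v.1 1) hu
  simp only [Unimod.units_smul_val_apply, ST_smul_val_zero, ST_smul_val_one] at h0 h1
  -- `h0 : u * a = -c`, `h1 : u * c = a + c`; `a` is a unit
  obtain ⟨p, q, hpq⟩ := v.2
  have haunit : (p - q * (u : ZMod N)) * v.1 0 = 1 := by
    linear_combination hpq - q * h0
  have hu2 : (-(u : ZMod N)) ^ 2 + (-(u : ZMod N)) + 1 = 0 := by
    have h2 : v.1 0 * ((-(u : ZMod N)) ^ 2 + (-(u : ZMod N)) + 1) = 0 := by
      linear_combination ((u : ZMod N) - 1) * h0 - h1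
    have := congrArg (fun t => (p - q * (u : ZMod N)) * t) h2
    simp only [mul_zero] at this
    rw [← mul_assoc, haunit, one_mul] at this
    exact this
  refine ⟨-(u : ZMod N), hu2, ?_⟩
  rw [ptST, P1.mk_eq_mk]
  refine ⟨Units.mkOfMulEqOne _ _ haunit, ?_⟩
  apply unimod_ext'
  · rw [Unimod.units_smul_val_apply]
    exact haunit
  · rw [Unimod.units_smul_val_apply]
    show (p - q * (u : ZMod N)) * v.1 1 = -u
    linear_combination (p - q * (u : ZMod N)) * h0 - (u : ZMod N) * haunit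

/-- The fixed points of `S * T` on `P¹(ℤ/N)` are the points `(1 : x)` with `x² + x + 1 = 0`. -/
noncomputable def equivFixedST (N : ℕ) :
    {x : ZMod N // x ^ 2 + x + 1 = 0} ≃ MulAction.fixedBy (P1 N) (S * T) :=
  Equiv.ofBijective (fun x => ⟨ptST x.1, ptST_fixed x.2⟩) (by
    constructor
    · intro x x' h
      exact Subtype.ext (ptST_injective (congrArg Subtype.val h))
    · rintro ⟨y, hy⟩
      obtain ⟨x, hx, rfl⟩ := exists_ptST_of_fixed (MulAction.mem_fixedBy.mp hy)
      exact ⟨⟨x, hx⟩, rfl⟩)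

theorem card_fixedBy_ST (N : ℕ) :
    Nat.card (MulAction.fixedBy (P1 N) (S * T)) = ModularCurve.nuThree N :=
  (Nat.card_congr (equivFixedST N)).symm

/-! ### Elements acting trivially, finiteness -/

theorem neg_one_smul_val (v : Unimod N) (i : Fin 2) :
    ((-1 : SL(2, ℤ)) • v).1 i = - v.1 i := by
  fin_cases i
  · show ((-1 : SL(2, ℤ)) • v).1 0 = - v.1 0
    rw [Unimod.smul_val_zero]; simp
  · show ((-1 : SL(2, ℤ)) • v).1 1 = - v.1 1
    rw [Unimod.smul_val_one]; simp

/-- `-1` acts trivially on `P¹(ℤ/N)`. -/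
theorem neg_one_smul (x : P1 N) : (-1 : SL(2, ℤ)) • x = x := by
  obtain ⟨v, rfl⟩ := P1.mk_surjective x
  rw [P1.smul_mk, P1.mk_eq_mk]
  refine ⟨-1, ?_⟩
  apply unimod_ext'
  · rw [Unimod.units_smul_val_apply, neg_one_smul_val]; simp
  · rw [Unimod.units_smul_val_apply, neg_one_smul_val]; simp

theorem S_mul_S : S * S = -1 := by decide

theorem ST_pow_three : (S * T) ^ 3 = -1 := by decide

theorem S_sq_smul (x : P1 N) : S ^ 2 • x = x := by
  rw [pow_two, S_mul_S, neg_one_smul]

theorem ST_cube_smul (x : P1 N) : (S * T) ^ 3 • x = x := by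
  rw [ST_pow_three, neg_one_smul]

theorem T_pow_smul_val (k : ℕ) (v : Unimod N) :
    ((T ^ k) • v).1 0 = v.1 0 + k * v.1 1 ∧ ((T ^ k) • v).1 1 = v.1 1 := by
  induction k with
  | zero => simp
  | succ k ih =>
    rw [pow_succ', mul_smul, T_smul_val_zero, T_smul_val_one, ih.1, ih.2]
    refine ⟨?_, rfl⟩
    push_cast
    ring

/-- `T ^ N` acts trivially on `P¹(ℤ/N)`. -/
theorem T_pow_smul (x : P1 N) : T ^ N • x = x := by
  obtain ⟨v, rfl⟩ := P1.mk_surjective x
  rw [P1.smul_mk]
  congr 1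
  apply unimod_ext'
  · rw [(T_pow_smul_val N v).1]; simp
  · rw [(T_pow_smul_val N v).2]

instance instFiniteUnimod [NeZero N] : Finite (Unimod N) :=
  Subtype.finite

instance instFiniteP1 [NeZero N] : Finite (P1 N) :=
  Quotient.finite _

end Fermat.Agent.X0.P1Fixed
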