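/-
Program C / C-G1 (helper21): the elliptic-point data of `Γ₀(N)` on the coset space
`SL(2, ℤ) ⧸ Γ₀(N)` (left action): fixed points of `S` and `S * T`, the elements acting trivially,
and the orbit counts of `⟨S⟩`, `⟨S * T⟩`, `⟨T⟩`.
-/
import Mathlib
import Fermat.Agent.X0.P1Equiv
import Fermat.Agent.X0.P1Fixed
import Fermat.Agent.X0.OrbitCount

set_option autoImplicit false

namespace Fermat.Agent.X0.G1Elliptic

open Matrix MatrixGroups ModularGroup CongruenceSubgroup MulAction Subgroup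
open Fermat.Agent.X0.P1Defs Fermat.Agent.X0.P1Equiv Fermat.Agent.X0.P1Fixed
open Fermat.Agent.X0.OrbitCount

variable {N : ℕ}

/-- Transfer of a "`g` acts trivially" statement from `P¹(ℤ/N)` to the coset space. -/
theorem smul_eq_self_of_P1 {g : SL(2, ℤ)} (h : ∀ y : P1 N, g • y = y)
    (x : SL(2, ℤ) ⧸ Gamma0 N) : g • x = x := by
  apply (equivP1 N).injective
  rw [equivP1_smul, h]

/-- `-1` acts trivially on `SL(2, ℤ) ⧸ Γ₀(N)`. -/
theorem g1_neg_one_smul (x : SL(2, ℤ) ⧸ Gamma0 N) : (-1 : SL(2, ℤ)) • x = x :=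
  smul_eq_self_of_P1 neg_one_smul x

theorem g1_S_sq_smul (x : SL(2, ℤ) ⧸ Gamma0 N) : S ^ 2 • x = x :=
  smul_eq_self_of_P1 S_sq_smul x

theorem g1_ST_cube_smul (x : SL(2, ℤ) ⧸ Gamma0 N) : (S * T) ^ 3 • x = x :=
  smul_eq_self_of_P1 ST_cube_smul x

theorem g1_T_pow_smul (x : SL(2, ℤ) ⧸ Gamma0 N) : T ^ N • x = x :=
  smul_eq_self_of_P1 T_pow_smul x

/-- Conjugates of an element acting trivially act trivially. -/
theorem g1_conj_pow_smul {g : SL(2, ℤ)} {n : ℕ}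
    (h : ∀ x : SL(2, ℤ) ⧸ Gamma0 N, g ^ n • x = x) (γ : SL(2, ℤ))
    (x : SL(2, ℤ) ⧸ Gamma0 N) : (γ * g * γ⁻¹) ^ n • x = x := by
  rw [conj_pow, mul_smul, mul_smul, h, smul_inv_smul]

/-! ### Fixed points -/

/-- The number of fixed points of `S` on `SL(2, ℤ) ⧸ Γ₀(N)` is `ν₂(N)`. -/
theorem g1_card_fixedBy_S (N : ℕ) :
    Nat.card (fixedBy (SL(2, ℤ) ⧸ Gamma0 N) S) = ModularCurve.nuTwo N := by
  rw [card_fixedBy_congr (equivP1 N) equivP1_smul S, card_fixedBy_S]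

/-- The number of fixed points of `S * T` on `SL(2, ℤ) ⧸ Γ₀(N)` is `ν₃(N)`. -/
theorem g1_card_fixedBy_ST (N : ℕ) :
    Nat.card (fixedBy (SL(2, ℤ) ⧸ Gamma0 N) (S * T)) = ModularCurve.nuThree N := by
  rw [card_fixedBy_congr (equivP1 N) equivP1_smul (S * T), card_fixedBy_ST]

theorem g1_card_fixedBy_conj_S (N : ℕ) (γ : SL(2, ℤ)) :
    Nat.card (fixedBy (SL(2, ℤ) ⧸ Gamma0 N) (γ * S * γ⁻¹)) = ModularCurve.nuTwo N := by
  rw [card_fixedBy_conj, g1_card_fixedBy_S]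

theorem g1_card_fixedBy_conj_ST (N : ℕ) (γ : SL(2, ℤ)) :
    Nat.card (fixedBy (SL(2, ℤ) ⧸ Gamma0 N) (γ * (S * T) * γ⁻¹)) = ModularCurve.nuThree N := by
  rw [card_fixedBy_conj, g1_card_fixedBy_ST]

/-! ### Orbit sizes -/

theorem g1_card_orbit_S_of_fixed {x : SL(2, ℤ) ⧸ Gamma0 N} (h : S • x = x) :
    Nat.card (orbit (zpowers S) x) = 1 :=
  card_orbit_zpowers_eq_one_iff.mpr h

theorem g1_card_orbit_S_of_not_fixed {x : SL(2, ℤ) ⧸ Gamma0 N} (h : S • x ≠ x) :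
    Nat.card (orbit (zpowers S) x) = 2 :=
  card_orbit_zpowers_of_prime Nat.prime_two (g1_S_sq_smul x) h

theorem g1_card_orbit_ST_of_fixed {x : SL(2, ℤ) ⧸ Gamma0 N} (h : (S * T) • x = x) :
    Nat.card (orbit (zpowers (S * T)) x) = 1 :=
  card_orbit_zpowers_eq_one_iff.mpr h

theorem g1_card_orbit_ST_of_not_fixed {x : SL(2, ℤ) ⧸ Gamma0 N} (h : (S * T) • x ≠ x) :
    Nat.card (orbit (zpowers (S * T)) x) = 3 :=
  card_orbit_zpowers_of_prime Nat.prime_three (g1_ST_cube_smul x) h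

/-- The width of a cusp divides `N`. -/
theorem g1_card_orbit_T_dvd (x : SL(2, ℤ) ⧸ Gamma0 N) :
    Nat.card (orbit (zpowers T) x) ∣ N :=
  card_orbit_zpowers_dvd (g1_T_pow_smul x)

/-! ### Orbit counts -/

/-- `2 * #(⟨S⟩-orbits) = #X + ν₂(N)`. -/
theorem g1_card_orbits_S (N : ℕ) [NeZero N] :
    2 * Nat.card (orbitRel.Quotient (zpowers S) (SL(2, ℤ) ⧸ Gamma0 N)) =
      Nat.card (SL(2, ℤ) ⧸ Gamma0 N) + ModularCurve.nuTwo N := by
  have h := card_orbits_zpowers_of_prime (X := SL(2, ℤ) ⧸ Gamma0 N) Nat.prime_two g1_S_sq_smul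
  rw [g1_card_fixedBy_S, show 2 - 1 = 1 from rfl, one_mul] at h
  exact h

/-- `3 * #(⟨ST⟩-orbits) = #X + 2 * ν₃(N)`. -/
theorem g1_card_orbits_ST (N : ℕ) [NeZero N] :
    3 * Nat.card (orbitRel.Quotient (zpowers (S * T)) (SL(2, ℤ) ⧸ Gamma0 N)) =
      Nat.card (SL(2, ℤ) ⧸ Gamma0 N) + 2 * ModularCurve.nuThree N := by
  have h := card_orbits_zpowers_of_prime (X := SL(2, ℤ) ⧸ Gamma0 N) Nat.prime_three
    g1_ST_cube_smul
  rw [g1_card_fixedBy_ST] at h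
  exact h

/-- The same for conjugates of `S`. -/
theorem g1_card_orbits_conj_S (N : ℕ) [NeZero N] (γ : SL(2, ℤ)) :
    2 * Nat.card (orbitRel.Quotient (zpowers (γ * S * γ⁻¹)) (SL(2, ℤ) ⧸ Gamma0 N)) =
      Nat.card (SL(2, ℤ) ⧸ Gamma0 N) + ModularCurve.nuTwo N := by
  have h := card_orbits_zpowers_of_prime (X := SL(2, ℤ) ⧸ Gamma0 N) Nat.prime_two
    (g1_conj_pow_smul g1_S_sq_smul γ)
  rw [g1_card_fixedBy_conj_S, show 2 - 1 = 1 from rfl, one_mul] at h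
  exact h

/-- The same for conjugates of `S * T`. -/
theorem g1_card_orbits_conj_ST (N : ℕ) [NeZero N] (γ : SL(2, ℤ)) :
    3 * Nat.card (orbitRel.Quotient (zpowers (γ * (S * T) * γ⁻¹)) (SL(2, ℤ) ⧸ Gamma0 N)) =
      Nat.card (SL(2, ℤ) ⧸ Gamma0 N) + 2 * ModularCurve.nuThree N := by
  have h := card_orbits_zpowers_of_prime (X := SL(2, ℤ) ⧸ Gamma0 N) Nat.prime_three
    (g1_conj_pow_smul g1_ST_cube_smul γ)
  rw [g1_card_fixedBy_conj_ST] at h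
  exact h

/-- The sum of the widths of the cusps is the index. -/
theorem g1_sum_card_orbit_T (N : ℕ) [NeZero N] :
    ∑ᶠ ω : orbitRel.Quotient (zpowers T) (SL(2, ℤ) ⧸ Gamma0 N), Nat.card ω.orbit =
      Nat.card (SL(2, ℤ) ⧸ Gamma0 N) :=
  (card_eq_sum_card_orbits (zpowers T)).symm

end Fermat.Agent.X0.G1Elliptic
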