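import Mathlib
import Fermat.Prelude.Def_AlgebraicCurve_DivisorClassGroup

/-!
# C-F1 (FF5): a place from an integer-valued order function

If `w : F → ℤ` behaves like a (nontrivial) discrete valuation on `F ∖ {0}` which is trivial on the
constants `K`, then `{f | f = 0 ∨ 0 ≤ w f}` is a place `v` of `F / K` and `w = m * v.ord` for a
positive integer `m`.
-/

set_option autoImplicit false

open AlgebraicCurve

namespace Fermat.Agent.X0.FF

variable {K F : Type*} [Field K] [Field F] [Algebra K F]

/-- Axioms of an integer-valued order function on `F ∖ {0}`, trivial on `K`. -/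
structure IsOrderFun (K : Type*) {F : Type*} [Field K] [Field F] [Algebra K F] (w : F → ℤ) :
    Prop where
  map_mul : ∀ f g : F, f ≠ 0 → g ≠ 0 → w (f * g) = w f + w g
  map_add : ∀ f g : F, f ≠ 0 → g ≠ 0 → f + g ≠ 0 → min (w f) (w g) ≤ w (f + g)
  map_const : ∀ c : K, c ≠ 0 → w (algebraMap K F c) = 0

namespace IsOrderFun

variable {w : F → ℤ} (hw : IsOrderFun K w)

include hw

theorem map_one : w 1 = 0 := by
  have := hw.map_mul 1 1 one_ne_zero one_ne_zero
  rw [mul_one] at this
  linarith

theorem map_inv {f : F} (hf : f ≠ 0) : w f⁻¹ = -w f := by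
  have := hw.map_mul f f⁻¹ hf (inv_ne_zero hf)
  rw [mul_inv_cancel₀ hf, hw.map_one] at this
  linarith

theorem map_neg_one : w (-1) = 0 := by
  have := hw.map_mul (-1) (-1) (neg_ne_zero.mpr one_ne_zero) (neg_ne_zero.mpr one_ne_zero)
  rw [neg_mul_neg, mul_one, hw.map_one] at this
  linarith

theorem map_neg {f : F} (hf : f ≠ 0) : w (-f) = w f := by
  have := hw.map_mul (-1) f (neg_ne_zero.mpr one_ne_zero) hf
  rw [neg_one_mul, hw.map_neg_one, zero_add] at this
  exact this

theorem map_div {f g : F} (hf : f ≠ 0) (hg : g ≠ 0) : w (f / g) = w f - w g := by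
  rw [div_eq_mul_inv, hw.map_mul f g⁻¹ hf (inv_ne_zero hg), hw.map_inv hg]
  ring

theorem map_pow {f : F} (hf : f ≠ 0) (n : ℕ) : w (f ^ n) = n * w f := by
  induction n with
  | zero => simp [hw.map_one]
  | succ n ih =>
    rw [pow_succ, hw.map_mul _ _ (pow_ne_zero n hf) hf, ih]
    push_cast
    ring

theorem map_zpow {f : F} (hf : f ≠ 0) (n : ℤ) : w (f ^ n) = n * w f := by
  obtain ⟨k, rfl | rfl⟩ := n.eq_nat_or_neg
  · simpa using hw.map_pow hf k
  · rw [zpow_neg, zpow_natCast, hw.map_inv (pow_ne_zero _ hf), hw.map_pow hf]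
    ring

/-- The valuation subring `{f | f = 0 ∨ 0 ≤ w f}`. -/
def valuationSubring : ValuationSubring F where
  carrier := {f | f = 0 ∨ 0 ≤ w f}
  mul_mem' := by
    rintro f g (rfl | hf) (rfl | hg)
    · left; simp
    · left; simp
    · left; simp
    · by_cases hf0 : f = 0
      · left; simp [hf0]
      by_cases hg0 : g = 0
      · left; simp [hg0]
      right
      rw [hw.map_mul f g hf0 hg0]
      exact add_nonneg hf hg
  one_mem' := Or.inr (by rw [hw.map_one])
  add_mem' := by
    rintro f g hf hg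
    by_cases hf0 : f = 0
    · simpa [hf0] using hg
    by_cases hg0 : g = 0
    · simpa [hg0] using hf
    by_cases hfg : f + g = 0
    · left; exact hfg
    right
    have hf' : 0 ≤ w f := hf.resolve_left hf0
    have hg' : 0 ≤ w g := hg.resolve_left hg0
    exact le_trans (le_min hf' hg') (hw.map_add f g hf0 hg0 hfg)
  zero_mem' := Or.inl rfl
  neg_mem' := by
    rintro f (rfl | hf)
    · left; simp
    · by_cases hf0 : f = 0
      · left; simp [hf0]
      right
      rwa [hw.map_neg hf0]
  mem_or_inv_mem' := by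
    intro f
    by_cases hf0 : f = 0
    · left; left; exact hf0
    rcases le_total 0 (w f) with h | h
    · left; right; exact h
    · right; right
      rw [hw.map_inv hf0]
      linarith

theorem mem_valuationSubring {f : F} : f ∈ hw.valuationSubring ↔ f = 0 ∨ 0 ≤ w f := Iff.rfl

theorem mem_valuationSubring_of_ne_zero {f : F} (hf : f ≠ 0) :
    f ∈ hw.valuationSubring ↔ 0 ≤ w f := by
  rw [mem_valuationSubring]
  exact ⟨fun h => h.resolve_left hf, Or.inr⟩

theorem valuationSubring_ne_top (hnt : ∃ f, f ≠ 0 ∧ w f ≠ 0) : hw.valuationSubring ≠ ⊤ := by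
  obtain ⟨f, hf0, hf⟩ := hnt
  intro htop
  have h1 : f ∈ hw.valuationSubring := by rw [htop]; exact ValuationSubring.mem_top f
  have h2 : f⁻¹ ∈ hw.valuationSubring := by rw [htop]; exact ValuationSubring.mem_top _
  rw [hw.mem_valuationSubring_of_ne_zero hf0] at h1
  rw [hw.mem_valuationSubring_of_ne_zero (inv_ne_zero hf0), hw.map_inv hf0] at h2
  apply hf
  linarith

/-- Every ideal of the valuation subring is principal (generated by an element of minimal
order). -/
theorem isPrincipalIdealRing : IsPrincipalIdealRing hw.valuationSubring := by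
  classical
  refine ⟨fun I => ?_⟩
  by_cases hI : I = ⊥
  · rw [hI]; exact bot_isPrincipal
  obtain ⟨a0, ha0I, ha00⟩ := Submodule.exists_mem_ne_zero_of_ne_bot hI
  -- the set of orders of nonzero elements of `I`
  have hex : ∃ n : ℕ, ∃ a : hw.valuationSubring, a ∈ I ∧ a ≠ 0 ∧ w (a : F) = n := by
    have ha0F : (a0 : F) ≠ 0 := by
      intro h; apply ha00; exact Subtype.ext h
    have : 0 ≤ w (a0 : F) := (hw.mem_valuationSubring_of_ne_zero ha0F).mp a0.2
    exact ⟨(w (a0 : F)).toNat, a0, ha0I, ha00, (Int.toNat_of_nonneg this).symm⟩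
  obtain ⟨a, haI, ha0, han⟩ := Nat.find_spec hex
  have haF : (a : F) ≠ 0 := by
    intro h; apply ha0; exact Subtype.ext h
  refine ⟨a, ?_⟩
  apply le_antisymm
  · intro b hbI
    by_cases hb0 : b = 0
    · rw [hb0]; exact Submodule.zero_mem _
    have hbF : (b : F) ≠ 0 := by
      intro h; apply hb0; exact Subtype.ext h
    have hbw : 0 ≤ w (b : F) := (hw.mem_valuationSubring_of_ne_zero hbF).mp b.2
    -- minimality
    have hmin : Nat.find hex ≤ (w (b : F)).toNat :=
      Nat.find_min' hex ⟨b, hbI, hb0, (Int.toNat_of_nonneg hbw).symm⟩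
    have hle : w (a : F) ≤ w (b : F) := by
      rw [han]
      have := Int.toNat_of_nonneg hbw
      omega
    -- `b / a` lies in the valuation subring
    have hq : (b : F) / (a : F) ∈ hw.valuationSubring := by
      rw [hw.mem_valuationSubring_of_ne_zero (div_ne_zero hbF haF), hw.map_div hbF haF]
      linarith
    rw [Submodule.mem_span_singleton]
    refine ⟨⟨_, hq⟩, ?_⟩
    apply Subtype.ext
    simp only [smul_eq_mul, MulMemClass.coe_mul]
    field_simp
  · rw [Submodule.span_le, Set.singleton_subset_iff]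
    exact haI

/-- The place attached to a nontrivial order function. -/
def place (hnt : ∃ f, f ≠ 0 ∧ w f ≠ 0) : Place K F where
  toValuationSubring := hw.valuationSubring
  algebraMap_mem' := by
    intro c
    by_cases hc : c = 0
    · left; simp [hc]
    · right; rw [hw.map_const c hc]
  ne_top' := hw.valuationSubring_ne_top hnt
  isPrincipalIdealRing' := hw.isPrincipalIdealRing

@[simp] theorem place_toValuationSubring (hnt : ∃ f, f ≠ 0 ∧ w f ≠ 0) :
    (hw.place hnt).toValuationSubring = hw.valuationSubring := rfl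

/-- Units of the valuation subring have order `0`. -/
theorem map_unit (u : hw.valuationSubringˣ) : w ((u : hw.valuationSubring) : F) = 0 := by
  have hu0 : ((u : hw.valuationSubring) : F) ≠ 0 := by
    intro h
    have : (u : hw.valuationSubring) = 0 := Subtype.ext h
    exact u.ne_zero this
  have h1 : 0 ≤ w ((u : hw.valuationSubring) : F) :=
    (hw.mem_valuationSubring_of_ne_zero hu0).mp (u : hw.valuationSubring).2
  have hinv : (((u⁻¹ : hw.valuationSubringˣ) : hw.valuationSubring) : F) =
      ((u : hw.valuationSubring) : F)⁻¹ := by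
    have := congrArg (Subtype.val) (u.mul_inv)
    simp only [MulMemClass.coe_mul, OneMemClass.coe_one] at this
    exact eq_inv_of_mul_eq_one_right this
  have h2 : 0 ≤ w (((u⁻¹ : hw.valuationSubringˣ) : hw.valuationSubring) : F) := by
    have hne : (((u⁻¹ : hw.valuationSubringˣ) : hw.valuationSubring) : F) ≠ 0 := by
      rw [hinv]; exact inv_ne_zero hu0
    exact (hw.mem_valuationSubring_of_ne_zero hne).mp
      ((u⁻¹ : hw.valuationSubringˣ) : hw.valuationSubring).2
  rw [hinv, hw.map_inv hu0] at h2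
  linarith

end IsOrderFun

/-- **(FF5)** A nontrivial integer-valued order function on `F`, trivial on `K`, is a positive
multiple of the order function of a place. -/
theorem exists_place_of_isOrderFun {w : F → ℤ} (hw : IsOrderFun K w)
    (hnt : ∃ f, f ≠ 0 ∧ w f ≠ 0) :
    ∃ (v : Place K F) (m : ℕ), 0 < m ∧ (∀ f : F, f ≠ 0 → w f = m * v.ord f) ∧
      (∀ f : F, f ≠ 0 → (f ∈ v.toValuationSubring ↔ 0 ≤ w f)) := by
  classical
  set v : Place K F := hw.place hnt with hv
  obtain ⟨π, hπ⟩ := IsDiscreteValuationRing.exists_irreducible v.toValuationSubring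
  have hπF : (π : F) ≠ 0 := by
    intro h
    exact hπ.ne_zero (Subtype.ext h)
  have hπ0 : 0 ≤ w (π : F) := (hw.mem_valuationSubring_of_ne_zero hπF).mp π.2
  -- `w π ≠ 0` since `π` is not a unit
  have hπne : w (π : F) ≠ 0 := by
    intro h0
    apply hπ.not_isUnit
    have hinv : (π : F)⁻¹ ∈ hw.valuationSubring := by
      rw [hw.mem_valuationSubring_of_ne_zero (inv_ne_zero hπF), hw.map_inv hπF, h0]
      simp
    refine ⟨⟨π, ⟨_, hinv⟩, ?_, ?_⟩, rfl⟩
    · apply Subtype.ext
      simp only [MulMemClass.coe_mul, OneMemClass.coe_one]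
      exact mul_inv_cancel₀ hπF
    · apply Subtype.ext
      simp only [MulMemClass.coe_mul, OneMemClass.coe_one]
      exact inv_mul_cancel₀ hπF
  refine ⟨v, (w (π : F)).toNat, ?_, ?_, ?_⟩
  · have : 0 < w (π : F) := lt_of_le_of_ne hπ0 (Ne.symm hπne)
    omega
  · intro f hf
    obtain ⟨u, hu⟩ := v.exists_unit_mul_zpow hf hπ
    have hu0 : ((u : v.toValuationSubring) : F) ≠ 0 := by
      intro h
      have : (u : v.toValuationSubring) = 0 := Subtype.ext h
      exact u.ne_zero this
    have h1 : w f = w (((u : v.toValuationSubring) : F) * (π : F) ^ v.ord f) := by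
      rw [← hu]
    rw [h1, hw.map_mul _ _ hu0 (zpow_ne_zero _ hπF), hw.map_zpow hπF]
    have hunit : w ((u : v.toValuationSubring) : F) = 0 := hw.map_unit u
    rw [hunit, zero_add, Int.toNat_of_nonneg hπ0]
    ring
  · intro f hf
    exact hw.mem_valuationSubring_of_ne_zero hf

/-- **(FF5)**, unbundled hypotheses. -/
theorem exists_place_of_order (w : F → ℤ)
    (hmul : ∀ f g : F, f ≠ 0 → g ≠ 0 → w (f * g) = w f + w g)
    (hadd : ∀ f g : F, f ≠ 0 → g ≠ 0 → f + g ≠ 0 → min (w f) (w g) ≤ w (f + g))
    (hK : ∀ c : K, c ≠ 0 → w (algebraMap K F c) = 0)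
    (hnt : ∃ f, f ≠ 0 ∧ w f ≠ 0) :
    ∃ (v : Place K F) (m : ℕ), 0 < m ∧ (∀ f : F, f ≠ 0 → w f = m * v.ord f) ∧
      (∀ f : F, f ≠ 0 → (f ∈ v.toValuationSubring ↔ 0 ≤ w f)) :=
  exists_place_of_isOrderFun ⟨hmul, hadd, hK⟩ hnt

end Fermat.Agent.X0.FF
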