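/-
C-P1b (helper7), generic part: the place of a function field cut out by an embedding into
Laurent series (order function `f ↦ (τ f).order`), on top of FF5 (`FFOrderPlace.lean`).
-/
import Mathlib
import Fermat.Agent.X0.FFOrderPlace
import Fermat.Agent.X0.FFPlace
set_option autoImplicit false
open AlgebraicCurve

namespace Fermat.Agent.X0.LaurentPlace

variable {K F : Type*} [Field K] [Field F] [Algebra K F]

/-! ### Generalities on `IsOrderFun.place` -/

/-- The multiplicity relation for the place of an order function. -/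
theorem place_spec {w : F → ℤ} (hw : FF.IsOrderFun K w) (hnt : ∃ f, f ≠ 0 ∧ w f ≠ 0) :
    ∃ m : ℕ, 0 < m ∧ ∀ f : F, f ≠ 0 → w f = m * (hw.place hnt).ord f := by
  obtain ⟨v, m, hm, h1, h2⟩ := FF.exists_place_of_isOrderFun hw hnt
  have hv : v = hw.place hnt := by
    apply Place.ext
    ext f
    by_cases hf : f = 0
    · subst hf
      simp only [zero_mem]
    · rw [h2 f hf, FF.IsOrderFun.place_toValuationSubring,
        hw.mem_valuationSubring_of_ne_zero hf]
  subst hv
  exact ⟨m, hm, h1⟩

/-- Two order functions with the same sign pattern define the same place. -/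
theorem place_eq_of_nonneg_iff {w w' : F → ℤ} (hw : FF.IsOrderFun K w) (hw' : FF.IsOrderFun K w')
    (hnt : ∃ f, f ≠ 0 ∧ w f ≠ 0) (hnt' : ∃ f, f ≠ 0 ∧ w' f ≠ 0)
    (h : ∀ f : F, f ≠ 0 → (0 ≤ w f ↔ 0 ≤ w' f)) : hw.place hnt = hw'.place hnt' := by
  apply Place.ext
  ext f
  by_cases hf : f = 0
  · subst hf
    simp only [zero_mem]
  · rw [FF.IsOrderFun.place_toValuationSubring, FF.IsOrderFun.place_toValuationSubring,
      hw.mem_valuationSubring_of_ne_zero hf, hw'.mem_valuationSubring_of_ne_zero hf, h f hf]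

/-- A place `v` with `w = m * v.ord` (`m > 0`) is the place of `w`. -/
theorem eq_place_of_spec {w : F → ℤ} (hw : FF.IsOrderFun K w) (hnt : ∃ f, f ≠ 0 ∧ w f ≠ 0)
    (v : Place K F) {m : ℕ} (hm : 0 < m) (h : ∀ f : F, f ≠ 0 → w f = m * v.ord f) :
    v = hw.place hnt := by
  apply Place.ext
  ext f
  by_cases hf : f = 0
  · subst hf
    simp only [zero_mem]
  · rw [FF.IsOrderFun.place_toValuationSubring, hw.mem_valuationSubring_of_ne_zero hf,
      FF.ffp_mem_iff_ord_nonneg, h f hf]
    have hm' : (0 : ℤ) < m := by exact_mod_cast hm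
    constructor
    · intro h0; positivity
    · intro h0
      by_contra hneg
      have hneg' : v.ord f < 0 := not_le.mp hneg
      nlinarith

/-- There is an element of order exactly `1` at every place. -/
theorem exists_ord_eq_one (v : Place K F) : ∃ f : F, f ≠ 0 ∧ v.ord f = 1 := by
  obtain ⟨π, hπ⟩ := FF.ffp_exists_irreducible v
  refine ⟨(π : F), ?_, v.ord_coe_irreducible hπ⟩
  intro h
  exact hπ.ne_zero (Subtype.ext h)

/-- If all values of `w` are divisible by `e`, so is the multiplicity `m`. -/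
theorem dvd_of_forall_dvd {w : F → ℤ} (v : Place K F) {m : ℕ}
    (h : ∀ f : F, f ≠ 0 → w f = m * v.ord f) {e : ℤ} (he : ∀ f : F, f ≠ 0 → e ∣ w f) :
    e ∣ (m : ℤ) := by
  obtain ⟨f, hf, h1⟩ := exists_ord_eq_one v
  have := he f hf
  rwa [h f hf, h1, mul_one] at this

/-! ### The order function of an embedding into Laurent series -/

/-- The order function attached to an embedding of `F` into Laurent series. -/
noncomputable def embOrd (τ : F →+* LaurentSeries K) (f : F) : ℤ := (τ f).order

omit [Algebra K F] in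
theorem emb_ne_zero (τ : F →+* LaurentSeries K) {f : F} (hf : f ≠ 0) : τ f ≠ 0 :=
  (map_ne_zero τ).mpr hf

theorem isOrderFun_embOrd (τ : F →+* LaurentSeries K)
    (hτ : ∀ c : K, τ (algebraMap K F c) = HahnSeries.C c) : FF.IsOrderFun K (embOrd τ) where
  map_mul f g hf hg := by
    unfold embOrd
    rw [map_mul, HahnSeries.order_mul (emb_ne_zero τ hf) (emb_ne_zero τ hg)]
  map_add f g hf hg hfg := by
    unfold embOrd
    rw [map_add]
    exact HahnSeries.min_order_le_order_add (by rw [← map_add]; exact emb_ne_zero τ hfg)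
  map_const c _ := by
    unfold embOrd
    rw [hτ, HahnSeries.order_C]

/-- The place of `F` cut out by a Laurent series embedding `τ` (with a nonconstant value). -/
noncomputable def embPlace (τ : F →+* LaurentSeries K)
    (hτ : ∀ c : K, τ (algebraMap K F c) = HahnSeries.C c)
    (hnt : ∃ f, f ≠ 0 ∧ (τ f).order ≠ 0) : Place K F :=
  (isOrderFun_embOrd τ hτ).place hnt

theorem embPlace_spec (τ : F →+* LaurentSeries K)
    (hτ : ∀ c : K, τ (algebraMap K F c) = HahnSeries.C c)
    (hnt : ∃ f, f ≠ 0 ∧ (τ f).order ≠ 0) :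
    ∃ m : ℕ, 0 < m ∧ ∀ f : F, f ≠ 0 → (τ f).order = m * (embPlace τ hτ hnt).ord f :=
  place_spec (isOrderFun_embOrd τ hτ) hnt

theorem mem_embPlace_iff (τ : F →+* LaurentSeries K)
    (hτ : ∀ c : K, τ (algebraMap K F c) = HahnSeries.C c)
    (hnt : ∃ f, f ≠ 0 ∧ (τ f).order ≠ 0) {f : F} (hf : f ≠ 0) :
    f ∈ (embPlace τ hτ hnt).toValuationSubring ↔ 0 ≤ (τ f).order :=
  (isOrderFun_embOrd τ hτ).mem_valuationSubring_of_ne_zero hf

theorem embPlace_eq_of_order_eq (τ τ' : F →+* LaurentSeries K)
    (hτ : ∀ c : K, τ (algebraMap K F c) = HahnSeries.C c)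
    (hτ' : ∀ c : K, τ' (algebraMap K F c) = HahnSeries.C c)
    (hnt : ∃ f, f ≠ 0 ∧ (τ f).order ≠ 0) (hnt' : ∃ f, f ≠ 0 ∧ (τ' f).order ≠ 0)
    (h : ∀ f : F, (τ f).order = (τ' f).order) : embPlace τ hτ hnt = embPlace τ' hτ' hnt' :=
  place_eq_of_nonneg_iff _ _ hnt hnt' fun f _ => by
    show 0 ≤ (τ f).order ↔ 0 ≤ (τ' f).order
    rw [h f]

theorem eq_embPlace_of_spec (τ : F →+* LaurentSeries K)
    (hτ : ∀ c : K, τ (algebraMap K F c) = HahnSeries.C c)
    (hnt : ∃ f, f ≠ 0 ∧ (τ f).order ≠ 0) (v : Place K F) {m : ℕ} (hm : 0 < m)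
    (h : ∀ f : F, f ≠ 0 → (τ f).order = m * v.ord f) : v = embPlace τ hτ hnt :=
  eq_place_of_spec (isOrderFun_embOrd τ hτ) hnt v hm h

/-- Two Hahn series whose coefficients differ by nonzero factors have the same order. -/
theorem order_eq_of_coeff_eq_mul {R : Type*} [CommRing R] [NoZeroDivisors R]
    {x y : LaurentSeries R} (c : ℤ → R)
    (hc : ∀ n, c n ≠ 0) (h : ∀ n, x.coeff n = c n * y.coeff n) : x.order = y.order := by
  have hsupp : ∀ n, x.coeff n ≠ 0 ↔ y.coeff n ≠ 0 := fun n => by
    rw [h n]; simp [hc n]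
  by_cases hx : x = 0
  · have hy : y = 0 := by
      ext n
      have := (hsupp n).not
      simp only [not_not] at this
      simpa using this.mp (by rw [hx]; simp)
    rw [hx, hy]
  · have hy : y ≠ 0 := by
      intro hy
      apply hx
      ext n
      have := (hsupp n).not
      simp only [not_not] at this
      simpa using this.mpr (by rw [hy]; simp)
    apply le_antisymm
    · exact HahnSeries.order_le_of_coeff_ne_zero
        ((hsupp _).mpr (fun h0 => hy (HahnSeries.coeff_order_eq_zero.mp h0)))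
    · exact HahnSeries.order_le_of_coeff_ne_zero
        ((hsupp _).mp (fun h0 => hx (HahnSeries.coeff_order_eq_zero.mp h0)))

end Fermat.Agent.X0.LaurentPlace
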