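import Mathlib

/-!
# ABS-DEG (row C-F2e / 178): abstract classification of embeddings, degree and norm

Pure field theory. `K` a field of characteristic `0`, `F/K` a field, `R ⊆ F` a `K`-subalgebra with
`Frac R = F`, `Kj` an intermediate field, `L` a field, `X` a finite type, `T : X → (F →+* L)`,
`x₀ : X`. Hypotheses:

* `h1 : ∀ x (a : Kj), T x a = T x₀ a`,
* `h2 : ∀ (u : R) k, (∏ x, (X - C (T x u))).coeff k ∈ range (T x₀ ∘ algebraMap Kj F)`,
* `h3 : Function.Injective T`.

Conclusions: `finiteDimensional`, `exists_eq_of_agree` / `exists_embOf_eq` (classification of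
embeddings), `finrank_eq_card`, `norm_eq_prod`, `trace_eq_sum`.
-/

set_option autoImplicit false
set_option linter.style.haveILetI false
set_option linter.unusedSectionVars false

namespace Fermat.Agent.X0.AbsDegree

open Polynomial

section Setup

variable {K F L : Type*} [Field K] [Field F] [Algebra K F] [Field L]
  (R : Subalgebra K F) (Kj : IntermediateField K F)
  {X : Type*} [Fintype X] (T : X → (F →+* L)) (x₀ : X)

/-- The base embedding `Kj → L`. -/
def baseHom : Kj →+* L := (T x₀).comp (algebraMap Kj F)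

omit [Fintype X] in
@[simp] theorem baseHom_apply (a : Kj) : baseHom Kj T x₀ a = T x₀ (a : F) := rfl

/-- The "characteristic polynomial" `∏ x, (X - T x f)` over `L`. -/
noncomputable def prodPoly (f : F) : L[X] := ∏ x, (Polynomial.X - C (T x f))

theorem prodPoly_monic (f : F) : (prodPoly T f).Monic :=
  monic_prod_of_monic _ _ fun x _ => monic_X_sub_C (T x f)

theorem eval_prodPoly (f : F) (y : L) : (prodPoly T f).eval y = ∏ x, (y - T x f) := by
  simp [prodPoly, eval_prod]

theorem eval_prodPoly_self (f : F) (x : X) : (prodPoly T f).eval (T x f) = 0 := by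
  rw [eval_prodPoly]
  exact Finset.prod_eq_zero (Finset.mem_univ x) (sub_self _)

variable {R Kj T x₀}

/-- HYP2 gives a monic lift of `prodPoly T u` to `Kj[X]`. -/
theorem exists_lift (u : F)
    (h2 : ∀ k : ℕ, (prodPoly T u).coeff k ∈ Set.range (baseHom Kj T x₀)) :
    ∃ p : Kj[X], p.map (baseHom Kj T x₀) = prodPoly T u ∧ p.Monic := by
  have hl : prodPoly T u ∈ Polynomial.lifts (baseHom Kj T x₀) :=
    (Polynomial.lifts_iff_coeff_lifts _).mpr h2
  obtain ⟨p, hp, -, hm⟩ := Polynomial.lifts_and_degree_eq_and_monic hl (prodPoly_monic T u)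
  exact ⟨p, hp, hm⟩

/-- Elements satisfying HYP2 are integral over `Kj`. -/
theorem isIntegral_of_lift (u : F)
    (h2 : ∀ k : ℕ, (prodPoly T u).coeff k ∈ Set.range (baseHom Kj T x₀)) :
    IsIntegral Kj u := by
  obtain ⟨p, hp, hm⟩ := exists_lift u h2
  refine ⟨p, hm, ?_⟩
  apply (T x₀).injective
  rw [map_zero, Polynomial.hom_eval₂]
  show eval₂ (baseHom Kj T x₀) (T x₀ u) p = 0
  rw [← Polynomial.eval_map, hp, eval_prodPoly_self]

end Setup

section Main

variable {K F L : Type*} [Field K] [Field F] [Algebra K F] [Field L]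
  {R : Subalgebra K F} {Kj : IntermediateField K F}
  {X : Type*} [Fintype X] {T : X → (F →+* L)} {x₀ : X}

/-- All of `F = Frac R` is algebraic over `Kj`. -/
theorem isAlgebraic_of_hyp [IsFractionRing R F]
    (h2 : ∀ (u : R) (k : ℕ), (prodPoly T (u : F)).coeff k ∈ Set.range (baseHom Kj T x₀)) :
    Algebra.IsAlgebraic Kj F := by
  refine ⟨fun f => ?_⟩
  obtain ⟨u, s, hs, rfl⟩ := IsFractionRing.div_surjective (A := R) f
  have hu : IsIntegral Kj (algebraMap R F u) := isIntegral_of_lift _ (h2 u)
  have hs' : IsIntegral Kj (algebraMap R F s) := isIntegral_of_lift _ (h2 s)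
  rw [div_eq_mul_inv]
  exact (hu.mul hs'.inv).isAlgebraic

/-- CLASSIFICATION: every ring hom `τ : F → E` into a field `E ⊇ L` (via `ι`) which agrees with
`ι ∘ T x₀` on `Kj` is `ι ∘ T x` for some `x`. -/
theorem exists_eq_of_agree [Infinite K] [IsFractionRing R F]
    (h1 : ∀ (x : X) (a : Kj), T x (a : F) = T x₀ (a : F))
    (h2 : ∀ (u : R) (k : ℕ), (prodPoly T (u : F)).coeff k ∈ Set.range (baseHom Kj T x₀))
    {E : Type*} [Field E] (ι : L →+* E) (τ : F →+* E)
    (hτ : ∀ a : Kj, τ (a : F) = ι (T x₀ (a : F))) :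
    ∃ x : X, ∀ f : F, τ f = ι (T x f) := by
  classical
  -- each `u ∈ R` is mapped by `τ` to some `ι (T x u)`
  have hroot : ∀ u : R, ∃ x : X, τ (u : F) = ι (T x (u : F)) := by
    intro u
    obtain ⟨p, hp, -⟩ := exists_lift (u : F) (h2 u)
    have hint : aeval (u : F) p = 0 := by
      apply (T x₀).injective
      rw [map_zero, aeval_def, Polynomial.hom_eval₂]
      show eval₂ (baseHom Kj T x₀) (T x₀ u) p = 0
      rw [← Polynomial.eval_map, hp, eval_prodPoly_self]
    have h3 : eval₂ (τ.comp (algebraMap Kj F)) (τ (u : F)) p = 0 := by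
      rw [← Polynomial.hom_eval₂, ← aeval_def, hint, map_zero]
    have h4 : τ.comp (algebraMap Kj F) = ι.comp (baseHom Kj T x₀) := by
      ext a; exact hτ a
    rw [h4, ← Polynomial.eval₂_map, hp, ← Polynomial.eval_map, prodPoly, Polynomial.map_prod,
      eval_prod] at h3
    obtain ⟨x, -, hx⟩ := Finset.prod_eq_zero_iff.mp h3
    refine ⟨x, ?_⟩
    simpa [sub_eq_zero] using hx
  -- constants
  have hK : ∀ (x : X) (c : K), τ (algebraMap K F c) = ι (T x (algebraMap K F c)) := by
    intro x c
    have e : ((algebraMap K Kj c : Kj) : F) = algebraMap K F c := rfl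
    have := hτ (algebraMap K Kj c)
    have h1' := h1 x (algebraMap K Kj c)
    rw [e] at this h1'
    rw [this, h1']
  -- the subspaces
  let V : X → Submodule K R := fun x =>
    { carrier := {u | τ (u : F) = ι (T x (u : F))}
      add_mem' := by
        intro a b ha hb
        show τ ((a + b : R) : F) = ι (T x ((a + b : R) : F))
        have ha : τ (a : F) = ι (T x (a : F)) := ha
        have hb : τ (b : F) = ι (T x (b : F)) := hb
        rw [Subalgebra.coe_add, map_add, map_add, map_add, ha, hb]
      zero_mem' := by simp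
      smul_mem' := by
        intro c a ha
        show τ ((c • a : R) : F) = ι (T x ((c • a : R) : F))
        have ha : τ (a : F) = ι (T x (a : F)) := ha
        rw [Subalgebra.coe_smul, Algebra.smul_def, map_mul, map_mul, map_mul, ha, hK x c] }
  have hcov : ⋃ x, (V x : Set R) = Set.univ := by
    ext u
    simp only [Set.mem_iUnion, Set.mem_univ, iff_true]
    obtain ⟨x, hx⟩ := hroot u
    exact ⟨x, hx⟩
  obtain ⟨x, hx⟩ := Subspace.exists_eq_top_of_iUnion_eq_univ hcov
  refine ⟨x, fun f => ?_⟩
  obtain ⟨u, s, hs, rfl⟩ := IsFractionRing.div_surjective (A := R) f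
  have hu : u ∈ V x := by rw [hx]; trivial
  have hs' : s ∈ V x := by rw [hx]; trivial
  rw [map_div₀, map_div₀, map_div₀]
  show τ (u : F) / τ (s : F) = ι (T x (u : F)) / ι (T x (s : F))
  rw [hu, hs']

end Main

section Count

variable {K F L : Type*} [Field K] [CharZero K] [Field F] [Algebra K F] [Field L]
  {R : Subalgebra K F} [IsFractionRing R F] {Kj : IntermediateField K F}
  {X : Type*} [Fintype X] {T : X → (F →+* L)} {x₀ : X}

/-- The algebra structure on `E = AlgebraicClosure L` over `Kj` through `T x₀`. -/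
@[reducible] noncomputable def algE (Kj : IntermediateField K F) (T : X → (F →+* L)) (x₀ : X) :
    Algebra Kj (AlgebraicClosure L) :=
  ((algebraMap L (AlgebraicClosure L)).comp (baseHom Kj T x₀)).toAlgebra

/-- The embedding `ι ∘ T x` as a `Kj`-algebra hom into `E`. -/
noncomputable def embOf (h1 : ∀ (x : X) (a : Kj), T x (a : F) = T x₀ (a : F)) (x : X) :
    letI := algE Kj T x₀
    F →ₐ[Kj] AlgebraicClosure L :=
  letI := algE Kj T x₀
  { toRingHom := (algebraMap L (AlgebraicClosure L)).comp (T x)
    commutes' := fun a => by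
      show algebraMap L (AlgebraicClosure L) (T x (a : F)) =
        algebraMap L (AlgebraicClosure L) (T x₀ (a : F))
      rw [h1 x a] }

theorem embOf_apply (h1 : ∀ (x : X) (a : Kj), T x (a : F) = T x₀ (a : F)) (x : X) (f : F) :
    letI := algE Kj T x₀
    embOf h1 x f = algebraMap L (AlgebraicClosure L) (T x f) := rfl

/-- The embeddings `F →ₐ[Kj] E` are exactly the `ι ∘ T x`. -/
theorem embOf_bijective
    (h1 : ∀ (x : X) (a : Kj), T x (a : F) = T x₀ (a : F))
    (h2 : ∀ (u : R) (k : ℕ), (prodPoly T (u : F)).coeff k ∈ Set.range (baseHom Kj T x₀))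
    (h3 : Function.Injective T) :
    letI := algE Kj T x₀
    Function.Bijective (embOf (Kj := Kj) (x₀ := x₀) h1) := by
  letI := algE Kj T x₀
  haveI : Infinite K := Infinite.of_injective (Nat.cast : ℕ → K) Nat.cast_injective
  constructor
  · intro x y hxy
    apply h3
    ext f
    have := congrArg (fun σ : F →ₐ[Kj] AlgebraicClosure L => σ f) hxy
    simp only [embOf_apply] at this
    exact (algebraMap L (AlgebraicClosure L)).injective this
  · intro τ
    obtain ⟨x, hx⟩ := exists_eq_of_agree (R := R) h1 h2 (algebraMap L (AlgebraicClosure L))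
      (τ : F →+* AlgebraicClosure L) (fun a => τ.commutes a)
    exact ⟨x, AlgHom.ext fun f => (hx f).symm⟩

/-- (3) the degree. -/
theorem finrank_eq_card
    (h1 : ∀ (x : X) (a : Kj), T x (a : F) = T x₀ (a : F))
    (h2 : ∀ (u : R) (k : ℕ), (prodPoly T (u : F)).coeff k ∈ Set.range (baseHom Kj T x₀))
    (h3 : Function.Injective T) :
    Module.finrank Kj F = Fintype.card X := by
  letI := algE Kj T x₀
  haveI : Algebra.IsAlgebraic Kj F := isAlgebraic_of_hyp (R := R) h2
  haveI : CharZero Kj := charZero_of_injective_algebraMap (algebraMap K Kj).injective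
  haveI : Algebra.IsSeparable Kj F := inferInstance
  rw [← Field.finSepDegree_eq_finrank_of_isSeparable Kj F,
    Field.finSepDegree_eq_of_isAlgClosed Kj F (AlgebraicClosure L),
    ← Nat.card_eq_fintype_card]
  exact (Nat.card_congr (Equiv.ofBijective _ (embOf_bijective (R := R) h1 h2 h3))).symm

/-- (1) finite-dimensionality. -/
theorem finiteDimensional
    (h1 : ∀ (x : X) (a : Kj), T x (a : F) = T x₀ (a : F))
    (h2 : ∀ (u : R) (k : ℕ), (prodPoly T (u : F)).coeff k ∈ Set.range (baseHom Kj T x₀))
    (h3 : Function.Injective T) :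
    FiniteDimensional Kj F := by
  apply FiniteDimensional.of_finrank_pos
  rw [finrank_eq_card (R := R) h1 h2 h3]
  exact Fintype.card_pos_iff.mpr ⟨x₀⟩

/-- (4) the norm formula. -/
theorem norm_eq_prod
    (h1 : ∀ (x : X) (a : Kj), T x (a : F) = T x₀ (a : F))
    (h2 : ∀ (u : R) (k : ℕ), (prodPoly T (u : F)).coeff k ∈ Set.range (baseHom Kj T x₀))
    (h3 : Function.Injective T) (f : F) :
    T x₀ (algebraMap Kj F (Algebra.norm Kj f)) = ∏ x, T x f := by
  letI := algE Kj T x₀
  haveI : Algebra.IsAlgebraic Kj F := isAlgebraic_of_hyp (R := R) h2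
  haveI : CharZero Kj := charZero_of_injective_algebraMap (algebraMap K Kj).injective
  haveI : Algebra.IsSeparable Kj F := inferInstance
  haveI : FiniteDimensional Kj F := finiteDimensional (R := R) h1 h2 h3
  apply (algebraMap L (AlgebraicClosure L)).injective
  have h := Algebra.norm_eq_prod_embeddings Kj (AlgebraicClosure L) f
  have e : algebraMap Kj (AlgebraicClosure L) (Algebra.norm Kj f) =
      algebraMap L (AlgebraicClosure L) (T x₀ (algebraMap Kj F (Algebra.norm Kj f))) := rfl
  rw [← e, h, map_prod]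
  symm
  exact Fintype.prod_equiv (Equiv.ofBijective _ (embOf_bijective (R := R) h1 h2 h3)) _ _
    (fun x => rfl)

end Count

section Wrappers

variable {K F L : Type*} [Field K] [CharZero K] [Field F] [Algebra K F] [Field L]
  {R : Subalgebra K F} [IsFractionRing R F] {Kj : IntermediateField K F}
  {X : Type*} [Fintype X] {T : X → (F →+* L)} {x₀ : X}

/-- (2) every `Kj`-embedding of `F` into `E = AlgebraicClosure L` is some `ι ∘ T x`. -/
theorem exists_embOf_eq
    (h1 : ∀ (x : X) (a : Kj), T x (a : F) = T x₀ (a : F))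
    (h2 : ∀ (u : R) (k : ℕ), (prodPoly T (u : F)).coeff k ∈ Set.range (baseHom Kj T x₀))
    (h3 : Function.Injective T) :
    letI := algE Kj T x₀
    ∀ τ : F →ₐ[Kj] AlgebraicClosure L, ∃ x : X, ∀ f : F,
      τ f = algebraMap L (AlgebraicClosure L) (T x f) := by
  letI := algE Kj T x₀
  intro τ
  obtain ⟨x, hx⟩ := (embOf_bijective (R := R) h1 h2 h3).2 τ
  exact ⟨x, fun f => by rw [← hx]; rfl⟩

/-- the trace formula. -/
theorem trace_eq_sum
    (h1 : ∀ (x : X) (a : Kj), T x (a : F) = T x₀ (a : F))
    (h2 : ∀ (u : R) (k : ℕ), (prodPoly T (u : F)).coeff k ∈ Set.range (baseHom Kj T x₀))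
    (h3 : Function.Injective T) (f : F) :
    T x₀ (algebraMap Kj F (Algebra.trace Kj F f)) = ∑ x, T x f := by
  letI := algE Kj T x₀
  haveI : Algebra.IsAlgebraic Kj F := isAlgebraic_of_hyp (R := R) h2
  haveI : CharZero Kj := charZero_of_injective_algebraMap (algebraMap K Kj).injective
  haveI : Algebra.IsSeparable Kj F := inferInstance
  haveI : FiniteDimensional Kj F := finiteDimensional (R := R) h1 h2 h3
  apply (algebraMap L (AlgebraicClosure L)).injective
  have h := trace_eq_sum_embeddings (K := Kj) (L := F) (AlgebraicClosure L) (x := f)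
  have e : algebraMap Kj (AlgebraicClosure L) (Algebra.trace Kj F f) =
      algebraMap L (AlgebraicClosure L) (T x₀ (algebraMap Kj F (Algebra.trace Kj F f))) := rfl
  rw [← e, h, map_sum]
  symm
  exact Fintype.sum_equiv (Equiv.ofBijective _ (embOf_bijective (R := R) h1 h2 h3)) _ _
    (fun x => rfl)

/-- All conclusions at once, with the hypotheses in unfolded form. -/
theorem main
    (h1 : ∀ (x : X) (a : Kj), T x (a : F) = T x₀ (a : F))
    (h2 : ∀ (u : R) (k : ℕ), ∃ a : Kj,
      T x₀ (a : F) = (∏ x, (Polynomial.X - Polynomial.C (T x (u : F)))).coeff k)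
    (h3 : Function.Injective T) :
    FiniteDimensional Kj F ∧ Module.finrank Kj F = Fintype.card X ∧
      (∀ f : F, T x₀ (algebraMap Kj F (Algebra.norm Kj f)) = ∏ x, T x f) ∧
      (∀ f : F, T x₀ (algebraMap Kj F (Algebra.trace Kj F f)) = ∑ x, T x f) ∧
      (∀ {E : Type*} [Field E] (ι : L →+* E) (τ : F →+* E),
        (∀ a : Kj, τ (a : F) = ι (T x₀ (a : F))) → ∃ x : X, ∀ f : F, τ f = ι (T x f)) := by
  have h2' : ∀ (u : R) (k : ℕ), (prodPoly T (u : F)).coeff k ∈ Set.range (baseHom Kj T x₀) :=
    fun u k => h2 u k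
  haveI : Infinite K := Infinite.of_injective (Nat.cast : ℕ → K) Nat.cast_injective
  exact ⟨finiteDimensional (R := R) h1 h2' h3, finrank_eq_card (R := R) h1 h2' h3,
    norm_eq_prod (R := R) h1 h2' h3, trace_eq_sum (R := R) h1 h2' h3,
    fun ι τ hτ => exists_eq_of_agree (R := R) h1 h2' ι τ hτ⟩

end Wrappers

end Fermat.Agent.X0.AbsDegree
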