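/-
Program C, piece C-F2d (1) (helper16): Hermite normal form of `diag(d,1) · γ` for `γ ∈ SL(2, ℤ)`,
and the resulting identity `d · (γ • z) = γ' • ((a z + b) / e)` on the upper half plane.
-/
import Fermat.Agent.X0.AnDefs

set_option autoImplicit false

open UpperHalfPlane
open scoped MatrixGroups

noncomputable section

namespace Fermat.Agent.X0.Hermite

/-- pure integer core of the Hermite normal form: given `A D - B C = 1` (entries of `γ`) and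
`0 < d`, the matrix `[[d A, d B], [C, D]]` factors as `γ' · [[a, b], [0, e]]`. -/
theorem hermite_core (A B C D : ℤ) (hdet : A * D - B * C = 1) {d : ℕ} (hd : 0 < d) :
    ∃ (A' B' C' D' : ℤ) (a e : ℕ) (b : ℤ), A' * D' - B' * C' = 1 ∧ a * e = d ∧ 0 < a ∧ 0 < e ∧
      0 ≤ b ∧ b < e ∧
      (d : ℤ) * A = A' * a ∧ (d : ℤ) * B = A' * b + B' * e ∧
      C = C' * a ∧ D = C' * b + D' * e := by
  obtain ⟨p, hp⟩ : ∃ p : ℤ, p = (d : ℤ) * A := ⟨_, rfl⟩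
  obtain ⟨g, hg⟩ : ∃ g : ℕ, g = Int.gcd p C := ⟨_, rfl⟩
  have hd0 : (d : ℤ) ≠ 0 := by exact_mod_cast hd.ne'
  have hg0 : 0 < g := by
    rw [hg, Int.gcd_pos_iff]
    by_contra hcon
    push Not at hcon
    obtain ⟨h1, h2⟩ := hcon
    have h00 : A = 0 := by
      rw [hp] at h1
      rcases mul_eq_zero.mp h1 with h | h
      · exact absurd h hd0
      · exact h
    rw [h00, h2] at hdet
    simp at hdet
  have hgz : (g : ℤ) ≠ 0 := by exact_mod_cast hg0.ne'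
  obtain ⟨p', hp'⟩ : (g : ℤ) ∣ p := by rw [hg]; exact Int.gcd_dvd_left p C
  obtain ⟨r', hr'⟩ : (g : ℤ) ∣ C := by rw [hg]; exact Int.gcd_dvd_right p C
  obtain ⟨u, w, hbez⟩ : ∃ u w : ℤ, (g : ℤ) = p * u + C * w :=
    ⟨Int.gcdA p C, Int.gcdB p C, by rw [hg]; exact Int.gcd_eq_gcd_ab p C⟩
  have hone : p' * u + r' * w = 1 := by
    have h1 : (g : ℤ) * (p' * u + r' * w) = p * u + C * w := by
      rw [hp', hr']; ring
    rw [← hbez] at h1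
    exact mul_left_cancel₀ hgz (by rw [h1, mul_one])
  obtain ⟨e', he'⟩ : ∃ e' : ℤ, e' = -r' * ((d : ℤ) * B) + p' * D := ⟨_, rfl⟩
  have hge : (g : ℤ) * e' = d := by
    have : (g : ℤ) * e' = -C * ((d : ℤ) * B) + p * D := by
      rw [he', hp', hr']; ring
    rw [this, hp]
    linear_combination (d : ℤ) * hdet
  have he'pos : 0 < e' := by
    have h1 : (0 : ℤ) < (g : ℤ) * e' := by rw [hge]; exact_mod_cast hd
    exact (pos_iff_pos_of_mul_pos h1).mp (by exact_mod_cast hg0)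
  obtain ⟨e, hee⟩ : ∃ e : ℕ, (e : ℤ) = e' := ⟨e'.toNat, Int.toNat_of_nonneg he'pos.le⟩
  have he0 : 0 < e := by
    have : (0 : ℤ) < (e : ℤ) := by rw [hee]; exact he'pos
    exact_mod_cast this
  have hez : (e : ℤ) ≠ 0 := by exact_mod_cast he0.ne'
  obtain ⟨b₀, hb₀⟩ : ∃ b₀ : ℤ, b₀ = u * ((d : ℤ) * B) + w * D := ⟨_, rfl⟩
  obtain ⟨k, hk⟩ : ∃ k : ℤ, k = b₀ / (e : ℤ) := ⟨_, rfl⟩
  obtain ⟨b, hb⟩ : ∃ b : ℤ, b = b₀ % (e : ℤ) := ⟨_, rfl⟩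
  have hbk : b = b₀ - (e : ℤ) * k := by
    have := Int.mul_ediv_add_emod b₀ e
    rw [hb, hk]; linarith
  have hee' : (e : ℤ) = -r' * ((d : ℤ) * B) + p' * D := hee.trans he'
  refine ⟨p', p' * k - w, r', r' * k + u, g, e, b, ?_, ?_, hg0, he0, ?_, ?_, ?_, ?_, ?_, ?_⟩
  · linear_combination hone
  · have : ((g * e : ℕ) : ℤ) = (d : ℤ) := by push_cast; rw [hee]; exact hge
    exact_mod_cast this
  · rw [hb]; exact Int.emod_nonneg _ hez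
  · rw [hb]; exact Int.emod_lt_of_pos _ (by exact_mod_cast he0)
  · rw [← hp, hp']; ring
  · rw [hbk, hb₀, hee']
    linear_combination (-(d : ℤ) * B) * hone
  · rw [hr']; ring
  · rw [hbk, hb₀, hee']
    linear_combination (-D) * hone

/-- **Hermite normal form** (integer form): `diag(d, 1) · γ = γ' · [[a, b], [0, e]]` with
`a e = d`, `0 ≤ b < e`. -/
theorem exists_hermite (γ : SL(2, ℤ)) {d : ℕ} (hd : 0 < d) :
    ∃ (γ' : SL(2, ℤ)) (a e : ℕ) (b : ℤ), a * e = d ∧ 0 < a ∧ 0 < e ∧ 0 ≤ b ∧ b < e ∧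
      (d : ℤ) * γ 0 0 = γ' 0 0 * a ∧ (d : ℤ) * γ 0 1 = γ' 0 0 * b + γ' 0 1 * e ∧
      γ 1 0 = γ' 1 0 * a ∧ γ 1 1 = γ' 1 0 * b + γ' 1 1 * e := by
  have hdet : γ 0 0 * γ 1 1 - γ 0 1 * γ 1 0 = 1 := by
    have := γ.det_coe
    rw [Matrix.det_fin_two] at this
    exact this
  obtain ⟨A', B', C', D', a, e, b, hdet', hae, ha, he, hb0, hbe, h1, h2, h3, h4⟩ :=
    hermite_core _ _ _ _ hdet hd
  refine ⟨⟨!![A', B'; C', D'], ?_⟩, a, e, b, hae, ha, he, hb0, hbe, h1, h2, h3, h4⟩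
  rw [Matrix.det_fin_two_of]; exact hdet'

/-- the triple `(a, b, e)` of the Hermite form is primitive: any common divisor is a unit. -/
theorem isUnit_of_dvd_of_hermite {A B C D : ℤ} (hdet : A * D - B * C = 1) {C' D' : ℤ} {a e : ℕ}
    {b : ℤ} (h3 : C = C' * a) (h4 : D = C' * b + D' * e) {n : ℤ} (ha : n ∣ (a : ℤ)) (hb : n ∣ b)
    (he : n ∣ (e : ℤ)) : IsUnit n := by
  have hC : n ∣ C := by rw [h3]; exact Dvd.dvd.mul_left ha _
  have hD : n ∣ D := by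
    rw [h4]; exact dvd_add (Dvd.dvd.mul_left hb _) (Dvd.dvd.mul_left he _)
  have h1 : n ∣ A * D - B * C := dvd_sub (Dvd.dvd.mul_left hD _) (Dvd.dvd.mul_left hC _)
  rw [hdet] at h1
  exact isUnit_of_dvd_one h1

/-- The map `z ↦ (a z + b) / e` of the upper half plane (`a, e > 0`). -/
def affH (a e : ℕ) (b : ℤ) (ha : 0 < a) (he : 0 < e) (z : ℍ) : ℍ :=
  ⟨((a : ℂ) * z + b) / e, by
    have ha' : (0 : ℝ) < a := by exact_mod_cast ha
    have he' : (0 : ℝ) < e := by exact_mod_cast he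
    have : (((a : ℂ) * z + b) / e).im = a * z.im / e := by
      rw [Complex.div_natCast_im]
      simp
    rw [this]
    exact div_pos (mul_pos ha' z.im_pos) he'⟩

@[simp] theorem coe_affH (a e : ℕ) (b : ℤ) (ha : 0 < a) (he : 0 < e) (z : ℍ) :
    (affH a e b ha he z : ℂ) = ((a : ℂ) * z + b) / e := rfl

/-- the denominator `c z + d` of the action of `γ ∈ SL(2, ℤ)` does not vanish. -/
theorem denom_ne_zero' (γ : SL(2, ℤ)) (z : ℍ) : ((γ 1 0 : ℤ) : ℂ) * z + ((γ 1 1 : ℤ) : ℂ) ≠ 0 := by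
  have h := UpperHalfPlane.linear_ne_zero (cd := ![((γ 1 0 : ℤ) : ℝ), ((γ 1 1 : ℤ) : ℝ)]) z (by
    intro h0
    have h1 : ((γ 1 0 : ℤ) : ℝ) = 0 := by simpa using congrFun h0 0
    have h2 : ((γ 1 1 : ℤ) : ℝ) = 0 := by simpa using congrFun h0 1
    have h1' : γ 1 0 = 0 := by exact_mod_cast h1
    have h2' : γ 1 1 = 0 := by exact_mod_cast h2
    have := γ.det_coe
    rw [Matrix.det_fin_two, h1', h2'] at this
    simp at this)
  simpa using h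

theorem coe_smul' (γ : SL(2, ℤ)) (z : ℍ) :
    ((γ • z : ℍ) : ℂ) = (((γ 0 0 : ℤ) : ℂ) * z + ((γ 0 1 : ℤ) : ℂ)) /
      (((γ 1 0 : ℤ) : ℂ) * z + ((γ 1 1 : ℤ) : ℂ)) := by
  rw [UpperHalfPlane.coe_specialLinearGroup_apply]
  simp

/-- **Hermite normal form on `ℍ`**: `d · (γ • z) = γ' • ((a z + b) / e)`. -/
theorem exists_scaleH_smul (γ : SL(2, ℤ)) (d : ℕ) [NeZero d] :
    ∃ (γ' : SL(2, ℤ)) (a e : ℕ) (b : ℤ) (ha : 0 < a) (he : 0 < e), a * e = d ∧ 0 ≤ b ∧ b < e ∧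
      (∀ n : ℤ, n ∣ (a : ℤ) → n ∣ b → n ∣ (e : ℤ) → IsUnit n) ∧
      ∀ z : ℍ, scaleH d (γ • z) = γ' • affH a e b ha he z := by
  have hd : 0 < d := Nat.pos_of_ne_zero (NeZero.ne d)
  have hdet : γ 0 0 * γ 1 1 - γ 0 1 * γ 1 0 = 1 := by
    have := γ.det_coe
    rw [Matrix.det_fin_two] at this
    exact this
  obtain ⟨γ', a, e, b, hae, ha, he, hb0, hbe, h1, h2, h3, h4⟩ := exists_hermite γ hd
  refine ⟨γ', a, e, b, ha, he, hae, hb0, hbe,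
    fun n hna hnb hne => isUnit_of_dvd_of_hermite hdet h3 h4 hna hnb hne, fun z => ?_⟩
  apply UpperHalfPlane.ext
  rw [coe_scaleH, coe_smul', coe_smul', coe_affH]
  have hden := denom_ne_zero' γ z
  have hden' := denom_ne_zero' γ' (affH a e b ha he z)
  rw [coe_affH] at hden'
  have heC : (e : ℂ) ≠ 0 := by exact_mod_cast he.ne'
  have e1 : ((d : ℤ) : ℂ) * ((γ 0 0 : ℤ) : ℂ) = ((γ' 0 0 : ℤ) : ℂ) * ((a : ℤ) : ℂ) := by
    exact_mod_cast congrArg (Int.cast : ℤ → ℂ) h1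
  have e2 : ((d : ℤ) : ℂ) * ((γ 0 1 : ℤ) : ℂ) =
      ((γ' 0 0 : ℤ) : ℂ) * (b : ℂ) + ((γ' 0 1 : ℤ) : ℂ) * ((e : ℤ) : ℂ) := by
    exact_mod_cast congrArg (Int.cast : ℤ → ℂ) h2
  have e3 : ((γ 1 0 : ℤ) : ℂ) = ((γ' 1 0 : ℤ) : ℂ) * ((a : ℤ) : ℂ) := by
    exact_mod_cast congrArg (Int.cast : ℤ → ℂ) h3
  have e4 : ((γ 1 1 : ℤ) : ℂ) =
      ((γ' 1 0 : ℤ) : ℂ) * (b : ℂ) + ((γ' 1 1 : ℤ) : ℂ) * ((e : ℤ) : ℂ) := by
    exact_mod_cast congrArg (Int.cast : ℤ → ℂ) h4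
  simp only [Int.cast_natCast] at e1 e2 e3 e4
  -- numerator and denominator of the right hand side
  have hnum : ((γ' 0 0 : ℤ) : ℂ) * (((a : ℂ) * z + b) / e) + ((γ' 0 1 : ℤ) : ℂ) =
      ((d : ℂ) * (((γ 0 0 : ℤ) : ℂ) * z + ((γ 0 1 : ℤ) : ℂ))) / e := by
    field_simp
    linear_combination (-(z : ℂ)) * e1 - e2
  have hdenom : ((γ' 1 0 : ℤ) : ℂ) * (((a : ℂ) * z + b) / e) + ((γ' 1 1 : ℤ) : ℂ) =
      (((γ 1 0 : ℤ) : ℂ) * z + ((γ 1 1 : ℤ) : ℂ)) / e := by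
    field_simp
    linear_combination (-(z : ℂ)) * e3 - e4
  rw [hnum, hdenom]
  field_simp

end Fermat.Agent.X0.Hermite
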