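/-
Program C, piece C-F2d (6), combinatorial core (helper16): the Hermite normal form of
`diag(N,1) · γ` determines the coset `Γ₀(N) γ`.
-/
import Fermat.Agent.X0.Hermite

set_option autoImplicit false

open scoped MatrixGroups

namespace Fermat.Agent.X0.Hermite

open CongruenceSubgroup

/-- the lower left entry of `γ' γ⁻¹`. -/
theorem mul_inv_one_zero (γ γ' : SL(2, ℤ)) :
    (γ' * γ⁻¹) 1 0 = γ' 1 0 * γ 1 1 - γ' 1 1 * γ 1 0 := by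
  rw [Matrix.SpecialLinearGroup.coe_mul, Matrix.SpecialLinearGroup.SL2_inv_expl,
    Matrix.mul_apply, Fin.sum_univ_two]
  simp
  ring

/-- **The Hermite form determines the `Γ₀(N)`-coset.**  If the second rows of `γ`, `γ'` are
`(c₁ a, c₁ b + d₁ e)` and `(c₂ a, c₂ b' + d₂ e)` with `a e = N` and `b ≡ b' mod e`, then
`γ' γ⁻¹ ∈ Γ₀(N)`. -/
theorem mem_Gamma0_of_hermite {N : ℕ} (γ γ' : SL(2, ℤ)) {a e : ℕ} {b b' c₁ d₁ c₂ d₂ : ℤ}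
    (hae : a * e = N) (hbb : (e : ℤ) ∣ b - b')
    (h3 : γ 1 0 = c₁ * a) (h4 : γ 1 1 = c₁ * b + d₁ * e)
    (h3' : γ' 1 0 = c₂ * a) (h4' : γ' 1 1 = c₂ * b' + d₂ * e) :
    γ' * γ⁻¹ ∈ Gamma0 N := by
  rw [Gamma0_mem, mul_inv_one_zero, h3, h4, h3', h4']
  obtain ⟨k, hk⟩ := hbb
  have : c₂ * (a : ℤ) * (c₁ * b + d₁ * e) - (c₂ * b' + d₂ * e) * (c₁ * a) =
      (N : ℤ) * (c₁ * c₂ * k + c₂ * d₁ - c₁ * d₂) := by
    have hN : (N : ℤ) = a * e := by exact_mod_cast hae.symm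
    rw [hN]
    linear_combination (c₁ * c₂ * a) * hk
  rw [this]
  simp

/-- same statement from two full Hermite data (as produced by `exists_hermite`). -/
theorem mem_Gamma0_of_exists_hermite {N : ℕ} (γ γ' γ₁ γ₂ : SL(2, ℤ)) {a e : ℕ} {b b' : ℤ}
    (hae : a * e = N) (hbb : (e : ℤ) ∣ b - b')
    (h3 : γ 1 0 = γ₁ 1 0 * a) (h4 : γ 1 1 = γ₁ 1 0 * b + γ₁ 1 1 * e)
    (h3' : γ' 1 0 = γ₂ 1 0 * a) (h4' : γ' 1 1 = γ₂ 1 0 * b' + γ₂ 1 1 * e) :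
    γ' * γ⁻¹ ∈ Gamma0 N :=
  mem_Gamma0_of_hermite γ γ' hae hbb h3 h4 h3' h4'

end Fermat.Agent.X0.Hermite
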