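/-
Program C, piece C-F2d (helper9): the full Hermite package for `diag(d, 1) · γ`:
integer relations, primitivity and the analytic identity for one and the same data.
(The coset statement `mem_Gamma0_of_hermite` is in helper16's `HermiteCoset.lean`.)
-/
import Fermat.Agent.X0.Hermite
import Fermat.Agent.X0.JBasic

set_option autoImplicit false

open UpperHalfPlane
open scoped MatrixGroups

noncomputable section

namespace Fermat.Agent.X0.HermiteFull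

/-- **Analytic form of a Hermite factorisation** (with the data as explicit hypotheses):
`d · (γ • z) = δ • ((a z + b) / e)`. -/
theorem scaleH_smul_of_hermite (γ δ : SL(2, ℤ)) (d : ℕ) [NeZero d] {a e : ℕ} {b : ℤ}
    (ha : 0 < a) (he : 0 < e)
    (h1 : (d : ℤ) * γ 0 0 = δ 0 0 * a) (h2 : (d : ℤ) * γ 0 1 = δ 0 0 * b + δ 0 1 * e)
    (h3 : γ 1 0 = δ 1 0 * a) (h4 : γ 1 1 = δ 1 0 * b + δ 1 1 * e) (z : ℍ) :
    scaleH d (γ • z) = δ • Hermite.affH a e b ha he z := by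
  apply UpperHalfPlane.ext
  rw [coe_scaleH, Hermite.coe_smul', Hermite.coe_smul', Hermite.coe_affH]
  have hden := Hermite.denom_ne_zero' γ z
  have hden' := Hermite.denom_ne_zero' δ (Hermite.affH a e b ha he z)
  rw [Hermite.coe_affH] at hden'
  have heC : (e : ℂ) ≠ 0 := by exact_mod_cast he.ne'
  have e1 : ((d : ℤ) : ℂ) * ((γ 0 0 : ℤ) : ℂ) = ((δ 0 0 : ℤ) : ℂ) * ((a : ℤ) : ℂ) := by
    exact_mod_cast congrArg (Int.cast : ℤ → ℂ) h1
  have e2 : ((d : ℤ) : ℂ) * ((γ 0 1 : ℤ) : ℂ) =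
      ((δ 0 0 : ℤ) : ℂ) * (b : ℂ) + ((δ 0 1 : ℤ) : ℂ) * ((e : ℤ) : ℂ) := by
    exact_mod_cast congrArg (Int.cast : ℤ → ℂ) h2
  have e3 : ((γ 1 0 : ℤ) : ℂ) = ((δ 1 0 : ℤ) : ℂ) * ((a : ℤ) : ℂ) := by
    exact_mod_cast congrArg (Int.cast : ℤ → ℂ) h3
  have e4 : ((γ 1 1 : ℤ) : ℂ) =
      ((δ 1 0 : ℤ) : ℂ) * (b : ℂ) + ((δ 1 1 : ℤ) : ℂ) * ((e : ℤ) : ℂ) := by
    exact_mod_cast congrArg (Int.cast : ℤ → ℂ) h4
  simp only [Int.cast_natCast] at e1 e2 e3 e4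
  have hnum : ((δ 0 0 : ℤ) : ℂ) * (((a : ℂ) * z + b) / e) + ((δ 0 1 : ℤ) : ℂ) =
      ((d : ℂ) * (((γ 0 0 : ℤ) : ℂ) * z + ((γ 0 1 : ℤ) : ℂ))) / e := by
    field_simp
    linear_combination (-(z : ℂ)) * e1 - e2
  have hdenom : ((δ 1 0 : ℤ) : ℂ) * (((a : ℂ) * z + b) / e) + ((δ 1 1 : ℤ) : ℂ) =
      (((γ 1 0 : ℤ) : ℂ) * z + ((γ 1 1 : ℤ) : ℂ)) / e := by
    field_simp
    linear_combination (-(z : ℂ)) * e3 - e4
  rw [hnum, hdenom]
  field_simp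

/-- **Full Hermite package** for `γ` at level `d`: the integer relations, primitivity and the
analytic identity for one and the same data `(δ, a, e, b)`. -/
theorem exists_hermite_full (γ : SL(2, ℤ)) (d : ℕ) [NeZero d] :
    ∃ (δ : SL(2, ℤ)) (a e : ℕ) (b : ℤ) (ha : 0 < a) (he : 0 < e), a * e = d ∧ 0 ≤ b ∧ b < e ∧
      (∀ n : ℤ, n ∣ (a : ℤ) → n ∣ b → n ∣ (e : ℤ) → IsUnit n) ∧
      γ 1 0 = δ 1 0 * a ∧ γ 1 1 = δ 1 0 * b + δ 1 1 * e ∧
      (∀ z : ℍ, scaleH d (γ • z) = δ • Hermite.affH a e b ha he z) ∧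
      (∀ z : ℍ, jdFun d (γ • z) = jFun (Hermite.affH a e b ha he z)) := by
  have hd : 0 < d := Nat.pos_of_ne_zero (NeZero.ne d)
  have hdet : γ 0 0 * γ 1 1 - γ 0 1 * γ 1 0 = 1 := by
    have := γ.det_coe
    rw [Matrix.det_fin_two] at this
    exact this
  obtain ⟨δ, a, e, b, hae, ha, he, hb0, hbe, h1, h2, h3, h4⟩ := Hermite.exists_hermite γ hd
  have hz := scaleH_smul_of_hermite γ δ d ha he h1 h2 h3 h4
  refine ⟨δ, a, e, b, ha, he, hae, hb0, hbe,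
    fun n hna hnb hne => Hermite.isUnit_of_dvd_of_hermite hdet h3 h4 hna hnb hne, h3, h4, hz,
    fun z => ?_⟩
  rw [jdFun, hz z, jFun_smul]

end Fermat.Agent.X0.HermiteFull
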