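/-
Program C, piece C-F2d (6) DISTINCT (helper9): the cusp expansion maps `C.T γ` of a `CuspData`
separate the right cosets `Γ₀(N) γ`:  `C.T γ (j_N) = C.T γ' (j_N) → γ' γ⁻¹ ∈ Γ₀(N)`.

Route: `j_N ∘ γ = j ∘ ((a z + b) / e)` (Hermite form), whose `q_N`-expansion has leading term
`exp(-2πi b / e) q_N^(-a²)`; so the expansion determines `(a, b mod e, e)`, which determines
the coset (`HermiteCoset.lean`).
-/
import Fermat.Agent.X0.Iface
import Fermat.Agent.X0.Analytic
import Fermat.Agent.X0.JdExp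
import Fermat.Agent.X0.HermiteFull
import Fermat.Agent.X0.HermiteCoset

set_option autoImplicit false

open UpperHalfPlane
open scoped MatrixGroups

noncomputable section

namespace Fermat.Agent.X0.CuspDistinct

open Fermat.Agent.X0

/-! ### Uniqueness of `q_h`-expansions -/

/-- every point of the punctured unit disc is `qh h z` for some `z`. -/
theorem cd_exists_qh_eq (h : ℕ) [NeZero h] {q : ℂ} (hq : ‖q‖ < 1) (hq0 : q ≠ 0) :
    ∃ z : ℍ, qh h z = q := by
  have hh : (0 : ℝ) < (h : ℝ) := by exact_mod_cast Nat.pos_of_ne_zero (NeZero.ne h)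
  have h1 := Function.Periodic.im_invQParam_pos_of_norm_lt_one hh hq hq0
  refine ⟨⟨Function.Periodic.invQParam h q, h1⟩, ?_⟩
  unfold qh
  exact Function.Periodic.qParam_right_inv hh.ne' hq0

theorem cd_norm_qh_lt_one (h : ℕ) [NeZero h] (z : ℍ) : ‖qh h z‖ < 1 := by
  have hh : (0 : ℝ) < (h : ℝ) := by exact_mod_cast Nat.pos_of_ne_zero (NeZero.ne h)
  exact Function.Periodic.norm_qParam_lt_one hh z.im_pos

/-- A power series which sums to `f z * q^m` at all `q = qh h z` is determined by `f` and `m`. -/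
theorem cd_powerSeries_unique {h : ℕ} [NeZero h] {f : ℍ → ℂ} {m : ℕ} {P P' : PowerSeries ℂ}
    (hP : IsQExp h f m P) (hP' : IsQExp h f m P') : P = P' := by
  classical
  -- the common sum function of `X * P` and `X * P'`
  let H : ℂ → ℂ := fun q =>
    if hq : ‖q‖ < 1 ∧ q ≠ 0 then q * (f (cd_exists_qh_eq h hq.1 hq.2).choose * q ^ m) else 0
  have key : ∀ R : PowerSeries ℂ, IsQExp h f m R → ∀ q : ℂ, ‖q‖ < 1 →
      HasSum (fun n => PowerSeries.coeff n (PowerSeries.X * R) * q ^ n) (H q) := by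
    intro R hR q hq
    by_cases hq0 : q = 0
    · subst hq0
      have hH : H 0 = 0 := by simp [H]
      rw [hH]
      have : (fun n => PowerSeries.coeff n (PowerSeries.X * R) * (0 : ℂ) ^ n) = fun _ => 0 := by
        funext n
        rcases n with _ | n
        · simp
        · simp
      rw [this]
      exact hasSum_zero
    · have hH : H q = q * (f (cd_exists_qh_eq h hq hq0).choose * q ^ m) := by
        simp only [H]
        rw [dif_pos ⟨hq, hq0⟩]
      set z := (cd_exists_qh_eq h hq hq0).choose with hz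
      have hzq : qh h z = q := (cd_exists_qh_eq h hq hq0).choose_spec
      rw [hH]
      have h1 := (hR z).mul_left q
      rw [hzq] at h1
      have hinj : Function.Injective (fun n : ℕ => n + 1) := fun a b hab => Nat.succ_injective hab
      have key2 : HasSum ((fun n => PowerSeries.coeff n (PowerSeries.X * R) * q ^ n) ∘
          fun n : ℕ => n + 1) (q * (f z * q ^ m)) := by
        refine h1.congr_fun fun n => ?_
        simp only [Function.comp_apply]
        rw [PowerSeries.coeff_succ_X_mul, pow_succ]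
        ring
      rw [hinj.hasSum_iff] at key2
      · exact key2
      · intro n hn
        rcases n with _ | n
        · simp
        · exact absurd ⟨n, rfl⟩ hn
  have e1 := Analytic.tps_eq_of_hasSum (key P hP)
  have e2 := Analytic.tps_eq_of_hasSum (key P' hP')
  have e3 : PowerSeries.X * P = PowerSeries.X * P' := by
    ext n
    have := congrArg (PowerSeries.coeff n) (e1.symm.trans e2)
    simpa [PowerSeries.coeff_mk] using this
  exact mul_left_cancel₀ PowerSeries.X_ne_zero e3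

/-- shifting an expansion datum. -/
theorem cd_isQExp_shift {h : ℕ} {f : ℍ → ℂ} {m : ℕ} {P : PowerSeries ℂ} (hP : IsQExp h f m P)
    (k : ℕ) : IsQExp h f (m + k) (PowerSeries.X ^ k * P) := by
  intro z
  have h1 := (hP z).mul_left (qh h z ^ k)
  have hinj : Function.Injective (fun n : ℕ => n + k) := fun a b hab => Nat.add_right_cancel hab
  have key2 : HasSum ((fun n => PowerSeries.coeff n (PowerSeries.X ^ k * P) * qh h z ^ n) ∘
      fun n : ℕ => n + k) (f z * qh h z ^ (m + k)) := by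
    have e : f z * qh h z ^ (m + k) = qh h z ^ k * (f z * qh h z ^ m) := by
      rw [pow_add]; ring
    rw [e]
    refine h1.congr_fun fun n => ?_
    simp only [Function.comp_apply]
    rw [PowerSeries.coeff_X_pow_mul, pow_add]
    ring
  rw [hinj.hasSum_iff] at key2
  · exact key2
  · intro n hn
    have hlt : n < k := by
      by_contra hge
      push Not at hge
      exact hn ⟨n - k, by simp only; omega⟩
    rw [PowerSeries.coeff_X_pow_mul', if_neg (by omega), zero_mul]

theorem cd_laurentOf_shift (m k : ℕ) (P : PowerSeries ℂ) :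
    laurentOf m P = laurentOf (m + k) (PowerSeries.X ^ k * P) :=
  Analytic.lau_shift m k P

/-- **Uniqueness of `q_h`-expansions** as Laurent series. -/
theorem cd_isQExp_unique {h : ℕ} [NeZero h] {f : ℍ → ℂ} {m m' : ℕ} {P P' : PowerSeries ℂ}
    (hP : IsQExp h f m P) (hP' : IsQExp h f m' P') : laurentOf m P = laurentOf m' P' := by
  rw [cd_laurentOf_shift m m' P, cd_laurentOf_shift m' m P']
  have h1 := cd_isQExp_shift hP m'
  have h2 := cd_isQExp_shift hP' m
  rw [add_comm m' m] at h2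
  rw [cd_powerSeries_unique h1 h2, add_comm m' m]

/-! ### The `q_N`-expansion of `j ((a z + b) / e)` -/

/-- the root of unity `exp (2πi b / e)`. -/
def cd_zeta (e : ℕ) (b : ℤ) : ℂ := Complex.exp (2 * Real.pi * Complex.I * b / e)

theorem cd_zeta_ne_zero (e : ℕ) (b : ℤ) : cd_zeta e b ≠ 0 := Complex.exp_ne_zero _

/-- `q_1((a z + b)/e) = ζ_e^b * q_N(z)^(a²)` when `a e = N`. -/
theorem cd_qh_affH {N a e : ℕ} (b : ℤ) (ha : 0 < a) (he : 0 < e) (hae : a * e = N) (z : ℍ) :
    qh 1 (Hermite.affH a e b ha he z) = cd_zeta e b * qh N z ^ (a * a) := by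
  unfold qh cd_zeta Function.Periodic.qParam
  rw [Hermite.coe_affH, ← Complex.exp_nat_mul, ← Complex.exp_add]
  congr 1
  have heC : (e : ℂ) ≠ 0 := by exact_mod_cast he.ne'
  have haC : (a : ℂ) ≠ 0 := by exact_mod_cast ha.ne'
  have hN : ((N : ℕ) : ℂ) = (a : ℂ) * (e : ℂ) := by rw [← hae]; push_cast; ring
  push_cast
  rw [hN]
  field_simp
  ring

theorem cd_constantCoeff_jNumC : PowerSeries.coeff 0 jNumC = 1 := by
  rw [coeff_jNumC, PowerSeries.coeff_zero_eq_constantCoeff_apply, ModularCurve.constantCoeff_jNum]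
  simp

/-- The expansion datum of `z ↦ j((a z + b) / e)` at level `N = a e`. -/
def cd_Q (a e : ℕ) (b : ℤ) (ha : 0 < a) : PowerSeries ℂ :=
  PowerSeries.C (cd_zeta e b)⁻¹ *
    PowerSeries.expand (a * a) (Nat.mul_ne_zero ha.ne' ha.ne') (PowerSeries.rescale (cd_zeta e b) jNumC)

theorem cd_coeff_zero_Q (a e : ℕ) (b : ℤ) (ha : 0 < a) :
    PowerSeries.coeff 0 (cd_Q a e b ha) = (cd_zeta e b)⁻¹ := by
  unfold cd_Q
  rw [PowerSeries.coeff_C_mul]
  have h := PowerSeries.coeff_expand_mul (a * a) (Nat.mul_ne_zero ha.ne' ha.ne')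
    (PowerSeries.rescale (cd_zeta e b) jNumC) 0
  rw [mul_zero] at h
  rw [h, PowerSeries.coeff_rescale, pow_zero, one_mul, cd_constantCoeff_jNumC, mul_one]

/-- **Leading term**: `z ↦ j((a z + b)/e)` has the `q_N`-expansion `q_N^(-a²) * cd_Q`, with
`cd_Q(0) = exp(-2πi b / e)`. -/
theorem cd_isQExp_jFun_affH {N a e : ℕ} (b : ℤ) (ha : 0 < a) (he : 0 < e) (hae : a * e = N) :
    IsQExp N (fun z => jFun (Hermite.affH a e b ha he z)) (a * a) (cd_Q a e b ha) := by
  intro z
  have h := isQExp_jFun_C (Hermite.affH a e b ha he z)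
  rw [cd_qh_affH b ha he hae, pow_one] at h
  have hζ := cd_zeta_ne_zero e b
  have h1 := h.mul_left (cd_zeta e b)⁻¹
  have e1 : (cd_zeta e b)⁻¹ * (jFun (Hermite.affH a e b ha he z) *
      (cd_zeta e b * qh N z ^ (a * a))) =
      jFun (Hermite.affH a e b ha he z) * qh N z ^ (a * a) := by
    field_simp
  rw [e1] at h1
  have haa : a * a ≠ 0 := Nat.mul_ne_zero ha.ne' ha.ne'
  have hinj : Function.Injective (fun n : ℕ => (a * a) * n) :=
    fun x y hxy => Nat.eq_of_mul_eq_mul_left (Nat.pos_of_ne_zero haa) hxy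
  have key : HasSum ((fun n : ℕ => PowerSeries.coeff n (cd_Q a e b ha) * qh N z ^ n) ∘
      fun n : ℕ => (a * a) * n) (jFun (Hermite.affH a e b ha he z) * qh N z ^ (a * a)) := by
    refine h1.congr_fun fun n => ?_
    simp only [Function.comp_apply]
    unfold cd_Q
    rw [PowerSeries.coeff_C_mul, PowerSeries.coeff_expand_mul, PowerSeries.coeff_rescale, pow_mul,
      mul_pow]
    ring
  rw [hinj.hasSum_iff] at key
  · exact key
  · intro n hn
    have : ¬ (a * a) ∣ n := fun ⟨k, hk⟩ => hn ⟨k, hk.symm⟩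
    unfold cd_Q
    rw [PowerSeries.coeff_C_mul, PowerSeries.coeff_expand_of_not_dvd _ haa _ this, mul_zero,
      zero_mul]

/-! ### Reading off `(a, b mod e, e)` from the expansion -/

/-- equality of the Laurent series forces `a = a'` and `ζ_e^b = ζ_{e'}^{b'}`. -/
theorem cd_eq_of_laurentOf_eq {a e a' e' : ℕ} {b b' : ℤ} (ha : 0 < a) (ha' : 0 < a')
    (h : laurentOf (a * a) (cd_Q a e b ha) = laurentOf (a' * a') (cd_Q a' e' b' ha')) :
    a = a' ∧ cd_zeta e b = cd_zeta e' b' := by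
  have hle : ∀ {a e a' e' : ℕ} {b b' : ℤ} (ha : 0 < a) (ha' : 0 < a'),
      laurentOf (a * a) (cd_Q a e b ha) = laurentOf (a' * a') (cd_Q a' e' b' ha') →
      a * a ≤ a' * a' := by
    intro a e a' e' b b' ha ha' h
    have h1 := congrArg (fun s : LaurentSeries ℂ => s.coeff (-((a * a : ℕ) : ℤ))) h
    simp only [laurentOf_coeff] at h1
    rw [if_pos (by omega)] at h1
    have e0 : (-((a * a : ℕ) : ℤ) + ((a * a : ℕ) : ℤ)).toNat = 0 := by
      rw [neg_add_cancel]; rfl
    rw [e0, cd_coeff_zero_Q] at h1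
    by_contra hlt
    push Not at hlt
    rw [if_neg (by omega)] at h1
    exact inv_ne_zero (cd_zeta_ne_zero e b) h1
  have haa : a * a = a' * a' := le_antisymm (hle ha ha' h) (hle ha' ha h.symm)
  have haeq : a = a' := Nat.mul_self_inj.mp haa
  refine ⟨haeq, ?_⟩
  have h1 := congrArg (fun s : LaurentSeries ℂ => s.coeff (-((a * a : ℕ) : ℤ))) h
  simp only [laurentOf_coeff] at h1
  rw [if_pos (by omega), if_pos (by omega)] at h1
  have e0 : (-((a * a : ℕ) : ℤ) + ((a * a : ℕ) : ℤ)).toNat = 0 := by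
    rw [neg_add_cancel]; rfl
  have e0' : (-((a * a : ℕ) : ℤ) + ((a' * a' : ℕ) : ℤ)).toNat = 0 := by
    rw [← haa, neg_add_cancel]; rfl
  rw [e0, e0', cd_coeff_zero_Q, cd_coeff_zero_Q] at h1
  exact inv_injective h1

/-- `ζ_e^b = ζ_e^{b'}` iff `e ∣ b - b'`. -/
theorem cd_dvd_of_zeta_eq {e : ℕ} (he : 0 < e) {b b' : ℤ} (h : cd_zeta e b = cd_zeta e b') :
    (e : ℤ) ∣ b - b' := by
  unfold cd_zeta at h
  rw [Complex.exp_eq_exp_iff_exists_int] at h
  obtain ⟨n, hn⟩ := h
  have heC : (e : ℂ) ≠ 0 := by exact_mod_cast he.ne'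
  have hpi : (2 * (Real.pi : ℂ) * Complex.I) ≠ 0 := by
    simp [Real.pi_ne_zero, Complex.I_ne_zero]
  have h2 : (b : ℂ) = b' + n * e := by
    field_simp at hn
    linear_combination hn
  have h4 : b = b' + n * e := by exact_mod_cast h2
  exact ⟨n, by rw [h4]; ring⟩

/-! ### DISTINCT -/

theorem cd_map_laurentOf (m : ℕ) (P : PowerSeries Kbar) :
    ModularCurve.coeffMap iotaK (laurentOf m P) = laurentOf m (P.map iotaK) := by
  ext k
  rw [ModularCurve.coeffMap_coeff, laurentOf_coeff, laurentOf_coeff]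
  split_ifs with h
  · rw [PowerSeries.coeff_map]
  · rw [map_zero]

/-- The complexified cusp expansion of `j_N` at `γ`, in terms of the Hermite data of `γ`. -/
theorem cd_T_jdF_eq {N : ℕ} [NeZero N] (D : RealizeData N) (C : CuspData N D) (γ : SL(2, ℤ))
    {a e : ℕ} {b : ℤ} (ha : 0 < a) (he : 0 < e) (hae : a * e = N)
    (hj : ∀ z : ℍ, jdFun N (γ • z) = jFun (Hermite.affH a e b ha he z)) :
    ModularCurve.coeffMap iotaK (C.T γ (jdF N N (dvd_refl N))) =
      laurentOf (a * a) (cd_Q a e b ha) := by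
  obtain ⟨m, P, hP, hT⟩ := C.spec γ (jdR N N (dvd_refl N))
  rw [D.jd_eq N (dvd_refl N)] at hP
  have hfun : compSL (jdFun N) γ = fun z => jFun (Hermite.affH a e b ha he z) :=
    funext fun z => hj z
  rw [hfun] at hP
  rw [coe_jdR] at hT
  rw [hT, cd_map_laurentOf]
  exact cd_isQExp_unique hP (cd_isQExp_jFun_affH b ha he hae)

/-- **C-F2d (6) DISTINCT**: if the cusp expansions of `j_N` at `γ` and `γ'` agree, then
`γ' γ⁻¹ ∈ Γ₀(N)`. -/
theorem mem_Gamma0_of_T_jdF_eq {N : ℕ} [NeZero N] (D : RealizeData N) (C : CuspData N D)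
    (γ γ' : SL(2, ℤ))
    (h : C.T γ (jdF N N (dvd_refl N)) = C.T γ' (jdF N N (dvd_refl N))) :
    γ' * γ⁻¹ ∈ CongruenceSubgroup.Gamma0 N := by
  obtain ⟨δ, a, e, b, ha, he, hae, _, _, _, h3, h4, _, hj⟩ := HermiteFull.exists_hermite_full γ N
  obtain ⟨δ', a', e', b', ha', he', hae', _, _, _, h3', h4', _, hj'⟩ :=
    HermiteFull.exists_hermite_full γ' N
  have e1 := cd_T_jdF_eq D C γ ha he hae hj
  have e2 := cd_T_jdF_eq D C γ' ha' he' hae' hj'
  rw [h, e2] at e1
  obtain ⟨haa, hz⟩ := cd_eq_of_laurentOf_eq ha' ha e1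
  subst haa
  have hee : e' = e := by
    have : a' * e' = a' * e := by rw [hae', hae]
    exact Nat.eq_of_mul_eq_mul_left ha' this
  subst hee
  have hbb : (e' : ℤ) ∣ b - b' := cd_dvd_of_zeta_eq he' hz.symm
  exact Hermite.mem_Gamma0_of_hermite γ γ' hae hbb h3 h4 h3' h4'

/-- **C-F2d (6) DISTINCT**, ring-hom form. -/
theorem mem_Gamma0_of_T_eq {N : ℕ} [NeZero N] (D : RealizeData N) (C : CuspData N D)
    (γ γ' : SL(2, ℤ)) (h : C.T γ = C.T γ') : γ' * γ⁻¹ ∈ CongruenceSubgroup.Gamma0 N :=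
  mem_Gamma0_of_T_jdF_eq D C γ γ' (by rw [h])

/-- The order of the cusp expansion of `j_N` at `γ` is `-a²` (with `a` from the Hermite form):
coefficient description, useful for the width/ramification bookkeeping. -/
theorem coeff_T_jdF {N : ℕ} [NeZero N] (D : RealizeData N) (C : CuspData N D) (γ : SL(2, ℤ))
    {a e : ℕ} {b : ℤ} (ha : 0 < a) (he : 0 < e) (hae : a * e = N)
    (hj : ∀ z : ℍ, jdFun N (γ • z) = jFun (Hermite.affH a e b ha he z)) (k : ℤ) :
    iotaK ((C.T γ (jdF N N (dvd_refl N))).coeff k) =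
      if 0 ≤ k + ((a * a : ℕ) : ℤ) then
        PowerSeries.coeff (k + ((a * a : ℕ) : ℤ)).toNat (cd_Q a e b ha) else 0 := by
  have h := congrArg (fun s : LaurentSeries ℂ => s.coeff k) (cd_T_jdF_eq D C γ ha he hae hj)
  simp only [laurentOf_coeff] at h
  rw [← h]
  rfl

end Fermat.Agent.X0.CuspDistinct
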