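/-
Program C, C-F2c part A (pure algebra): the function field `FF N` of the Prelude is generated over
`Kbar` by the `j_d`, `d ∣ N`, and is the fraction field of `Rsub N = Kbar[j_d : d ∣ N]`.
-/
import Fermat.Agent.X0.AnDefs

set_option autoImplicit false
set_option linter.unusedSectionVars false

noncomputable section

namespace Fermat.Agent.X0.FracR

open Fermat.Agent.X0 IntermediateField

variable (N : ℕ) [NeZero N]

/-- The coercion of `jdF N d hd` to a Laurent series. -/
theorem coe_jdF (d : ℕ) [NeZero d] (hd : d ∣ N) :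
    ((jdF N d hd : FF N) : LaurentSeries Kbar) =
      ModularCurve.coeffEmb Kbar (ModularCurve.qExpand ℚ d ModularCurve.jq) := rfl

theorem jdF_mem_genSet (d : ℕ) [NeZero d] (hd : d ∣ N) : jdF N d hd ∈ genSet N :=
  ⟨d, inferInstance, hd, rfl⟩

/-- `coeffEmb` of the algebra map. -/
theorem coeffEmb_algebraMap (r : ℚ) :
    ModularCurve.coeffEmb Kbar (algebraMap ℚ (LaurentSeries ℚ) r) =
      algebraMap Kbar (LaurentSeries Kbar) (algebraMap ℚ Kbar r) := by
  rw [ModularCurve.coeffEmb, ModularCurve.algebraMap_laurentSeries_eq_single,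
    ModularCurve.algebraMap_laurentSeries_eq_single, ModularCurve.coeffMap_single]

/-- Every element of the rational function field `ℚ(j(q^d) : d ∣ N)` lands, after extending the
coefficients, in the image of `Kbar(j_d : d ∣ N) ⊆ FF N`. -/
theorem coeffEmb_mem_map {x : LaurentSeries ℚ} (hx : x ∈ ModularCurve.modularFunctionFieldFull N) :
    ModularCurve.coeffEmb Kbar x ∈
      (IntermediateField.adjoin Kbar (genSet N)).map (ModularCurve.modularFunctionFieldBar N).val := by
  unfold ModularCurve.modularFunctionFieldFull at hx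
  induction hx using IntermediateField.adjoin_induction with
  | mem y hy =>
      obtain ⟨d, hne, hd, rfl⟩ := hy
      have := hne
      exact ⟨jdF N d hd, IntermediateField.subset_adjoin _ _ (jdF_mem_genSet N d hd), rfl⟩
  | algebraMap r =>
      rw [coeffEmb_algebraMap]
      exact IntermediateField.algebraMap_mem _ _
  | add x y _ _ hx hy => rw [map_add]; exact add_mem hx hy
  | inv x _ hx => rw [map_inv₀]; exact inv_mem hx
  | mul x y _ _ hx hy => rw [map_mul]; exact mul_mem hx hy

/-- `FF N = Kbar(j_d : d ∣ N)`. -/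
theorem FF_eq_adjoin :
    (⊤ : IntermediateField Kbar (FF N)) = IntermediateField.adjoin Kbar (genSet N) := by
  symm
  rw [eq_top_iff]
  intro y _
  have hle : ModularCurve.modularFunctionFieldBar N ≤
      (IntermediateField.adjoin Kbar (genSet N)).map
        (ModularCurve.modularFunctionFieldBar N).val := by
    unfold ModularCurve.modularFunctionFieldBar ModularCurve.laurentBaseChange
    rw [IntermediateField.adjoin_le_iff]
    rintro _ ⟨x, hx, rfl⟩
    exact coeffEmb_mem_map N hx
  obtain ⟨a, ha, hay⟩ := hle y.2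
  have : a = y := Subtype.ext hay
  rw [← this]
  exact ha

theorem mem_adjoin_genSet (y : FF N) : y ∈ IntermediateField.adjoin Kbar (genSet N) := by
  rw [← FF_eq_adjoin]
  exact IntermediateField.mem_top

/-- Every element of `FF N` is a quotient of two elements of `Rsub N`. -/
theorem exists_div (y : FF N) : ∃ r s : Rsub N, y = (r : FF N) / (s : FF N) := by
  obtain ⟨r, hr, s, hs, h⟩ := IntermediateField.mem_adjoin_iff_div.mp (mem_adjoin_genSet N y)
  exact ⟨⟨r, hr⟩, ⟨s, hs⟩, h⟩

/-- `FF N` is the fraction field of `Rsub N = Kbar[j_d : d ∣ N]`. -/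
instance isFractionRing : IsFractionRing (Rsub N) (FF N) :=
  IsFractionRing.of_field _ _ fun y => by
    obtain ⟨r, s, h⟩ := exists_div N y
    exact ⟨r, s, h⟩

/-- Variant with a nonzero denominator. -/
theorem exists_div_ne_zero (y : FF N) :
    ∃ r s : Rsub N, s ≠ 0 ∧ y = (r : FF N) / (s : FF N) := by
  obtain ⟨r, s, h⟩ := exists_div N y
  by_cases hs : s = 0
  · refine ⟨0, 1, one_ne_zero, ?_⟩
    rw [h, hs]
    simp
  · exact ⟨r, s, hs, h⟩

/-- `Rsub N` is a domain (as a subalgebra of a field). -/
example : IsDomain (Rsub N) := inferInstance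

/-- The generators, as elements of `Rsub N`. -/
def jdR (d : ℕ) [NeZero d] (hd : d ∣ N) : Rsub N :=
  ⟨jdF N d hd, Algebra.subset_adjoin (jdF_mem_genSet N d hd)⟩

@[simp] theorem coe_jdR (d : ℕ) [NeZero d] (hd : d ∣ N) : ((jdR N d hd : Rsub N) : FF N) = jdF N d hd :=
  rfl

/-- Induction principle for `Rsub N`. -/
theorem Rsub_induction {p : Rsub N → Prop}
    (hgen : ∀ (d : ℕ) [NeZero d] (hd : d ∣ N), p (jdR N d hd))
    (hconst : ∀ c : Kbar, p (algebraMap Kbar (Rsub N) c))
    (hadd : ∀ u v, p u → p v → p (u + v))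
    (hmul : ∀ u v, p u → p v → p (u * v)) (u : Rsub N) : p u := by
  obtain ⟨x, hx⟩ := u
  induction hx using Algebra.adjoin_induction with
  | mem y hy =>
      obtain ⟨d, hne, hd, rfl⟩ := hy
      have := hne
      exact hgen d hd
  | algebraMap c => exact hconst c
  | add x y hx hy ihx ihy => exact hadd ⟨x, hx⟩ ⟨y, hy⟩ ihx ihy
  | mul x y hx hy ihx ihy => exact hmul ⟨x, hx⟩ ⟨y, hy⟩ ihx ihy

end Fermat.Agent.X0.FracR
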