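import Mathlib
import Fermat.Prelude.Def_ModularCurve_GenusNumerics

/-!
# C-G1 (part): cosets of `Γ₀(N)` in `SL(2, ℤ)` via integer first columns

For `g : SL(2, ℤ)` with first column `(a, c)` we attach
* `g1c_delta N g = gcd(c, N)`, a divisor of `N`;
* `g1c_alpha e d g = a * (c / d)⁻¹ : ZMod e`  (used with `d = gcd(c, N)`, `e = N / d`).

Main results (for `0 < N`):
* `g1c_mk_eq_iff`      : `gΓ₀(N) = g'Γ₀(N) ↔ N ∣ a c' - c a'`;
* `g1c_T_zpow_smul_iff`: `T^k • gΓ₀(N) = g'Γ₀(N) ↔ δ g = δ g' ∧ α g + k δ = α g'` in `ZMod (N / δ)`;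
* `g1c_isUnit_alpha`   : `α g` is a unit modulo `gcd(δ, N / δ)`;
* `g1c_exists`         : every `(d, α)` with `d ∣ N`, `α : ZMod (N / d)` a unit modulo
  `gcd(d, N / d)` occurs.
-/

namespace Fermat.Agent.X0.G1Col

open scoped MatrixGroups
open CongruenceSubgroup Matrix.SpecialLinearGroup

/-! ### Matrix glue -/

lemma g1c_inv_mul_10 (g g' : SL(2, ℤ)) :
    (g⁻¹ * g') 1 0 = g 0 0 * g' 1 0 - g 1 0 * g' 0 0 := by
  rw [coe_mul, coe_inv, Matrix.adjugate_fin_two, Matrix.mul_apply, Fin.sum_univ_two]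
  simp
  ring

lemma g1c_T_zpow_mul_00 (k : ℤ) (g : SL(2, ℤ)) :
    (ModularGroup.T ^ k * g) 0 0 = g 0 0 + k * g 1 0 := by
  rw [coe_mul, ModularGroup.coe_T_zpow, Matrix.mul_apply, Fin.sum_univ_two]
  simp

lemma g1c_T_zpow_mul_10 (k : ℤ) (g : SL(2, ℤ)) :
    (ModularGroup.T ^ k * g) 1 0 = g 1 0 := by
  rw [coe_mul, ModularGroup.coe_T_zpow, Matrix.mul_apply, Fin.sum_univ_two]
  simp

lemma g1c_isCoprime (g : SL(2, ℤ)) : IsCoprime (g 0 0) (g 1 0) := by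
  have h := g.det_coe
  rw [Matrix.det_fin_two] at h
  exact ⟨g 1 1, -(g 0 1), by linarith⟩

lemma g1c_exists_of_isCoprime {a c : ℤ} (h : IsCoprime a c) :
    ∃ g : SL(2, ℤ), g 0 0 = a ∧ g 1 0 = c := by
  obtain ⟨u, v, huv⟩ := h
  refine ⟨⟨!![a, -v; c, u], ?_⟩, ?_, ?_⟩
  · rw [Matrix.det_fin_two_of]
    linarith
  · simp
  · simp

theorem g1c_mk_eq_iff {N : ℕ} (g g' : SL(2, ℤ)) :
    (QuotientGroup.mk g : SL(2, ℤ) ⧸ Gamma0 N) = QuotientGroup.mk g' ↔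
      (N : ℤ) ∣ g 0 0 * g' 1 0 - g 1 0 * g' 0 0 := by
  rw [QuotientGroup.eq, Gamma0_mem, ZMod.intCast_zmod_eq_zero_iff_dvd, g1c_inv_mul_10]

theorem g1c_T_zpow_smul_mk_eq_iff {N : ℕ} (g g' : SL(2, ℤ)) (k : ℤ) :
    (ModularGroup.T ^ k) • (QuotientGroup.mk g : SL(2, ℤ) ⧸ Gamma0 N) = QuotientGroup.mk g' ↔
      (N : ℤ) ∣ g 0 0 * g' 1 0 - g 1 0 * g' 0 0 + k * g 1 0 * g' 1 0 := by
  rw [MulAction.Quotient.smul_mk, QuotientGroup.eq, Gamma0_mem,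
    ZMod.intCast_zmod_eq_zero_iff_dvd, smul_eq_mul, g1c_inv_mul_10, g1c_T_zpow_mul_00,
    g1c_T_zpow_mul_10]
  ring_nf

/-! ### The integer core -/

/-- `gcd(c, N)` as a natural number. -/
def g1c_gcd (N : ℕ) (c : ℤ) : ℕ := Int.gcd c N

lemma g1c_gcd_dvd (N : ℕ) (c : ℤ) : g1c_gcd N c ∣ N := by
  have := Int.gcd_dvd_right c (N : ℤ)
  exact Int.natCast_dvd_natCast.mp this

lemma g1c_gcd_dvd_left (N : ℕ) (c : ℤ) : (g1c_gcd N c : ℤ) ∣ c := Int.gcd_dvd_left c (N : ℤ)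

lemma g1c_gcd_pos {N : ℕ} (hN : 0 < N) (c : ℤ) : 0 < g1c_gcd N c :=
  Int.gcd_pos_of_ne_zero_right c (by exact_mod_cast hN.ne')

lemma g1c_isCoprime_div {N : ℕ} (hN : 0 < N) (c : ℤ) :
    IsCoprime (c / (g1c_gcd N c : ℤ)) ((N / g1c_gcd N c : ℕ) : ℤ) := by
  rw [Int.isCoprime_iff_gcd_eq_one, Int.natCast_div]
  exact Int.gcd_div_gcd_div_gcd (g1c_gcd_pos hN c)

/-- Necessity: the gcd with `N` is an invariant of the `T`-orbit of a coset. -/
lemma g1c_gcd_eq_of_dvd {N : ℕ} {a c a' c' : ℤ} (hac : IsCoprime a c) (hac' : IsCoprime a' c')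
    (k : ℤ) (h : (N : ℤ) ∣ a * c' - c * a' + k * c * c') : g1c_gcd N c = g1c_gcd N c' := by
  have key : ∀ {a c a' c' : ℤ}, IsCoprime a c → ∀ k : ℤ,
      (N : ℤ) ∣ a * c' - c * a' + k * c * c' → g1c_gcd N c ∣ g1c_gcd N c' := by
    intro a c a' c' hac k h
    have h1 : (g1c_gcd N c : ℤ) ∣ c := g1c_gcd_dvd_left N c
    have h2 : (g1c_gcd N c : ℤ) ∣ (N : ℤ) := Int.gcd_dvd_right c (N : ℤ)
    have h3 : (g1c_gcd N c : ℤ) ∣ a * c' := by
      have h4 : (g1c_gcd N c : ℤ) ∣ a * c' - c * a' + k * c * c' := h2.trans h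
      have h5 : (g1c_gcd N c : ℤ) ∣ c * a' - k * c * c' := by
        have : c * a' - k * c * c' = c * (a' - k * c') := by ring
        rw [this]
        exact h1.mul_right _
      have : a * c' = (a * c' - c * a' + k * c * c') + (c * a' - k * c * c') := by ring
      rw [this]
      exact dvd_add h4 h5
    have h6 : IsCoprime (g1c_gcd N c : ℤ) a := (hac.symm.of_isCoprime_of_dvd_left h1)
    have h7 : (g1c_gcd N c : ℤ) ∣ c' := h6.dvd_of_dvd_mul_left h3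
    have h8 : (g1c_gcd N c : ℤ) ∣ ((g1c_gcd N c' : ℕ) : ℤ) := Int.dvd_coe_gcd h7 h2
    exact Int.natCast_dvd_natCast.mp h8
  refine Nat.dvd_antisymm (key hac k h) (key (a' := a) hac' (-k) ?_)
  have : a' * c - c' * a + -k * c' * c = -(a * c' - c * a' + k * c * c') := by ring
  rw [this]
  exact (dvd_neg).mpr h

/-- Factor the common gcd out of the congruence. -/
lemma g1c_dvd_iff_div {N : ℕ} (hN : 0 < N) {a c a' c' : ℤ} {d : ℕ} (hd : g1c_gcd N c = d)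
    (hd' : g1c_gcd N c' = d) (k : ℤ) :
    (N : ℤ) ∣ a * c' - c * a' + k * c * c' ↔
      ((N / d : ℕ) : ℤ) ∣ a * (c' / d) - (c / d) * a' + (k * d) * (c / d) * (c' / d) := by
  have hdpos : 0 < d := hd ▸ g1c_gcd_pos hN c
  have hdN : d ∣ N := hd ▸ g1c_gcd_dvd N c
  have hc : (d : ℤ) * (c / d) = c := Int.mul_ediv_cancel' (hd ▸ g1c_gcd_dvd_left N c)
  have hc' : (d : ℤ) * (c' / d) = c' := Int.mul_ediv_cancel' (hd' ▸ g1c_gcd_dvd_left N c')
  have hN' : (N : ℤ) = (d : ℤ) * ((N / d : ℕ) : ℤ) := by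
    rw [← Nat.cast_mul, Nat.mul_div_cancel' hdN]
  have hexp : a * c' - c * a' + k * c * c' =
      (d : ℤ) * (a * (c' / d) - (c / d) * a' + (k * d) * (c / d) * (c' / d)) := by
    conv_lhs => rw [← hc, ← hc']
    ring
  rw [hexp, hN']
  exact mul_dvd_mul_iff_left (by exact_mod_cast hdpos.ne')

/-- The congruence in terms of residues: `a γ⁻¹ + t = a' γ'⁻¹` in `ZMod e`. -/
lemma g1c_zmod_iff {e : ℕ} {a γ a' γ' : ℤ} (hγ : IsCoprime γ e) (hγ' : IsCoprime γ' e) (t : ℤ) :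
    (e : ℤ) ∣ a * γ' - γ * a' + t * γ * γ' ↔
      (a : ZMod e) * (γ : ZMod e)⁻¹ + (t : ZMod e) = (a' : ZMod e) * (γ' : ZMod e)⁻¹ := by
  have h1 : (γ : ZMod e) * (γ : ZMod e)⁻¹ = 1 := ZMod.coe_int_mul_inv_eq_one hγ
  have h2 : (γ' : ZMod e) * (γ' : ZMod e)⁻¹ = 1 := ZMod.coe_int_mul_inv_eq_one hγ'
  rw [← ZMod.intCast_zmod_eq_zero_iff_dvd]
  push_cast
  constructor
  · intro h
    have : (a : ZMod e) * (γ : ZMod e)⁻¹ + (t : ZMod e) - (a' : ZMod e) * (γ' : ZMod e)⁻¹ =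
        ((a : ZMod e) * γ' - γ * a' + t * γ * γ') * ((γ : ZMod e)⁻¹ * (γ' : ZMod e)⁻¹) := by
      linear_combination
        (-(a : ZMod e) * (γ : ZMod e)⁻¹ - (t : ZMod e) * (γ : ZMod e) * (γ : ZMod e)⁻¹) * h2
        + ((a' : ZMod e) * (γ' : ZMod e)⁻¹ - (t : ZMod e)) * h1
    rw [h, zero_mul, sub_eq_zero] at this
    exact this
  · intro h
    have : (a : ZMod e) * γ' - γ * a' + t * γ * γ' =
        ((a : ZMod e) * (γ : ZMod e)⁻¹ + (t : ZMod e) - (a' : ZMod e) * (γ' : ZMod e)⁻¹) *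
          ((γ : ZMod e) * (γ' : ZMod e)) := by
      linear_combination (-(a : ZMod e) * (γ' : ZMod e)) * h1 + ((γ : ZMod e) * (a' : ZMod e)) * h2
    rw [this, h, sub_self, zero_mul]

/-- A residue prime to `gcd(d, e)` can be moved modulo `e` to a number prime to `d`. -/
lemma g1c_exists_coprime_add_mul {x e d : ℕ} (hd : 0 < d) (hx : x.Coprime (Nat.gcd d e)) :
    ∃ k : ℕ, (x + k * e).Coprime d := by
  let ps : Finset ℕ := {p ∈ d.primeFactors | ¬p ∣ x}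
  use ps.prod id
  apply Nat.coprime_of_dvd
  intro p pp hp hpd
  by_cases hpx : p ∣ x
  · have h := Nat.dvd_sub hp hpx
    rw [add_comm, Nat.add_sub_cancel] at h
    rcases pp.dvd_mul.mp h with h | h
    · have ⟨q, hq, hq'⟩ := (pp.prime.dvd_finsetProd_iff id).mp h
      rw [Finset.mem_filter, Nat.mem_primeFactors,
        ← (Nat.prime_dvd_prime_iff_eq pp hq.1.1).mp hq'] at hq
      exact hq.2 hpx
    · have h3 : p ∣ Nat.gcd d e := Nat.dvd_gcd hpd h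
      exact Nat.Prime.not_coprime_iff_dvd.mpr ⟨p, pp, hpx, h3⟩ hx
  · have pps : p ∈ ps := Finset.mem_filter.mpr ⟨Nat.mem_primeFactors.mpr ⟨pp, hpd, hd.ne'⟩, hpx⟩
    have h := Nat.dvd_sub hp ((Finset.dvd_prod_of_mem id pps).mul_right e)
    rw [Nat.add_sub_cancel] at h
    contradiction

/-! ### The invariants of a coset -/

/-- The divisor `gcd(c, N)` of `N` attached to a matrix with lower-left entry `c`. -/
def g1c_delta (N : ℕ) (g : SL(2, ℤ)) : ℕ := g1c_gcd N (g 1 0)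

/-- The residue `a * (c / d)⁻¹` in `ZMod e`. -/
noncomputable def g1c_alpha (e d : ℕ) (g : SL(2, ℤ)) : ZMod e :=
  ((g 0 0 : ℤ) : ZMod e) * (((g 1 0 / (d : ℤ) : ℤ)) : ZMod e)⁻¹

lemma g1c_delta_dvd (N : ℕ) (g : SL(2, ℤ)) : g1c_delta N g ∣ N := g1c_gcd_dvd N _

lemma g1c_delta_pos {N : ℕ} (hN : 0 < N) (g : SL(2, ℤ)) : 0 < g1c_delta N g := g1c_gcd_pos hN _

lemma g1c_delta_mem_divisors {N : ℕ} (hN : 0 < N) (g : SL(2, ℤ)) :
    g1c_delta N g ∈ N.divisors := Nat.mem_divisors.mpr ⟨g1c_delta_dvd N g, hN.ne'⟩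

lemma g1c_isCoprime_div_delta {N : ℕ} (hN : 0 < N) (g : SL(2, ℤ)) :
    IsCoprime (g 1 0 / (g1c_delta N g : ℤ)) ((N / g1c_delta N g : ℕ) : ℤ) :=
  g1c_isCoprime_div hN (g 1 0)

lemma g1c_delta_T_zpow_mul (N : ℕ) (k : ℤ) (g : SL(2, ℤ)) :
    g1c_delta N (ModularGroup.T ^ k * g) = g1c_delta N g := by
  unfold g1c_delta
  rw [g1c_T_zpow_mul_10]

/-- **Criterion** for two cosets to be related by `T^k`. -/
theorem g1c_T_zpow_smul_iff {N : ℕ} (hN : 0 < N) (g g' : SL(2, ℤ)) (k : ℤ) :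
    (ModularGroup.T ^ k) • (QuotientGroup.mk g : SL(2, ℤ) ⧸ Gamma0 N) = QuotientGroup.mk g' ↔
      g1c_delta N g = g1c_delta N g' ∧
        g1c_alpha (N / g1c_delta N g) (g1c_delta N g) g +
          ((k * (g1c_delta N g : ℤ) : ℤ) : ZMod (N / g1c_delta N g)) =
          g1c_alpha (N / g1c_delta N g) (g1c_delta N g) g' := by
  rw [g1c_T_zpow_smul_mk_eq_iff]
  constructor
  · intro h
    have hd : g1c_delta N g = g1c_delta N g' :=
      g1c_gcd_eq_of_dvd (g1c_isCoprime g) (g1c_isCoprime g') k h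
    refine ⟨hd, ?_⟩
    rw [g1c_dvd_iff_div hN (d := g1c_delta N g) rfl hd.symm] at h
    have hγ := g1c_isCoprime_div hN (g 1 0)
    have hγ' := g1c_isCoprime_div hN (g' 1 0)
    rw [show g1c_gcd N (g' 1 0) = g1c_delta N g from hd.symm] at hγ'
    exact (g1c_zmod_iff hγ hγ' _).mp h
  · rintro ⟨hd, h⟩
    rw [g1c_dvd_iff_div hN (d := g1c_delta N g) rfl hd.symm]
    have hγ := g1c_isCoprime_div hN (g 1 0)
    have hγ' := g1c_isCoprime_div hN (g' 1 0)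
    rw [show g1c_gcd N (g' 1 0) = g1c_delta N g from hd.symm] at hγ'
    exact (g1c_zmod_iff hγ hγ' _).mpr h

/-- **Criterion** for two cosets to be equal. -/
theorem g1c_mk_eq_iff' {N : ℕ} (hN : 0 < N) (g g' : SL(2, ℤ)) :
    (QuotientGroup.mk g : SL(2, ℤ) ⧸ Gamma0 N) = QuotientGroup.mk g' ↔
      g1c_delta N g = g1c_delta N g' ∧
        g1c_alpha (N / g1c_delta N g) (g1c_delta N g) g =
          g1c_alpha (N / g1c_delta N g) (g1c_delta N g) g' := by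
  have h := g1c_T_zpow_smul_iff hN g g' 0
  simpa using h

/-- Reduction of `α` modulo a divisor `m` of `e` (when `c / d` is invertible mod `e`). -/
lemma g1c_cast_alpha {e d m : ℕ} (hm : m ∣ e) (g : SL(2, ℤ))
    (hγ : IsCoprime (g 1 0 / (d : ℤ)) (e : ℤ)) :
    ZMod.castHom hm (ZMod m) (g1c_alpha e d g) = g1c_alpha m d g := by
  unfold g1c_alpha
  rw [map_mul, map_intCast]
  congr 1
  have h1 : ((g 1 0 / (d : ℤ) : ℤ) : ZMod e) * ((g 1 0 / (d : ℤ) : ℤ) : ZMod e)⁻¹ = 1 :=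
    ZMod.coe_int_mul_inv_eq_one hγ
  have hγm : IsCoprime (g 1 0 / (d : ℤ)) (m : ℤ) :=
    hγ.of_isCoprime_of_dvd_right (Int.natCast_dvd_natCast.mpr hm)
  have h2 : ((g 1 0 / (d : ℤ) : ℤ) : ZMod m) * ((g 1 0 / (d : ℤ) : ℤ) : ZMod m)⁻¹ = 1 :=
    ZMod.coe_int_mul_inv_eq_one hγm
  have h3 := congrArg (ZMod.castHom hm (ZMod m)) h1
  rw [map_mul, map_intCast, map_one] at h3
  calc ZMod.castHom hm (ZMod m) (((g 1 0 / (d : ℤ) : ℤ) : ZMod e)⁻¹)
      = ZMod.castHom hm (ZMod m) (((g 1 0 / (d : ℤ) : ℤ) : ZMod e)⁻¹) *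
          (((g 1 0 / (d : ℤ) : ℤ) : ZMod m) * ((g 1 0 / (d : ℤ) : ℤ) : ZMod m)⁻¹) := by
        rw [h2, mul_one]
    _ = (((g 1 0 / (d : ℤ) : ℤ) : ZMod m) *
          ZMod.castHom hm (ZMod m) (((g 1 0 / (d : ℤ) : ℤ) : ZMod e)⁻¹)) *
          ((g 1 0 / (d : ℤ) : ℤ) : ZMod m)⁻¹ := by ring
    _ = ((g 1 0 / (d : ℤ) : ℤ) : ZMod m)⁻¹ := by rw [h3, one_mul]

/-- `α g` is a unit modulo any common divisor `m` of `δ` and `N / δ`. -/
lemma g1c_isUnit_alpha {N : ℕ} (hN : 0 < N) (g : SL(2, ℤ)) {m : ℕ}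
    (hm1 : m ∣ g1c_delta N g) (hm2 : m ∣ N / g1c_delta N g) :
    IsUnit (g1c_alpha m (g1c_delta N g) g) := by
  unfold g1c_alpha
  have hγ := g1c_isCoprime_div hN (g 1 0)
  have hγm : IsCoprime (g 1 0 / (g1c_delta N g : ℤ)) (m : ℤ) :=
    hγ.of_isCoprime_of_dvd_right (Int.natCast_dvd_natCast.mpr hm2)
  have ha : IsCoprime (g 0 0) (m : ℤ) := by
    have h1 : (m : ℤ) ∣ g 1 0 :=
      (Int.natCast_dvd_natCast.mpr hm1).trans (g1c_gcd_dvd_left N (g 1 0))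
    exact (g1c_isCoprime g).of_isCoprime_of_dvd_right h1
  refine IsUnit.mul ?_ ?_
  · exact (ZMod.coe_int_isUnit_iff_isCoprime _ _).mpr ha.symm
  · have h2 := ZMod.coe_int_mul_inv_eq_one hγm
    exact IsUnit.of_mul_eq_one _ (by rw [mul_comm]; exact h2)

/-- **Surjectivity**: every admissible pair `(d, α)` comes from a matrix. -/
theorem g1c_exists {N : ℕ} (hN : 0 < N) {d : ℕ} (hd : d ∣ N) (α : ZMod (N / d))
    (hα : IsUnit (ZMod.castHom (Nat.gcd_dvd_right d (N / d)) (ZMod (Nat.gcd d (N / d))) α)) :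
    ∃ g : SL(2, ℤ), g1c_delta N g = d ∧ g1c_alpha (N / d) d g = α := by
  have hdpos : 0 < d := Nat.pos_of_dvd_of_pos hd hN
  have hepos : 0 < N / d := Nat.div_pos (Nat.le_of_dvd hN hd) hdpos
  have : NeZero (N / d) := ⟨hepos.ne'⟩
  have hx : (α.val).Coprime (Nat.gcd d (N / d)) := by
    rw [← ZMod.isUnit_iff_coprime]
    have : ZMod.castHom (Nat.gcd_dvd_right d (N / d)) (ZMod (Nat.gcd d (N / d))) α =
        ((α.val : ℕ) : ZMod (Nat.gcd d (N / d))) := by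
      conv_lhs => rw [← ZMod.natCast_zmod_val α]
      rw [map_natCast]
    rwa [this] at hα
  obtain ⟨k, hk⟩ := g1c_exists_coprime_add_mul hdpos hx
  have hcop : IsCoprime (((α.val + k * (N / d) : ℕ)) : ℤ) ((d : ℕ) : ℤ) :=
    Nat.isCoprime_iff_coprime.mpr hk
  obtain ⟨g, hg0, hg1⟩ := g1c_exists_of_isCoprime hcop
  refine ⟨g, ?_, ?_⟩
  · unfold g1c_delta g1c_gcd
    rw [hg1, Int.gcd_natCast_natCast]
    exact Nat.gcd_eq_left hd
  · unfold g1c_alpha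
    rw [hg0, hg1, Int.ediv_self (by exact_mod_cast hdpos.ne'), Int.cast_one, ZMod.inv_one,
      mul_one, Int.cast_natCast, Nat.cast_add, Nat.cast_mul, ZMod.natCast_self, mul_zero,
      add_zero, ZMod.natCast_zmod_val]

/-- Translating by multiples of `d` in `ZMod e` is the same as fixing the class modulo
`gcd(d, e)`. -/
lemma g1c_exists_add_mul_iff {e d : ℕ} (he : 0 < e) (x y : ZMod e) :
    (∃ k : ℤ, x + ((k * (d : ℤ) : ℤ) : ZMod e) = y) ↔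
      ZMod.castHom (Nat.gcd_dvd_right d e) (ZMod (Nat.gcd d e)) x =
        ZMod.castHom (Nat.gcd_dvd_right d e) (ZMod (Nat.gcd d e)) y := by
  have : NeZero e := ⟨he.ne'⟩
  constructor
  · rintro ⟨k, rfl⟩
    rw [map_add, map_intCast]
    have : ((k * (d : ℤ) : ℤ) : ZMod (Nat.gcd d e)) = 0 := by
      rw [ZMod.intCast_zmod_eq_zero_iff_dvd]
      exact (Int.natCast_dvd_natCast.mpr (Nat.gcd_dvd_left d e)).mul_left k
    rw [this, add_zero]
  · intro h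
    have hz : ZMod.castHom (Nat.gcd_dvd_right d e) (ZMod (Nat.gcd d e)) (y - x) = 0 := by
      rw [map_sub, h, sub_self]
    have hz' : (((y - x).val : ℕ) : ZMod (Nat.gcd d e)) = 0 := by
      rw [← hz]
      conv_rhs => rw [← ZMod.natCast_zmod_val (y - x)]
      rw [map_natCast]
    obtain ⟨w, hw⟩ := (ZMod.natCast_eq_zero_iff _ _).mp hz'
    have hbez : ((Nat.gcd d e : ℕ) : ℤ) = d * Nat.gcdA d e + e * Nat.gcdB d e :=
      Nat.gcd_eq_gcd_ab d e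
    refine ⟨Nat.gcdA d e * w, ?_⟩
    have h1 : (y - x) = (((y - x).val : ℕ) : ZMod e) := (ZMod.natCast_zmod_val (y - x)).symm
    have h2 : (((y - x).val : ℕ) : ZMod e) = ((((Nat.gcd d e : ℕ) : ℤ) * (w : ℤ) : ℤ) : ZMod e) := by
      rw [hw]
      push_cast
      rfl
    have h3 : ((((Nat.gcd d e : ℕ) : ℤ) * (w : ℤ) : ℤ) : ZMod e) =
        ((Nat.gcdA d e * w * (d : ℤ) : ℤ) : ZMod e) := by
      rw [hbez]
      push_cast
      rw [ZMod.natCast_self]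
      ring
    rw [← h3, ← h2, ← h1]
    ring

end Fermat.Agent.X0.G1Col
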