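import Mathlib
import Fermat.Prelude.Def_ModularCurve_GenusNumerics
import Fermat.Agent.X0.G1Col

/-!
# C-G1 (part): the index of `Γ₀(N)` in `SL(2, ℤ)` is `dedekindPsi N`

Main result: `g1_card`.
-/

namespace Fermat.Agent.X0.G1Index

open scoped MatrixGroups
open CongruenceSubgroup Matrix.SpecialLinearGroup
open Fermat.Agent.X0.G1Col

/-! ### The complete invariant of a coset -/

/-- The complete invariant of the coset of `g`. -/
noncomputable def g1i_inv (N : ℕ) (g : SL(2, ℤ)) : (Σ _ : ℕ, ℕ) :=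
  ⟨g1c_delta N g, (g1c_alpha (N / g1c_delta N g) (g1c_delta N g) g).val⟩

lemma g1i_div_pos {N d : ℕ} (hN : 0 < N) (hd : d ∣ N) : 0 < N / d :=
  Nat.div_pos (Nat.le_of_dvd hN hd) (Nat.pos_of_dvd_of_pos hd hN)

lemma g1i_inv_eq_iff {N : ℕ} (hN : 0 < N) (g g' : SL(2, ℤ)) :
    g1i_inv N g = g1i_inv N g' ↔
      (QuotientGroup.mk g : SL(2, ℤ) ⧸ Gamma0 N) = QuotientGroup.mk g' := by
  have hepos : 0 < N / g1c_delta N g := g1i_div_pos hN (g1c_delta_dvd N g)
  have : NeZero (N / g1c_delta N g) := ⟨hepos.ne'⟩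
  rw [g1c_mk_eq_iff' hN]
  unfold g1i_inv
  rw [Sigma.mk.inj_iff]
  constructor
  · rintro ⟨h1, h2⟩
    refine ⟨h1, ?_⟩
    rw [← h1] at h2
    exact ZMod.val_injective _ (eq_of_heq h2)
  · rintro ⟨h1, h2⟩
    refine ⟨h1, ?_⟩
    rw [← h1]
    exact heq_of_eq (congrArg ZMod.val h2)

/-- The invariant on cosets. -/
noncomputable def g1i_invX (N : ℕ) [NeZero N] : SL(2, ℤ) ⧸ Gamma0 N → (Σ _ : ℕ, ℕ) :=
  Quotient.lift (g1i_inv N) (by
    intro g g' h
    have h' : (QuotientGroup.mk g : SL(2, ℤ) ⧸ Gamma0 N) = QuotientGroup.mk g' :=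
      Quotient.sound h
    exact (g1i_inv_eq_iff (NeZero.pos N) g g').mpr h')

lemma g1i_invX_injective (N : ℕ) [NeZero N] : Function.Injective (g1i_invX N) := by
  intro x y h
  induction x using QuotientGroup.induction_on with
  | H g =>
    induction y using QuotientGroup.induction_on with
    | H g' => exact (g1i_inv_eq_iff (NeZero.pos N) g g').mp h

/-- The set of values of the invariant. -/
def g1i_target (N : ℕ) : Finset (Σ _ : ℕ, ℕ) :=
  N.divisors.sigma fun d =>
    {r ∈ Finset.range (N / d) | (Nat.gcd d (N / d)).Coprime r}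

lemma g1i_range_invX (N : ℕ) [NeZero N] :
    Set.range (g1i_invX N) = (g1i_target N : Set (Σ _ : ℕ, ℕ)) := by
  have hN : 0 < N := NeZero.pos N
  ext ⟨d, r⟩
  simp only [Set.mem_range, Finset.mem_coe, g1i_target, Finset.mem_sigma, Finset.mem_filter,
    Finset.mem_range]
  constructor
  · rintro ⟨x, hx⟩
    induction x using QuotientGroup.induction_on with
    | H g =>
      change g1i_inv N g = ⟨d, r⟩ at hx
      unfold g1i_inv at hx
      rw [Sigma.mk.inj_iff] at hx
      obtain ⟨h1, h2⟩ := hx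
      subst h1
      have h2 := eq_of_heq h2
      have hepos : 0 < N / g1c_delta N g := g1i_div_pos hN (g1c_delta_dvd N g)
      have : NeZero (N / g1c_delta N g) := ⟨hepos.ne'⟩
      refine ⟨g1c_delta_mem_divisors hN g, ?_, ?_⟩
      · rw [← h2]
        exact ZMod.val_lt _
      · have hu := g1c_isUnit_alpha hN g (m := Nat.gcd (g1c_delta N g) (N / g1c_delta N g))
          (Nat.gcd_dvd_left _ _) (Nat.gcd_dvd_right _ _)
        rw [← g1c_cast_alpha (Nat.gcd_dvd_right _ _) g (g1c_isCoprime_div_delta hN g),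
          ← ZMod.natCast_zmod_val (g1c_alpha (N / g1c_delta N g) _ g), map_natCast,
          ZMod.isUnit_iff_coprime, h2] at hu
        exact hu.symm
  · rintro ⟨hd, hr, hcop⟩
    have hdN : d ∣ N := Nat.dvd_of_mem_divisors hd
    have hepos : 0 < N / d := g1i_div_pos hN hdN
    have : NeZero (N / d) := ⟨hepos.ne'⟩
    have hα : IsUnit (ZMod.castHom (Nat.gcd_dvd_right d (N / d)) (ZMod (Nat.gcd d (N / d)))
        ((r : ℕ) : ZMod (N / d))) := by
      rw [map_natCast, ZMod.isUnit_iff_coprime]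
      exact hcop.symm
    obtain ⟨g, hg1, hg2⟩ := g1c_exists hN hdN ((r : ℕ) : ZMod (N / d)) hα
    refine ⟨QuotientGroup.mk g, ?_⟩
    change g1i_inv N g = ⟨d, r⟩
    unfold g1i_inv
    rw [hg1, hg2]
    congr 1
    exact ZMod.val_natCast_of_lt hr

lemma g1i_card_eq_card_target (N : ℕ) [NeZero N] :
    Nat.card (SL(2, ℤ) ⧸ Gamma0 N) = (g1i_target N).card := by
  rw [Nat.card_congr (Equiv.ofInjective (g1i_invX N) (g1i_invX_injective N)), g1i_range_invX,
    Nat.card_coe_set_eq, Set.ncard_coe_finset]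

/-! ### Counting the target -/

lemma g1i_card_filter_coprime_mul (g q : ℕ) :
    ({r ∈ Finset.range (g * q) | g.Coprime r} : Finset ℕ).card = q * Nat.totient g := by
  induction q with
  | zero => simp
  | succ q ih =>
    have h1 : Finset.range (g * (q + 1)) =
        Finset.range (g * q) ∪ Finset.Ico (g * q) (g * q + g) := by
      rw [Finset.range_eq_Ico, Finset.range_eq_Ico,
        Finset.Ico_union_Ico_eq_Ico (Nat.zero_le _) (Nat.le_add_right _ _)]
      congr 1
    have h2 : Disjoint (Finset.range (g * q)) (Finset.Ico (g * q) (g * q + g)) := by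
      rw [Finset.disjoint_left]
      intro x hx hx'
      rw [Finset.mem_range] at hx
      rw [Finset.mem_Ico] at hx'
      omega
    rw [h1, Finset.filter_union, Finset.card_union_of_disjoint (Finset.disjoint_filter_filter h2),
      ih, Nat.filter_coprime_Ico_eq_totient]
    ring

/-- One summand of the count. -/
def g1i_term (N d : ℕ) : ℕ := (N / d) / Nat.gcd d (N / d) * Nat.totient (Nat.gcd d (N / d))

/-- The count as a divisor sum. -/
def g1i_h (N : ℕ) : ℕ := ∑ d ∈ N.divisors, g1i_term N d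

lemma g1i_card_target (N : ℕ) : (g1i_target N).card = g1i_h N := by
  unfold g1i_target g1i_h
  rw [Finset.card_sigma]
  refine Finset.sum_congr rfl fun d _ => ?_
  have hg : Nat.gcd d (N / d) ∣ N / d := Nat.gcd_dvd_right _ _
  have h := g1i_card_filter_coprime_mul (Nat.gcd d (N / d)) (N / d / Nat.gcd d (N / d))
  rw [Nat.mul_div_cancel' hg] at h
  rw [h]
  rfl

/-! ### The arithmetic identity -/

lemma g1i_sum_divisors_mul {m n : ℕ} (hmn : m.Coprime n) (F : ℕ → ℕ) :
    ∑ d ∈ (m * n).divisors, F d = ∑ d1 ∈ m.divisors, ∑ d2 ∈ n.divisors, F (d1 * d2) := by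
  rw [hmn.divisors_mul, Finset.sum_map, ← Finset.sum_product']
  exact Finset.sum_attach (m.divisors ×ˢ n.divisors) (fun p => F (p.1 * p.2))

lemma g1i_term_mul {m n d1 d2 : ℕ} (hmn : m.Coprime n) (h1 : d1 ∣ m) (h2 : d2 ∣ n) :
    g1i_term (m * n) (d1 * d2) = g1i_term m d1 * g1i_term n d2 := by
  unfold g1i_term
  have he1 : m / d1 ∣ m := Nat.div_dvd_of_dvd h1
  have he2 : n / d2 ∣ n := Nat.div_dvd_of_dvd h2
  have hc12 : (m / d1).Coprime (n / d2) :=
    Nat.Coprime.coprime_dvd_left he1 (Nat.Coprime.coprime_dvd_right he2 hmn)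
  have hc1 : d2.Coprime (m / d1) :=
    (Nat.Coprime.coprime_dvd_left he1 (Nat.Coprime.coprime_dvd_right h2 hmn)).symm
  have hc2 : d1.Coprime (n / d2) :=
    (Nat.Coprime.coprime_dvd_left h1 (Nat.Coprime.coprime_dvd_right he2 hmn))
  rw [Nat.mul_div_mul_comm h1 h2, Nat.Coprime.gcd_mul _ hc12,
    Nat.Coprime.gcd_mul_right_cancel _ hc1, Nat.Coprime.gcd_mul_left_cancel _ hc2]
  have hg1 : Nat.gcd d1 (m / d1) ∣ m / d1 := Nat.gcd_dvd_right _ _
  have hg2 : Nat.gcd d2 (n / d2) ∣ n / d2 := Nat.gcd_dvd_right _ _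
  have hcg : (Nat.gcd d1 (m / d1)).Coprime (Nat.gcd d2 (n / d2)) :=
    Nat.Coprime.coprime_dvd_left hg1 (Nat.Coprime.coprime_dvd_right hg2 hc12)
  rw [Nat.mul_div_mul_comm hg1 hg2, Nat.totient_mul hcg]
  ring

lemma g1i_h_mul {m n : ℕ} (hmn : m.Coprime n) : g1i_h (m * n) = g1i_h m * g1i_h n := by
  unfold g1i_h
  rw [g1i_sum_divisors_mul hmn, Finset.sum_mul_sum]
  refine Finset.sum_congr rfl fun d1 hd1 => Finset.sum_congr rfl fun d2 hd2 => ?_
  exact g1i_term_mul hmn (Nat.dvd_of_mem_divisors hd1) (Nat.dvd_of_mem_divisors hd2)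

lemma g1i_psi_eq (N : ℕ) :
    ModularCurve.dedekindPsi N = ∑ d ∈ N.divisors, if Squarefree d then N / d else 0 := by
  unfold ModularCurve.dedekindPsi
  rw [Finset.sum_filter]

lemma g1i_psi_mul {m n : ℕ} (hmn : m.Coprime n) :
    ModularCurve.dedekindPsi (m * n) =
      ModularCurve.dedekindPsi m * ModularCurve.dedekindPsi n := by
  rw [g1i_psi_eq, g1i_psi_eq, g1i_psi_eq, g1i_sum_divisors_mul hmn, Finset.sum_mul_sum]
  refine Finset.sum_congr rfl fun d1 hd1 => Finset.sum_congr rfl fun d2 hd2 => ?_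
  have h1 := Nat.dvd_of_mem_divisors hd1
  have h2 := Nat.dvd_of_mem_divisors hd2
  have hc : d1.Coprime d2 := Nat.Coprime.coprime_dvd_left h1 (Nat.Coprime.coprime_dvd_right h2 hmn)
  by_cases hs1 : Squarefree d1
  · by_cases hs2 : Squarefree d2
    · rw [if_pos hs1, if_pos hs2, if_pos (Nat.squarefree_mul_iff.mpr ⟨hc, hs1, hs2⟩),
        Nat.mul_div_mul_comm h1 h2]
    · rw [if_neg hs2, mul_zero, if_neg]
      intro h
      exact hs2 (Nat.squarefree_mul_iff.mp h).2.2
  · rw [if_neg hs1, zero_mul, if_neg]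
    intro h
    exact hs1 (Nat.squarefree_mul_iff.mp h).2.1

/-- A telescoping sum. -/
lemma g1i_telescope (p k : ℕ) (f : ℕ → ℕ) (hk : 1 ≤ k) (h0 : f 0 = p ^ k)
    (hmid : ∀ i, 0 < i → i < k → f i + p ^ (k - i - 1) = p ^ (k - i)) (hlast : f k = 1) :
    ∑ i ∈ Finset.range (k + 1), f i = p ^ k + p ^ (k - 1) := by
  have key : ∀ j, j < k → ∑ i ∈ Finset.range (j + 1), f i + p ^ (k - 1 - j) = p ^ k + p ^ (k - 1) := by
    intro j
    induction j with
    | zero =>
      intro _
      simp [h0]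
    | succ j ih =>
      intro hj
      have ih' := ih (by omega)
      rw [Finset.sum_range_succ]
      have h1 := hmid (j + 1) (by omega) hj
      have e1 : k - (j + 1) - 1 = k - 1 - (j + 1) := by omega
      have e2 : k - (j + 1) = k - 1 - j := by omega
      rw [e1, e2] at h1
      rw [add_assoc, h1]
      exact ih'
  have h := key (k - 1) (by omega)
  rw [Finset.sum_range_succ, hlast]
  have e1 : k - 1 + 1 = k := by omega
  have e2 : k - 1 - (k - 1) = 0 := by omega
  rw [e1, e2, pow_zero] at h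
  exact h

lemma g1i_h_prime_pow {p k : ℕ} (hp : p.Prime) (hk : 0 < k) :
    g1i_h (p ^ k) = p ^ k + p ^ (k - 1) := by
  unfold g1i_h
  rw [Nat.sum_divisors_prime_pow hp]
  have hp0 : 0 < p := hp.pos
  refine g1i_telescope p k (fun i => g1i_term (p ^ k) (p ^ i)) hk ?_ ?_ ?_
  · simp [g1i_term]
  · intro i hi hik
    show g1i_term (p ^ k) (p ^ i) + p ^ (k - i - 1) = p ^ (k - i)
    unfold g1i_term
    rw [Nat.pow_div hik.le hp0]
    have hpp : p - 1 + 1 = p := Nat.sub_add_cancel hp.one_lt.le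
    by_cases hle : i ≤ k - i
    · rw [Nat.gcd_eq_left (pow_dvd_pow p hle), Nat.pow_div hle hp0, Nat.totient_prime_pow hp hi]
      have e : p ^ (k - i - i) * (p ^ (i - 1) * (p - 1)) + p ^ (k - i - 1) =
          p ^ (k - i - 1) * (p - 1 + 1) := by
        have : p ^ (k - i - 1) = p ^ (k - i - i) * p ^ (i - 1) := by
          rw [← pow_add]
          congr 1
          omega
        rw [this]
        ring
      rw [e, hpp, ← pow_succ]
      congr 1
      omega
    · have hle' : k - i ≤ i := by omega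
      have hpos : 0 < k - i := by omega
      rw [Nat.gcd_eq_right (pow_dvd_pow p hle'), Nat.div_self (pow_pos hp0 _),
        Nat.totient_prime_pow hp hpos, one_mul]
      have e : p ^ (k - i - 1) * (p - 1) + p ^ (k - i - 1) = p ^ (k - i - 1) * (p - 1 + 1) := by
        ring
      rw [e, hpp, ← pow_succ]
      congr 1
      omega
  · show g1i_term (p ^ k) (p ^ k) = 1
    unfold g1i_term
    rw [Nat.div_self (pow_pos hp0 _), Nat.gcd_one_right, Nat.div_one, Nat.totient_one]

lemma g1i_psi_prime_pow {p k : ℕ} (hp : p.Prime) (hk : 0 < k) :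
    ModularCurve.dedekindPsi (p ^ k) = p ^ k + p ^ (k - 1) := by
  rw [g1i_psi_eq, Nat.sum_divisors_prime_pow hp]
  have hsub : ({0, 1} : Finset ℕ) ⊆ Finset.range (k + 1) := by
    intro i hi
    rw [Finset.mem_insert, Finset.mem_singleton] at hi
    rw [Finset.mem_range]
    omega
  rw [← Finset.sum_subset hsub]
  · rw [Finset.sum_pair (by norm_num)]
    simp only [pow_zero, pow_one, Nat.div_one]
    rw [if_pos squarefree_one, if_pos hp.squarefree]
    congr 1
    conv_lhs => rw [show p ^ k / p = p ^ k / p ^ 1 by rw [pow_one]]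
    exact Nat.pow_div hk hp.pos
  · intro i _ hi
    rw [Finset.mem_insert, Finset.mem_singleton] at hi
    rw [not_or] at hi
    rw [if_neg]
    intro h
    have := (Nat.squarefree_pow_iff hp.ne_one hi.1).mp h
    exact hi.2 this.2

/-- The arithmetic identity `∑_{d ∣ N} (N/d)/g_d * φ(g_d) = ψ(N)` with `g_d = gcd(d, N/d)`. -/
theorem g1i_h_eq_psi (N : ℕ) (hN : 0 < N) : g1i_h N = ModularCurve.dedekindPsi N := by
  induction N using Nat.recOnPosPrimePosCoprime with
  | prime_pow p n hp hn => rw [g1i_h_prime_pow hp hn, g1i_psi_prime_pow hp hn]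
  | zero => exact absurd hN (lt_irrefl 0)
  | one => simp [g1i_h, g1i_term]
  | coprime a b ha hb hab iha ihb =>
    rw [g1i_h_mul hab, g1i_psi_mul hab, iha (by omega), ihb (by omega)]

/-- **C-G1 (a)**: the index of `Γ₀(N)` in `SL(2, ℤ)` is `dedekindPsi N`. -/
theorem g1_card (N : ℕ) [NeZero N] :
    Nat.card (SL(2, ℤ) ⧸ Gamma0 N) = ModularCurve.dedekindPsi N := by
  rw [g1i_card_eq_card_target, g1i_card_target, g1i_h_eq_psi N (NeZero.pos N)]

theorem g1_index (N : ℕ) [NeZero N] : (Gamma0 N).index = ModularCurve.dedekindPsi N :=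
  g1_card N

end Fermat.Agent.X0.G1Index
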