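/-
Program C (helper17): the embedding `ι : ℚbar → ℂ` hits every algebraic number, the root of unity
`zetaK N`, and transcendence of the formal `j` over `ℚbar`.
-/
import Fermat.Agent.X0.Iface
import Fermat.Prelude.Def_ModularCurve_X0ModL

set_option autoImplicit false

open Polynomial

noncomputable section

namespace Fermat.Agent.X0

/-! ### The image of `ι` -/

/-- Every complex number algebraic over `ℚ` lies in the image of `ι : ℚbar → ℂ`. -/
theorem exists_iotaK_eq_of_isAlgebraic (z : ℂ) (hz : IsAlgebraic ℚ z) :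
    ∃ a : Kbar, iotaK a = z := by
  set p : ℚ[X] := minpoly ℚ z with hp
  have hp0 : p ≠ 0 := minpoly.ne_zero hz.isIntegral
  set f : Kbar[X] := p.map (algebraMap ℚ Kbar) with hf
  have hf0 : f ≠ 0 := Polynomial.map_ne_zero hp0
  have hsplit : f.Splits := IsAlgClosed.splits f
  have hcomp : iotaK.comp (algebraMap ℚ Kbar) = algebraMap ℚ ℂ := RingHom.ext_rat _ _
  have hroot : (f.map iotaK).IsRoot z := by
    rw [hf, Polynomial.map_map, hcomp, IsRoot.def, eval_map_algebraMap, hp, minpoly.aeval]
  obtain ⟨a, ha⟩ := hsplit.mem_range_of_isRoot hf0 hroot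
  exact ⟨a, ha⟩

/-- `ι` commutes with the maps from `ℚ`. -/
theorem iotaK_algebraMap (r : ℚ) : iotaK (algebraMap ℚ Kbar r) = (r : ℂ) := by
  rw [eq_ratCast (algebraMap ℚ Kbar) r, map_ratCast]

/-! ### The root of unity `zetaK N` -/

section Zeta

variable (N : ℕ) [NeZero N]

theorem isAlgebraic_exp_two_pi_div :
    IsAlgebraic ℚ (Complex.exp (2 * Real.pi * Complex.I / N)) := by
  have hprim := Complex.isPrimitiveRoot_exp N (NeZero.ne N)
  refine ⟨X ^ N - 1, ?_, ?_⟩
  · exact X_pow_sub_C_ne_zero (Nat.pos_of_ne_zero (NeZero.ne N)) (1 : ℚ)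
  · simp [hprim.pow_eq_one]

theorem exists_iotaK_eq_exp :
    ∃ a : Kbar, iotaK a = Complex.exp (2 * Real.pi * Complex.I / N) :=
  exists_iotaK_eq_of_isAlgebraic _ (isAlgebraic_exp_two_pi_div N)

/-- `ι (ζ_N) = exp (2 π i / N)`. -/
theorem iotaK_zetaK : iotaK (zetaK N) = Complex.exp (2 * Real.pi * Complex.I / N) := by
  have h := exists_iotaK_eq_exp N
  rw [zetaK, dif_pos h]
  exact h.choose_spec

/-- `ζ_N` is a primitive `N`-th root of unity in `ℚbar`. -/
theorem isPrimitiveRoot_zetaK : IsPrimitiveRoot (zetaK N) N := by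
  have hprim := Complex.isPrimitiveRoot_exp N (NeZero.ne N)
  rw [← iotaK_zetaK N] at hprim
  exact IsPrimitiveRoot.of_map_of_injective (f := iotaK) hprim iotaK_injective

theorem zetaK_pow_self : zetaK N ^ N = 1 := (isPrimitiveRoot_zetaK N).pow_eq_one

theorem zetaK_ne_zero : zetaK N ≠ 0 := (isPrimitiveRoot_zetaK N).ne_zero (NeZero.ne N)

/-- `ι (ζ_N ^ k) = exp (2 π i k / N)`. -/
theorem iotaK_zetaK_pow (k : ℕ) :
    iotaK (zetaK N ^ k) = Complex.exp (2 * Real.pi * Complex.I * k / N) := by
  rw [map_pow, iotaK_zetaK, ← Complex.exp_nat_mul]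
  congr 1
  ring

end Zeta

/-! ### Transcendence of the formal `j` over `ℚbar` -/

section Transcendence

open ModularCurve

/-- The formal `j` over `ℚbar` is the base change of the integral `q`-expansion. -/
theorem jqK_eq_jqModC : jqK = jqModC Kbar := by
  rw [jqK, ← jqModC_rat, coeffEmb, coeffMap_jqModC]

theorem coeff_jqK_pow_self (n : ℕ) : (jqK ^ n).coeff (-(n : ℤ)) = 1 := by
  rw [jqK_eq_jqModC]; exact coeff_jqModC_pow_self Kbar n

theorem coeff_jqK_pow_of_lt {n : ℕ} {m : ℤ} (hm : m < -(n : ℤ)) : (jqK ^ n).coeff m = 0 := by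
  rw [jqK_eq_jqModC]; exact coeff_jqModC_pow_of_lt Kbar hm

theorem coeff_jqK_neg_one : jqK.coeff (-1 : ℤ) = 1 := by
  rw [jqK_eq_jqModC]; exact coeff_jqModC_neg_one Kbar

theorem jqK_ne_zero : jqK ≠ 0 := fun h => by
  have := coeff_jqK_neg_one
  rw [h, HahnSeries.coeff_zero] at this
  exact zero_ne_one this

/-- The coefficient of `q^{-n}` of `p(j)` is the coefficient of `X^n` of `p`, `n = deg p`. -/
theorem coeff_aeval_jqK (p : Kbar[X]) :
    (aeval jqK p).coeff (-(p.natDegree : ℤ)) = p.leadingCoeff := by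
  set n := p.natDegree with hn
  rw [aeval_def, eval₂_eq_sum_range, HahnSeries.coeff_sum, Finset.sum_eq_single n]
  · rw [algebraMap_laurentSeries_eq_single, HahnSeries.coeff_single_zero_mul,
      coeff_jqK_pow_self, mul_one, leadingCoeff]
  · intro i hi hin
    have hilt : i < n := lt_of_le_of_ne (Nat.lt_succ_iff.mp (Finset.mem_range.mp hi)) hin
    rw [algebraMap_laurentSeries_eq_single, HahnSeries.coeff_single_zero_mul,
      coeff_jqK_pow_of_lt, mul_zero]
    omega
  · intro hn'
    exact absurd (Finset.self_mem_range_succ n) hn'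

theorem aeval_jqK_eq_zero {p : Kbar[X]} (hp : aeval jqK p = 0) : p = 0 := by
  have h := coeff_aeval_jqK p
  rw [hp, HahnSeries.coeff_zero] at h
  exact leadingCoeff_eq_zero.mp h.symm

/-- The formal `j` is transcendental over `ℚbar`. -/
theorem transcendental_jqK : Transcendental Kbar jqK :=
  transcendental_iff.mpr fun _ hp => aeval_jqK_eq_zero hp

variable (N : ℕ) [NeZero N]

/-- The underlying Laurent series of `jF N` is the formal `j`. -/
theorem coe_jF : ((jF N : FF N) : LaurentSeries Kbar) = jqK := by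
  show coeffEmb Kbar (qExpand ℚ 1 jq) = coeffEmb Kbar jq
  rw [qExpand_one_apply]

/-- `jF N` is transcendental over `ℚbar`. -/
theorem transcendental_jF : Transcendental Kbar (jF N) := by
  intro halg
  apply transcendental_jqK
  have := halg.algHom (IntermediateField.val (ModularCurve.modularFunctionFieldBar N))
  rw [← coe_jF N]
  exact this

/-- `jF N - c` is nonzero for every constant `c`. -/
theorem jF_sub_algebraMap_ne_zero (c : Kbar) : jF N - algebraMap Kbar (FF N) c ≠ 0 := by
  intro h
  apply transcendental_jF N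
  rw [sub_eq_zero] at h
  rw [h]
  exact isAlgebraic_algebraMap c

end Transcendence

end Fermat.Agent.X0
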