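/-
Program C, piece C-F2e (3)-(5) (helper27): the degree `[F : ℚbar(j)] = ψ(N)`, the classification
of the embeddings, and the norm formulas, for an ARBITRARY interface pair
`(D : RealizeData N) (C : CuspData N D)`.

This instantiates the abstract lemma `AbsDegree.main` with `X = SL(2,ℤ) ⧸ Γ₀(N)`,
`T x = C.T (rep x)⁻¹`, using
* `Integrality.lean` (helper24) for HYP2,
* `CuspDistinct.mem_Gamma0_of_T_eq` (helper9) for HYP3,
* `G1Index.g1_card` for the cardinality of `X`,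
* `RootsK.transcendental_jF` for `FF.IsGen`.
-/
import Fermat.Agent.X0.AbsDegree
import Fermat.Agent.X0.Integrality
import Fermat.Agent.X0.CuspDistinct
import Fermat.Agent.X0.FracR
import Fermat.Agent.X0.G1Index
import Fermat.Agent.X0.RootsK
import Fermat.Agent.X0.FFDefs

set_option autoImplicit false
set_option linter.unusedSectionVars false

open ModularCurve UpperHalfPlane
open scoped MatrixGroups IntermediateField

noncomputable section

namespace Fermat.Agent.X0.Degree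

open Fermat.Agent.X0
open scoped Polynomial

variable (N : ℕ) [NeZero N] (D : RealizeData N) (C : CuspData N D)

/-! ### All cusp expansion maps agree on `ℚbar(j)` -/

/-- The subfield of `F` on which two ring homs agree, as an intermediate field when they agree
on constants. -/
def eqLocusIF {L : Type*} [Field L] (f g : FF N →+* L)
    (h : ∀ c : Kbar, f (algebraMap Kbar (FF N) c) = g (algebraMap Kbar (FF N) c)) :
    IntermediateField Kbar (FF N) :=
  { RingHom.eqLocusField f g with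
    algebraMap_mem' := fun c => h c }

theorem mem_eqLocusIF {L : Type*} [Field L] (f g : FF N →+* L)
    (h : ∀ c : Kbar, f (algebraMap Kbar (FF N) c) = g (algebraMap Kbar (FF N) c)) (a : FF N) :
    a ∈ eqLocusIF N f g h ↔ f a = g a := Iff.rfl

/-- Two cusp expansion maps agree on `ℚbar(j)`. -/
theorem T_eq_on_Kj (γ γ' : SL(2, ℤ)) (a : Kj N) : C.T γ (a : FF N) = C.T γ' (a : FF N) := by
  have hc : ∀ c : Kbar, C.T γ (algebraMap Kbar (FF N) c) = C.T γ' (algebraMap Kbar (FF N) c) :=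
    fun c => by rw [intg_T_algebraMap, intg_T_algebraMap]
  have hle : Kj N ≤ eqLocusIF N (C.T γ) (C.T γ') hc := by
    rw [Kj, IntermediateField.adjoin_le_iff]
    intro x hx
    rw [Set.mem_singleton_iff] at hx
    subst hx
    show C.T γ (jF N) = C.T γ' (jF N)
    rw [intg_T_jF, intg_T_jF]
  exact hle a.2

/-! ### The hypotheses of `AbsDegree.main` -/

section Rep

variable (rep : SL(2, ℤ) ⧸ CongruenceSubgroup.Gamma0 N → SL(2, ℤ))
  (hrep : ∀ x, (rep x : SL(2, ℤ) ⧸ CongruenceSubgroup.Gamma0 N) = x)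

/-- The family of embeddings `x ↦ C.T (rep x)⁻¹`. -/
def Tx (x : SL(2, ℤ) ⧸ CongruenceSubgroup.Gamma0 N) : FF N →+* LaurentSeries Kbar :=
  C.T (rep x)⁻¹

theorem Tx_apply (x : SL(2, ℤ) ⧸ CongruenceSubgroup.Gamma0 N) (f : FF N) :
    Tx N D C rep x f = C.T (rep x)⁻¹ f := rfl

include hrep in
/-- **HYP3**: the embeddings `C.T (rep x)⁻¹` are pairwise distinct. -/
theorem Tx_injective : Function.Injective (Tx N D C rep) := by
  intro x y h
  have hmem := CuspDistinct.mem_Gamma0_of_T_eq D C (rep x)⁻¹ (rep y)⁻¹ h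
  rw [inv_inv] at hmem
  have := QuotientGroup.eq.mpr hmem
  rw [hrep, hrep] at this
  exact this.symm

include hrep in
/-- consumer form of **HYP3**. -/
theorem T_rep_inv_injective :
    Function.Injective (fun x : SL(2, ℤ) ⧸ CongruenceSubgroup.Gamma0 N => C.T (rep x)⁻¹) :=
  Tx_injective N D C rep hrep

/-- **HYP1**. -/
theorem Tx_agree (x x₀ : SL(2, ℤ) ⧸ CongruenceSubgroup.Gamma0 N) (a : Kj N) :
    Tx N D C rep x (a : FF N) = Tx N D C rep x₀ (a : FF N) :=
  T_eq_on_Kj N D C _ _ a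

include hrep in
/-- **HYP2**. -/
theorem Tx_coeff [Fintype (SL(2, ℤ) ⧸ CongruenceSubgroup.Gamma0 N)]
    (x₀ : SL(2, ℤ) ⧸ CongruenceSubgroup.Gamma0 N) (u : Rsub N) (k : ℕ) :
    ∃ a : Kj N, Tx N D C rep x₀ (a : FF N)
      = (∏ x, (Polynomial.X - Polynomial.C (Tx N D C rep x (u : FF N)))).coeff k := by
  obtain ⟨a, ha⟩ := integrality_mem_range N D C rep hrep u k
  refine ⟨a, ?_⟩
  rw [Tx_apply, T_eq_on_Kj N D C (rep x₀)⁻¹ 1 a]
  exact ha

include hrep in
/-- `AbsDegree.main` instantiated (degree, norm, trace). -/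
theorem main_inst [Fintype (SL(2, ℤ) ⧸ CongruenceSubgroup.Gamma0 N)]
    (x₀ : SL(2, ℤ) ⧸ CongruenceSubgroup.Gamma0 N) :
    FiniteDimensional (Kj N) (FF N) ∧
      Module.finrank (Kj N) (FF N) = Fintype.card (SL(2, ℤ) ⧸ CongruenceSubgroup.Gamma0 N) ∧
      (∀ f : FF N, Tx N D C rep x₀ (algebraMap (Kj N) (FF N) (Algebra.norm (Kj N) f))
        = ∏ x, Tx N D C rep x f) ∧
      (∀ f : FF N, Tx N D C rep x₀ (algebraMap (Kj N) (FF N) (Algebra.trace (Kj N) (FF N) f))
        = ∑ x, Tx N D C rep x f) := by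
  have h := AbsDegree.main.{0, 0, 0, 0, 0} (K := Kbar) (F := FF N) (L := LaurentSeries Kbar)
    (R := Rsub N) (Kj := Kj N) (T := Tx N D C rep) (x₀ := x₀)
    (fun x a => Tx_agree N D C rep x x₀ a)
    (fun u k => Tx_coeff N D C rep hrep x₀ u k)
    (Tx_injective N D C rep hrep)
  exact ⟨h.1, h.2.1, h.2.2.1, h.2.2.2.1⟩

include hrep in
/-- `AbsDegree.main` instantiated (classification of embeddings). -/
theorem main_classify [Fintype (SL(2, ℤ) ⧸ CongruenceSubgroup.Gamma0 N)]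
    (x₀ : SL(2, ℤ) ⧸ CongruenceSubgroup.Gamma0 N)
    {E : Type*} [Field E] (ι : LaurentSeries Kbar →+* E) (τ : FF N →+* E)
    (hτ : ∀ a : Kj N, τ (a : FF N) = ι (Tx N D C rep x₀ (a : FF N))) :
    ∃ x, ∀ f : FF N, τ f = ι (Tx N D C rep x f) :=
  (AbsDegree.main (K := Kbar) (F := FF N) (L := LaurentSeries Kbar) (R := Rsub N)
    (Kj := Kj N) (T := Tx N D C rep) (x₀ := x₀)
    (fun x a => Tx_agree N D C rep x x₀ a)
    (fun u k => Tx_coeff N D C rep hrep x₀ u k)
    (Tx_injective N D C rep hrep)).2.2.2.2 ι τ hτ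

end Rep

/-! ### Exports -/

/-- The canonical section `Quotient.out`. -/
def rep (x : SL(2, ℤ) ⧸ CongruenceSubgroup.Gamma0 N) : SL(2, ℤ) := Quotient.out x

theorem rep_spec (x : SL(2, ℤ) ⧸ CongruenceSubgroup.Gamma0 N) :
    (rep N x : SL(2, ℤ) ⧸ CongruenceSubgroup.Gamma0 N) = x :=
  QuotientGroup.out_eq' x

include D C in
/-- **C-F2e (3)**: `F` is finite over `ℚbar(j)`. -/
theorem finiteDimensional : FiniteDimensional (Kj N) (FF N) := by
  haveI : Fintype (SL(2, ℤ) ⧸ CongruenceSubgroup.Gamma0 N) := Fintype.ofFinite _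
  exact (main_inst N D C (rep N) (rep_spec N) (1 : SL(2, ℤ))).1

include D C in
/-- **C-F2e (3)**: `[F : ℚbar(j)] = #(SL(2,ℤ) ⧸ Γ₀(N))`. -/
theorem card_eq_finrank :
    Nat.card (SL(2, ℤ) ⧸ CongruenceSubgroup.Gamma0 N) = Module.finrank (Kj N) (FF N) := by
  haveI : Fintype (SL(2, ℤ) ⧸ CongruenceSubgroup.Gamma0 N) := Fintype.ofFinite _
  rw [(main_inst N D C (rep N) (rep_spec N) (1 : SL(2, ℤ))).2.1, Nat.card_eq_fintype_card]

include D C in
/-- **C-F2e (3)**: `[F : ℚbar(j)] = ψ(N)`. -/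
theorem finrank_Kj : Module.finrank (Kj N) (FF N) = ModularCurve.dedekindPsi N := by
  rw [← card_eq_finrank N D C, G1Index.g1_card]

include D C in
/-- the same with the field written as `ℚbar⟮j⟯`. -/
theorem finiteDimensional_adjoin : FiniteDimensional Kbar⟮jF N⟯ (FF N) :=
  finiteDimensional N D C

include D C in
theorem finrank_adjoin : Module.finrank Kbar⟮jF N⟯ (FF N) = ModularCurve.dedekindPsi N :=
  finrank_Kj N D C

include D C in
theorem card_eq_finrank_adjoin :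
    Nat.card (SL(2, ℤ) ⧸ CongruenceSubgroup.Gamma0 N) = Module.finrank Kbar⟮jF N⟯ (FF N) :=
  card_eq_finrank N D C

include D C in
/-- `j` is a transcendental generator of `F / ℚbar`. -/
theorem isGen_jF : FF.IsGen Kbar (jF N) :=
  ⟨transcendental_jF N, finiteDimensional_adjoin N D C⟩

include D C in
/-- `F / ℚbar(j)` is separable (characteristic zero). -/
theorem isSeparable_adjoin : Algebra.IsSeparable Kbar⟮jF N⟯ (FF N) := by
  haveI := finiteDimensional_adjoin N D C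
  infer_instance

include C in
/-- DISTINCT in analytic form: if all `Θ u ∘ γ = Θ u ∘ γ'` then `γ' γ⁻¹ ∈ Γ₀(N)`. -/
theorem mem_Gamma0_of_compSL_eq (γ γ' : SL(2, ℤ))
    (h : ∀ u : Rsub N, compSL (D.Θ u) γ = compSL (D.Θ u) γ') :
    γ' * γ⁻¹ ∈ CongruenceSubgroup.Gamma0 N := by
  apply CuspDistinct.mem_Gamma0_of_T_jdF_eq D C γ γ'
  have h1 : ((jdR N N (dvd_refl N) : Rsub N) : FF N) = jdF N N (dvd_refl N) := rfl
  rw [← h1]
  apply intg_T_eq_of_qn
  rw [h]
  exact intg_T_spec N D C γ' _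

section Rep2

variable (rep : SL(2, ℤ) ⧸ CongruenceSubgroup.Gamma0 N → SL(2, ℤ))
  (hrep : ∀ x, (rep x : SL(2, ℤ) ⧸ CongruenceSubgroup.Gamma0 N) = x)

include hrep in
/-- **C-F2e (5)**, formal norm formula: `T_1 (N_{F/ℚbar(j)} f) = ∏_x T_{(rep x)⁻¹} f`. -/
theorem norm_formula [Fintype (SL(2, ℤ) ⧸ CongruenceSubgroup.Gamma0 N)] (f : FF N) :
    C.T 1 (algebraMap (Kj N) (FF N) (Algebra.norm (Kj N) f)) = ∏ x, C.T (rep x)⁻¹ f := by
  exact (T_eq_on_Kj N D C 1 _ (Algebra.norm (Kj N) f)).trans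
    ((main_inst N D C rep hrep (1 : SL(2, ℤ))).2.2.1 f)

include hrep in
/-- formal trace formula. -/
theorem trace_formula [Fintype (SL(2, ℤ) ⧸ CongruenceSubgroup.Gamma0 N)] (f : FF N) :
    C.T 1 (algebraMap (Kj N) (FF N) (Algebra.trace (Kj N) (FF N) f)) = ∑ x, C.T (rep x)⁻¹ f := by
  exact (T_eq_on_Kj N D C 1 _ (Algebra.trace (Kj N) (FF N) f)).trans
    ((main_inst N D C rep hrep (1 : SL(2, ℤ))).2.2.2 f)

include hrep in
/-- **C-F2e (4)**, classification of the embeddings of `F` over `ℚbar(j)`: every ring hom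
`τ : F → E` which agrees with `ι ∘ T_1` on `ℚbar(j)` is `ι ∘ T_{(rep x)⁻¹}` for some `x`. -/
theorem exists_eq_T {E : Type*} [Field E] (ι : LaurentSeries Kbar →+* E) (τ : FF N →+* E)
    (hτ : ∀ a : Kj N, τ (a : FF N) = ι (C.T 1 (a : FF N))) :
    ∃ x : SL(2, ℤ) ⧸ CongruenceSubgroup.Gamma0 N, ∀ f : FF N, τ f = ι (C.T (rep x)⁻¹ f) := by
  haveI : Fintype (SL(2, ℤ) ⧸ CongruenceSubgroup.Gamma0 N) := Fintype.ofFinite _
  refine main_classify N D C rep hrep (1 : SL(2, ℤ)) ι τ fun a => ?_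
  rw [hτ a, Tx_apply, T_eq_on_Kj N D C 1 (rep ((1 : SL(2, ℤ)) :
    SL(2, ℤ) ⧸ CongruenceSubgroup.Gamma0 N))⁻¹ a]

include hrep C in
/-- **C-F2e (5)**, analytic norm formula: for `u ∈ R` the norm of `u` is a POLYNOMIAL `p(j)`,
`p ∈ ℚbar[X]`, and `p(j(z)) = ∏_x (Θ u)((rep x)⁻¹ z)`. -/
theorem norm_formula_analytic [Fintype (SL(2, ℤ) ⧸ CongruenceSubgroup.Gamma0 N)] (u : Rsub N) :
    ∃ p : Kbar[X],
      algebraMap (Kj N) (FF N) (Algebra.norm (Kj N) (u : FF N)) = Polynomial.aeval (jF N) p ∧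
      ∀ z, (p.map iotaK).eval (jFun z) = ∏ x, compSL (D.Θ u) (rep x)⁻¹ z := by
  obtain ⟨p, hp, -⟩ := integrality N D C rep hrep u 0
  set n := Fintype.card (SL(2, ℤ) ⧸ CongruenceSubgroup.Gamma0 N) with hn
  have h0 : (∏ x, (Polynomial.X - Polynomial.C (C.T (rep x)⁻¹ (u : FF N)))).coeff 0
      = (-1) ^ n * ∏ x, C.T (rep x)⁻¹ (u : FF N) := by
    rw [Polynomial.coeff_zero_eq_eval_zero, Polynomial.eval_prod]
    simp only [Polynomial.eval_sub, Polynomial.eval_X, Polynomial.eval_C, zero_sub]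
    rw [Finset.prod_neg, Finset.card_univ]
  have hprod : ∏ x, C.T (rep x)⁻¹ (u : FF N)
      = C.T 1 (Polynomial.aeval (jF N) (Polynomial.C ((-1 : Kbar) ^ n) * p)) := by
    rw [map_mul, map_mul, Polynomial.aeval_C, ← hp, h0, map_pow, map_neg, map_one, map_pow, map_neg,
      map_one, ← mul_assoc, ← mul_pow]
    norm_num
  refine ⟨Polynomial.C ((-1 : Kbar) ^ n) * p, ?_, fun z => ?_⟩
  · apply (C.T 1).injective
    rw [norm_formula N D C rep hrep, hprod]
  · exact integrality_prod_of_eq N D C rep u _ hprod z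

include hrep C in
/-- variant of the analytic norm formula recording `p ≠ 0` for `u ≠ 0`. -/
theorem norm_formula_analytic_ne_zero [Fintype (SL(2, ℤ) ⧸ CongruenceSubgroup.Gamma0 N)]
    (u : Rsub N) (hu : u ≠ 0) :
    ∃ p : Kbar[X], p ≠ 0 ∧
      algebraMap (Kj N) (FF N) (Algebra.norm (Kj N) (u : FF N)) = Polynomial.aeval (jF N) p ∧
      ∀ z, (p.map iotaK).eval (jFun z) = ∏ x, compSL (D.Θ u) (rep x)⁻¹ z := by
  obtain ⟨p, hp, hpz⟩ := norm_formula_analytic N D C rep hrep u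
  refine ⟨p, ?_, hp, hpz⟩
  rintro rfl
  haveI := finiteDimensional N D C
  rw [map_zero] at hp
  have h0 : Algebra.norm (Kj N) (u : FF N) = 0 := by
    apply (algebraMap (Kj N) (FF N)).injective
    rw [hp, map_zero]
  rw [Algebra.norm_eq_zero_iff] at h0
  exact hu (Subtype.ext h0)

end Rep2

/-! ### Non-vanishing at points with transcendental `j`-value -/

include C in
/-- If `j(z₀) ∉ ι(ℚbar)` then no nonzero element of `R` vanishes at any `SL(2,ℤ)`-translate
of `z₀`. -/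
theorem compSL_Θ_ne_zero_of_transcendental (s : Rsub N) (hs : s ≠ 0) (z₀ : ℍ)
    (hz : jFun z₀ ∉ Set.range iotaK) (γ : SL(2, ℤ)) : compSL (D.Θ s) γ z₀ ≠ 0 := by
  classical
  haveI : Fintype (SL(2, ℤ) ⧸ CongruenceSubgroup.Gamma0 N) := Fintype.ofFinite _
  -- a section passing through `γ⁻¹`
  let x₁ : SL(2, ℤ) ⧸ CongruenceSubgroup.Gamma0 N := ((γ⁻¹ : SL(2, ℤ)) : _)
  let r : SL(2, ℤ) ⧸ CongruenceSubgroup.Gamma0 N → SL(2, ℤ) :=
    Function.update (rep N) x₁ γ⁻¹
  have hr : ∀ x, (r x : SL(2, ℤ) ⧸ CongruenceSubgroup.Gamma0 N) = x := by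
    intro x
    by_cases hx : x = x₁
    · subst hx
      simp only [r, Function.update_self]
      rfl
    · simp only [r, Function.update_of_ne hx]
      exact rep_spec N x
  obtain ⟨p, hp0, -, hpz⟩ := norm_formula_analytic_ne_zero N D C r hr s hs
  intro h0
  apply hz
  have hprod : ∏ x, compSL (D.Θ s) (r x)⁻¹ z₀ = 0 := by
    refine Finset.prod_eq_zero (Finset.mem_univ x₁) ?_
    have : r x₁ = γ⁻¹ := by simp only [r, Function.update_self]
    rw [this, inv_inv]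
    exact h0
  have hroot : (p.map iotaK).IsRoot (jFun z₀) := by
    rw [Polynomial.IsRoot.def, hpz, hprod]
  exact (IsAlgClosed.splits p).mem_range_of_isRoot hp0 hroot

include C in
/-- **(LOW) (iii)**: if `j(z₀) ∉ ι(ℚbar)` then `Θ s` does not vanish at `z₀` for `s ≠ 0`. -/
theorem Θ_ne_zero_of_transcendental (s : Rsub N) (hs : s ≠ 0) (z₀ : ℍ)
    (hz : jFun z₀ ∉ Set.range iotaK) : D.Θ s z₀ ≠ 0 := by
  have h := compSL_Θ_ne_zero_of_transcendental N D C s hs z₀ hz 1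
  have h1 : compSL (D.Θ s) 1 z₀ = D.Θ s z₀ := by
    show D.Θ s ((1 : SL(2, ℤ)) • z₀) = D.Θ s z₀
    rw [one_smul]
  rwa [h1] at h

end Fermat.Agent.X0.Degree
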