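/-
Program C, piece C-F2d (1) (helper16): the conjugates of `j(d z)`:
`j(d · (γ • z)) = j((a z + b) / e)` with `a e = d`, `0 ≤ b < e`, `gcd(a, b, e) = 1`.
-/
import Fermat.Agent.X0.Hermite
import Fermat.Agent.X0.JBasic

set_option autoImplicit false

open UpperHalfPlane
open scoped MatrixGroups

noncomputable section

namespace Fermat.Agent.X0.Hermite

/-- `j(d · (γ • z)) = j((a z + b) / e)`. -/
theorem exists_jdFun_smul (γ : SL(2, ℤ)) (d : ℕ) [NeZero d] :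
    ∃ (a e : ℕ) (b : ℤ) (ha : 0 < a) (he : 0 < e), a * e = d ∧ 0 ≤ b ∧ b < e ∧
      (∀ n : ℤ, n ∣ (a : ℤ) → n ∣ b → n ∣ (e : ℤ) → IsUnit n) ∧
      ∀ z : ℍ, jdFun d (γ • z) = jFun (affH a e b ha he z) := by
  obtain ⟨γ', a, e, b, ha, he, hae, hb0, hbe, hcop, h⟩ := exists_scaleH_smul γ d
  refine ⟨a, e, b, ha, he, hae, hb0, hbe, hcop, fun z => ?_⟩
  rw [jdFun, h z, jFun_smul]

/-- `compSL (jdFun d) γ = jFun ∘ affH a e b`. -/
theorem exists_compSL_jdFun (γ : SL(2, ℤ)) (d : ℕ) [NeZero d] :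
    ∃ (a e : ℕ) (b : ℤ) (ha : 0 < a) (he : 0 < e), a * e = d ∧ 0 ≤ b ∧ b < e ∧
      (∀ n : ℤ, n ∣ (a : ℤ) → n ∣ b → n ∣ (e : ℤ) → IsUnit n) ∧
      compSL (jdFun d) γ = fun z => jFun (affH a e b ha he z) := by
  obtain ⟨a, e, b, ha, he, hae, hb0, hbe, hcop, h⟩ := exists_jdFun_smul γ d
  exact ⟨a, e, b, ha, he, hae, hb0, hbe, hcop, funext fun z => h z⟩

end Fermat.Agent.X0.Hermite
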