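/-
Program C (C-F2b): functions on `ℍ` given by convergent `q_h`-expansions.
-/
import Fermat.Agent.X0.AnDefs

set_option autoImplicit false

open UpperHalfPlane Function Filter Topology
open scoped MatrixGroups Manifold

noncomputable section

namespace Fermat.Agent.X0

/-! ### The parameter `q_h` -/

theorem qh_ne_zero (h : ℕ) (z : ℍ) : qh h z ≠ 0 := Periodic.qParam_ne_zero _

theorem norm_qh_lt_one (h : ℕ) [NeZero h] (z : ℍ) : ‖qh h z‖ < 1 :=
  Periodic.norm_qParam_lt_one (by exact_mod_cast Nat.pos_of_ne_zero (NeZero.ne h)) z.im_pos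

theorem exists_qh_eq (h : ℕ) [NeZero h] {q : ℂ} (hq0 : q ≠ 0) (hq1 : ‖q‖ < 1) :
    ∃ z : ℍ, qh h z = q := by
  have hh : (0 : ℝ) < h := by exact_mod_cast Nat.pos_of_ne_zero (NeZero.ne h)
  refine ⟨⟨Periodic.invQParam h q, Periodic.im_invQParam_pos_of_norm_lt_one hh hq1 hq0⟩, ?_⟩
  exact Periodic.qParam_right_inv hh.ne' hq0

/-! ### Power series on the unit disc -/

/-- A power series (given by scalar coefficients) which converges on the whole open unit disc. -/
theorem hasFPowerSeriesOnBall_of_hasSum {c : ℕ → ℂ} {g : ℂ → ℂ}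
    (hg : ∀ q : ℂ, ‖q‖ < 1 → HasSum (fun n => c n * q ^ n) (g q)) :
    HasFPowerSeriesOnBall g (FormalMultilinearSeries.ofScalars ℂ c) 0 1 := by
  constructor
  · refine le_of_forall_lt_imp_le_of_dense fun r hr ↦ ?_
    lift r to NNReal using hr.ne_top
    apply FormalMultilinearSeries.le_radius_of_summable
    have hr1 : ‖((r : ℝ) : ℂ)‖ < 1 := by
      simpa using hr
    have := (hg ((r : ℝ) : ℂ) hr1).summable.norm
    simpa [FormalMultilinearSeries.ofScalars_norm, norm_mul, norm_pow] using this
  · simp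
  · intro y hy
    rw [← ENNReal.coe_one, Metric.eball_coe, NNReal.coe_one, mem_ball_zero_iff] at hy
    simpa [FormalMultilinearSeries.ofScalars_apply_eq, mul_comm, zero_add] using hg y hy

/-- Uniqueness of power series coefficients from the values on the punctured disc. -/
theorem coeff_eq_of_hasSum_punctured {c c' : ℕ → ℂ} {g : ℂ → ℂ}
    (hc : ∀ q : ℂ, q ≠ 0 → ‖q‖ < 1 → HasSum (fun n => c n * q ^ n) (g q))
    (hc' : ∀ q : ℂ, q ≠ 0 → ‖q‖ < 1 → HasSum (fun n => c' n * q ^ n) (g q)) : c = c' := by
  have key : ∀ (d : ℕ → ℂ), (∀ q : ℂ, q ≠ 0 → ‖q‖ < 1 → HasSum (fun n => d n * q ^ n) (g q)) →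
      HasFPowerSeriesOnBall (Function.update g 0 (d 0)) (FormalMultilinearSeries.ofScalars ℂ d) 0 1 := by
    intro d hd
    apply hasFPowerSeriesOnBall_of_hasSum
    intro q hq
    rcases eq_or_ne q 0 with rfl | hq0
    · simpa +contextual [zero_pow_eq] using hasSum_ite_eq 0 (d 0)
    · simpa [Function.update_of_ne hq0] using hd q hq0 hq
  have h1 := (key c hc).hasFPowerSeriesAt
  have h2 := (key c' hc').hasFPowerSeriesAt
  have h0 : c 0 = c' 0 := by
    have L1 := h1.continuousAt
    have L2 := h2.continuousAt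
    have := (L1.eventuallyEq_nhds_iff_eventuallyEq_nhdsNE L2).mp <| by
      filter_upwards [self_mem_nhdsWithin] with a ha
      rw [Function.update_of_ne ha, Function.update_of_ne ha]
    simpa [Function.update_self] using this.eq_of_nhds
  rw [h0] at h1
  have := h1.eq_formalMultilinearSeries h2
  funext n
  simpa [FormalMultilinearSeries.coeff_ofScalars] using
    congr_arg (FormalMultilinearSeries.coeff · n) this


/-! ### `laurentOf` -/

section laurentOf

variable {R : Type*} [CommRing R]

theorem laurentOf_zero_left (P : PowerSeries R) :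
    laurentOf 0 P = HahnSeries.ofPowerSeries ℤ R P := by
  simp [laurentOf]

theorem laurentOf_add (m : ℕ) (P Q : PowerSeries R) :
    laurentOf m (P + Q) = laurentOf m P + laurentOf m Q := by
  simp [laurentOf, mul_add]

theorem laurentOf_mul (m m' : ℕ) (P Q : PowerSeries R) :
    laurentOf (m + m') (P * Q) = laurentOf m P * laurentOf m' Q := by
  have : (HahnSeries.single (-((m + m' : ℕ) : ℤ)) (1 : R)) =
      HahnSeries.single (-(m : ℤ)) (1 : R) * HahnSeries.single (-(m' : ℤ)) (1 : R) := by
    rw [HahnSeries.single_mul_single]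
    congr 1
    · rw [Nat.cast_add, neg_add]
    · simp
  simp only [laurentOf, this, map_mul]
  exact mul_mul_mul_comm _ _ _ _

theorem laurentOf_shift (m k : ℕ) (P : PowerSeries R) :
    laurentOf (m + k) (PowerSeries.X ^ k * P) = laurentOf m P := by
  have h1 : HahnSeries.ofPowerSeries ℤ R (PowerSeries.X ^ k) = HahnSeries.single (k : ℤ) (1 : R) := by
    rw [HahnSeries.ofPowerSeries_X_pow]
  have : (HahnSeries.single (-((m + k : ℕ) : ℤ)) (1 : R)) * HahnSeries.single (k : ℤ) (1 : R) =
      HahnSeries.single (-(m : ℤ)) (1 : R) := by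
    rw [HahnSeries.single_mul_single]
    congr 1
    · rw [Nat.cast_add, neg_add, add_assoc, neg_add_cancel, add_zero]
    · simp
  simp only [laurentOf, map_mul, h1]
  rw [← mul_assoc, this]

theorem laurentOf_injective (m : ℕ) : Function.Injective (laurentOf (R := R) m) := by
  intro P Q hPQ
  have hu : HahnSeries.single (m : ℤ) (1 : R) * HahnSeries.single (-(m : ℤ)) (1 : R) = 1 := by
    rw [HahnSeries.single_mul_single]
    simp
  have := congr_arg (fun x => HahnSeries.single (m : ℤ) (1 : R) * x) hPQ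
  simp only [laurentOf, ← mul_assoc, hu, one_mul] at this
  exact HahnSeries.ofPowerSeries_injective this

theorem laurentOf_eq_iff (m m' : ℕ) (P Q : PowerSeries R) :
    laurentOf m P = laurentOf m' Q ↔ PowerSeries.X ^ m' * P = PowerSeries.X ^ m * Q := by
  rw [← laurentOf_shift m m' P, ← laurentOf_shift m' m Q, add_comm m' m]
  exact (laurentOf_injective (m + m')).eq_iff

theorem laurentOf_eq_zero_iff (m : ℕ) (P : PowerSeries R) : laurentOf m P = 0 ↔ P = 0 := by
  have h0 : laurentOf m (0 : PowerSeries R) = 0 := by simp [laurentOf]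
  rw [← h0]
  exact (laurentOf_injective m).eq_iff

theorem coeffMap_laurentOf {S : Type*} [CommRing S] (φ : R →+* S) (m : ℕ) (P : PowerSeries R) :
    ModularCurve.coeffMap φ (laurentOf m P) = laurentOf m (P.map φ) := by
  have h2 : ModularCurve.coeffMap φ (HahnSeries.ofPowerSeries ℤ R P) =
      HahnSeries.ofPowerSeries ℤ S (P.map φ) := by
    ext k
    rw [ModularCurve.coeffMap_coeff]
    by_cases hk : 0 ≤ k
    · lift k to ℕ using hk
      simp [HahnSeries.ofPowerSeries_apply_coeff]
    · have hk := not_le.mp hk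
      rw [ModularCurve.ofPowerSeries_coeff_of_neg _ hk, ModularCurve.ofPowerSeries_coeff_of_neg _ hk,
        map_zero]
  simp only [laurentOf, map_mul, ModularCurve.coeffMap_single, map_one, h2]

end laurentOf

/-! ### `IsQExp`: closure properties and uniqueness -/

section IsQExp

open PowerSeries

variable {h : ℕ} [NeZero h] {f g : ℍ → ℂ} {m m' : ℕ} {P Q P' : PowerSeries ℂ}

theorem IsQExp.summable_punctured (hP : IsQExp h f m P) {q : ℂ} (hq0 : q ≠ 0) (hq1 : ‖q‖ < 1) :
    Summable (fun n : ℕ => coeff n P * q ^ n) := by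
  obtain ⟨z, rfl⟩ := exists_qh_eq h hq0 hq1
  exact (hP z).summable

theorem IsQExp.summable (hP : IsQExp h f m P) {q : ℂ} (hq1 : ‖q‖ < 1) :
    Summable (fun n : ℕ => coeff n P * q ^ n) := by
  rcases eq_or_ne q 0 with rfl | hq0
  · have : HasSum (fun n : ℕ => coeff n P * (0 : ℂ) ^ n) (coeff 0 P) := by
      simpa +contextual [zero_pow_eq] using hasSum_ite_eq 0 (coeff 0 P)
    exact this.summable
  · exact hP.summable_punctured hq0 hq1

theorem IsQExp.hasFPowerSeriesOnBall (hP : IsQExp h f m P) :
    HasFPowerSeriesOnBall (fun q : ℂ => ∑' n : ℕ, coeff n P * q ^ n)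
      (FormalMultilinearSeries.ofScalars ℂ (fun n => coeff n P)) 0 1 :=
  hasFPowerSeriesOnBall_of_hasSum (fun _ hq => (hP.summable hq).hasSum)

theorem IsQExp.summable_norm (hP : IsQExp h f m P) {q : ℂ} (hq1 : ‖q‖ < 1) :
    Summable (fun n : ℕ => ‖coeff n P * q ^ n‖) := by
  have h1 := hP.hasFPowerSeriesOnBall.r_le
  have hlt : ((‖q‖₊ : NNReal) : ENNReal) <
      (FormalMultilinearSeries.ofScalars ℂ (fun n => coeff n P)).radius := by
    refine lt_of_lt_of_le ?_ h1
    rw [← ENNReal.coe_one, ENNReal.coe_lt_coe]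
    exact_mod_cast hq1
  have h2 := (FormalMultilinearSeries.ofScalars ℂ (fun n => coeff n P)).summable_norm_mul_pow hlt
  simpa [norm_mul, norm_pow, FormalMultilinearSeries.ofScalars_norm] using h2

theorem isQExp_const (h : ℕ) (c : ℂ) : IsQExp h (fun _ => c) 0 (PowerSeries.C c) := by
  intro z
  have : HasSum (fun n : ℕ => if n = 0 then c else 0) c := hasSum_ite_eq 0 c
  convert this using 2 with n
  · rw [coeff_C]
    split_ifs with hn
    · subst hn; simp
    · simp
  · simp

theorem isQExp_zero (h : ℕ) (m : ℕ) : IsQExp h (0 : ℍ → ℂ) m 0 := by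
  intro z
  simp [hasSum_zero]

omit [NeZero h] in
theorem IsQExp.shift (hP : IsQExp h f m P) (k : ℕ) : IsQExp h f (m + k) (X ^ k * P) := by
  intro z
  have h1 := (hP z).mul_right (qh h z ^ k)
  have hinj : Function.Injective (fun n : ℕ => n + k) := add_left_injective k
  rw [pow_add, ← mul_assoc, ← hinj.hasSum_iff]
  · have hfun : ((fun n : ℕ => coeff n (X ^ k * P) * qh h z ^ n) ∘ fun n : ℕ => n + k) =
        fun i : ℕ => coeff i P * qh h z ^ i * qh h z ^ k := by
      funext n
      simp only [Function.comp_apply, coeff_X_pow_mul, pow_add, mul_assoc]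
    rw [hfun]
    exact h1
  · intro n hn
    have hnk : n < k := by
      by_contra hcon
      exact hn ⟨n - k, by simp only; omega⟩
    rw [coeff_X_pow_mul', if_neg (by omega), zero_mul]

omit [NeZero h] in
theorem IsQExp.add (hP : IsQExp h f m P) (hQ : IsQExp h g m' Q) :
    IsQExp h (f + g) (m + m') (X ^ m' * P + X ^ m * Q) := by
  intro z
  have h1 := hP.shift m' z
  have h2 := hQ.shift m z
  rw [add_comm m' m] at h2
  simpa [add_mul, map_add] using h1.add h2

theorem IsQExp.mul (hP : IsQExp h f m P) (hQ : IsQExp h g m' Q) :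
    IsQExp h (f * g) (m + m') (P * Q) := by
  intro z
  set q := qh h z with hq
  have hq1 := norm_qh_lt_one h z
  have s1 := hP.summable_norm hq1
  have s2 := hQ.summable_norm hq1
  have key := tsum_mul_tsum_eq_tsum_sum_antidiagonal_of_summable_norm s1 s2
  have summ := summable_norm_sum_mul_antidiagonal_of_summable_norm s1 s2
  have hfun : (fun n : ℕ => coeff n (P * Q) * q ^ n) = fun n : ℕ =>
      ∑ kl ∈ Finset.HasAntidiagonal.antidiagonal n, (coeff kl.1 P * q ^ kl.1) * (coeff kl.2 Q * q ^ kl.2) := by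
    funext n
    rw [coeff_mul, Finset.sum_mul]
    refine Finset.sum_congr rfl fun kl hkl => ?_
    rw [← Finset.HasAntidiagonal.mem_antidiagonal.mp hkl, pow_add]
    ring
  rw [hfun]
  have hs := summ.of_norm
  have hval : (f * g) z * q ^ (m + m') = ∑' n : ℕ, ∑ kl ∈ Finset.HasAntidiagonal.antidiagonal n,
      (coeff kl.1 P * q ^ kl.1) * (coeff kl.2 Q * q ^ kl.2) := by
    rw [← key, (hP z).tsum_eq, (hQ z).tsum_eq, Pi.mul_apply, pow_add]
    ring
  rw [hval]
  exact hs.hasSum

theorem IsQExp.coeff_unique (hP : IsQExp h f m P) (hP' : IsQExp h f m P') : P = P' := by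
  have := coeff_eq_of_hasSum_punctured (c := fun n => coeff n P) (c' := fun n => coeff n P')
    (g := fun q : ℂ => ∑' n : ℕ, coeff n P * q ^ n) ?_ ?_
  · ext n
    exact congr_fun this n
  · intro q hq0 hq1
    exact (hP.summable_punctured hq0 hq1).hasSum
  · intro q hq0 hq1
    obtain ⟨z, rfl⟩ := exists_qh_eq h hq0 hq1
    rw [(hP z).tsum_eq]
    exact hP' z

/-- The Laurent series attached to an expansion of `f` only depends on `f`. -/
theorem IsQExp.unique (hP : IsQExp h f m P) (hP' : IsQExp h f m' P') :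
    laurentOf m P = laurentOf m' P' := by
  rw [laurentOf_eq_iff]
  have h1 := hP.shift m'
  have h2 := hP'.shift m
  rw [add_comm m' m] at h2
  exact h1.coeff_unique h2

omit [NeZero h] in
/-- A function is determined by its expansion. -/
theorem IsQExp.ext (hP : IsQExp h f m P) (hQ : IsQExp h g m' Q)
    (heq : laurentOf m P = laurentOf m' Q) : f = g := by
  rw [laurentOf_eq_iff] at heq
  funext z
  have h1 := hP.shift m' z
  have h2 := hQ.shift m z
  rw [add_comm m' m, ← heq] at h2
  have := h1.unique h2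
  exact mul_right_cancel₀ (pow_ne_zero _ (qh_ne_zero h z)) this

theorem IsQExp.eq_zero_iff (hP : IsQExp h f m P) : f = 0 ↔ P = 0 := by
  constructor
  · rintro rfl
    exact hP.coeff_unique (isQExp_zero h m)
  · rintro rfl
    exact hP.ext (isQExp_zero h m) rfl

omit [NeZero h] in
theorem IsQExp.neg (hP : IsQExp h f m P) : IsQExp h (-f) m (-P) := by
  intro z
  simpa using (hP z).neg

omit [NeZero h] in
theorem IsQExp.smul (hP : IsQExp h f m P) (c : ℂ) : IsQExp h (c • f) m (c • P) := by
  intro z
  simpa [mul_assoc] using (hP z).mul_left c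

/-- Change of level: a `q_h`-expansion is a `q_{h k}`-expansion in `q_h = q_{hk}^k`. -/
theorem IsQExp.level_mul (hP : IsQExp h f m P) (k : ℕ) [hk : NeZero k] :
    IsQExp (h * k) f (m * k) (P.expand k hk.ne) := by
  intro z
  have hqk : qh (h * k) z ^ k = qh h z := by
    unfold qh Function.Periodic.qParam
    rw [← Complex.exp_nat_mul]
    congr 1
    have hk0 : (k : ℂ) ≠ 0 := by exact_mod_cast hk.ne
    have hh0 : (h : ℂ) ≠ 0 := by exact_mod_cast NeZero.ne h
    push_cast
    field_simp
  have hinj : Function.Injective (fun n : ℕ => k * n) :=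
    mul_right_injective₀ hk.ne
  have h1 := hP z
  rw [mul_comm m k, pow_mul, hqk, ← hinj.hasSum_iff]
  · convert h1 using 2 with n
    simp only [Function.comp_apply, coeff_expand_mul, pow_mul, hqk]
  · intro n hn
    have : ¬ k ∣ n := fun ⟨d, hd⟩ => hn ⟨d, hd.symm⟩
    rw [coeff_expand_of_not_dvd k hk.ne P this, zero_mul]

end IsQExp

section laurentOfExpand

variable {R : Type*} [CommRing R]

theorem qExpand_laurentOf (k : ℕ) [hk : NeZero k] (m : ℕ) (P : PowerSeries R) :
    ModularCurve.qExpand R k (laurentOf m P) = laurentOf (m * k) (P.expand k hk.ne) := by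
  have h2 : ModularCurve.qExpand R k (HahnSeries.ofPowerSeries ℤ R P) =
      HahnSeries.ofPowerSeries ℤ R (P.expand k hk.ne) := by
    ext j
    by_cases hj : (k : ℤ) ∣ j
    · obtain ⟨i, rfl⟩ := hj
      rw [ModularCurve.qExpand_coeff_mul]
      by_cases hi : 0 ≤ i
      · lift i to ℕ using hi
        rw [show ((k : ℤ) * (i : ℤ)) = ((k * i : ℕ) : ℤ) by push_cast; rfl,
          HahnSeries.ofPowerSeries_apply_coeff, HahnSeries.ofPowerSeries_apply_coeff,
          PowerSeries.coeff_expand_mul]
      · have hi := not_le.mp hi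
        have hk0 : (0 : ℤ) < k := by exact_mod_cast Nat.pos_of_ne_zero hk.ne
        rw [ModularCurve.ofPowerSeries_coeff_of_neg _ hi,
          ModularCurve.ofPowerSeries_coeff_of_neg _ (mul_neg_of_pos_of_neg hk0 hi)]
    · rw [ModularCurve.qExpand_coeff_of_not_dvd k _ hj]
      by_cases hj0 : 0 ≤ j
      · lift j to ℕ using hj0
        rw [HahnSeries.ofPowerSeries_apply_coeff, PowerSeries.coeff_expand_of_not_dvd]
        exact fun hd => hj (by exact_mod_cast hd)
      · rw [ModularCurve.ofPowerSeries_coeff_of_neg _ (not_le.mp hj0)]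
  simp only [laurentOf, map_mul, ModularCurve.qExpand_single, h2]
  congr 2
  rw [Nat.cast_mul, mul_neg, mul_comm]

end laurentOfExpand

end Fermat.Agent.X0
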