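/-
Program C (C-J1/C-F2b, helper12): the analytic `j` has the `q`-expansion given by the Prelude's
formal `jq`, in the `IsQExp` language.  (The analytic work is helper19's `JQExp.hasSum_j`.)
-/
import Fermat.Agent.X0.QExpRing
import Fermat.Agent.X0.JQExp

set_option autoImplicit false

open UpperHalfPlane ModularForm

noncomputable section

namespace Fermat.Agent.X0

/-- `jNumQ` with coefficients in `ℚbar`. -/
def jNumK : PowerSeries Kbar := ModularCurve.jNumQ.map (algebraMap ℚ Kbar)

theorem iotaK_algebraMap_rat (r : ℚ) : iotaK (algebraMap ℚ Kbar r) = (r : ℂ) := by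
  simp [iotaK]

theorem map_iotaK_jNumK : jNumK.map iotaK = ModularCurve.jNumQ.map (algebraMap ℚ ℂ) := by
  ext n
  simp only [jNumK, PowerSeries.coeff_map, iotaK_algebraMap_rat]
  simp

/-- The formal `j` over `ℚbar` is `q⁻¹ * jNumK`. -/
theorem jqK_eq_laurentOf : jqK = laurentOf 1 jNumK := by
  have h1 : ModularCurve.jq = laurentOf 1 ModularCurve.jNumQ := by
    simp [ModularCurve.jq, laurentOf]
  rw [jqK, ModularCurve.coeffEmb, h1, coeffMap_laurentOf, jNumK]

/-- `j = E₄³/Δ` has the `q`-expansion `q⁻¹ * jNumQ`. -/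
theorem isQExp_jFun_Q : IsQExp 1 jFun 1 (ModularCurve.jNumQ.map (algebraMap ℚ ℂ)) := by
  intro z
  have h := JQExp.hasSum_j z
  have hq : qh 1 z = Function.Periodic.qParam 1 (z : ℂ) := by
    simp [qh]
  rw [hq, pow_one, jFun, mul_comm]
  convert h using 2 with n
  simp [ModularCurve.jNumQ, PowerSeries.coeff_map]

theorem isQExp_jFun_K : IsQExp 1 jFun 1 (jNumK.map iotaK) := by
  rw [map_iotaK_jNumK]
  exact isQExp_jFun_Q

end Fermat.Agent.X0
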