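/-
Program C, piece C-F2d (helper16): `q`-expansions under the affine substitution
`z ↦ (a z + b) / e`.

If `f` has the `q₁`-expansion `q^{-m} P(q)` on `ℍ`, then `z ↦ f ((a z + b) / e)` (`e ∣ N`) has the
`q_N`-expansion `q_N^{-m s} Q(q_N)`, `s = a N / e`, where `Q` has the coefficient
`P_n ζ_e^{b (n - m)}` at `q_N^{n s}` and `0` elsewhere (`ζ_e = exp(2πi/e)`).
-/
import Fermat.Agent.X0.Hermite

set_option autoImplicit false

open UpperHalfPlane Complex
open scoped MatrixGroups Real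

noncomputable section

namespace Fermat.Agent.X0.QExpAffine

open Fermat.Agent.X0.Hermite

/-- the twisted, spread-out power series: coefficient `P_n ζ^{b (n - m)}` at `X^{n s}`. -/
def affQ {R : Type*} [Field R] (P : PowerSeries R) (m s : ℕ) (b : ℤ) (ζ : R) : PowerSeries R :=
  PowerSeries.mk fun k =>
    if s ∣ k then PowerSeries.coeff (k / s) P * ζ ^ (b * (((k / s : ℕ) : ℤ) - m)) else 0

theorem coeff_affQ {R : Type*} [Field R] (P : PowerSeries R) (m s : ℕ) (b : ℤ) (ζ : R) (k : ℕ) :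
    PowerSeries.coeff k (affQ P m s b ζ) =
      if s ∣ k then PowerSeries.coeff (k / s) P * ζ ^ (b * (((k / s : ℕ) : ℤ) - m)) else 0 := by
  rw [affQ, PowerSeries.coeff_mk]

theorem coeff_affQ_mul {R : Type*} [Field R] (P : PowerSeries R) (m : ℕ) {s : ℕ} (hs : 0 < s)
    (b : ℤ) (ζ : R) (n : ℕ) :
    PowerSeries.coeff (n * s) (affQ P m s b ζ) =
      PowerSeries.coeff n P * ζ ^ (b * ((n : ℤ) - m)) := by
  rw [coeff_affQ, if_pos (Dvd.intro_left n rfl), Nat.mul_div_cancel _ hs]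

theorem coeff_affQ_of_not_dvd {R : Type*} [Field R] (P : PowerSeries R) (m : ℕ) {s : ℕ}
    (b : ℤ) (ζ : R) {k : ℕ} (hk : ¬ s ∣ k) :
    PowerSeries.coeff k (affQ P m s b ζ) = 0 := by
  rw [coeff_affQ, if_neg hk]

theorem coeff_zero_affQ {R : Type*} [Field R] (P : PowerSeries R) (m s : ℕ)
    (b : ℤ) (ζ : R) :
    PowerSeries.coeff 0 (affQ P m s b ζ) = PowerSeries.coeff 0 P * ζ ^ (-(b * m)) := by
  rw [coeff_affQ, if_pos (dvd_zero s)]
  simp

theorem affQ_map {R S : Type*} [Field R] [Field S] (φ : R →+* S) (P : PowerSeries R) (m s : ℕ)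
    (b : ℤ) (ζ : R) :
    (affQ P m s b ζ).map φ = affQ (P.map φ) m s b (φ ζ) := by
  ext k
  rw [PowerSeries.coeff_map, coeff_affQ, coeff_affQ]
  split_ifs
  · rw [map_mul, map_zpow₀, PowerSeries.coeff_map]
  · rw [map_zero]

/-- `ζ_e = exp(2πi/e)`. -/
def zetaC (e : ℕ) : ℂ := Complex.exp (2 * π * Complex.I / e)

/-- `q₁((a z + b)/e) = q_N(z)^{a N / e} ζ_e^b`. -/
theorem qh_one_affH {N a e : ℕ} [NeZero N] (b : ℤ) (ha : 0 < a) (he : 0 < e) (heN : e ∣ N)
    (z : ℍ) :
    qh 1 (affH a e b ha he z) = qh N z ^ (a * (N / e)) * zetaC e ^ b := by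
  have hN : (N : ℂ) ≠ 0 := by exact_mod_cast NeZero.ne N
  have heC : (e : ℂ) ≠ 0 := by exact_mod_cast he.ne'
  obtain ⟨c, rfl⟩ := heN
  have hc : e * c / e = c := Nat.mul_div_cancel_left c he
  simp only [qh, Function.Periodic.qParam, zetaC, coe_affH]
  rw [← Complex.exp_nat_mul, ← Complex.exp_int_mul, ← Complex.exp_add, hc]
  congr 1
  push_cast
  have hcC : (c : ℂ) ≠ 0 := by
    intro h0
    apply hN
    push_cast
    rw [h0, mul_zero]
  field_simp

/-- **Affine substitution in `q`-expansions.** -/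
theorem isQExp_affine {f : ℍ → ℂ} {m : ℕ} {P : PowerSeries ℂ} (hf : IsQExp 1 f m P)
    {N a e : ℕ} [NeZero N] (b : ℤ) (ha : 0 < a) (he : 0 < e) (heN : e ∣ N) :
    IsQExp N (fun z => f (affH a e b ha he z)) (m * (a * (N / e)))
      (affQ P m (a * (N / e)) b (zetaC e)) := by
  intro z
  have hs : 0 < a * (N / e) :=
    Nat.mul_pos ha (Nat.div_pos (Nat.le_of_dvd (Nat.pos_of_ne_zero (NeZero.ne N)) heN) he)
  set s := a * (N / e) with hs_def
  set w := affH a e b ha he z with hw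
  have hζ : zetaC e ≠ 0 := Complex.exp_ne_zero _
  have hq := qh_one_affH (N := N) b ha he heN z
  rw [← hs_def, ← hw] at hq
  have h1 := hf w
  rw [hq] at h1
  -- multiply by `ζ^{-b m}`
  have h2 := h1.mul_right (zetaC e ^ (-(b * m)))
  have e1 : f w * (qh N z ^ s * zetaC e ^ b) ^ m * zetaC e ^ (-(b * m)) =
      f w * qh N z ^ (m * s) := by
    rw [mul_pow, ← zpow_natCast (zetaC e ^ b) m, ← zpow_mul, mul_assoc, mul_assoc,
      ← zpow_add₀ hζ, add_neg_cancel, zpow_zero, mul_one, ← pow_mul, mul_comm s m]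
  rw [e1] at h2
  -- reindex
  have hinj : Function.Injective (fun n : ℕ => n * s) := fun n₁ n₂ h =>
    Nat.eq_of_mul_eq_mul_right hs h
  rw [← hinj.hasSum_iff]
  · have hfun : ((fun k : ℕ => PowerSeries.coeff k (affQ P m s b (zetaC e)) * qh N z ^ k) ∘
        fun n : ℕ => n * s) =
        fun i : ℕ => PowerSeries.coeff i P * (qh N z ^ s * zetaC e ^ b) ^ i *
          zetaC e ^ (-(b * m)) := by
      funext n
      simp only [Function.comp_apply]
      rw [coeff_affQ_mul _ _ hs, mul_pow, ← zpow_natCast (zetaC e ^ b) n, ← zpow_mul, mul_sub,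
        sub_eq_add_neg, zpow_add₀ hζ, ← neg_mul, mul_comm n s, pow_mul]
      ring
    rw [hfun]
    exact h2
  · intro k hk
    have : ¬ s ∣ k := by
      rintro ⟨c, rfl⟩
      exact hk ⟨c, by simp [mul_comm]⟩
    rw [coeff_affQ_of_not_dvd _ _ _ _ this, zero_mul]

end Fermat.Agent.X0.QExpAffine
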