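/-
Program C, piece C-F2d (helper16): `q_N`-expansions of the conjugates `z ↦ j(d · (γ • z))` of the
generators `j_d`, `d ∣ N`, with coefficients in `ι(ℚbar)` and explicit leading term.
-/
import Fermat.Agent.X0.HermiteJ
import Fermat.Agent.X0.QExpAffine
import Fermat.Agent.X0.JqExpansion

set_option autoImplicit false

open UpperHalfPlane Complex
open scoped MatrixGroups Real

noncomputable section

namespace Fermat.Agent.X0.CuspGen

open Fermat.Agent.X0.Hermite Fermat.Agent.X0.QExpAffine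

theorem coeff_zero_jNumK : PowerSeries.coeff 0 jNumK = 1 := by
  rw [jNumK, PowerSeries.coeff_map, PowerSeries.coeff_zero_eq_constantCoeff,
    ModularCurve.constantCoeff_jNumQ, map_one]

/-- every root of unity `exp(2πi/e)` lies in the image of `ι : ℚbar → ℂ`. -/
theorem exists_iotaK_eq_zetaC {e : ℕ} (he : 0 < e) : ∃ ζ : Kbar, iotaK ζ = zetaC e := by
  have : NeZero e := ⟨he.ne'⟩
  have : NeZero (e : Kbar) := ⟨by exact_mod_cast he.ne'⟩
  obtain ⟨ζ₀, hζ₀⟩ := HasEnoughRootsOfUnity.exists_primitiveRoot Kbar e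
  have h1 : IsPrimitiveRoot (iotaK ζ₀) e := hζ₀.map_of_injective iotaK_injective
  have h2 : zetaC e ^ e = 1 := (Complex.isPrimitiveRoot_exp e he.ne').pow_eq_one
  obtain ⟨i, -, hi⟩ := h1.eq_pow_of_pow_eq_one h2
  exact ⟨ζ₀ ^ i, by rw [map_pow, hi]⟩

variable (N : ℕ) [NeZero N]

/-- **Cusp expansions of the generators.**  For `d ∣ N` and `γ ∈ SL(2, ℤ)` the function
`z ↦ j(d · (γ • z))` equals `z ↦ j((a z + b)/e)` (`a e = d`, `0 ≤ b < e`, `gcd(a,b,e) = 1`) and has
the `q_N`-expansion `q_N^{-a N / e} · Q`, `Q = affQ jNumK 1 (a N / e) b ζ` with `ι ζ = exp(2πi/e)`;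
the constant coefficient of `Q` is `ζ^{-b}`. -/
theorem exists_isQExp_compSL_jdFun (d : ℕ) [NeZero d] (hd : d ∣ N) (γ : SL(2, ℤ)) :
    ∃ (a e : ℕ) (b : ℤ) (ζ : Kbar), 0 < a ∧ 0 < e ∧ a * e = d ∧ 0 ≤ b ∧ b < e ∧
      (∀ n : ℤ, n ∣ (a : ℤ) → n ∣ b → n ∣ (e : ℤ) → IsUnit n) ∧
      iotaK ζ = zetaC e ∧
      IsQExp N (compSL (jdFun d) γ) (a * (N / e))
        ((affQ jNumK 1 (a * (N / e)) b ζ).map iotaK) ∧
      PowerSeries.coeff 0 (affQ jNumK 1 (a * (N / e)) b ζ) = ζ ^ (-b) := by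
  obtain ⟨a, e, b, ha, he, hae, hb0, hbe, hcop, hfun⟩ := exists_compSL_jdFun γ d
  obtain ⟨ζ, hζ⟩ := exists_iotaK_eq_zetaC he
  have heN : e ∣ N := (Dvd.intro_left a hae).trans hd
  refine ⟨a, e, b, ζ, ha, he, hae, hb0, hbe, hcop, hζ, ?_, ?_⟩
  · rw [hfun, affQ_map, hζ]
    have := isQExp_affine (N := N) isQExp_jFun_K b ha he heN
    rwa [one_mul] at this
  · rw [coeff_zero_affQ, coeff_zero_jNumK, one_mul, Nat.cast_one, mul_one]

/-- existence form consumed by `CuspExpand`. -/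
theorem exists_isQExp_compSL_jdFun' (d : ℕ) [NeZero d] (hd : d ∣ N) (γ : SL(2, ℤ)) :
    ∃ (m : ℕ) (P : PowerSeries Kbar), IsQExp N (compSL (jdFun d) γ) m (P.map iotaK) := by
  obtain ⟨a, e, b, ζ, -, -, -, -, -, -, -, h, -⟩ := exists_isQExp_compSL_jdFun N d hd γ
  exact ⟨_, _, h⟩

/-! ### uniqueness of the Hermite data from the leading term (for `DISTINCT`) -/

theorem isPrimitiveRoot_of_iotaK {e : ℕ} (he : 0 < e) {ζ : Kbar} (hζ : iotaK ζ = zetaC e) :
    IsPrimitiveRoot ζ e := by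
  have h : IsPrimitiveRoot (iotaK ζ) e := by
    rw [hζ]; exact Complex.isPrimitiveRoot_exp e he.ne'
  exact IsPrimitiveRoot.of_map_of_injective h iotaK_injective

/-- for `d = N` the pole order is `a²`. -/
theorem pole_order_eq_sq {N a e : ℕ} (he : 0 < e) (hae : a * e = N) : a * (N / e) = a * a := by
  rw [← hae, Nat.mul_div_cancel _ he]

/-- **The leading term determines the Hermite data** (`d = N`): equal pole orders and equal leading
coefficients force `a = a'`, `e = e'`, `b ≡ b' mod e`. -/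
theorem hermite_unique {N a e a' e' : ℕ} [NeZero N] {b b' : ℤ} {ζ ζ' : Kbar} (he : 0 < e)
    (he' : 0 < e')
    (hae : a * e = N) (hae' : a' * e' = N) (hζ : iotaK ζ = zetaC e) (hζ' : iotaK ζ' = zetaC e')
    (hord : a * (N / e) = a' * (N / e')) (hlead : ζ ^ (-b) = ζ' ^ (-b')) :
    a = a' ∧ e = e' ∧ (e : ℤ) ∣ b - b' := by
  rw [pole_order_eq_sq he hae, pole_order_eq_sq he' hae'] at hord
  have haa : a = a' := by
    rcases lt_trichotomy a a' with h | h | h
    · exact absurd hord (Nat.ne_of_lt (Nat.mul_self_lt_mul_self h))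
    · exact h
    · exact absurd hord.symm (Nat.ne_of_lt (Nat.mul_self_lt_mul_self h))
  subst haa
  have hN0 : N ≠ 0 := NeZero.ne N
  have ha0 : 0 < a := by
    rcases Nat.eq_zero_or_pos a with h0 | h0
    · subst h0; rw [zero_mul] at hae; exact absurd hae.symm hN0
    · exact h0
  have hee : e = e' := by
    have : a * e = a * e' := hae.trans hae'.symm
    exact Nat.eq_of_mul_eq_mul_left ha0 this
  subst hee
  have hζζ : ζ = ζ' := iotaK_injective (hζ.trans hζ'.symm)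
  subst hζζ
  refine ⟨rfl, rfl, ?_⟩
  have hprim := isPrimitiveRoot_of_iotaK he hζ
  have hζ0 : ζ ≠ 0 := hprim.ne_zero he.ne'
  have h1 : ζ ^ (b - b') = 1 := by
    rw [sub_eq_add_neg, zpow_add₀ hζ0, ← hlead, ← zpow_add₀ hζ0, add_neg_cancel, zpow_zero]
  exact (hprim.zpow_eq_one_iff_dvd _).mp h1

end Fermat.Agent.X0.CuspGen
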