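/-
C-F2d (2)+(3) (helper19): cusp expansions.  For `D : RealizeData N` and `γ ∈ SL(2, ℤ)`:
every `Θ u ∘ γ` (`u ∈ R = ℚbar[j_d]`) has a `q_N`-expansion with coefficients in `ℚbar`; the
resulting map `R → ℚbar((q_N))` is an injective ring hom and extends to the fraction field `F`.
Final product: `cuspData N : CuspData N (realizeData N)`.
-/
import Fermat.Agent.X0.Iface
import Fermat.Agent.X0.QExpRing
import Fermat.Agent.X0.CuspGen
import Fermat.Agent.X0.FracR
import Fermat.Agent.X0.HolOrder
import Fermat.Agent.X0.RealizeData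

set_option autoImplicit false

noncomputable section

namespace Fermat.Agent.X0.CuspExpand

open Fermat.Agent.X0
open UpperHalfPlane
open scoped MatrixGroups

variable {N : ℕ} [NeZero N] (D : RealizeData N) (γ : SL(2, ℤ))

/-- (2) Every `Θ u ∘ γ` has a `q_N`-expansion with coefficients in `ℚbar`. -/
theorem exists_cuspExp (u : Rsub N) :
    ∃ (m : ℕ) (P : PowerSeries Kbar), IsQExp N (compSL (D.Θ u) γ) m (P.map iotaK) := by
  induction u using FracR.Rsub_induction with
  | hgen d hd =>
      have h1 : FracR.jdR N d hd = jdR N d hd := rfl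
      rw [h1, D.jd_eq d hd]
      exact CuspGen.exists_isQExp_compSL_jdFun' N d hd γ
  | hconst c =>
      refine ⟨0, PowerSeries.C c, ?_⟩
      rw [D.algebraMap_eq c, compSL_const, PowerSeries.map_C]
      exact isQExp_const N (iotaK c)
  | hadd u v hu hv =>
      obtain ⟨m, P, hP⟩ := hu
      obtain ⟨m', Q, hQ⟩ := hv
      refine ⟨m + m', PowerSeries.X ^ m' * P + PowerSeries.X ^ m * Q, ?_⟩
      rw [map_add, compSL_add_fun]
      have := hP.add hQ
      simpa only [map_add, map_mul, map_pow, PowerSeries.map_X] using this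
  | hmul u v hu hv =>
      obtain ⟨m, P, hP⟩ := hu
      obtain ⟨m', Q, hQ⟩ := hv
      refine ⟨m + m', P * Q, ?_⟩
      rw [map_mul, compSL_mul_fun]
      have := hP.mul hQ
      simpa only [map_mul] using this

/-- The pole order bound chosen for `u`. -/
def expM (u : Rsub N) : ℕ := (exists_cuspExp D γ u).choose

/-- The power series chosen for `u`. -/
def expP (u : Rsub N) : PowerSeries Kbar := (exists_cuspExp D γ u).choose_spec.choose

theorem isQExp_exp (u : Rsub N) :
    IsQExp N (compSL (D.Θ u) γ) (expM D γ u) ((expP D γ u).map iotaK) :=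
  (exists_cuspExp D γ u).choose_spec.choose_spec

/-- The `q_N`-expansion of `Θ u ∘ γ` as a Laurent series over `ℚbar`. -/
def cuspR (u : Rsub N) : LaurentSeries Kbar := laurentOf (expM D γ u) (expP D γ u)

theorem coeffMap_iotaK_injective :
    Function.Injective (ModularCurve.coeffMap iotaK : LaurentSeries Kbar → LaurentSeries ℂ) := by
  intro x y h
  ext k
  have h1 := congrArg (fun s : LaurentSeries ℂ => s.coeff k) h
  exact iotaK_injective h1

/-- Characterisation of `cuspR`: any expansion datum with `ℚbar` coefficients computes it. -/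
theorem cuspR_eq (u : Rsub N) {m : ℕ} {P : PowerSeries Kbar}
    (h : IsQExp N (compSL (D.Θ u) γ) m (P.map iotaK)) : cuspR D γ u = laurentOf m P := by
  apply coeffMap_iotaK_injective
  rw [cuspR, coeffMap_laurentOf, coeffMap_laurentOf]
  exact (isQExp_exp D γ u).unique h

theorem cuspR_spec (u : Rsub N) :
    ∃ (m : ℕ) (P : PowerSeries Kbar),
      IsQExp N (compSL (D.Θ u) γ) m (P.map iotaK) ∧ cuspR D γ u = laurentOf m P :=
  ⟨_, _, isQExp_exp D γ u, rfl⟩

theorem cuspR_add (u v : Rsub N) : cuspR D γ (u + v) = cuspR D γ u + cuspR D γ v := by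
  have hP := isQExp_exp D γ u
  have hQ := isQExp_exp D γ v
  have h := hP.add hQ
  rw [← compSL_add_fun, ← map_add] at h
  have h' : IsQExp N (compSL (D.Θ (u + v)) γ) (expM D γ u + expM D γ v)
      ((PowerSeries.X ^ expM D γ v * expP D γ u
        + PowerSeries.X ^ expM D γ u * expP D γ v).map iotaK) := by
    simpa only [map_add, map_mul, map_pow, PowerSeries.map_X] using h
  rw [cuspR_eq D γ (u + v) h', cuspR, cuspR]
  rw [laurentOf_add, laurentOf_shift]
  conv_lhs => rw [add_comm (expM D γ u) (expM D γ v), laurentOf_shift]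

theorem cuspR_mul (u v : Rsub N) : cuspR D γ (u * v) = cuspR D γ u * cuspR D γ v := by
  have hP := isQExp_exp D γ u
  have hQ := isQExp_exp D γ v
  have h := hP.mul hQ
  rw [← compSL_mul_fun, ← map_mul] at h
  have h' : IsQExp N (compSL (D.Θ (u * v)) γ) (expM D γ u + expM D γ v)
      ((expP D γ u * expP D γ v).map iotaK) := by
    simpa only [map_mul] using h
  rw [cuspR_eq D γ (u * v) h', cuspR, cuspR, laurentOf_mul]

theorem cuspR_algebraMap (c : Kbar) :
    cuspR D γ (algebraMap Kbar (Rsub N) c) = HahnSeries.C c := by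
  have h : IsQExp N (compSL (D.Θ (algebraMap Kbar (Rsub N) c)) γ) 0
      ((PowerSeries.C c).map iotaK) := by
    rw [D.algebraMap_eq c, compSL_const, PowerSeries.map_C]
    exact isQExp_const N (iotaK c)
  rw [cuspR_eq D γ _ h, laurentOf_zero_left, HahnSeries.ofPowerSeries_C]

theorem cuspR_one : cuspR D γ 1 = 1 := by
  have := cuspR_algebraMap D γ 1
  rwa [map_one, map_one] at this

theorem cuspR_zero : cuspR D γ 0 = 0 := by
  have := cuspR_algebraMap D γ 0
  rwa [map_zero, map_zero] at this

/-- The expansion map on `R` as a ring hom. -/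
def cuspRHom : Rsub N →+* LaurentSeries Kbar where
  toFun := cuspR D γ
  map_one' := cuspR_one D γ
  map_mul' := cuspR_mul D γ
  map_zero' := cuspR_zero D γ
  map_add' := cuspR_add D γ

@[simp] theorem cuspRHom_apply (u : Rsub N) : cuspRHom D γ u = cuspR D γ u := rfl

theorem compSL_eq_zero {f : ℍ → ℂ} (h : compSL f γ = 0) : f = 0 := by
  funext z
  have := congrFun h (γ⁻¹ • z)
  simpa [compSL] using this

theorem cuspRHom_injective : Function.Injective (cuspRHom D γ) := by
  rw [injective_iff_map_eq_zero]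
  intro u hu
  have hP := isQExp_exp D γ u
  have h0 : (expP D γ u).map iotaK = 0 := by
    have h1 : laurentOf (expM D γ u) (expP D γ u) = 0 := hu
    rw [laurentOf_eq_zero_iff] at h1
    rw [h1, map_zero]
  have h2 : compSL (D.Θ u) γ = 0 := hP.eq_zero_iff.mpr h0
  have h3 : D.Θ u = 0 := compSL_eq_zero γ h2
  exact D.injective (by rw [h3, map_zero])

/-- (3) The cusp expansion `T_γ : F → ℚbar((q_N))`. -/
def cuspEmb : FF N →+* LaurentSeries Kbar :=
  IsFractionRing.lift (A := Rsub N) (K := FF N) (g := cuspRHom D γ) (cuspRHom_injective D γ)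

theorem cuspEmb_coe (u : Rsub N) : cuspEmb D γ (u : FF N) = cuspR D γ u := by
  have := IsFractionRing.lift_algebraMap (A := Rsub N) (K := FF N) (cuspRHom_injective D γ) u
  exact this

theorem cuspEmb_spec (u : Rsub N) :
    ∃ (m : ℕ) (P : PowerSeries Kbar),
      IsQExp N (compSL (D.Θ u) γ) m (P.map iotaK) ∧ cuspEmb D γ (u : FF N) = laurentOf m P := by
  obtain ⟨m, P, h1, h2⟩ := cuspR_spec D γ u
  exact ⟨m, P, h1, by rw [cuspEmb_coe, h2]⟩

theorem cuspEmb_algebraMap (c : Kbar) :
    cuspEmb D γ (algebraMap Kbar (FF N) c) = HahnSeries.C c := by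
  have : algebraMap Kbar (FF N) c = ((algebraMap Kbar (Rsub N) c : Rsub N) : FF N) := rfl
  rw [this, cuspEmb_coe, cuspR_algebraMap]

/-- The cusp data attached to a realisation. -/
def cuspDataOf : CuspData N D where
  T := fun γ => cuspEmb D γ
  spec := fun γ u => cuspEmb_spec D γ u

end Fermat.Agent.X0.CuspExpand

namespace Fermat.Agent.X0

/-- The cusp expansion data of `X0/Iface.lean`. -/
def cuspData (N : ℕ) [NeZero N] : CuspData N (realizeData N) :=
  CuspExpand.cuspDataOf (realizeData N)

end Fermat.Agent.X0
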