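/-
C-F2 (helper19): `q`-expansions of the generators `j(d z)` in the `AnDefs` vocabulary
(`IsQExp`, `laurentOf`, `jdFun`, `jdF`), on top of `JQExp.hasSum_j`.
-/
import Fermat.Agent.X0.AnDefs
import Fermat.Agent.X0.JQExp

set_option autoImplicit false

noncomputable section

namespace Fermat.Agent.X0

open UpperHalfPlane ModularForm

/-- The `q`-series of `q * j` with complex coefficients. -/
def jNumC : PowerSeries ℂ := ModularCurve.jNumQ.map (algebraMap ℚ ℂ)

theorem coeff_jNumC (n : ℕ) :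
    PowerSeries.coeff n jNumC = ((PowerSeries.coeff n ModularCurve.jNum : ℤ) : ℂ) := by
  simp [jNumC, ModularCurve.jNumQ, PowerSeries.coeff_map]

theorem qh_one (z : ℍ) : qh 1 z = Function.Periodic.qParam 1 (z : ℂ) := by
  simp [qh]

theorem norm_qh_one_lt_one (z : ℍ) : ‖qh 1 z‖ < 1 := by
  rw [qh_one]
  simpa using norm_qParam_lt_one 1 z

theorem qh_one_scaleH (d : ℕ) [NeZero d] (z : ℍ) : qh 1 (scaleH d z) = qh 1 z ^ d := by
  rw [qh_one, qh_one, coe_scaleH, Function.Periodic.qParam, Function.Periodic.qParam,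
    ← Complex.exp_nat_mul]
  congr 1
  push_cast
  ring

/-- `jFun` has the `q`-expansion `q⁻¹ * jNumC`. -/
theorem isQExp_jFun_C : IsQExp 1 jFun 1 jNumC := by
  intro z
  have h := JQExp.hasSum_j z
  rw [mul_comm] at h
  rw [qh_one, pow_one]
  refine h.congr_fun fun n => ?_
  rw [coeff_jNumC]

/-- Substituting `z ↦ d z` in a `q`-expansion. -/
theorem IsQExp.comp_scaleH {f : ℍ → ℂ} {m : ℕ} {P : PowerSeries ℂ} (hf : IsQExp 1 f m P)
    (d : ℕ) [NeZero d] :
    IsQExp 1 (fun z => f (scaleH d z)) (d * m) (P.expand d (NeZero.ne d)) := by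
  intro z
  have h := hf (scaleH d z)
  rw [qh_one_scaleH] at h
  have hinj : Function.Injective (fun n : ℕ => d * n) :=
    fun a b hab => Nat.eq_of_mul_eq_mul_left (Nat.pos_of_ne_zero (NeZero.ne d)) hab
  have key : HasSum ((fun n : ℕ => PowerSeries.coeff n (P.expand d (NeZero.ne d)) * qh 1 z ^ n)
      ∘ fun n : ℕ => d * n) (f (scaleH d z) * (qh 1 z ^ d) ^ m) := by
    refine h.congr_fun fun n => ?_
    simp only [Function.comp_apply, PowerSeries.coeff_expand_mul, pow_mul]
  rw [hinj.hasSum_iff] at key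
  · rwa [pow_mul]
  · intro n hn
    have : ¬ d ∣ n := fun ⟨k, hk⟩ => hn ⟨k, hk.symm⟩
    rw [PowerSeries.coeff_expand_of_not_dvd d (NeZero.ne d) P this, zero_mul]

/-- `z ↦ j(d z)` has the `q`-expansion `q^{-d} * jNumC(q^d)`. -/
theorem isQExp_jdFun (d : ℕ) [NeZero d] :
    IsQExp 1 (jdFun d) d (jNumC.expand d (NeZero.ne d)) := by
  have h := isQExp_jFun_C.comp_scaleH d
  rw [mul_one] at h
  exact h

/-- Coefficients of `laurentOf`. -/
theorem laurentOf_coeff {R : Type*} [CommRing R] (m : ℕ) (P : PowerSeries R) (k : ℤ) :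
    (laurentOf m P).coeff k = if 0 ≤ k + m then PowerSeries.coeff (k + m).toNat P else 0 := by
  rw [laurentOf, HahnSeries.coeff_single_mul, one_mul, sub_neg_eq_add]
  split_ifs with h
  · obtain ⟨n, hn⟩ := Int.eq_ofNat_of_zero_le h
    rw [hn, Int.toNat_natCast, HahnSeries.ofPowerSeries_apply_coeff]
  · exact ModularCurve.ofPowerSeries_coeff_of_neg _ (by omega)

/-- The formal generator `j_d` maps to the Laurent series attached to the expansion datum of
`z ↦ j(d z)`. -/
theorem coeffMap_iotaK_jdF (N : ℕ) [NeZero N] (d : ℕ) [NeZero d] (hd : d ∣ N) :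
    ModularCurve.coeffMap iotaK ((jdF N d hd : FF N) : LaurentSeries Kbar)
      = laurentOf d (jNumC.expand d (NeZero.ne d)) := by
  have hd0 : (d : ℤ) ≠ 0 := by exact_mod_cast NeZero.ne d
  have hcomp : iotaK.comp (algebraMap ℚ Kbar) = algebraMap ℚ ℂ := Subsingleton.elim _ _
  ext k
  rw [laurentOf_coeff]
  show iotaK ((ModularCurve.coeffEmb Kbar (ModularCurve.qExpand ℚ d ModularCurve.jq)).coeff k) = _
  rw [ModularCurve.coeffEmb_coeff, ← RingHom.comp_apply, hcomp]
  by_cases hk : (d : ℤ) ∣ k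
  · obtain ⟨l, rfl⟩ := hk
    rw [ModularCurve.qExpand_coeff_mul]
    have hjq : ModularCurve.jq.coeff l
        = if 0 ≤ l + 1 then PowerSeries.coeff (l + 1).toNat ModularCurve.jNumQ else 0 := by
      have := laurentOf_coeff 1 ModularCurve.jNumQ l
      simpa [laurentOf, ModularCurve.jq] using this
    rw [hjq]
    have hiff : (0 ≤ (d : ℤ) * l + d) ↔ 0 ≤ l + 1 := by
      have hdpos : (0 : ℤ) < d := by exact_mod_cast Nat.pos_of_ne_zero (NeZero.ne d)
      constructor
      · intro h
        have : (0 : ℤ) ≤ d * (l + 1) := by linarith [mul_add (d : ℤ) l 1]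
        exact nonneg_of_mul_nonneg_right this hdpos
      · intro h
        have := mul_nonneg hdpos.le h
        linarith [mul_add (d : ℤ) l 1]
    by_cases hl : 0 ≤ l + 1
    · rw [if_pos hl, if_pos (hiff.mpr hl)]
      obtain ⟨n, hn⟩ := Int.eq_ofNat_of_zero_le hl
      have h1 : ((d : ℤ) * l + d).toNat = d * n := by
        have : (d : ℤ) * l + d = ((d * n : ℕ) : ℤ) := by push_cast; rw [← hn]; ring
        rw [this, Int.toNat_natCast]
      rw [h1, PowerSeries.coeff_expand_mul, hn, Int.toNat_natCast, jNumC, PowerSeries.coeff_map]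
    · rw [if_neg hl, if_neg (fun h => hl (hiff.mp h)), map_zero]
  · rw [ModularCurve.qExpand_coeff_of_not_dvd d _ hk, map_zero]
    split_ifs with h
    · rw [PowerSeries.coeff_expand_of_not_dvd]
      intro hdvd
      apply hk
      have h2 : ((d : ℤ)) ∣ ((k + d).toNat : ℤ) := by exact_mod_cast hdvd
      rw [Int.toNat_of_nonneg h] at h2
      exact (Int.dvd_add_left (dvd_refl _)).mp h2
    · rfl

end Fermat.Agent.X0
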