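/-
Program C, C-F2d (4)+(5) (helper29): equivariance properties of the cusp expansions
`T γ : FF N →+* LaurentSeries Kbar`, written against the interface `Iface.lean`
(`D : RealizeData N`, `C : CuspData N D`):

* `T_mul_left`   : `T (δ γ) = T γ` for `δ ∈ Γ₀(N)`;
* `T_mul_T`, `T_mul_T_coeff`, `T_mul_T_pow_coeff` : `T (γ T)` is `T γ` twisted by `q ↦ ζ_N q`;
* `dvd_mul_of_coeff_ne_zero`, `width` : the width lemma.

Also: `iotaK_zetaK`, `zetaK_isPrimitiveRoot`; uniqueness of `q_h`-expansions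
(`coeff_eq_of_hasSum`, `laurentOf_eq_of_isQExp`); `coeffMap_laurentOf`; the ring hom `twist`.
-/
import Fermat.Agent.X0.Iface
import Fermat.Agent.X0.JdExp
import Fermat.Agent.X0.FracR

set_option autoImplicit false
set_option linter.deprecated false
set_option linter.unnecessarySimpa false

open UpperHalfPlane
open scoped MatrixGroups

noncomputable section

namespace Fermat.Agent.X0.CuspEquiv

open Fermat.Agent.X0

/-! ### The root of unity `zetaK` -/

section Zeta

variable (N : ℕ) [NeZero N]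

theorem exists_iotaK_eq_exp :
    ∃ a : Kbar, iotaK a = Complex.exp (2 * Real.pi * Complex.I / N) := by
  have hN : N ≠ 0 := NeZero.ne N
  obtain ⟨η, hη⟩ := HasEnoughRootsOfUnity.exists_primitiveRoot Kbar N
  have hη' : IsPrimitiveRoot (iotaK η) N :=
    (IsPrimitiveRoot.map_iff_of_injective iotaK_injective).mpr hη
  have hζ : (Complex.exp (2 * Real.pi * Complex.I / N)) ^ N = 1 :=
    (Complex.isPrimitiveRoot_exp N hN).pow_eq_one
  obtain ⟨i, _, hi⟩ := hη'.eq_pow_of_pow_eq_one hζ
  exact ⟨η ^ i, by rw [map_pow, hi]⟩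

theorem iotaK_zetaK : iotaK (zetaK N) = Complex.exp (2 * Real.pi * Complex.I / N) := by
  unfold zetaK
  rw [dif_pos (exists_iotaK_eq_exp N)]
  exact (exists_iotaK_eq_exp N).choose_spec

theorem zetaK_isPrimitiveRoot : IsPrimitiveRoot (zetaK N) N := by
  rw [← IsPrimitiveRoot.map_iff_of_injective iotaK_injective, iotaK_zetaK]
  exact Complex.isPrimitiveRoot_exp N (NeZero.ne N)

theorem zetaK_ne_zero : zetaK N ≠ 0 :=
  (zetaK_isPrimitiveRoot N).ne_zero (NeZero.ne N)

theorem zetaK_zpow_eq_one_iff (l : ℤ) : zetaK N ^ l = 1 ↔ (N : ℤ) ∣ l :=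
  (zetaK_isPrimitiveRoot N).zpow_eq_one_iff_dvd l

end Zeta


/-! ### Uniqueness of `q_h`-expansions -/

section Uniq

theorem cuspFunction_zero_fun {h : ℝ} (hh : 0 < h) :
    UpperHalfPlane.cuspFunction h (fun _ : ℍ => (0 : ℂ)) = fun _ => 0 := by
  funext q
  unfold UpperHalfPlane.cuspFunction
  have h0 : ((fun _ : ℍ => (0 : ℂ)) ∘ ofComplex) = (0 : ℂ → ℂ) := by
    funext w; rfl
  rw [h0]
  by_cases hq : q = 0
  · subst hq
    exact Function.Periodic.cuspFunction_zero_of_zero_at_inf hh (Filter.zero_zeroAtFilter _)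
  · rw [Function.Periodic.cuspFunction_eq_of_nonzero h _ hq]
    rfl

/-- A `q_h`-series which sums to zero on all of `ℍ` is zero. -/
theorem coeff_eq_zero_of_hasSum {h : ℕ} [NeZero h] {c : ℕ → ℂ}
    (hc : ∀ z : ℍ, HasSum (fun n => c n * qh h z ^ n) 0) (n : ℕ) : c n = 0 := by
  have hh : (0 : ℝ) < (h : ℝ) := by exact_mod_cast Nat.pos_of_ne_zero (NeZero.ne h)
  have han : AnalyticAt ℂ (UpperHalfPlane.cuspFunction (h : ℝ) (fun _ : ℍ => (0 : ℂ))) 0 := by
    rw [cuspFunction_zero_fun hh]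
    exact analyticAt_const
  have h1 := (UpperHalfPlane.hasFPowerSeriesOnBall_cuspFunction (f := fun _ : ℍ => (0 : ℂ))
    (c := c) hh han (fun τ => by simpa only [qh, smul_eq_mul] using hc τ)).hasFPowerSeriesAt
  have h2 := (UpperHalfPlane.hasFPowerSeriesOnBall_cuspFunction (f := fun _ : ℍ => (0 : ℂ))
    (c := fun _ => 0) hh han (fun τ => by simpa using hasSum_zero)).hasFPowerSeriesAt
  simpa using congr_arg (FormalMultilinearSeries.coeff · n) (h1.eq_formalMultilinearSeries h2)

/-- Two `q_h`-series with the same sum on all of `ℍ` are equal. -/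
theorem coeff_eq_of_hasSum {h : ℕ} [NeZero h] {c c' : ℕ → ℂ} {g : ℍ → ℂ}
    (hc : ∀ z : ℍ, HasSum (fun n => c n * qh h z ^ n) (g z))
    (hc' : ∀ z : ℍ, HasSum (fun n => c' n * qh h z ^ n) (g z)) (n : ℕ) : c n = c' n := by
  have := coeff_eq_zero_of_hasSum (h := h) (c := fun n => c n - c' n) (fun z => by
    have := (hc z).sub (hc' z)
    rw [sub_self] at this
    refine this.congr_fun fun n => ?_
    ring) n
  exact sub_eq_zero.mp this

/-- Shifting a convergent `q`-series. -/
theorem hasSum_shift {P : PowerSeries ℂ} {q s : ℂ} (k : ℕ)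
    (hP : HasSum (fun n => PowerSeries.coeff n P * q ^ n) s) :
    HasSum (fun n => PowerSeries.coeff n (PowerSeries.X ^ k * P) * q ^ n) (s * q ^ k) := by
  have hinj : Function.Injective (fun n : ℕ => n + k) := add_left_injective k
  have key : HasSum ((fun n => PowerSeries.coeff n (PowerSeries.X ^ k * P) * q ^ n) ∘
      fun n : ℕ => n + k) (s * q ^ k) := by
    refine (hP.mul_right (q ^ k)).congr_fun fun n => ?_
    simp only [Function.comp_apply, PowerSeries.coeff_X_pow_mul, pow_add]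
    ring
  rw [hinj.hasSum_iff] at key
  · exact key
  · intro n hn
    have hlt : n < k := by
      by_contra hge
      exact hn ⟨n - k, by simp only; omega⟩
    rw [PowerSeries.coeff_X_pow_mul', if_neg (by omega), zero_mul]

theorem laurentOf_shift {R : Type*} [CommRing R] (m k : ℕ) (P : PowerSeries R) :
    laurentOf (m + k) (PowerSeries.X ^ k * P) = laurentOf m P := by
  unfold laurentOf
  rw [map_mul, map_pow, HahnSeries.ofPowerSeries_X, ← mul_assoc, HahnSeries.single_pow,
    HahnSeries.single_mul_single]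
  congr 2
  · push_cast; simp
  · simp

/-- Uniqueness of the Laurent series attached to a `q_h`-expansion datum. -/
theorem laurentOf_eq_of_isQExp {h : ℕ} [NeZero h] {f : ℍ → ℂ} {m m' : ℕ} {P P' : PowerSeries ℂ}
    (hP : IsQExp h f m P) (hP' : IsQExp h f m' P') : laurentOf m P = laurentOf m' P' := by
  have hcoef : PowerSeries.X ^ m' * P = PowerSeries.X ^ m * P' := by
    ext n
    refine coeff_eq_of_hasSum (h := h) (g := fun z => f z * qh h z ^ m * qh h z ^ m')
      (c := fun n => PowerSeries.coeff n (PowerSeries.X ^ m' * P))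
      (c' := fun n => PowerSeries.coeff n (PowerSeries.X ^ m * P'))
      (fun z => hasSum_shift m' (hP z)) (fun z => ?_) n
    have := hasSum_shift m (hP' z)
    rwa [mul_assoc, mul_comm (qh h z ^ m), ← mul_assoc]
  rw [← laurentOf_shift m m' P, hcoef, add_comm, laurentOf_shift]

end Uniq


/-! ### `laurentOf` and maps of coefficients -/

section CoeffMap

theorem coeffMap_laurentOf {R S : Type*} [CommRing R] [CommRing S] (φ : R →+* S) (m : ℕ)
    (P : PowerSeries R) :
    ModularCurve.coeffMap φ (laurentOf m P) = laurentOf m (P.map φ) := by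
  ext k
  rw [ModularCurve.coeffMap_coeff, laurentOf_coeff, laurentOf_coeff]
  split_ifs
  · rw [PowerSeries.coeff_map]
  · rw [map_zero]

theorem laurentOf_inj_of_map {R S : Type*} [CommRing R] [CommRing S] (φ : R →+* S)
    (hφ : Function.Injective φ) {m m' : ℕ} {P P' : PowerSeries R}
    (h : laurentOf m (P.map φ) = laurentOf m' (P'.map φ)) : laurentOf m P = laurentOf m' P' := by
  rw [← coeffMap_laurentOf, ← coeffMap_laurentOf] at h
  ext k
  apply hφ
  have := congrArg (fun x => x.coeff k) h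
  simpa only [ModularCurve.coeffMap_coeff] using this

end CoeffMap

/-! ### The twist `q ↦ ζ q` on Laurent series -/

section Twist

variable {K : Type*} [Field K]

/-- Multiply the `n`-th coefficient by `ζ ^ n`. -/
def twistFun (ζ : K) (x : LaurentSeries K) : LaurentSeries K where
  coeff n := ζ ^ n * x.coeff n
  isPWO_support' := x.isPWO_support.mono fun n hn => by
    simp only [Function.mem_support, ne_eq] at hn
    rw [HahnSeries.mem_support]
    exact fun h => hn (by rw [h, mul_zero])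

@[simp] theorem twistFun_coeff (ζ : K) (x : LaurentSeries K) (n : ℤ) :
    (twistFun ζ x).coeff n = ζ ^ n * x.coeff n := rfl

theorem support_twistFun {ζ : K} (hζ : ζ ≠ 0) (x : LaurentSeries K) :
    (twistFun ζ x).support = x.support := by
  ext n
  rw [HahnSeries.mem_support, HahnSeries.mem_support, twistFun_coeff]
  exact not_congr (mul_eq_zero_iff_left (zpow_ne_zero n hζ))

theorem twistFun_mul {ζ : K} (hζ : ζ ≠ 0) (x y : LaurentSeries K) :
    twistFun ζ (x * y) = twistFun ζ x * twistFun ζ y := by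
  ext n
  rw [twistFun_coeff, HahnSeries.coeff_mul, HahnSeries.coeff_mul, Finset.mul_sum]
  refine Finset.sum_congr ?_ fun ij hij => ?_
  · ext ij
    simp only [Finset.mem_addAntidiagonal]
    rw [support_twistFun hζ, support_twistFun hζ]
  · have hsum : ij.1 + ij.2 = n := (Finset.mem_addAntidiagonal.mp hij).2.2
    rw [twistFun_coeff, twistFun_coeff, ← hsum, zpow_add₀ hζ]
    ring

/-- The twist as a ring homomorphism. -/
def twist (ζ : K) (hζ : ζ ≠ 0) : LaurentSeries K →+* LaurentSeries K where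
  toFun := twistFun ζ
  map_one' := by
    ext n
    rw [twistFun_coeff, HahnSeries.coeff_one]
    split_ifs with h
    · subst h; simp
    · simp
  map_mul' := twistFun_mul hζ
  map_zero' := by
    ext n
    simp
  map_add' x y := by
    ext n
    simp [mul_add]

@[simp] theorem twist_coeff (ζ : K) (hζ : ζ ≠ 0) (x : LaurentSeries K) (n : ℤ) :
    (twist ζ hζ x).coeff n = ζ ^ n * x.coeff n := rfl

theorem twist_laurentOf (ζ : K) (hζ : ζ ≠ 0) (m : ℕ) (P : PowerSeries K) :
    twist ζ hζ (laurentOf m P) =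
      laurentOf m (PowerSeries.mk fun n => ζ ^ ((n : ℤ) - m) * PowerSeries.coeff n P) := by
  ext k
  rw [twist_coeff, laurentOf_coeff, laurentOf_coeff]
  split_ifs with h
  · rw [PowerSeries.coeff_mk, Int.toNat_of_nonneg h, add_sub_cancel_right]
  · rw [mul_zero]

end Twist

/-! ### Main results: equivariance properties of the cusp expansions -/

section Main

variable {N : ℕ} [NeZero N]

/-- Two ring homs out of `FF N` into a field which agree on `Rsub N` are equal. -/
theorem ringHom_ext_Rsub {L : Type*} [Field L] {φ ψ : FF N →+* L}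
    (h : ∀ u : Rsub N, φ (u : FF N) = ψ (u : FF N)) : φ = ψ := by
  ext y
  obtain ⟨r, s, rfl⟩ := FracR.exists_div N y
  rw [map_div₀, map_div₀, h r, h s]

variable {D : RealizeData N} (C : CuspData N D)

/-- The value of `T γ` on `u ∈ R` is determined by any `q_N`-expansion datum of `Θ u ∘ γ`. -/
theorem T_eq_of_isQExp (γ : SL(2, ℤ)) (u : Rsub N) {m : ℕ} {P : PowerSeries Kbar}
    (hP : IsQExp N (compSL (D.Θ u) γ) m (P.map iotaK)) :
    C.T γ (u : FF N) = laurentOf m P := by
  obtain ⟨m', P', hP', hT⟩ := C.spec γ u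
  rw [hT]
  exact laurentOf_inj_of_map iotaK iotaK_injective (laurentOf_eq_of_isQExp hP' hP)

/-- (4a) `T (δ γ) = T γ` for `δ ∈ Γ₀(N)`. -/
theorem T_mul_left (δ γ : SL(2, ℤ)) (hδ : δ ∈ CongruenceSubgroup.Gamma0 N) :
    C.T (δ * γ) = C.T γ := by
  apply ringHom_ext_Rsub
  intro u
  obtain ⟨m, P, hP, hT⟩ := C.spec γ u
  rw [hT]
  apply T_eq_of_isQExp
  have hfun : compSL (D.Θ u) (δ * γ) = compSL (D.Θ u) γ := by
    funext z
    simp only [compSL]
    rw [mul_smul]
    exact congrFun (D.invariant u δ hδ) (γ • z)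
  rw [hfun]
  exact hP

theorem qh_T_smul (z : ℍ) :
    qh N (ModularGroup.T • z) = iotaK (zetaK N) * qh N z := by
  rw [iotaK_zetaK, qh, qh, Function.Periodic.qParam, Function.Periodic.qParam,
    UpperHalfPlane.modular_T_smul, ← Complex.exp_add]
  congr 1
  rw [UpperHalfPlane.coe_vadd]
  push_cast
  ring

/-- The `q_N`-expansion of `z ↦ g (z + 1)`. -/
theorem isQExp_comp_T {g : ℍ → ℂ} {m : ℕ} {P : PowerSeries Kbar}
    (hP : IsQExp N g m (P.map iotaK)) :
    IsQExp N (fun z => g (ModularGroup.T • z)) m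
      ((PowerSeries.mk fun n => zetaK N ^ ((n : ℤ) - m) * PowerSeries.coeff n P).map iotaK) := by
  intro z
  have hζ : iotaK (zetaK N) ≠ 0 := (map_ne_zero iotaK).mpr (zetaK_ne_zero N)
  have h := (hP (ModularGroup.T • z)).mul_left ((iotaK (zetaK N))⁻¹ ^ m)
  rw [qh_T_smul] at h
  have hval : (iotaK (zetaK N))⁻¹ ^ m * (g (ModularGroup.T • z) * (iotaK (zetaK N) * qh N z) ^ m)
      = g (ModularGroup.T • z) * qh N z ^ m := by
    rw [mul_pow, inv_pow]
    field_simp
  rw [hval] at h
  refine h.congr_fun fun n => ?_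
  rw [PowerSeries.coeff_map, PowerSeries.coeff_map, PowerSeries.coeff_mk, map_mul, map_zpow₀,
    zpow_sub₀ hζ, zpow_natCast, zpow_natCast, mul_pow, inv_pow]
  field_simp

/-- (4b) `T (γ T) = twist ζ_N ∘ T γ`. -/
theorem T_mul_T (γ : SL(2, ℤ)) :
    C.T (γ * ModularGroup.T) = (twist (zetaK N) (zetaK_ne_zero N)).comp (C.T γ) := by
  apply ringHom_ext_Rsub
  intro u
  obtain ⟨m, P, hP, hT⟩ := C.spec γ u
  rw [RingHom.comp_apply, hT, twist_laurentOf]
  apply T_eq_of_isQExp
  have hfun : compSL (D.Θ u) (γ * ModularGroup.T)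
      = fun z => compSL (D.Θ u) γ (ModularGroup.T • z) := by
    funext z
    simp only [compSL]
    rw [mul_smul]
  rw [hfun]
  exact isQExp_comp_T hP

/-- (4b), coefficientwise. -/
theorem T_mul_T_coeff (γ : SL(2, ℤ)) (f : FF N) (n : ℤ) :
    (C.T (γ * ModularGroup.T) f).coeff n = zetaK N ^ n * (C.T γ f).coeff n := by
  rw [T_mul_T]
  rfl

/-- (4b) for powers of `T`. -/
theorem T_mul_T_pow_coeff (γ : SL(2, ℤ)) (k : ℕ) (f : FF N) (n : ℤ) :
    (C.T (γ * ModularGroup.T ^ k) f).coeff n = (zetaK N ^ n) ^ k * (C.T γ f).coeff n := by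
  induction k with
  | zero => simp
  | succ k ih =>
    rw [pow_succ, ← mul_assoc, T_mul_T_coeff, ih, pow_succ]
    ring

/-- (5) WIDTH, general form: if `γ T^w γ⁻¹ ∈ Γ₀(N)` then the nonzero coefficients of `T γ f` sit in
degrees `n` with `N ∣ n * w`. -/
theorem dvd_mul_of_coeff_ne_zero (γ : SL(2, ℤ)) (w : ℕ)
    (h : γ * ModularGroup.T ^ w * γ⁻¹ ∈ CongruenceSubgroup.Gamma0 N) (f : FF N) (n : ℤ)
    (hn : (C.T γ f).coeff n ≠ 0) : (N : ℤ) ∣ n * w := by
  have h1 : C.T (γ * ModularGroup.T ^ w) = C.T γ := by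
    have := T_mul_left C (γ * ModularGroup.T ^ w * γ⁻¹) γ h
    rwa [inv_mul_cancel_right] at this
  have h2 := T_mul_T_pow_coeff C γ w f n
  rw [h1] at h2
  have h3 : (zetaK N ^ n) ^ w = 1 := by
    have : ((zetaK N ^ n) ^ w - 1) * (C.T γ f).coeff n = 0 := by
      rw [sub_mul, one_mul, ← h2, sub_self]
    rcases mul_eq_zero.mp this with h' | h'
    · exact sub_eq_zero.mp h'
    · exact absurd h' hn
  rw [← zpow_natCast, ← zpow_mul] at h3
  exact (zetaK_zpow_eq_one_iff N _).mp h3

/-- (5) WIDTH: if `γ T^w γ⁻¹ ∈ Γ₀(N)` with `0 < w ∣ N`, then `T γ f` is a series in `q_N^{N/w}`. -/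
theorem width (γ : SL(2, ℤ)) (w : ℕ) (hw : 0 < w) (hwN : w ∣ N)
    (h : γ * ModularGroup.T ^ w * γ⁻¹ ∈ CongruenceSubgroup.Gamma0 N) (f : FF N) (n : ℤ)
    (hn : (C.T γ f).coeff n ≠ 0) : ((N / w : ℕ) : ℤ) ∣ n := by
  have h1 := dvd_mul_of_coeff_ne_zero C γ w h f n hn
  obtain ⟨e, he⟩ := hwN
  have hNw : N / w = e := by rw [he, Nat.mul_div_cancel_left e hw]
  rw [hNw]
  rw [he] at h1
  push_cast at h1
  have hw' : (w : ℤ) ≠ 0 := by exact_mod_cast hw.ne'
  rw [mul_comm n] at h1
  exact (mul_dvd_mul_iff_left hw').mp h1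

end Main

end Fermat.Agent.X0.CuspEquiv

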