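/-
Program C, input (3) of S24 (helper29): for ARBITRARY `(D : RealizeData N) (C : CuspData N D)` the
cusp expansions satisfy `C.Good` (helper7's `CuspPlaces.lean`): values on constants and on `j`,
invariance under `Γ₀(N)` on the left, rotation of coefficients under `γ ↦ γ T`, width lemma.
Everything is derived from `C.spec`, `D.algebraMap_eq`, `D.jd_eq`, `D.invariant`.
-/
import Fermat.Agent.X0.CuspEquiv
import Fermat.Agent.X0.CuspPlaces
import Fermat.Agent.X0.JBasic

set_option autoImplicit false

open UpperHalfPlane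
open scoped MatrixGroups

noncomputable section

namespace Fermat.Agent.X0.CuspGood

open Fermat.Agent.X0 Fermat.Agent.X0.CuspEquiv

variable {N : ℕ} [NeZero N]

/-- Passing from level `1` to level `N`: `q = q_N ^ N`. -/
theorem qh_one_eq_pow (z : ℍ) : qh 1 z = qh N z ^ N := by
  have hN : (N : ℂ) ≠ 0 := by exact_mod_cast NeZero.ne N
  rw [qh, qh, Function.Periodic.qParam, Function.Periodic.qParam, ← Complex.exp_nat_mul]
  congr 1
  push_cast
  field_simp

/-- A `q`-expansion is a `q_N`-expansion. -/
theorem isQExp_level {f : ℍ → ℂ} {m : ℕ} {P : PowerSeries ℂ} (hf : IsQExp 1 f m P) :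
    IsQExp N f (N * m) (P.expand N (NeZero.ne N)) := by
  intro z
  have h := hf z
  rw [qh_one_eq_pow (N := N)] at h
  have hinj : Function.Injective (fun n : ℕ => N * n) :=
    fun a b hab => Nat.eq_of_mul_eq_mul_left (Nat.pos_of_ne_zero (NeZero.ne N)) hab
  have key : HasSum ((fun n : ℕ => PowerSeries.coeff n (P.expand N (NeZero.ne N)) * qh N z ^ n)
      ∘ fun n : ℕ => N * n) (f z * (qh N z ^ N) ^ m) := by
    refine h.congr_fun fun n => ?_
    simp only [Function.comp_apply, PowerSeries.coeff_expand_mul, pow_mul]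
  rw [hinj.hasSum_iff] at key
  · rwa [pow_mul]
  · intro n hn
    have : ¬ N ∣ n := fun ⟨k, hk⟩ => hn ⟨k, hk.symm⟩
    rw [PowerSeries.coeff_expand_of_not_dvd N (NeZero.ne N) P this, zero_mul]

theorem coeffMap_qExpand {R S : Type*} [CommRing R] [CommRing S] (f : R →+* S) (n : ℕ)
    [NeZero n] (x : LaurentSeries R) :
    ModularCurve.coeffMap f (ModularCurve.qExpand R n x)
      = ModularCurve.qExpand S n (ModularCurve.coeffMap f x) := by
  ext k
  by_cases hk : (n : ℤ) ∣ k
  · obtain ⟨m, rfl⟩ := hk
    rw [ModularCurve.coeffMap_coeff, ModularCurve.qExpand_coeff_mul,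
      ModularCurve.qExpand_coeff_mul, ModularCurve.coeffMap_coeff]
  · rw [ModularCurve.coeffMap_coeff, ModularCurve.qExpand_coeff_of_not_dvd n _ hk,
      ModularCurve.qExpand_coeff_of_not_dvd n _ hk, map_zero]

theorem coeffMap_injective {R S : Type*} [CommRing R] [CommRing S] (f : R →+* S)
    (hf : Function.Injective f) : Function.Injective (ModularCurve.coeffMap f) := by
  intro x y h
  ext k
  apply hf
  have := congrArg (fun s => s.coeff k) h
  simpa only [ModularCurve.coeffMap_coeff] using this

theorem iotaK_comp_algebraMap : iotaK.comp (algebraMap ℚ Kbar) = algebraMap ℚ ℂ :=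
  Subsingleton.elim _ _

/-- The `q`-series of `q j`, over `Kbar`. -/
def jNumK : PowerSeries Kbar := ModularCurve.jNumQ.map (algebraMap ℚ Kbar)

theorem jNumK_map : jNumK.map iotaK = jNumC := by
  unfold jNumK jNumC
  ext n
  rw [PowerSeries.coeff_map, PowerSeries.coeff_map, PowerSeries.coeff_map, ← RingHom.comp_apply,
    iotaK_comp_algebraMap]

theorem scaleH_one (z : ℍ) : scaleH 1 z = z := by
  apply UpperHalfPlane.ext
  rw [coe_scaleH]
  push_cast
  ring

theorem jdFun_one : jdFun 1 = jFun := by
  funext z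
  rw [jdFun, scaleH_one]

variable {D : RealizeData N} (C : CuspData N D)

/-- Value of `T γ` on constants. -/
theorem map_const (γ : SL(2, ℤ)) (c : Kbar) :
    C.T γ (algebraMap Kbar (FF N) c) = HahnSeries.C c := by
  have hcoe : algebraMap Kbar (FF N) c = ((algebraMap Kbar (Rsub N) c : Rsub N) : FF N) := rfl
  rw [hcoe]
  have hP : IsQExp N (compSL (D.Θ (algebraMap Kbar (Rsub N) c)) γ) 0
      ((PowerSeries.C c).map iotaK) := by
    intro z
    rw [D.algebraMap_eq c]
    simp only [compSL, pow_zero, mul_one]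
    have h := hasSum_single (f := fun n : ℕ =>
      PowerSeries.coeff n ((PowerSeries.C c).map iotaK) * qh N z ^ n) 0 (fun n hn => by
        rw [PowerSeries.map_C, PowerSeries.coeff_C, if_neg hn, zero_mul])
    simpa [PowerSeries.map_C, PowerSeries.coeff_C] using h
  rw [T_eq_of_isQExp C γ _ hP, laurentOf]
  simp

/-- Value of `T γ` on `j`. -/
theorem map_jF (γ : SL(2, ℤ)) : C.T γ (jF N) = ModularCurve.qExpand Kbar N jqK := by
  have hcoe : jF N = ((jdR N 1 (one_dvd N) : Rsub N) : FF N) := rfl
  rw [hcoe]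
  have hfun : compSL (D.Θ (jdR N 1 (one_dvd N))) γ = jFun := by
    rw [D.jd_eq 1 (one_dvd N), jdFun_one]
    funext z
    exact jFun_smul γ z
  have hP : IsQExp N (compSL (D.Θ (jdR N 1 (one_dvd N))) γ) (N * 1)
      ((jNumK.expand N (NeZero.ne N)).map iotaK) := by
    rw [hfun, PowerSeries.map_expand, jNumK_map]
    exact isQExp_level isQExp_jFun_C
  rw [T_eq_of_isQExp C γ _ hP]
  apply coeffMap_injective iotaK iotaK_injective
  rw [coeffMap_laurentOf, PowerSeries.map_expand, jNumK_map, mul_one, coeffMap_qExpand]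
  have h := coeffMap_iotaK_jdF N 1 (one_dvd N)
  -- `jdF N 1 = jqK` as a Laurent series
  have hj : ((jdF N 1 (one_dvd N) : FF N) : LaurentSeries Kbar) = jqK := by
    show ModularCurve.coeffEmb Kbar (ModularCurve.qExpand ℚ 1 ModularCurve.jq) = _
    rw [ModularCurve.qExpand_one_apply]
    rfl
  rw [hj] at h
  rw [h]
  -- `qExpand ℂ N (laurentOf 1 (jNumC.expand 1)) = laurentOf N (jNumC.expand N)`
  have h2 := coeffMap_iotaK_jdF N N dvd_rfl
  have hjN : ((jdF N N dvd_rfl : FF N) : LaurentSeries Kbar)
      = ModularCurve.qExpand Kbar N jqK := by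
    show ModularCurve.coeffEmb Kbar (ModularCurve.qExpand ℚ N ModularCurve.jq) = _
    unfold ModularCurve.coeffEmb jqK
    rw [coeffMap_qExpand]
    rfl
  rw [hjN, coeffMap_qExpand, h] at h2
  exact h2.symm

/-- **Input (3) of S24**: the cusp expansions of any `CuspData` are `Good`. -/
theorem good : C.Good :=
  CuspData.Good.of_coeff C (map_const C) (map_jF C)
    (fun δ hδ γ => T_mul_left C δ γ hδ) (zetaK N) (zetaK_ne_zero N)
    (fun γ f n => T_mul_T_coeff C γ f n)
    (fun γ w hw hwN h f n hn => by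
      by_contra hne
      exact hn (width C γ w hw hwN h f n hne))

end Fermat.Agent.X0.CuspGood
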