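import Mathlib
import Fermat.Prelude.Def_ModularCurve_GenusNumerics
import Fermat.Agent.X0.G1Col

/-!
# C-G1 (part): the number of `T`-orbits on `SL(2, ℤ) ⧸ Γ₀(N)` is `cuspCount N`

Main result: `g1_orbits_T`.
-/

namespace Fermat.Agent.X0.G1Cusps

open scoped MatrixGroups
open CongruenceSubgroup Matrix.SpecialLinearGroup
open Fermat.Agent.X0.G1Col

/-- `gcd(δ, N / δ)` -/
def g1u_gg (N d : ℕ) : ℕ := Nat.gcd d (N / d)

lemma g1u_gg_pos {N d : ℕ} (hN : 0 < N) (hd : d ∣ N) : 0 < g1u_gg N d :=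
  Nat.gcd_pos_of_pos_left _ (Nat.pos_of_dvd_of_pos hd hN)

/-- The complete invariant of the `T`-orbit of the coset of `g`. -/
noncomputable def g1u_inv (N : ℕ) (g : SL(2, ℤ)) : (Σ _ : ℕ, ℕ) :=
  ⟨g1c_delta N g, (g1c_alpha (g1u_gg N (g1c_delta N g)) (g1c_delta N g) g).val⟩

lemma g1u_inv_eq_iff {N : ℕ} (hN : 0 < N) (g g' : SL(2, ℤ)) :
    g1u_inv N g = g1u_inv N g' ↔
      ∃ k : ℤ, (ModularGroup.T ^ k) • (QuotientGroup.mk g : SL(2, ℤ) ⧸ Gamma0 N) =
        QuotientGroup.mk g' := by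
  have hdpos := g1c_delta_pos hN g
  have hepos : 0 < N / g1c_delta N g :=
    Nat.div_pos (Nat.le_of_dvd hN (g1c_delta_dvd N g)) hdpos
  have hggpos : 0 < g1u_gg N (g1c_delta N g) := g1u_gg_pos hN (g1c_delta_dvd N g)
  have : NeZero (g1u_gg N (g1c_delta N g)) := ⟨hggpos.ne'⟩
  have hγ := g1c_isCoprime_div_delta hN g
  have hγ' := g1c_isCoprime_div_delta hN g'
  simp only [g1c_T_zpow_smul_iff hN]
  rw [exists_and_left, g1c_exists_add_mul_iff hepos]
  unfold g1u_inv
  rw [Sigma.mk.inj_iff]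
  constructor
  · rintro ⟨h1, h2⟩
    refine ⟨h1, ?_⟩
    rw [← h1] at h2
    have h3 := ZMod.val_injective _ (eq_of_heq h2)
    rw [← h1] at hγ'
    rw [g1c_cast_alpha _ g hγ, g1c_cast_alpha _ g' hγ']
    exact h3
  · rintro ⟨h1, h2⟩
    refine ⟨h1, ?_⟩
    rw [← h1]
    rw [← h1] at hγ'
    rw [g1c_cast_alpha _ g hγ, g1c_cast_alpha _ g' hγ'] at h2
    exact heq_of_eq (congrArg ZMod.val h2)

/-- The orbit relation of `⟨T⟩` in terms of powers of `T`. -/
lemma g1u_orbitRel_iff {N : ℕ} (x y : SL(2, ℤ) ⧸ Gamma0 N) :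
    MulAction.orbitRel (Subgroup.zpowers ModularGroup.T) (SL(2, ℤ) ⧸ Gamma0 N) x y ↔
      ∃ k : ℤ, (ModularGroup.T ^ k) • y = x := by
  rw [MulAction.orbitRel_apply, MulAction.mem_orbit_iff]
  constructor
  · rintro ⟨⟨t, ht⟩, h⟩
    obtain ⟨k, rfl⟩ := Subgroup.mem_zpowers_iff.mp ht
    exact ⟨k, h⟩
  · rintro ⟨k, h⟩
    exact ⟨⟨ModularGroup.T ^ k, Subgroup.zpow_mem_zpowers _ k⟩, h⟩

/-- The invariant on cosets. -/
noncomputable def g1u_invX (N : ℕ) [NeZero N] : SL(2, ℤ) ⧸ Gamma0 N → (Σ _ : ℕ, ℕ) :=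
  Quotient.lift (g1u_inv N) (by
    intro g g' h
    have h' : (QuotientGroup.mk g : SL(2, ℤ) ⧸ Gamma0 N) = QuotientGroup.mk g' :=
      Quotient.sound h
    rw [g1u_inv_eq_iff (NeZero.pos N)]
    exact ⟨0, by simpa using h'⟩)

lemma g1u_invX_mk (N : ℕ) [NeZero N] (g : SL(2, ℤ)) :
    g1u_invX N (QuotientGroup.mk g) = g1u_inv N g := rfl

lemma g1u_invX_eq_iff {N : ℕ} [NeZero N] (x y : SL(2, ℤ) ⧸ Gamma0 N) :
    g1u_invX N x = g1u_invX N y ↔
      MulAction.orbitRel (Subgroup.zpowers ModularGroup.T) (SL(2, ℤ) ⧸ Gamma0 N) x y := by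
  induction x using QuotientGroup.induction_on with
  | H g =>
    induction y using QuotientGroup.induction_on with
    | H g' =>
      rw [g1u_invX_mk, g1u_invX_mk, g1u_orbitRel_iff, eq_comm, g1u_inv_eq_iff (NeZero.pos N)]

/-- The invariant on orbits. -/
noncomputable def g1u_invO (N : ℕ) [NeZero N] :
    MulAction.orbitRel.Quotient (Subgroup.zpowers ModularGroup.T) (SL(2, ℤ) ⧸ Gamma0 N) →
      (Σ _ : ℕ, ℕ) :=
  Quotient.lift (g1u_invX N) (by
    intro x y h
    exact (g1u_invX_eq_iff x y).mpr h)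

lemma g1u_invO_injective (N : ℕ) [NeZero N] : Function.Injective (g1u_invO N) := by
  intro o o' h
  induction o using Quotient.inductionOn with
  | h x =>
    induction o' using Quotient.inductionOn with
    | h y =>
      exact Quotient.sound ((g1u_invX_eq_iff x y).mp h)

/-- The set of values of the invariant. -/
def g1u_target (N : ℕ) : Finset (Σ _ : ℕ, ℕ) :=
  N.divisors.sigma fun d =>
    {r ∈ Finset.range (g1u_gg N d) | (g1u_gg N d).Coprime r}

lemma g1u_card_target (N : ℕ) : (g1u_target N).card = ModularCurve.cuspCount N := by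
  unfold g1u_target ModularCurve.cuspCount
  rw [Finset.card_sigma]
  refine Finset.sum_congr rfl fun d _ => ?_
  rw [Nat.totient_eq_card_coprime]
  rfl

lemma g1u_range_invO (N : ℕ) [NeZero N] :
    Set.range (g1u_invO N) = (g1u_target N : Set (Σ _ : ℕ, ℕ)) := by
  have hN : 0 < N := NeZero.pos N
  ext ⟨d, r⟩
  simp only [Set.mem_range, Finset.mem_coe, g1u_target, Finset.mem_sigma, Finset.mem_filter,
    Finset.mem_range]
  constructor
  · rintro ⟨o, ho⟩
    induction o using Quotient.inductionOn with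
    | h x =>
      induction x using QuotientGroup.induction_on with
      | H g =>
        change g1u_inv N g = ⟨d, r⟩ at ho
        unfold g1u_inv at ho
        rw [Sigma.mk.inj_iff] at ho
        obtain ⟨h1, h2⟩ := ho
        subst h1
        have h2 := eq_of_heq h2
        have hggpos : 0 < g1u_gg N (g1c_delta N g) := g1u_gg_pos hN (g1c_delta_dvd N g)
        have : NeZero (g1u_gg N (g1c_delta N g)) := ⟨hggpos.ne'⟩
        refine ⟨g1c_delta_mem_divisors hN g, ?_, ?_⟩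
        · rw [← h2]
          exact ZMod.val_lt _
        · have hu := g1c_isUnit_alpha hN g (m := g1u_gg N (g1c_delta N g))
            (Nat.gcd_dvd_left _ _) (Nat.gcd_dvd_right _ _)
          rw [← ZMod.natCast_zmod_val (g1c_alpha _ _ g), ZMod.isUnit_iff_coprime, h2] at hu
          exact hu.symm
  · rintro ⟨hd, hr, hcop⟩
    have hdN : d ∣ N := Nat.dvd_of_mem_divisors hd
    have hggpos : 0 < g1u_gg N d := g1u_gg_pos hN hdN
    have : NeZero (g1u_gg N d) := ⟨hggpos.ne'⟩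
    have hα : IsUnit (ZMod.castHom (Nat.gcd_dvd_right d (N / d)) (ZMod (Nat.gcd d (N / d)))
        ((r : ℕ) : ZMod (N / d))) := by
      rw [map_natCast, ZMod.isUnit_iff_coprime]
      exact hcop.symm
    obtain ⟨g, hg1, hg2⟩ := g1c_exists hN hdN ((r : ℕ) : ZMod (N / d)) hα
    refine ⟨Quotient.mk _ (QuotientGroup.mk g), ?_⟩
    change g1u_inv N g = ⟨d, r⟩
    unfold g1u_inv
    rw [hg1]
    congr 1
    have hγ := g1c_isCoprime_div_delta hN g
    rw [hg1] at hγ
    have h3 := g1c_cast_alpha (Nat.gcd_dvd_right d (N / d)) g hγ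
    rw [hg2, map_natCast] at h3
    change _ = g1c_alpha (g1u_gg N d) d g at h3
    rw [← h3]
    exact ZMod.val_natCast_of_lt hr

/-- **C-G1 (c)**: the number of orbits of `T` on `SL(2, ℤ) ⧸ Γ₀(N)` is `cuspCount N`. -/
theorem g1_orbits_T (N : ℕ) [NeZero N] :
    Nat.card (MulAction.orbitRel.Quotient (Subgroup.zpowers ModularGroup.T)
      (SL(2, ℤ) ⧸ Gamma0 N)) = ModularCurve.cuspCount N := by
  rw [Nat.card_congr (Equiv.ofInjective (g1u_invO N) (g1u_invO_injective N)), g1u_range_invO,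
    Nat.card_coe_set_eq, Set.ncard_coe_finset, g1u_card_target]

end Fermat.Agent.X0.G1Cusps
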