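/-
C-N1 (helper20): numerics of the genus formula, part 1: `dedekindPsi`.
Multiplicativity on coprime arguments and prime-power values.
-/
import Mathlib
import Fermat.Prelude.Def_ModularCurve_GenusNumerics

set_option autoImplicit false

namespace Fermat.Agent.X0.GNPsi

open Finset ModularCurve

/-- Sum over the divisors of a product of coprime numbers. -/
theorem gnp_sum_divisors_mul {M : Type*} [AddCommMonoid M] {m n : ℕ} (hmn : m.Coprime n)
    (F : ℕ → M) :
    ∑ d ∈ (m * n).divisors, F d = ∑ d₁ ∈ m.divisors, ∑ d₂ ∈ n.divisors, F (d₁ * d₂) := by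
  rw [hmn.divisors_mul, Finset.sum_map]
  rw [← Finset.sum_product (m.divisors) (n.divisors) (fun p => F (p.1 * p.2))]
  exact Finset.sum_attach (m.divisors ×ˢ n.divisors) (fun p => F (p.1 * p.2))

/-- `dedekindPsi` is multiplicative on coprime arguments. -/
theorem gnp_dedekindPsi_mul {m n : ℕ} (hmn : m.Coprime n) :
    dedekindPsi (m * n) = dedekindPsi m * dedekindPsi n := by
  unfold dedekindPsi
  rw [Finset.sum_filter, gnp_sum_divisors_mul hmn, Finset.sum_filter, Finset.sum_filter,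
    Finset.sum_mul_sum]
  refine Finset.sum_congr rfl fun d₁ h₁ => Finset.sum_congr rfl fun d₂ h₂ => ?_
  have hd₁ := Nat.dvd_of_mem_divisors h₁
  have hd₂ := Nat.dvd_of_mem_divisors h₂
  have hcop : d₁.Coprime d₂ := (hmn.coprime_dvd_left hd₁).coprime_dvd_right hd₂
  have hsq : Squarefree (d₁ * d₂) ↔ Squarefree d₁ ∧ Squarefree d₂ := by
    rw [Nat.squarefree_mul_iff]; exact ⟨fun h => h.2, fun h => ⟨hcop, h⟩⟩
  by_cases h1 : Squarefree d₁ <;> by_cases h2 : Squarefree d₂ <;>
    simp [hsq, h1, h2, Nat.mul_div_mul_comm hd₁ hd₂]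

/-- Value of `dedekindPsi` on prime powers. -/
theorem gnp_dedekindPsi_prime_pow {p : ℕ} (hp : p.Prime) (k : ℕ) :
    dedekindPsi (p ^ (k + 1)) = p ^ (k + 1) + p ^ k := by
  unfold dedekindPsi
  rw [Finset.sum_filter, Nat.sum_divisors_prime_pow hp, Finset.sum_range_succ',
    Finset.sum_range_succ']
  have h0 : ∑ j ∈ Finset.range k,
      (if Squarefree (p ^ (j + 1 + 1)) then p ^ (k + 1) / p ^ (j + 1 + 1) else 0) = 0 := by
    apply Finset.sum_eq_zero
    intro j _
    rw [if_neg]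
    rw [Nat.squarefree_pow_iff hp.ne_one (by omega)]
    omega
  rw [h0]
  have h1 : p ^ (k + 1) / p ^ (0 + 1) = p ^ k := by
    rw [zero_add, pow_one, pow_succ, Nat.mul_div_cancel _ hp.pos]
  rw [h1, if_pos (by simpa using hp.squarefree), if_pos (by simp)]
  simp
  ring

/-- `N ≤ dedekindPsi N`. -/
theorem gnp_le_dedekindPsi {N : ℕ} (hN : N ≠ 0) : N ≤ dedekindPsi N := by
  unfold dedekindPsi
  have h1 : (1 : ℕ) ∈ N.divisors.filter (fun d => Squarefree d) := by
    simp [hN]
  calc N = N / 1 := (Nat.div_one N).symm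
    _ ≤ _ := Finset.single_le_sum (f := fun d => N / d) (fun _ _ => Nat.zero_le _) h1

theorem gnp_dedekindPsi_pos {N : ℕ} (hN : N ≠ 0) : 0 < dedekindPsi N :=
  lt_of_lt_of_le (Nat.pos_of_ne_zero hN) (gnp_le_dedekindPsi hN)

end Fermat.Agent.X0.GNPsi
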