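/-
C-N1 (helper20): numerics of the genus formula, part 2: `cuspCount`.
Multiplicativity on coprime arguments and prime-power values.
-/
import Mathlib
import Fermat.Prelude.Def_ModularCurve_GenusNumerics
import Fermat.Agent.X0.GNPsi

set_option autoImplicit false

namespace Fermat.Agent.X0.GNCusp

open Finset ModularCurve Fermat.Agent.X0.GNPsi

/-- `cuspCount` is multiplicative on coprime arguments. -/
theorem gnc_cuspCount_mul {m n : ℕ} (hmn : m.Coprime n) :
    cuspCount (m * n) = cuspCount m * cuspCount n := by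
  unfold cuspCount
  rw [gnp_sum_divisors_mul hmn, Finset.sum_mul_sum]
  refine Finset.sum_congr rfl fun d₁ h₁ => Finset.sum_congr rfl fun d₂ h₂ => ?_
  have hd₁ := Nat.dvd_of_mem_divisors h₁
  have hd₂ := Nat.dvd_of_mem_divisors h₂
  have hd₁' : m / d₁ ∣ m := Nat.div_dvd_of_dvd hd₁
  have hd₂' : n / d₂ ∣ n := Nat.div_dvd_of_dvd hd₂
  rw [Nat.mul_div_mul_comm hd₁ hd₂]
  have c1 : (m / d₁).Coprime (n / d₂) := (hmn.coprime_dvd_left hd₁').coprime_dvd_right hd₂'
  have c2 : d₂.Coprime (m / d₁) := ((hmn.coprime_dvd_left hd₁').coprime_dvd_right hd₂).symm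
  have c3 : d₁.Coprime (n / d₂) := (hmn.coprime_dvd_left hd₁).coprime_dvd_right hd₂'
  rw [Nat.Coprime.gcd_mul _ c1, Nat.Coprime.gcd_mul_right_cancel _ c2,
    Nat.Coprime.gcd_mul_left_cancel _ c3]
  apply Nat.totient_mul
  exact (hmn.coprime_dvd_left ((Nat.gcd_dvd_left _ _).trans hd₁)).coprime_dvd_right
    ((Nat.gcd_dvd_left _ _).trans hd₂)

theorem gnc_sum_totient_pow {p : ℕ} (hp : p.Prime) (i : ℕ) :
    ∑ j ∈ Finset.range (i + 1), Nat.totient (p ^ j) = p ^ i := by
  rw [← Nat.sum_divisors_prime_pow hp (f := Nat.totient), Nat.sum_totient]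

theorem gnc_term {p : ℕ} (hp : p.Prime) {a b : ℕ} (hab : a ≤ b) :
    Nat.totient (Nat.gcd (p ^ a) (p ^ (a + b) / p ^ a)) = Nat.totient (p ^ a) := by
  rw [Nat.pow_div (Nat.le_add_right a b) hp.pos, Nat.add_sub_cancel_left,
    Nat.gcd_eq_left (pow_dvd_pow p hab)]

theorem gnc_term' {p : ℕ} (hp : p.Prime) {a b : ℕ} (hab : b ≤ a) :
    Nat.totient (Nat.gcd (p ^ a) (p ^ (a + b) / p ^ a)) = Nat.totient (p ^ b) := by
  rw [Nat.pow_div (Nat.le_add_right a b) hp.pos, Nat.add_sub_cancel_left,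
    Nat.gcd_eq_right (pow_dvd_pow p hab)]

theorem gnc_cuspCount_prime_pow_odd {p : ℕ} (hp : p.Prime) (i : ℕ) :
    cuspCount (p ^ (2 * i + 1)) = 2 * p ^ i := by
  unfold cuspCount
  rw [Nat.sum_divisors_prime_pow hp, show 2 * i + 1 + 1 = (i + 1) + (i + 1) by ring,
    Finset.sum_range_add]
  have h1 : ∀ j ∈ Finset.range (i + 1),
      Nat.totient (Nat.gcd (p ^ j) (p ^ (2 * i + 1) / p ^ j)) = Nat.totient (p ^ j) := by
    intro j hj
    rw [Finset.mem_range] at hj
    have : 2 * i + 1 = j + (2 * i + 1 - j) := by omega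
    rw [this]
    exact gnc_term hp (by omega)
  have h2 : ∀ x ∈ Finset.range (i + 1),
      Nat.totient (Nat.gcd (p ^ (i + 1 + x)) (p ^ (2 * i + 1) / p ^ (i + 1 + x)))
        = Nat.totient (p ^ (i + 1 - 1 - x)) := by
    intro x hx
    rw [Finset.mem_range] at hx
    have : 2 * i + 1 = (i + 1 + x) + (i + 1 - 1 - x) := by omega
    rw [this]
    exact gnc_term' hp (by omega)
  rw [Finset.sum_congr rfl h1, Finset.sum_congr rfl h2,
    Finset.sum_range_reflect (fun j => Nat.totient (p ^ j)) (i + 1), gnc_sum_totient_pow hp]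
  ring

theorem gnc_cuspCount_prime_pow_even {p : ℕ} (hp : p.Prime) (i : ℕ) :
    cuspCount (p ^ (2 * i + 2)) = p ^ (i + 1) + p ^ i := by
  unfold cuspCount
  rw [Nat.sum_divisors_prime_pow hp, show 2 * i + 2 + 1 = (i + 1) + (i + 1 + 1) by ring,
    Finset.sum_range_add]
  have h1 : ∀ j ∈ Finset.range (i + 1),
      Nat.totient (Nat.gcd (p ^ j) (p ^ (2 * i + 2) / p ^ j)) = Nat.totient (p ^ j) := by
    intro j hj
    rw [Finset.mem_range] at hj
    have : 2 * i + 2 = j + (2 * i + 2 - j) := by omega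
    rw [this]
    exact gnc_term hp (by omega)
  have h2 : ∀ x ∈ Finset.range (i + 1 + 1),
      Nat.totient (Nat.gcd (p ^ (i + 1 + x)) (p ^ (2 * i + 2) / p ^ (i + 1 + x)))
        = Nat.totient (p ^ (i + 1 + 1 - 1 - x)) := by
    intro x hx
    rw [Finset.mem_range] at hx
    have : 2 * i + 2 = (i + 1 + x) + (i + 1 + 1 - 1 - x) := by omega
    rw [this]
    exact gnc_term' hp (by omega)
  rw [Finset.sum_congr rfl h1, Finset.sum_congr rfl h2,
    Finset.sum_range_reflect (fun j => Nat.totient (p ^ j)) (i + 1 + 1), gnc_sum_totient_pow hp,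
    gnc_sum_totient_pow hp]
  ring

end Fermat.Agent.X0.GNCusp
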