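/-
C-N1 (helper20): numerics of the genus formula, part 3: `nuTwo`, `nuThree`.
Root counts of `x^2 + b x + c` in `ZMod N`: CRT multiplicativity, Hensel step, field count.
-/
import Mathlib
import Fermat.Prelude.Def_ModularCurve_GenusNumerics

set_option autoImplicit false

namespace Fermat.Agent.X0.GNNu

open ModularCurve

/-- Number of roots of `x^2 + b x + c` in `ZMod N`. -/
noncomputable def gnn_cnt (b c : ℤ) (N : ℕ) : ℕ :=
  Nat.card {x : ZMod N // x ^ 2 + (b : ZMod N) * x + (c : ZMod N) = 0}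

theorem gnn_nuTwo_eq (N : ℕ) : nuTwo N = gnn_cnt 0 1 N := by
  unfold nuTwo gnn_cnt
  exact Nat.card_congr (Equiv.subtypeEquivRight (fun x => by simp))

theorem gnn_nuThree_eq (N : ℕ) : nuThree N = gnn_cnt 1 1 N := by
  unfold nuThree gnn_cnt
  exact Nat.card_congr (Equiv.subtypeEquivRight (fun x => by simp))

/-- CRT: the root count is multiplicative on coprime moduli. -/
theorem gnn_cnt_mul (b c : ℤ) {m n : ℕ} (hmn : m.Coprime n) :
    gnn_cnt b c (m * n) = gnn_cnt b c m * gnn_cnt b c n := by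
  unfold gnn_cnt
  rw [← Nat.card_prod]
  apply Nat.card_congr
  let e := ZMod.chineseRemainder hmn
  refine (Equiv.subtypeEquiv e.toEquiv
    (q := fun y : ZMod m × ZMod n => (y.1 ^ 2 + (b : ZMod m) * y.1 + (c : ZMod m) = 0) ∧
      (y.2 ^ 2 + (b : ZMod n) * y.2 + (c : ZMod n) = 0)) ?_).trans
      (Equiv.subtypeProdEquivProd (p := fun y : ZMod m => y ^ 2 + (b : ZMod m) * y + (c : ZMod m) = 0)
        (q := fun y : ZMod n => y ^ 2 + (b : ZMod n) * y + (c : ZMod n) = 0))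
  intro x
  rw [← e.injective.eq_iff, map_zero, Prod.ext_iff]
  simp [map_add, map_mul, map_pow, map_intCast]

/-- Roots reduce to roots: if there is no root mod `M` and `M ∣ N` then there is none mod `N`. -/
theorem gnn_cnt_eq_zero_of_dvd (b c : ℤ) {M N : ℕ} [NeZero M] (h : M ∣ N)
    (h0 : gnn_cnt b c M = 0) : gnn_cnt b c N = 0 := by
  unfold gnn_cnt at h0 ⊢
  rw [Nat.card_eq_zero] at h0 ⊢
  left
  rcases h0 with h0 | h0
  · constructor
    rintro ⟨x, hx⟩
    apply h0.false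
    refine ⟨ZMod.castHom h (ZMod M) x, ?_⟩
    have := congrArg (ZMod.castHom h (ZMod M)) hx
    simpa [map_add, map_mul, map_pow, map_intCast] using this
  · exact absurd (inferInstance : Finite _) (not_finite_iff_infinite.mpr h0)

/-- the derivative `2a+b` at an integer root mod `p` is prime to `p` if the discriminant is -/
theorem gnn_coprime_deriv {p : ℕ} (hp : p.Prime) (b c : ℤ) (hdisc : ¬ (p : ℤ) ∣ b ^ 2 - 4 * c)
    (a w : ℤ) (ha : (p : ℤ) ∣ a ^ 2 + b * a + c) (hw : (p : ℤ) ∣ w - (2 * a + b)) :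
    IsCoprime w (p : ℤ) := by
  have hpp : Prime (p : ℤ) := Nat.prime_iff_prime_int.mp hp
  rw [isCoprime_comm, Prime.coprime_iff_not_dvd hpp]
  intro hdvd
  apply hdisc
  have h1 : (p : ℤ) ∣ 2 * a + b := by
    have := dvd_sub hdvd hw
    simpa using this
  have h2 : b ^ 2 - 4 * c = (2 * a + b) * (2 * a + b) - 4 * (a ^ 2 + b * a + c) := by ring
  rw [h2]
  exact dvd_sub (Dvd.dvd.mul_right h1 _) (Dvd.dvd.mul_left ha _)

theorem gnn_cnt_pow_succ {p : ℕ} (hp : p.Prime) (b c : ℤ) (hdisc : ¬ (p : ℤ) ∣ b ^ 2 - 4 * c)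
    (k : ℕ) : gnn_cnt b c (p ^ (k + 2)) = gnn_cnt b c (p ^ (k + 1)) := by
  unfold gnn_cnt
  have hdvd : p ^ (k + 1) ∣ p ^ (k + 2) := pow_dvd_pow p (Nat.le_succ _)
  let π := ZMod.castHom hdvd (ZMod (p ^ (k + 1)))
  have hπ : ∀ x : ZMod (p ^ (k + 2)), x ^ 2 + (b : ZMod (p ^ (k + 2))) * x + (c : ZMod (p ^ (k + 2))) = 0 →
      (π x) ^ 2 + (b : ZMod (p ^ (k + 1))) * (π x) + (c : ZMod (p ^ (k + 1))) = 0 := by
    intro x hx
    have := congrArg π hx
    simpa [map_add, map_mul, map_pow, map_intCast] using this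
  let φ : {x : ZMod (p ^ (k + 2)) // x ^ 2 + (b : ZMod (p ^ (k + 2))) * x + (c : ZMod (p ^ (k + 2))) = 0} →
      {x : ZMod (p ^ (k + 1)) // x ^ 2 + (b : ZMod (p ^ (k + 1))) * x + (c : ZMod (p ^ (k + 1))) = 0} :=
    fun x => ⟨π x.1, hπ x.1 x.2⟩
  have hp1 : (p : ℤ) ∣ (p : ℤ) ^ (k + 1) := dvd_pow_self _ (Nat.succ_ne_zero k)
  have hp2 : (p : ℤ) ∣ (p : ℤ) ^ (k + 2) := dvd_pow_self _ (Nat.succ_ne_zero _)
  apply Nat.card_eq_of_bijective φ
  constructor
  · -- injective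
    rintro ⟨x, hx⟩ ⟨y, hy⟩ hxy
    have hxy' : π x = π y := congrArg Subtype.val hxy
    obtain ⟨a, rfl⟩ := ZMod.intCast_surjective x
    obtain ⟨a', rfl⟩ := ZMod.intCast_surjective y
    rw [Subtype.mk.injEq]
    simp only [π, map_intCast] at hxy'
    rw [ZMod.intCast_eq_intCast_iff_dvd_sub] at hxy' ⊢
    push_cast at hxy'
    have hx' : ((p ^ (k + 2) : ℕ) : ℤ) ∣ a ^ 2 + b * a + c := by
      rw [← ZMod.intCast_zmod_eq_zero_iff_dvd]; push_cast; exact hx
    have hy' : ((p ^ (k + 2) : ℕ) : ℤ) ∣ a' ^ 2 + b * a' + c := by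
      rw [← ZMod.intCast_zmod_eq_zero_iff_dvd]; push_cast; exact hy
    push_cast at hx' hy' ⊢
    have hmul : (p : ℤ) ^ (k + 2) ∣ (a' - a) * (a + a' + b) := by
      have : (a' - a) * (a + a' + b) = (a' ^ 2 + b * a' + c) - (a ^ 2 + b * a + c) := by ring
      rw [this]
      exact dvd_sub hy' hx'
    have hcop : IsCoprime (a + a' + b) (p : ℤ) := by
      apply gnn_coprime_deriv hp b c hdisc a _ (hp2.trans hx')
      have : a + a' + b - (2 * a + b) = a' - a := by ring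
      rw [this]
      exact hp1.trans hxy'
    exact (hcop.symm.pow_left).dvd_of_dvd_mul_right hmul
  · -- surjective
    rintro ⟨y, hy⟩
    obtain ⟨a, rfl⟩ := ZMod.intCast_surjective y
    have hy' : ((p ^ (k + 1) : ℕ) : ℤ) ∣ a ^ 2 + b * a + c := by
      rw [← ZMod.intCast_zmod_eq_zero_iff_dvd]; push_cast; exact hy
    push_cast at hy'
    obtain ⟨t, ht⟩ := hy'
    have hcop : IsCoprime (2 * a + b) (p : ℤ) :=
      gnn_coprime_deriv hp b c hdisc a _ (hp1.trans ⟨t, ht⟩) (by simp)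
    obtain ⟨u, v, huv⟩ := hcop
    have key : (a + (p : ℤ) ^ (k + 1) * (-t * u)) ^ 2 + b * (a + (p : ℤ) ^ (k + 1) * (-t * u)) + c
        = (p : ℤ) ^ (k + 2) * (t * v + (p : ℤ) ^ k * (-t * u) ^ 2) := by
      linear_combination ht - (p : ℤ) ^ (k + 1) * t * huv
    refine ⟨⟨((a + (p : ℤ) ^ (k + 1) * (-t * u) : ℤ) : ZMod (p ^ (k + 2))), ?_⟩, ?_⟩
    · have := congrArg (Int.cast : ℤ → ZMod (p ^ (k + 2))) key
      have h0 : ((p : ZMod (p ^ (k + 2))) ^ (k + 2)) = 0 := by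
        have := ZMod.natCast_self (p ^ (k + 2))
        push_cast at this
        exact this
      push_cast at this
      rw [h0, zero_mul] at this
      push_cast
      exact this
    · apply Subtype.ext
      simp only [φ, π, map_intCast]
      rw [ZMod.intCast_eq_intCast_iff_dvd_sub]
      push_cast
      exact ⟨t * u, by ring⟩


theorem gnn_card_roots_field {F : Type*} [Field F] (b c r : F) (hr : r ^ 2 + b * r + c = 0)
    (hd : b ^ 2 - 4 * c ≠ 0) : Nat.card {x : F // x ^ 2 + b * x + c = 0} = 2 := by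
  have hset : {x : F | x ^ 2 + b * x + c = 0} = {r, -b - r} := by
    ext x
    simp only [Set.mem_ofPred_eq, Set.mem_insert_iff, Set.mem_singleton_iff]
    have : x ^ 2 + b * x + c = (x - r) * (x - (-b - r)) := by linear_combination hr
    rw [this, mul_eq_zero, sub_eq_zero, sub_eq_zero]
  have hne : r ≠ -b - r := by
    intro h
    apply hd
    have h2 : 2 * r + b = 0 := by linear_combination h
    calc b ^ 2 - 4 * c = (2 * r + b) ^ 2 - 4 * (r ^ 2 + b * r + c) := by ring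
      _ = 0 := by rw [h2, hr]; ring
  change Nat.card ↥{x : F | x ^ 2 + b * x + c = 0} = 2
  rw [hset, Nat.card_coe_set_eq, Set.ncard_pair hne]

theorem gnn_cnt_prime_of_root {p : ℕ} (hp : p.Prime) (b c : ℤ) (hdisc : ¬ (p : ℤ) ∣ b ^ 2 - 4 * c)
    (r : ZMod p) (hr : r ^ 2 + (b : ZMod p) * r + (c : ZMod p) = 0) : gnn_cnt b c p = 2 := by
  have := Fact.mk hp
  unfold gnn_cnt
  apply gnn_card_roots_field _ _ r hr
  intro h
  apply hdisc
  rw [← ZMod.intCast_zmod_eq_zero_iff_dvd]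
  push_cast
  exact h

theorem gnn_cnt_of_no_root (b c : ℤ) (N : ℕ)
    (h : ∀ r : ZMod N, r ^ 2 + (b : ZMod N) * r + (c : ZMod N) ≠ 0) : gnn_cnt b c N = 0 := by
  unfold gnn_cnt
  rw [Nat.card_eq_zero]
  left
  exact ⟨fun x => h x.1 x.2⟩


theorem gnn_nuTwo_two : nuTwo 2 = 1 := by
  unfold nuTwo
  rw [Nat.card_eq_fintype_card, Fintype.card_subtype]
  decide

theorem gnn_nuTwo_four : nuTwo 4 = 0 := by
  unfold nuTwo
  rw [Nat.card_eq_fintype_card, Fintype.card_subtype]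
  decide

theorem gnn_nuThree_three : nuThree 3 = 1 := by
  unfold nuThree
  rw [Nat.card_eq_fintype_card, Fintype.card_subtype]
  decide

theorem gnn_nuThree_nine : nuThree 9 = 0 := by
  unfold nuThree
  rw [Nat.card_eq_fintype_card, Fintype.card_subtype]
  decide

theorem gnn_not_dvd_neg_four {p : ℕ} (hp : p.Prime) (h2 : p ≠ 2) :
    ¬ (p : ℤ) ∣ (0 : ℤ) ^ 2 - 4 * 1 := by
  intro h
  have h4 : p ∣ 4 := by
    have := Int.natAbs_dvd_natAbs.mpr h
    simpa using this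
  have : p ∣ 2 := hp.dvd_of_dvd_pow (show p ∣ 2 ^ 2 from h4)
  exact h2 ((Nat.prime_dvd_prime_iff_eq hp Nat.prime_two).mp this)

theorem gnn_not_dvd_neg_three {p : ℕ} (hp : p.Prime) (h3 : p ≠ 3) :
    ¬ (p : ℤ) ∣ (1 : ℤ) ^ 2 - 4 * 1 := by
  intro h
  have h4 : p ∣ 3 := by
    have := Int.natAbs_dvd_natAbs.mpr h
    simpa using this
  exact h3 ((Nat.prime_dvd_prime_iff_eq hp Nat.prime_three).mp h4)

theorem gnn_exists_root_three {p : ℕ} (hp : p.Prime) (h : p % 3 = 1) :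
    ∃ r : ZMod p, r ^ 2 + r + 1 = 0 := by
  have := Fact.mk hp
  have h3 : 3 ∣ Fintype.card (ZMod p)ˣ := by
    rw [ZMod.card_units]
    have := hp.two_le
    omega
  have : Fact (Nat.Prime 3) := ⟨Nat.prime_three⟩
  obtain ⟨x, hx⟩ := exists_prime_orderOf_dvd_card 3 h3
  refine ⟨(x : ZMod p), ?_⟩
  have hx3 : (x : ZMod p) ^ 3 = 1 := by
    have := pow_orderOf_eq_one x
    rw [hx] at this
    have h2 := congrArg Units.val this
    simpa using h2
  have hx1 : (x : ZMod p) ≠ 1 := by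
    intro h1
    have : x = 1 := Units.ext h1
    rw [this, orderOf_one] at hx
    omega
  have : ((x : ZMod p) - 1) * ((x : ZMod p) ^ 2 + x + 1) = 0 := by linear_combination hx3
  rcases mul_eq_zero.mp this with h | h
  · exact absurd (sub_eq_zero.mp h) hx1
  · exact h

theorem gnn_no_root_three {p : ℕ} (hp : p.Prime) (h : p % 3 = 2) (r : ZMod p) :
    r ^ 2 + r + 1 ≠ 0 := by
  have := Fact.mk hp
  intro hr
  have hr3 : r * r ^ 2 = 1 := by linear_combination (r - 1) * hr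
  have hr1 : r ≠ 1 := by
    intro h1
    rw [h1] at hr
    have h30 : ((3 : ℕ) : ZMod p) = 0 := by push_cast; linear_combination hr
    rw [ZMod.natCast_eq_zero_iff] at h30
    have := (Nat.prime_dvd_prime_iff_eq hp Nat.prime_three).mp h30
    omega
  let u : (ZMod p)ˣ := Units.mkOfMulEqOne r (r ^ 2) hr3
  have hu3 : u ^ 3 = 1 := by
    apply Units.ext
    simp only [Units.val_pow_eq_pow_val, Units.val_one]
    change r ^ 3 = 1
    linear_combination hr3
  have hu1 : u ≠ 1 := by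
    intro h1
    apply hr1
    have := congrArg Units.val h1
    exact this
  have : Fact (Nat.Prime 3) := ⟨Nat.prime_three⟩
  have hord : orderOf u = 3 := orderOf_eq_prime hu3 hu1
  have hdvd : 3 ∣ Fintype.card (ZMod p)ˣ := hord ▸ orderOf_dvd_card
  rw [ZMod.card_units] at hdvd
  have := hp.two_le
  omega

theorem gnn_cnt_prime_pow {p : ℕ} (hp : p.Prime) (b c : ℤ) (hdisc : ¬ (p : ℤ) ∣ b ^ 2 - 4 * c)
    (k : ℕ) : gnn_cnt b c (p ^ (k + 1)) = gnn_cnt b c p := by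
  induction k with
  | zero => simp
  | succ k ih => rw [gnn_cnt_pow_succ hp b c hdisc k, ih]

/-! ### Final values -/

theorem gnn_nuTwo_mul {m n : ℕ} (hmn : m.Coprime n) : nuTwo (m * n) = nuTwo m * nuTwo n := by
  simp only [gnn_nuTwo_eq]
  exact gnn_cnt_mul 0 1 hmn

theorem gnn_nuThree_mul {m n : ℕ} (hmn : m.Coprime n) :
    nuThree (m * n) = nuThree m * nuThree n := by
  simp only [gnn_nuThree_eq]
  exact gnn_cnt_mul 1 1 hmn

theorem gnn_nuTwo_prime_pow_of_one {p : ℕ} (hp : p.Prime) (h : p % 4 = 1) (k : ℕ) :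
    nuTwo (p ^ (k + 1)) = 2 := by
  have h2 : p ≠ 2 := by rintro rfl; omega
  rw [gnn_nuTwo_eq, gnn_cnt_prime_pow hp 0 1 (gnn_not_dvd_neg_four hp h2) k]
  have := Fact.mk hp
  obtain ⟨r, hr⟩ := (ZMod.exists_sq_eq_neg_one_iff (p := p)).mpr (by omega)
  refine gnn_cnt_prime_of_root hp 0 1 (gnn_not_dvd_neg_four hp h2) r ?_
  push_cast
  linear_combination -hr

theorem gnn_nuTwo_prime_pow_of_three {p : ℕ} (hp : p.Prime) (h : p % 4 = 3) (k : ℕ) :
    nuTwo (p ^ (k + 1)) = 0 := by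
  have h2 : p ≠ 2 := by rintro rfl; omega
  rw [gnn_nuTwo_eq, gnn_cnt_prime_pow hp 0 1 (gnn_not_dvd_neg_four hp h2) k]
  have := Fact.mk hp
  apply gnn_cnt_of_no_root
  intro r hr
  have hsq : IsSquare (-1 : ZMod p) := ⟨r, by push_cast at hr; linear_combination -hr⟩
  exact (ZMod.exists_sq_eq_neg_one_iff (p := p)).mp hsq h

theorem gnn_nuTwo_two_pow (k : ℕ) : nuTwo (2 ^ (k + 2)) = 0 := by
  rw [gnn_nuTwo_eq]
  have h4 : (4 : ℕ) ∣ 2 ^ (k + 2) := ⟨2 ^ k, by ring⟩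
  exact gnn_cnt_eq_zero_of_dvd 0 1 h4 (by rw [← gnn_nuTwo_eq]; exact gnn_nuTwo_four)

theorem gnn_nuThree_prime_pow_of_one {p : ℕ} (hp : p.Prime) (h : p % 3 = 1) (k : ℕ) :
    nuThree (p ^ (k + 1)) = 2 := by
  have h3 : p ≠ 3 := by rintro rfl; omega
  rw [gnn_nuThree_eq, gnn_cnt_prime_pow hp 1 1 (gnn_not_dvd_neg_three hp h3) k]
  obtain ⟨r, hr⟩ := gnn_exists_root_three hp h
  refine gnn_cnt_prime_of_root hp 1 1 (gnn_not_dvd_neg_three hp h3) r ?_
  push_cast
  linear_combination hr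

theorem gnn_nuThree_prime_pow_of_two {p : ℕ} (hp : p.Prime) (h : p % 3 = 2) (k : ℕ) :
    nuThree (p ^ (k + 1)) = 0 := by
  have h3 : p ≠ 3 := by rintro rfl; omega
  rw [gnn_nuThree_eq, gnn_cnt_prime_pow hp 1 1 (gnn_not_dvd_neg_three hp h3) k]
  apply gnn_cnt_of_no_root
  intro r hr
  apply gnn_no_root_three hp h r
  push_cast at hr
  linear_combination hr

theorem gnn_nuThree_three_pow (k : ℕ) : nuThree (3 ^ (k + 2)) = 0 := by
  rw [gnn_nuThree_eq]
  have h9 : (9 : ℕ) ∣ 3 ^ (k + 2) := ⟨3 ^ k, by ring⟩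
  exact gnn_cnt_eq_zero_of_dvd 1 1 h9 (by rw [← gnn_nuThree_eq]; exact gnn_nuThree_nine)

end Fermat.Agent.X0.GNNu
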