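/-
C-N1 (helper20): numerics of the genus formula, part 4: prime-power property table
for `dedekindPsi`, `cuspCount`, `nuTwo`, `nuThree`.
-/
import Mathlib
import Fermat.Prelude.Def_ModularCurve_GenusNumerics
import Fermat.Agent.X0.GNPsi
import Fermat.Agent.X0.GNCusp
import Fermat.Agent.X0.GNNu

set_option autoImplicit false

namespace Fermat.Agent.X0.GNTable

open ModularCurve Fermat.Agent.X0.GNPsi Fermat.Agent.X0.GNCusp Fermat.Agent.X0.GNNu

/-! ### Values at `1` -/

theorem gnt_nuTwo_one : nuTwo 1 = 1 := by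
  unfold nuTwo
  rw [Nat.card_eq_fintype_card, Fintype.card_subtype]
  decide

theorem gnt_nuThree_one : nuThree 1 = 1 := by
  unfold nuThree
  rw [Nat.card_eq_fintype_card, Fintype.card_subtype]
  decide

/-! ### `nuTwo` on prime powers -/

theorem gnt_prime_mod_four {p : ℕ} (hp : p.Prime) : p = 2 ∨ p % 4 = 1 ∨ p % 4 = 3 := by
  rcases hp.eq_two_or_odd with h | h
  · exact Or.inl h
  · right; omega

theorem gnt_prime_mod_three {p : ℕ} (hp : p.Prime) : p = 3 ∨ p % 3 = 1 ∨ p % 3 = 2 := by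
  by_cases h3 : p = 3
  · exact Or.inl h3
  · right
    have : ¬ 3 ∣ p := fun h => h3 ((Nat.prime_dvd_prime_iff_eq Nat.prime_three hp).mp h).symm
    omega

theorem gnt_nuTwo_prime_pow_le {p : ℕ} (hp : p.Prime) (k : ℕ) : nuTwo (p ^ (k + 1)) ≤ 2 := by
  rcases gnt_prime_mod_four hp with rfl | h | h
  · cases k with
    | zero => rw [zero_add, pow_one, gnn_nuTwo_two]; omega
    | succ k => rw [gnn_nuTwo_two_pow]; omega
  · rw [gnn_nuTwo_prime_pow_of_one hp h]
  · rw [gnn_nuTwo_prime_pow_of_three hp h]; omega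

theorem gnt_nuTwo_prime_pow_succ_le {p : ℕ} (hp : p.Prime) (k : ℕ) :
    nuTwo (p ^ (k + 2)) ≤ nuTwo (p ^ (k + 1)) := by
  rcases gnt_prime_mod_four hp with rfl | h | h
  · rw [gnn_nuTwo_two_pow]; omega
  · rw [gnn_nuTwo_prime_pow_of_one hp h, gnn_nuTwo_prime_pow_of_one hp h]
  · rw [gnn_nuTwo_prime_pow_of_three hp h]; omega

theorem gnt_nuThree_prime_pow_le {p : ℕ} (hp : p.Prime) (k : ℕ) : nuThree (p ^ (k + 1)) ≤ 2 := by
  rcases gnt_prime_mod_three hp with rfl | h | h
  · cases k with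
    | zero => rw [zero_add, pow_one, gnn_nuThree_three]; omega
    | succ k => rw [gnn_nuThree_three_pow]; omega
  · rw [gnn_nuThree_prime_pow_of_one hp h]
  · rw [gnn_nuThree_prime_pow_of_two hp h]; omega

theorem gnt_nuThree_prime_pow_succ_le {p : ℕ} (hp : p.Prime) (k : ℕ) :
    nuThree (p ^ (k + 2)) ≤ nuThree (p ^ (k + 1)) := by
  rcases gnt_prime_mod_three hp with rfl | h | h
  · rw [gnn_nuThree_three_pow]; omega
  · rw [gnn_nuThree_prime_pow_of_one hp h, gnn_nuThree_prime_pow_of_one hp h]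
  · rw [gnn_nuThree_prime_pow_of_two hp h]; omega

/-! ### Congruences on prime powers -/

theorem gnt_psi_modEq_nuThree_prime_pow {p : ℕ} (hp : p.Prime) (k : ℕ) :
    dedekindPsi (p ^ (k + 1)) ≡ nuThree (p ^ (k + 1)) [MOD 3] := by
  rw [gnp_dedekindPsi_prime_pow hp]
  rcases gnt_prime_mod_three hp with rfl | h | h
  · cases k with
    | zero => rw [zero_add, pow_one, gnn_nuThree_three]; decide
    | succ k =>
      rw [gnn_nuThree_three_pow]
      have : 3 ^ (k + 1 + 1) + 3 ^ (k + 1) = 3 * (4 * 3 ^ k) := by ring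
      rw [this]
      exact (Nat.modEq_zero_iff_dvd).mpr (Dvd.intro _ rfl)
  · rw [gnn_nuThree_prime_pow_of_one hp h]
    have h1 : p ≡ 1 [MOD 3] := h
    have := (h1.pow (k + 1)).add (h1.pow k)
    simpa using this
  · rw [gnn_nuThree_prime_pow_of_two hp h]
    have : p ^ (k + 1) + p ^ k = p ^ k * (p + 1) := by ring
    rw [this]
    refine (Nat.modEq_zero_iff_dvd).mpr (Dvd.dvd.mul_left ?_ _)
    omega

theorem gnt_psi_modEq_nuTwo_prime_pow {p : ℕ} (hp : p.Prime) (h2 : p ≠ 2) (k : ℕ) :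
    dedekindPsi (p ^ (k + 1)) ≡ nuTwo (p ^ (k + 1)) [MOD 4] := by
  rw [gnp_dedekindPsi_prime_pow hp]
  rcases gnt_prime_mod_four hp with rfl | h | h
  · exact absurd rfl h2
  · rw [gnn_nuTwo_prime_pow_of_one hp h]
    have h1 : p ≡ 1 [MOD 4] := h
    have := (h1.pow (k + 1)).add (h1.pow k)
    simpa using this
  · rw [gnn_nuTwo_prime_pow_of_three hp h]
    have : p ^ (k + 1) + p ^ k = p ^ k * (p + 1) := by ring
    rw [this]
    refine (Nat.modEq_zero_iff_dvd).mpr (Dvd.dvd.mul_left ?_ _)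
    omega
set_option autoImplicit false
open ModularCurve Fermat.Agent.X0.GNPsi Fermat.Agent.X0.GNCusp Fermat.Agent.X0.GNNu Fermat.Agent.X0.GNTable

/-! ### `dedekindPsi` and `cuspCount` on prime powers -/

/-- The two shapes of `cuspCount` on a prime power. -/
theorem gnt_cusp_cases {p : ℕ} (hp : p.Prime) (k : ℕ) :
    (∃ i, k = 2 * i ∧ cuspCount (p ^ (k + 1)) = 2 * p ^ i) ∨
    (∃ i, k = 2 * i + 1 ∧ cuspCount (p ^ (k + 1)) = p ^ (i + 1) + p ^ i) := by
  rcases Nat.even_or_odd' k with ⟨i, hi | hi⟩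
  · left
    refine ⟨i, hi, ?_⟩
    rw [hi]
    exact gnc_cuspCount_prime_pow_odd hp i
  · right
    refine ⟨i, hi, ?_⟩
    rw [hi]
    exact gnc_cuspCount_prime_pow_even hp i

theorem gnt_psi_prime_pow_succ {p : ℕ} (hp : p.Prime) (k : ℕ) :
    dedekindPsi (p ^ (k + 2)) = p * dedekindPsi (p ^ (k + 1)) := by
  rw [gnp_dedekindPsi_prime_pow hp, gnp_dedekindPsi_prime_pow hp]
  ring

theorem gnt_psi_even {p : ℕ} (hp : p.Prime) (h2 : p ≠ 2) (k : ℕ) :
    Even (dedekindPsi (p ^ (k + 1))) := by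
  rw [gnp_dedekindPsi_prime_pow hp]
  have hodd : Odd p := hp.odd_of_ne_two h2
  exact (hodd.pow).add_odd hodd.pow

theorem gnt_cusp_even {p : ℕ} (hp : p.Prime) (h2 : p ≠ 2) (k : ℕ) :
    Even (cuspCount (p ^ (k + 1))) := by
  have hodd : Odd p := hp.odd_of_ne_two h2
  rcases gnt_cusp_cases hp k with ⟨i, -, h⟩ | ⟨i, -, h⟩
  · rw [h]; exact even_two_mul _
  · rw [h]; exact (hodd.pow).add_odd hodd.pow

theorem gnt_cusp_succ_le {p : ℕ} (hp : p.Prime) (k : ℕ) :
    2 * cuspCount (p ^ (k + 2)) ≤ (p + 1) * cuspCount (p ^ (k + 1)) := by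
  rcases gnt_cusp_cases hp k with ⟨i, hk, h⟩ | ⟨i, hk, h⟩
  · rw [h]
    have : k + 2 = 2 * i + 2 := by omega
    rw [this, gnc_cuspCount_prime_pow_even hp i]
    apply le_of_eq
    ring
  · rw [h]
    have : k + 2 = 2 * (i + 1) + 1 := by omega
    rw [this, gnc_cuspCount_prime_pow_odd hp (i + 1)]
    obtain ⟨q, rfl⟩ : ∃ q, p = q + 1 := ⟨p - 1, by have := hp.pos; omega⟩
    have h4 : 4 * (q + 1) ≤ (q + 1 + 1) * (q + 1 + 1) := by nlinarith
    calc 2 * (2 * (q + 1) ^ (i + 1)) = (4 * (q + 1)) * (q + 1) ^ i := by ring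
      _ ≤ ((q + 1 + 1) * (q + 1 + 1)) * (q + 1) ^ i := Nat.mul_le_mul_right _ h4
      _ = (q + 1 + 1) * ((q + 1) ^ (i + 1) + (q + 1) ^ i) := by ring

theorem gnt_cusp_le_psi_prime_pow {p : ℕ} (hp : p.Prime) (k : ℕ) :
    cuspCount (p ^ (k + 1)) ≤ dedekindPsi (p ^ (k + 1)) := by
  rw [gnp_dedekindPsi_prime_pow hp]
  have hpos := hp.pos
  rcases gnt_cusp_cases hp k with ⟨i, hk, h⟩ | ⟨i, hk, h⟩
  · rw [h, two_mul]
    exact Nat.add_le_add (Nat.pow_le_pow_right hpos (by omega))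
      (Nat.pow_le_pow_right hpos (by omega))
  · rw [h]
    exact Nat.add_le_add (Nat.pow_le_pow_right hpos (by omega))
      (Nat.pow_le_pow_right hpos (by omega))

/-- The ratio bound `3 c ≤ ψ` on prime powers, with the exceptions `2, 3, 4`. -/
theorem gnt_ratio_prime_pow {p : ℕ} (hp : p.Prime) (k : ℕ) :
    (p ^ (k + 1) = 2 ∨ p ^ (k + 1) = 3 ∨ p ^ (k + 1) = 4) ∨
      3 * cuspCount (p ^ (k + 1)) ≤ dedekindPsi (p ^ (k + 1)) := by
  rw [gnp_dedekindPsi_prime_pow hp]
  have h2 := hp.two_le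
  rcases gnt_cusp_cases hp k with ⟨i, hk, h⟩ | ⟨i, hk, h⟩
  · rw [h]
    cases i with
    | zero =>
      have hk0 : k = 0 := by omega
      subst hk0
      by_cases h5 : 5 ≤ p
      · right; simp only [zero_add, pow_one, pow_zero]; omega
      · left
        have h4 : p ≠ 4 := by rintro rfl; norm_num at hp
        simp only [zero_add, pow_one]
        omega
    | succ j =>
      right
      have hk' : k = 2 * j + 2 := by omega
      subst hk'
      have hpj : 2 ≤ p ^ (j + 1) := le_trans h2 (Nat.le_self_pow (Nat.succ_ne_zero j) p)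
      have e1 : p ^ (2 * j + 2 + 1) + p ^ (2 * j + 2) = p ^ (j + 1) * (p ^ (j + 1) * (p + 1)) := by
        ring
      rw [e1]
      have : 6 ≤ p ^ (j + 1) * (p + 1) := by nlinarith
      calc 3 * (2 * p ^ (j + 1)) = p ^ (j + 1) * 6 := by ring
        _ ≤ _ := Nat.mul_le_mul_left _ this
  · rw [h]
    by_cases hcase : p = 2 ∧ i = 0
    · left; right; right
      obtain ⟨rfl, rfl⟩ := hcase
      have : k = 1 := by omega
      subst this
      norm_num
    · right
      have h3 : 3 ≤ p ^ (i + 1) := by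
        by_cases hp2 : p = 2
        · have hi : 1 ≤ i := by
            rcases Nat.eq_zero_or_pos i with h0 | h0
            · exact absurd ⟨hp2, h0⟩ hcase
            · exact h0
          subst hp2
          calc 3 ≤ 2 ^ 2 := by norm_num
            _ ≤ 2 ^ (i + 1) := Nat.pow_le_pow_right (by norm_num) (by omega)
        · have : 3 ≤ p := by omega
          exact le_trans this (Nat.le_self_pow (Nat.succ_ne_zero i) p)
      have hk' : k = 2 * i + 1 := hk
      subst hk'
      have e1 : p ^ (2 * i + 1 + 1) + p ^ (2 * i + 1) = (p ^ i * (p + 1)) * p ^ (i + 1) := by ring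
      have e2 : 3 * (p ^ (i + 1) + p ^ i) = (p ^ i * (p + 1)) * 3 := by ring
      rw [e1, e2]
      exact Nat.mul_le_mul_left _ h3
set_option autoImplicit false
open ModularCurve Fermat.Agent.X0.GNPsi Fermat.Agent.X0.GNCusp Fermat.Agent.X0.GNNu Fermat.Agent.X0.GNTable

/-! ### Small values -/

theorem gnt_psi_two : dedekindPsi 2 = 3 := by
  have := gnp_dedekindPsi_prime_pow Nat.prime_two 0
  simpa using this

theorem gnt_psi_three : dedekindPsi 3 = 4 := by
  have := gnp_dedekindPsi_prime_pow Nat.prime_three 0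
  simpa using this

theorem gnt_psi_four : dedekindPsi 4 = 6 := by
  have := gnp_dedekindPsi_prime_pow Nat.prime_two 1
  norm_num at this
  exact this

theorem gnt_psi_eight : dedekindPsi 8 = 12 := by
  have := gnp_dedekindPsi_prime_pow Nat.prime_two 2
  norm_num at this
  exact this

theorem gnt_psi_nine : dedekindPsi 9 = 12 := by
  have := gnp_dedekindPsi_prime_pow Nat.prime_three 1
  norm_num at this
  exact this

theorem gnt_cusp_two : cuspCount 2 = 2 := by decide
theorem gnt_cusp_three : cuspCount 3 = 2 := by decide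
theorem gnt_cusp_four : cuspCount 4 = 3 := by decide
theorem gnt_cusp_eight : cuspCount 8 = 4 := by decide
theorem gnt_cusp_nine : cuspCount 9 = 4 := by decide

theorem gnt_nuTwo_eight : nuTwo 8 = 0 := gnn_nuTwo_two_pow 1

theorem gnt_nuTwo_nine : nuTwo 9 = 0 :=
  gnn_nuTwo_prime_pow_of_three Nat.prime_three (by norm_num) 1

theorem gnt_nuThree_four : nuThree 4 = 0 :=
  gnn_nuThree_prime_pow_of_two Nat.prime_two (by norm_num) 1

theorem gnt_nuThree_eight : nuThree 8 = 0 :=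
  gnn_nuThree_prime_pow_of_two Nat.prime_two (by norm_num) 2

/-! ### Powers of two -/

theorem gnt_four_dvd_psi_two_pow (k : ℕ) : 4 ∣ dedekindPsi (2 ^ (k + 3)) := by
  rw [gnp_dedekindPsi_prime_pow Nat.prime_two]
  exact ⟨2 ^ (k + 1) + 2 ^ k, by ring⟩

theorem gnt_even_cusp_two_pow (k : ℕ) : Even (cuspCount (2 ^ (k + 3))) := by
  rcases gnt_cusp_cases Nat.prime_two (k + 2) with ⟨i, -, h⟩ | ⟨i, hk, h⟩
  · rw [h]; exact even_two_mul _
  · rw [h]
    have hi : i ≠ 0 := by omega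
    exact ((Nat.even_pow.mpr ⟨even_two, Nat.succ_ne_zero i⟩)).add
      (Nat.even_pow.mpr ⟨even_two, hi⟩)

end Fermat.Agent.X0.GNTable
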