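/-
C-N1 (helper20): numerics of the genus formula, part 5: integrality, nonnegativity
and packaging of `ModularCurve.genusFormula`.
-/
import Mathlib
import Fermat.Prelude.Def_ModularCurve_GenusNumerics
import Fermat.Agent.X0.GNTable

set_option autoImplicit false

namespace Fermat.Agent.X0.GNMain

open ModularCurve Fermat.Agent.X0.GNPsi Fermat.Agent.X0.GNCusp Fermat.Agent.X0.GNNu
  Fermat.Agent.X0.GNTable

/-! ### Global congruences -/

theorem gnm_psi_modEq_nuThree (n : ℕ) (hn : n ≠ 0) :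
    dedekindPsi n ≡ nuThree n [MOD 3] := by
  induction n using Nat.recOnPosPrimePosCoprime with
  | prime_pow p k hp hk =>
    obtain ⟨j, rfl⟩ : ∃ j, k = j + 1 := ⟨k - 1, by omega⟩
    exact gnt_psi_modEq_nuThree_prime_pow hp j
  | zero => exact absurd rfl hn
  | one => rw [dedekindPsi_one, gnt_nuThree_one]
  | coprime a b ha hb hab iha ihb =>
    rw [gnp_dedekindPsi_mul hab, gnn_nuThree_mul hab]
    exact (iha (by omega)).mul (ihb (by omega))

theorem gnm_psi_modEq_nuTwo_of_odd (n : ℕ) (hodd : Odd n) :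
    dedekindPsi n ≡ nuTwo n [MOD 4] := by
  induction n using Nat.recOnPosPrimePosCoprime with
  | prime_pow p k hp hk =>
    obtain ⟨j, rfl⟩ : ∃ j, k = j + 1 := ⟨k - 1, by omega⟩
    have h2 : p ≠ 2 := by
      rintro rfl
      exact (Nat.not_even_iff_odd.mpr hodd) ((Nat.even_pow.mpr ⟨even_two, Nat.succ_ne_zero j⟩))
    exact gnt_psi_modEq_nuTwo_prime_pow hp h2 j
  | zero => exact absurd hodd (by decide)
  | one => rw [dedekindPsi_one, gnt_nuTwo_one]
  | coprime a b ha hb hab iha ihb =>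
    rw [gnp_dedekindPsi_mul hab, gnn_nuTwo_mul hab]
    have hoa : Odd a := (Nat.odd_mul.mp hodd).1
    have hob : Odd b := (Nat.odd_mul.mp hodd).2
    exact (iha hoa).mul (ihb hob)

theorem gnm_psi_modEq_cusp_of_odd (n : ℕ) (hodd : Odd n) :
    dedekindPsi n ≡ cuspCount n [MOD 2] := by
  induction n using Nat.recOnPosPrimePosCoprime with
  | prime_pow p k hp hk =>
    obtain ⟨j, rfl⟩ : ∃ j, k = j + 1 := ⟨k - 1, by omega⟩
    have h2 : p ≠ 2 := by
      rintro rfl
      exact (Nat.not_even_iff_odd.mpr hodd) ((Nat.even_pow.mpr ⟨even_two, Nat.succ_ne_zero j⟩))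
    have h1 := Nat.even_iff.mp (gnt_psi_even hp h2 j)
    have h3 := Nat.even_iff.mp (gnt_cusp_even hp h2 j)
    exact h1.trans h3.symm
  | zero => exact absurd hodd (by decide)
  | one => rw [dedekindPsi_one, cuspCount_one]
  | coprime a b ha hb hab iha ihb =>
    rw [gnp_dedekindPsi_mul hab, gnc_cuspCount_mul hab]
    have hoa : Odd a := (Nat.odd_mul.mp hodd).1
    have hob : Odd b := (Nat.odd_mul.mp hodd).2
    exact (iha hoa).mul (ihb hob)

theorem gnm_four_dvd (n : ℕ) (hn : n ≠ 0) :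
    4 ∣ dedekindPsi n + nuTwo n + 2 * cuspCount n := by
  obtain ⟨a, m, hm, rfl⟩ := Nat.exists_eq_two_pow_mul_odd hn
  have hcop : (2 ^ a).Coprime m := Nat.Coprime.pow_left a (Nat.coprime_two_left.mpr hm)
  rw [gnp_dedekindPsi_mul hcop, gnn_nuTwo_mul hcop, gnc_cuspCount_mul hcop]
  have hA : dedekindPsi m % 4 = nuTwo m % 4 := gnm_psi_modEq_nuTwo_of_odd m hm
  have hB : dedekindPsi m % 2 = cuspCount m % 2 := gnm_psi_modEq_cusp_of_odd m hm
  rcases a with _ | _ | _ | a
  · rw [pow_zero, dedekindPsi_one, gnt_nuTwo_one, cuspCount_one]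
    omega
  · rw [zero_add, pow_one, gnt_psi_two, gnn_nuTwo_two, gnt_cusp_two]
    omega
  · rw [show (2 : ℕ) ^ (0 + 1 + 1) = 4 by norm_num, gnt_psi_four, gnn_nuTwo_four, gnt_cusp_four]
    omega
  · rw [show a + 1 + 1 + 1 = a + 3 by ring]
    have h1 : nuTwo (2 ^ (a + 3)) = 0 := gnn_nuTwo_two_pow (a + 1)
    rw [h1, zero_mul, add_zero]
    obtain ⟨q, hq⟩ := gnt_four_dvd_psi_two_pow a
    obtain ⟨r, hr⟩ := gnt_even_cusp_two_pow a
    rw [hq, hr]
    exact ⟨q * dedekindPsi m + r * cuspCount m, by ring⟩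

/-- Integrality: `12 ∣ 12 + ψ - 3 ν₂ - 4 ν₃ - 6 c`. -/
theorem gnm_twelve_dvd (n : ℕ) (hn : n ≠ 0) :
    (12 : ℤ) ∣ 12 + (dedekindPsi n : ℤ) - 3 * nuTwo n - 4 * nuThree n - 6 * cuspCount n := by
  have h3 : dedekindPsi n % 3 = nuThree n % 3 := gnm_psi_modEq_nuThree n hn
  have h4 := gnm_four_dvd n hn
  omega

/-! ### Inequalities -/

theorem gnm_cusp_le_psi (n : ℕ) (hn : n ≠ 0) : cuspCount n ≤ dedekindPsi n := by
  induction n using Nat.recOnPosPrimePosCoprime with
  | prime_pow p k hp hk =>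
    obtain ⟨j, rfl⟩ : ∃ j, k = j + 1 := ⟨k - 1, by omega⟩
    exact gnt_cusp_le_psi_prime_pow hp j
  | zero => exact absurd rfl hn
  | one => rw [dedekindPsi_one, cuspCount_one]
  | coprime a b ha hb hab iha ihb =>
    rw [gnp_dedekindPsi_mul hab, gnc_cuspCount_mul hab]
    exact Nat.mul_le_mul (iha (by omega)) (ihb (by omega))

theorem gnm_ratio (n : ℕ) (hn : n ≠ 0) :
    (n = 1 ∨ n = 2 ∨ n = 3 ∨ n = 4) ∨ 3 * cuspCount n ≤ dedekindPsi n := by
  induction n using Nat.recOnPosPrimePosCoprime with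
  | prime_pow p k hp hk =>
    obtain ⟨j, rfl⟩ : ∃ j, k = j + 1 := ⟨k - 1, by omega⟩
    rcases gnt_ratio_prime_pow hp j with h | h
    · left; right; exact h
    · right; exact h
  | zero => exact absurd rfl hn
  | one => left; left; rfl
  | coprime a b ha hb hab iha ihb =>
    right
    rw [gnp_dedekindPsi_mul hab, gnc_cuspCount_mul hab]
    have hca := gnm_cusp_le_psi a (by omega)
    have hcb := gnm_cusp_le_psi b (by omega)
    rcases iha (by omega) with hA | hA
    · rcases ihb (by omega) with hB | hB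
      · -- both in {2,3,4}
        rcases hA with rfl | rfl | rfl | rfl <;> rcases hB with rfl | rfl | rfl | rfl <;>
          first
          | omega
          | (exfalso; revert hab; decide)
          | (simp only [gnt_psi_two, gnt_psi_three, gnt_psi_four, gnt_cusp_two, gnt_cusp_three,
              gnt_cusp_four]; norm_num)
      · calc 3 * (cuspCount a * cuspCount b) = cuspCount a * (3 * cuspCount b) := by ring
          _ ≤ dedekindPsi a * dedekindPsi b := Nat.mul_le_mul hca hB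
    · calc 3 * (cuspCount a * cuspCount b) = (3 * cuspCount a) * cuspCount b := by ring
        _ ≤ dedekindPsi a * dedekindPsi b := Nat.mul_le_mul hA hcb

/-- Step with a new prime. -/
theorem gnm_step_not_dvd {p a : ℕ} (hp : p.Prime) (hpa : ¬ p ∣ a) :
    dedekindPsi (p * a) = (p + 1) * dedekindPsi a ∧ cuspCount (p * a) = 2 * cuspCount a ∧
      nuTwo (p * a) ≤ 2 * nuTwo a ∧ nuThree (p * a) ≤ 2 * nuThree a := by
  have hcop : p.Coprime a := (Nat.Prime.coprime_iff_not_dvd hp).mpr hpa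
  have e1 : dedekindPsi p = p + 1 := by
    have := gnp_dedekindPsi_prime_pow hp 0
    simpa using this
  have e2 : cuspCount p = 2 := by
    have := gnc_cuspCount_prime_pow_odd hp 0
    simpa using this
  have e3 : nuTwo p ≤ 2 := by
    have := gnt_nuTwo_prime_pow_le hp 0
    simpa using this
  have e4 : nuThree p ≤ 2 := by
    have := gnt_nuThree_prime_pow_le hp 0
    simpa using this
  rw [gnp_dedekindPsi_mul hcop, gnc_cuspCount_mul hcop, gnn_nuTwo_mul hcop, gnn_nuThree_mul hcop,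
    e1, e2]
  exact ⟨rfl, rfl, Nat.mul_le_mul_right _ e3, Nat.mul_le_mul_right _ e4⟩

/-- Step with a prime already dividing. -/
theorem gnm_step_dvd {p a : ℕ} (hp : p.Prime) (ha : a ≠ 0) (hpa : p ∣ a) :
    dedekindPsi (p * a) = p * dedekindPsi a ∧
      2 * cuspCount (p * a) ≤ (p + 1) * cuspCount a ∧
      nuTwo (p * a) ≤ nuTwo a ∧ nuThree (p * a) ≤ nuThree a := by
  obtain ⟨e, m, hm, rfl⟩ := Nat.exists_eq_pow_mul_and_not_dvd ha p hp.ne_one
  obtain ⟨k, rfl⟩ : ∃ k, e = k + 1 := by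
    rcases Nat.eq_zero_or_pos e with h0 | h0
    · subst h0
      rw [pow_zero, one_mul] at hpa
      exact absurd hpa hm
    · exact ⟨e - 1, by omega⟩
  have hcm : p.Coprime m := (Nat.Prime.coprime_iff_not_dvd hp).mpr hm
  have hc1 : (p ^ (k + 1)).Coprime m := Nat.Coprime.pow_left _ hcm
  have hc2 : (p ^ (k + 2)).Coprime m := Nat.Coprime.pow_left _ hcm
  have e0 : p * (p ^ (k + 1) * m) = p ^ (k + 2) * m := by ring
  rw [e0, gnp_dedekindPsi_mul hc1, gnp_dedekindPsi_mul hc2, gnc_cuspCount_mul hc1,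
    gnc_cuspCount_mul hc2, gnn_nuTwo_mul hc1, gnn_nuTwo_mul hc2, gnn_nuThree_mul hc1,
    gnn_nuThree_mul hc2, gnt_psi_prime_pow_succ hp k]
  refine ⟨by ring, ?_, Nat.mul_le_mul_right _ (gnt_nuTwo_prime_pow_succ_le hp k),
    Nat.mul_le_mul_right _ (gnt_nuThree_prime_pow_succ_le hp k)⟩
  calc 2 * (cuspCount (p ^ (k + 2)) * cuspCount m)
      = (2 * cuspCount (p ^ (k + 2))) * cuspCount m := by ring
    _ ≤ ((p + 1) * cuspCount (p ^ (k + 1))) * cuspCount m :=
        Nat.mul_le_mul_right _ (gnt_cusp_succ_le hp k)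
    _ = (p + 1) * (cuspCount (p ^ (k + 1)) * cuspCount m) := by ring

/-- Nonnegativity: `6 c + 3 ν₂ + 4 ν₃ ≤ ψ + 12`. -/
theorem gnm_bound (n : ℕ) (hn : n ≠ 0) :
    6 * cuspCount n + 3 * nuTwo n + 4 * nuThree n ≤ dedekindPsi n + 12 := by
  induction n using induction_on_primes with
  | zero => exact absurd rfl hn
  | one => rw [dedekindPsi_one, cuspCount_one, gnt_nuTwo_one, gnt_nuThree_one]
  | prime_mul p a hp ih =>
    have ha : a ≠ 0 := fun h => hn (by rw [h, mul_zero])
    have IH := ih ha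
    have h12 := gnm_twelve_dvd (p * a) hn
    by_cases hpa : p ∣ a
    · obtain ⟨e1, e2, e3, e4⟩ := gnm_step_dvd hp ha hpa
      rcases gnm_ratio a ha with hsmall | hratio
      · -- a ∈ {1,2,3,4}, p ∣ a
        rcases hsmall with rfl | rfl | rfl | rfl
        · exact absurd (Nat.dvd_one.mp hpa) hp.ne_one
        · have : p = 2 := (Nat.prime_dvd_prime_iff_eq hp Nat.prime_two).mp hpa
          subst this
          rw [show 2 * 2 = 4 by norm_num, gnt_psi_four, gnt_cusp_four, gnn_nuTwo_four,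
            gnt_nuThree_four]
        · have : p = 3 := (Nat.prime_dvd_prime_iff_eq hp Nat.prime_three).mp hpa
          subst this
          rw [show 3 * 3 = 9 by norm_num, gnt_psi_nine, gnt_cusp_nine, gnt_nuTwo_nine,
            gnn_nuThree_nine]
        · have : p = 2 := by
            have : p ∣ 2 := hp.dvd_of_dvd_pow (show p ∣ 2 ^ 2 from hpa)
            exact (Nat.prime_dvd_prime_iff_eq hp Nat.prime_two).mp this
          subst this
          rw [show 2 * 4 = 8 by norm_num, gnt_psi_eight, gnt_cusp_eight, gnt_nuTwo_eight,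
            gnt_nuThree_eight]
      · obtain ⟨q, rfl⟩ : ∃ q, p = q + 1 := ⟨p - 1, by have := hp.pos; omega⟩
        have hq : 3 * (q * cuspCount a) ≤ q * dedekindPsi a := by
          calc 3 * (q * cuspCount a) = q * (3 * cuspCount a) := by ring
            _ ≤ q * dedekindPsi a := Nat.mul_le_mul_left _ hratio
        rw [e1]
        have e2' : 2 * cuspCount ((q + 1) * a) ≤ q * cuspCount a + 2 * cuspCount a := by
          calc 2 * cuspCount ((q + 1) * a) ≤ (q + 1 + 1) * cuspCount a := e2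
            _ = q * cuspCount a + 2 * cuspCount a := by ring
        have e5 : (q + 1) * dedekindPsi a = q * dedekindPsi a + dedekindPsi a := by ring
        rw [e5]
        omega
    · obtain ⟨e1, e2, e3, e4⟩ := gnm_step_not_dvd hp hpa
      have hpsi : 0 < dedekindPsi a := gnp_dedekindPsi_pos ha
      have h3 : 3 * dedekindPsi a ≤ dedekindPsi (p * a) := by
        rw [e1]
        exact Nat.mul_le_mul_right _ (by have := hp.two_le; omega)
      omega

/-! ### Final statements -/

/-- (1) The genus formula defines a natural number. -/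
theorem gn_exists_genus (N : ℕ) [NeZero N] :
    ∃ g : ℕ, (12 : ℤ) * g = 12 + (dedekindPsi N : ℤ) - 3 * nuTwo N - 4 * nuThree N
      - 6 * cuspCount N := by
  have hN : N ≠ 0 := NeZero.ne N
  obtain ⟨q, hq⟩ := gnm_twelve_dvd N hN
  have hb := gnm_bound N hN
  refine ⟨q.toNat, ?_⟩
  have hq0 : 0 ≤ q := by omega
  rw [Int.toNat_of_nonneg hq0]
  exact hq.symm

/-- (1') The genus formula is a natural number (in `ℚ`). -/
theorem gn_genusFormula_eq_natCast (N : ℕ) [NeZero N] :
    ∃ g : ℕ, genusFormula N = (g : ℚ) := by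
  obtain ⟨g, hg⟩ := gn_exists_genus N
  refine ⟨g, ?_⟩
  have hg' : (12 : ℚ) * g = 12 + (dedekindPsi N : ℚ) - 3 * nuTwo N - 4 * nuThree N
      - 6 * cuspCount N := by exact_mod_cast hg
  unfold genusFormula
  linarith

/-- (2) Packaging against `AlgebraicCurve.genus K F = (deg K_F + 2).toNat / 2`. -/
theorem gn_toNat_div_two (N : ℕ) [NeZero N] (d : ℤ)
    (hd : (d : ℚ) = 2 * genusFormula N - 2) :
    (((d + 2).toNat / 2 : ℕ) : ℚ) = genusFormula N := by
  obtain ⟨g, hg⟩ := gn_genusFormula_eq_natCast N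
  rw [hg] at hd ⊢
  have hd' : d = 2 * (g : ℤ) - 2 := by exact_mod_cast hd
  have : (d + 2).toNat = 2 * g := by omega
  rw [this, Nat.mul_div_cancel_left g (by norm_num)]

end Fermat.Agent.X0.GNMain
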