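/-
C-P1c, cusp half (helper17): every place of `F = FF N` over `j = ∞` is one of the cusp places
`cuspPlace hC g`.  Input: the abstract surjectivity lemma `ValUniq.exists_eq_comap_of_notMem`
(helper5) applied to the `ψ(N)` embeddings `C.T (rep x)⁻¹ : F →+* ℚbar((q_N))`, which are pairwise
distinct by `CuspDistinct.mem_Gamma0_of_T_eq`; the degree `[F : ℚbar(j)] = #(SL(2,ℤ)/Γ₀(N))` is an
explicit hypothesis (C-F2e `Degree.lean`).
-/
import Fermat.Agent.X0.CuspPlaces
import Fermat.Agent.X0.ValUniq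
import Fermat.Agent.X0.CuspDistinct

set_option autoImplicit false

open AlgebraicCurve IntermediateField
open scoped MatrixGroups
open CongruenceSubgroup

noncomputable section

namespace Fermat.Agent.X0.CuspSurj

open Fermat.Agent.X0

/-! ### The valuation subring of `ℚbar((q))` -/

theorem algebraMap_laurent (c : Kbar) :
    (RingHom.id (LaurentSeries Kbar)) (algebraMap Kbar (LaurentSeries Kbar) c) =
      HahnSeries.C c := by
  rw [RingHom.id_apply, ModularCurve.algebraMap_laurentSeries_eq_single]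
  rfl

/-- The order function of `ℚbar((q))`. -/
theorem isOrderFun_order :
    FF.IsOrderFun Kbar (fun f : LaurentSeries Kbar => f.order) :=
  LaurentPlace.isOrderFun_embOrd (RingHom.id (LaurentSeries Kbar)) algebraMap_laurent

/-- The valuation subring `{f | f = 0 ∨ 0 ≤ order f}` of `ℚbar((q))`. -/
def laurentV : ValuationSubring (LaurentSeries Kbar) := isOrderFun_order.valuationSubring

theorem mem_laurentV {f : LaurentSeries Kbar} : f ∈ laurentV ↔ f = 0 ∨ 0 ≤ f.order :=
  Iff.rfl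

theorem mem_laurentV_of_ne_zero {f : LaurentSeries Kbar} (hf : f ≠ 0) :
    f ∈ laurentV ↔ 0 ≤ f.order :=
  isOrderFun_order.mem_valuationSubring_of_ne_zero hf

theorem C_mem_laurentV (c : Kbar) : HahnSeries.C c ∈ laurentV := by
  by_cases hc : c = 0
  · left; simp [hc]
  · right
    show 0 ≤ (HahnSeries.C c : LaurentSeries Kbar).order
    rw [HahnSeries.order_C]

/-! ### Surjectivity -/

variable {N : ℕ} [NeZero N] {D : RealizeData N} {C : CuspData N D} (hC : C.Good)

/-- The embedding attached to a coset `x`, via a representative. -/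
def sigma (C : CuspData N D) (x : SL(2, ℤ) ⧸ Gamma0 N) : FF N →+* LaurentSeries Kbar :=
  C.T (Quotient.out x)⁻¹

theorem sigma_injective (C : CuspData N D) : Function.Injective (sigma C) := by
  intro x y hxy
  have h := CuspDistinct.mem_Gamma0_of_T_eq D C _ _ hxy
  rw [inv_inv] at h
  have h2 : (QuotientGroup.mk (Quotient.out y) : SL(2, ℤ) ⧸ Gamma0 N)
      = QuotientGroup.mk (Quotient.out x) := QuotientGroup.eq.mpr h
  have hx : (QuotientGroup.mk (Quotient.out x) : SL(2, ℤ) ⧸ Gamma0 N) = x := Quotient.out_eq' x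
  have hy : (QuotientGroup.mk (Quotient.out y) : SL(2, ℤ) ⧸ Gamma0 N) = y := Quotient.out_eq' y
  rw [hx, hy] at h2
  exact h2.symm

include hC in
/-- **Surjectivity at the cusps.** Every place `v` of `F` with `ord_v j < 0` is a cusp place. -/
theorem exists_cuspPlace_eq [FiniteDimensional Kbar⟮jF N⟯ (FF N)]
    (hcard : Nat.card (SL(2, ℤ) ⧸ Gamma0 N) = Module.finrank Kbar⟮jF N⟯ (FF N))
    (v : Place Kbar (FF N)) (hv : v.ord (jF N) < 0) : ∃ g : SL(2, ℤ), cuspPlace hC g = v := by
  have hN : (0 : ℤ) < N := by exact_mod_cast Nat.pos_of_ne_zero (NeZero.ne N)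
  have hO : jF N ∉ v.toValuationSubring := by
    rw [FF.ffp_mem_iff_ord_nonneg]
    omega
  have hV : ∀ x : SL(2, ℤ) ⧸ Gamma0 N, sigma C x (jF N) ∉ laurentV := by
    intro x
    have hne : sigma C x (jF N) ≠ 0 := LaurentPlace.emb_ne_zero _ hC.jF_ne_zero
    rw [mem_laurentV_of_ne_zero hne, sigma, hC.order_jF]
    omega
  obtain ⟨x, hx⟩ := ValUniq.exists_eq_comap_of_notMem (K := Kbar) (F := FF N)
    (E := LaurentSeries Kbar) (jF N) (sigma C) hcard (sigma_injective C)
    (fun i j a => by rw [sigma, sigma, hC.map_const, hC.map_const])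
    (fun i j => by rw [sigma, sigma, hC.map_jF, hC.map_jF])
    laurentV (fun i a => by rw [sigma, hC.map_const]; exact C_mem_laurentV a)
    v.toValuationSubring v.algebraMap_mem' hV hO
  refine ⟨Quotient.out x, ?_⟩
  apply Place.ext
  ext f
  by_cases hf : f = 0
  · subst hf
    simp only [zero_mem]
  · rw [mem_cuspPlace_iff hC _ hf, hx, ValuationSubring.mem_comap,
      mem_laurentV_of_ne_zero (LaurentPlace.emb_ne_zero _ hf)]
    rfl

include hC in
/-- Coset form: `cuspPlaceX hC` is onto the places over `∞`. -/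
theorem exists_cuspPlaceX_eq [FiniteDimensional Kbar⟮jF N⟯ (FF N)]
    (hcard : Nat.card (SL(2, ℤ) ⧸ Gamma0 N) = Module.finrank Kbar⟮jF N⟯ (FF N))
    (v : Place Kbar (FF N)) (hv : v.ord (jF N) < 0) :
    ∃ x : SL(2, ℤ) ⧸ Gamma0 N, cuspPlaceX hC x = v := by
  obtain ⟨g, hg⟩ := exists_cuspPlace_eq hC hcard v hv
  exact ⟨QuotientGroup.mk g, by rw [cuspPlaceX_mk, hg]⟩

/-- The map `x ↦ cuspPlaceX hC x` into the subtype of places over `∞`. -/
def cuspPlaceSub (x : SL(2, ℤ) ⧸ Gamma0 N) : {v : Place Kbar (FF N) // v.ord (jF N) < 0} :=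
  ⟨cuspPlaceX hC x, cuspPlaceX_ord_jF_neg hC x⟩

theorem cuspPlaceSub_surjective [FiniteDimensional Kbar⟮jF N⟯ (FF N)]
    (hcard : Nat.card (SL(2, ℤ) ⧸ Gamma0 N) = Module.finrank Kbar⟮jF N⟯ (FF N)) :
    Function.Surjective (cuspPlaceSub hC) := by
  rintro ⟨v, hv⟩
  obtain ⟨x, hx⟩ := exists_cuspPlaceX_eq hC hcard v hv
  exact ⟨x, Subtype.ext hx⟩

end Fermat.Agent.X0.CuspSurj
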