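import Fermat.Agent.X0.PointPlaces
import Fermat.Agent.X0.Iface
import Fermat.Agent.X0.FFOrderPlace
import Fermat.Agent.X0.JOrderFinal
import Fermat.Agent.X0.FracR

/-!
# C-P1a, final form: places from points for a `RealizeData N` (helper23, Program C)

`PointPlaces.lean` with its three hypotheses plugged in:
* `OrdFunPlace` := `FF.exists_place_of_order` (FF5, helper22),
* `JInj` := `exists_SL2_smul_eq_of_jFun_eq` (C-J2, helper5),
* `IsRealize D.Θ` from the fields of `D : RealizeData N` (Iface, helper12),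
* `IsFractionRing (Rsub N) (FF N)` from `FracR` (helper29).
-/

set_option autoImplicit false
set_option linter.unusedSectionVars false

open UpperHalfPlane hiding I
open Complex Filter Function
open scoped Manifold MatrixGroups Topology

namespace Fermat.Agent.X0.PointPlacesD

open Fermat.Agent.X0 Fermat.Agent.X0.JOrderMain Fermat.Agent.X0.PointPlaces AlgebraicCurve

noncomputable section

theorem ordFunPlace (K F : Type*) [Field K] [Field F] [Algebra K F] : OrdFunPlace K F := by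
  intro w hmul hadd hK hnt
  obtain ⟨v, m, hm, h, -⟩ := FF.exists_place_of_order (K := K) w hmul hadd
    (fun c hc => hK c (fun h0 => hc ((map_eq_zero (algebraMap K F)).mp h0))) hnt
  exact ⟨v, m, hm, h⟩

variable {N : ℕ} [NeZero N]

theorem isRealize (D : RealizeData N) : IsRealize D.Θ where
  inj := D.injective
  map_algebraMap := D.algebraMap_eq
  map_jF := by
    have h := D.jd_eq 1 (one_dvd N)
    rw [jdFun_one] at h
    exact h
  hol := D.mem_HolH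
  inv := D.invariant

variable (D : RealizeData N)

/-- The order function of `(g, z₀)` on `R`. -/
abbrev ptOrdD (g : SL(2, ℤ)) (z₀ : ℍ) (u : Rsub N) : ℕ∞ := ptOrd D.Θ g z₀ u

theorem ptOrdD_def (g : SL(2, ℤ)) (z₀ : ℍ) (u : Rsub N) :
    ptOrdD D g z₀ u = ordH (compSL (D.Θ u) g⁻¹) z₀ := rfl

variable (z₀ : ℍ) (c : Kbar) (hc : jFun z₀ = iotaK c)

/-- The place of `F` attached to `g ∈ SL(2, ℤ)` and a point `z₀` with `j(z₀) = ι(c)`. -/
def pointPlaceD (g : SL(2, ℤ)) : Place Kbar (FF N) :=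
  pointPlace (ordFunPlace _ _) (isRealize D) JOrderFinal.jInj z₀ c hc g

/-- Its multiplicity: `ord_{z₀} (Θ u ∘ g⁻¹) = m * ord_v u`. -/
def pointMultD (g : SL(2, ℤ)) : ℕ :=
  pointMult (ordFunPlace _ _) (isRealize D) JOrderFinal.jInj z₀ c hc g

theorem isPointPlace_pointPlaceD (g : SL(2, ℤ)) :
    IsPointPlace D.Θ g z₀ (pointPlaceD D z₀ c hc g) (pointMultD D z₀ c hc g) :=
  isPointPlace_pointPlace _ _ _ z₀ c hc g

theorem pointMultD_pos (g : SL(2, ℤ)) : 0 < pointMultD D z₀ c hc g :=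
  (isPointPlace_pointPlaceD D z₀ c hc g).1

/-- SPEC: `ord_{z₀} (Θ u ∘ g⁻¹) = m * ord_v u` for `u ∈ R`, `u ≠ 0`. -/
theorem pointPlaceD_spec (g : SL(2, ℤ)) (u : Rsub N) (hu : u ≠ 0) :
    ((ordH (compSL (D.Θ u) g⁻¹) z₀).toNat : ℤ) =
      pointMultD D z₀ c hc g * (pointPlaceD D z₀ c hc g).ord (u : FF N) :=
  (isPointPlace_pointPlaceD D z₀ c hc g).2 u hu

theorem ordH_ne_top_D (g : SL(2, ℤ)) (u : Rsub N) (hu : u ≠ 0) :
    ordH (compSL (D.Θ u) g⁻¹) z₀ ≠ ⊤ :=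
  ptOrd_ne_top (isRealize D) g z₀ hu

/-- To show `v = pointPlaceD g` it suffices to show the order relation on `R`. -/
theorem eq_pointPlaceD_of_spec (g : SL(2, ℤ)) (v : Place Kbar (FF N)) (m : ℕ) (hm : 0 < m)
    (h : ∀ u : Rsub N, u ≠ 0 →
      ((ordH (compSL (D.Θ u) g⁻¹) z₀).toNat : ℤ) = m * v.ord (u : FF N)) :
    v = pointPlaceD D z₀ c hc g :=
  (pointPlace_eq_of_isPointPlace _ _ _ z₀ c hc (g := g) (v := v) (m := m) ⟨hm, h⟩).symm

theorem pointMultD_mul_ord (g : SL(2, ℤ)) :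
    (pointMultD D z₀ c hc g : ℤ) *
      (pointPlaceD D z₀ c hc g).ord (jF N - algebraMap Kbar (FF N) c) = ellOrder z₀ :=
  (isPointPlace_pointPlaceD D z₀ c hc g).ord_jSub (isRealize D) JOrderFinal.jInj c hc

theorem pointPlaceD_ord_pos (g : SL(2, ℤ)) :
    0 < (pointPlaceD D z₀ c hc g).ord (jF N - algebraMap Kbar (FF N) c) :=
  ord_pointPlace_pos _ _ _ z₀ c hc g

theorem pointPlaceD_ord_le (g : SL(2, ℤ)) :
    (pointPlaceD D z₀ c hc g).ord (jF N - algebraMap Kbar (FF N) c) ≤ ellOrder z₀ :=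
  ord_pointPlace_le _ _ _ z₀ c hc g

theorem pointPlaceD_mul_Gamma0 (g γ : SL(2, ℤ)) (hγ : γ ∈ CongruenceSubgroup.Gamma0 N) :
    pointPlaceD D z₀ c hc (g * γ) = pointPlaceD D z₀ c hc g :=
  pointPlace_mul_Gamma0 _ _ _ z₀ c hc g γ hγ

theorem pointPlaceD_mul_of_fixed (σ g : SL(2, ℤ)) (hσ : σ • z₀ = z₀) :
    pointPlaceD D z₀ c hc (σ * g) = pointPlaceD D z₀ c hc g :=
  pointPlace_mul_of_fixed _ _ _ z₀ c hc σ g hσ

/-- The map `SL(2, ℤ) ⧸ Γ₀(N) → {places over c}`. -/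
def pointPlaceDX (x : SL(2, ℤ) ⧸ CongruenceSubgroup.Gamma0 N) : PlacesOver N c :=
  pointPlaceX (ordFunPlace _ _) (isRealize D) JOrderFinal.jInj z₀ c hc x

@[simp] theorem pointPlaceDX_mk (g : SL(2, ℤ)) :
    (pointPlaceDX D z₀ c hc (QuotientGroup.mk g)).1 = pointPlaceD D z₀ c hc g := rfl

/-- `hinv` of `Count.card_eq_card_orbits` for the stabiliser of `z₀`. -/
theorem pointPlaceDX_smul_of_fixed (σ : SL(2, ℤ)) (hσ : σ • z₀ = z₀)
    (x : SL(2, ℤ) ⧸ CongruenceSubgroup.Gamma0 N) :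
    pointPlaceDX D z₀ c hc (σ • x) = pointPlaceDX D z₀ c hc x :=
  pointPlaceX_smul_of_fixed _ _ _ z₀ c hc σ hσ x

theorem pointPlaceDX_ord_le (x : SL(2, ℤ) ⧸ CongruenceSubgroup.Gamma0 N) :
    (pointPlaceDX D z₀ c hc x).1.ord (jF N - algebraMap Kbar (FF N) c) ≤ ellOrder z₀ :=
  ord_pointPlaceX_le _ _ _ z₀ c hc x

theorem pointPlaceDX_ord_of_ellOrder_eq_one (h1 : ellOrder z₀ = 1)
    (x : SL(2, ℤ) ⧸ CongruenceSubgroup.Gamma0 N) :
    (pointPlaceDX D z₀ c hc x).1.ord (jF N - algebraMap Kbar (FF N) c) = 1 :=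
  ord_pointPlaceX_of_ellOrder_eq_one _ _ _ c z₀ hc h1 x

omit z₀ hc in
theorem pointPlaceDX_ord_of_fixed_S (hh : SL(2, ℤ)) (hc : jFun (hh • ptI) = iotaK c)
    (x : SL(2, ℤ) ⧸ CongruenceSubgroup.Gamma0 N)
    (hx : (hh * ModularGroup.S * hh⁻¹) • x = x) :
    (pointPlaceDX D (hh • ptI) c hc x).1.ord (jF N - algebraMap Kbar (FF N) c) = 1 :=
  ord_pointPlaceX_of_fixed_S _ _ _ c hh hc x hx

omit z₀ hc in
theorem pointPlaceDX_ord_of_fixed_ST (hh : SL(2, ℤ)) (hc : jFun (hh • ptRho) = iotaK c)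
    (x : SL(2, ℤ) ⧸ CongruenceSubgroup.Gamma0 N)
    (hx : (hh * (ModularGroup.S * ModularGroup.T) * hh⁻¹) • x = x) :
    (pointPlaceDX D (hh • ptRho) c hc x).1.ord (jF N - algebraMap Kbar (FF N) c) = 1 :=
  ord_pointPlaceX_of_fixed_ST _ _ _ c hh hc x hx

end

end Fermat.Agent.X0.PointPlacesD
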