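import Mathlib

/-!
# Ramanujan's identities for `E₄`, `E₆`, `Δ` (helper23, Program C, piece C-J3)

* `isZeroAtImInfty_D`: the normalized derivative `D F` of a holomorphic, `1`-periodic function
  bounded at `i∞` tends to `0` at `i∞`.
* `serreDerivativeMF`: the Serre derivative of a level-one modular form of weight `k` as a modular
  form of weight `k + 2`.
* `D_E₄`, `D_E₆`, `D_discriminant`: Ramanujan's identities.
-/

set_option autoImplicit false

open UpperHalfPlane hiding I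
open Real Complex Filter Function
open scoped Manifold MatrixGroups ModularForm Topology

namespace Fermat.Agent.X0.Ramanujan

open Derivative EisensteinSeries ModularForm

noncomputable section

local notation "𝕢" => Periodic.qParam

/-- `D F = q * c'(q)` where `c` is the cusp function of `F`. -/
theorem D_eq_qParam_mul_deriv_cuspFunction {F : ℍ → ℂ} (hper : Periodic (F ∘ ofComplex) 1)
    (hhol : MDiff F) (hbdd : IsBoundedAtImInfty F) (τ : ℍ) :
    D F τ = 𝕢 1 τ * deriv (cuspFunction 1 F) (𝕢 1 τ) := by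
  have hq : ‖𝕢 1 (τ : ℂ)‖ < 1 := Periodic.norm_qParam_lt_one one_pos τ.im_pos
  have hc : DifferentiableAt ℂ (cuspFunction 1 F) (𝕢 1 τ) :=
    differentiableAt_cuspFunction one_pos hper hhol hbdd hq
  have hqd : HasDerivAt (𝕢 1) (2 * π * I * 𝕢 1 (τ : ℂ)) (τ : ℂ) := by
    have h1 : HasDerivAt (fun z : ℂ => 2 * π * I * z / ((1 : ℝ) : ℂ)) (2 * π * I) (τ : ℂ) := by
      simpa using ((hasDerivAt_id (τ : ℂ)).const_mul (2 * π * I)).div_const ((1 : ℝ) : ℂ)
    have h2 := h1.cexp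
    have h3 : (fun z : ℂ => cexp (2 * π * I * z / ((1 : ℝ) : ℂ))) = 𝕢 1 := by
      funext z; simp [Periodic.qParam]
    rw [h3] at h2
    have h4 : cexp (2 * π * I * (τ : ℂ) / ((1 : ℝ) : ℂ)) * (2 * π * I) =
        2 * π * I * 𝕢 1 (τ : ℂ) := by
      rw [mul_comm]; rfl
    rw [h4] at h2
    exact h2
  have hcomp : HasDerivAt (cuspFunction 1 F ∘ 𝕢 1)
      (deriv (cuspFunction 1 F) (𝕢 1 τ) * (2 * π * I * 𝕢 1 (τ : ℂ))) (τ : ℂ) :=
    hc.hasDerivAt.comp (τ : ℂ) hqd
  have heq : (F ∘ ofComplex) =ᶠ[𝓝 (τ : ℂ)] (cuspFunction 1 F ∘ 𝕢 1) := by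
    filter_upwards [isOpen_upperHalfPlaneSet.mem_nhds τ.im_pos] with w hw
    have := eq_cuspFunction (h := 1) (f := F) ⟨w, hw⟩ one_ne_zero hper
    simp only [Function.comp_apply]
    rw [ofComplex_apply_of_im_pos hw, ← this]
  have hderiv : deriv (F ∘ ofComplex) (τ : ℂ) =
      deriv (cuspFunction 1 F) (𝕢 1 τ) * (2 * π * I * 𝕢 1 (τ : ℂ)) :=
    (hcomp.congr_of_eventuallyEq heq).deriv
  have h2pi : (2 * π * I : ℂ) ≠ 0 := by
    simp [Real.pi_ne_zero, I_ne_zero]
  rw [normalizedDerivOfComplex, hderiv]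
  field_simp

/-- The normalized derivative of a holomorphic periodic function bounded at `i∞` vanishes at
`i∞`. -/
theorem isZeroAtImInfty_D {F : ℍ → ℂ} (hper : Periodic (F ∘ ofComplex) 1)
    (hhol : MDiff F) (hbdd : IsBoundedAtImInfty F) : IsZeroAtImInfty (D F) := by
  have han : AnalyticAt ℂ (cuspFunction 1 F) 0 :=
    analyticAt_cuspFunction_zero one_pos hper hhol hbdd
  have hcont : ContinuousAt (deriv (cuspFunction 1 F)) 0 := han.deriv.continuousAt
  have hq : Tendsto (fun τ : ℍ => 𝕢 1 τ) atImInfty (𝓝 0) := qParam_tendsto_atImInfty one_pos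
  have h1 : Tendsto (fun τ : ℍ => 𝕢 1 τ * deriv (cuspFunction 1 F) (𝕢 1 τ)) atImInfty
      (𝓝 (0 * deriv (cuspFunction 1 F) 0)) :=
    hq.mul (hcont.tendsto.comp hq)
  rw [zero_mul] at h1
  have h2 : D F = fun τ : ℍ => 𝕢 1 τ * deriv (cuspFunction 1 F) (𝕢 1 τ) :=
    funext fun τ => D_eq_qParam_mul_deriv_cuspFunction hper hhol hbdd τ
  rw [IsZeroAtImInfty, ZeroAtFilter, h2]
  exact h1

open SlashInvariantForm SlashInvariantFormClass ModularFormClass OnePoint in
theorem periodic_of_modularForm {k : ℤ} (f : ModularForm 𝒮ℒ k) :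
    Periodic ((f : ℍ → ℂ) ∘ ofComplex) 1 := by
  have := SlashInvariantFormClass.periodic_comp_ofComplex (h := 1) f one_mem_strictPeriods_SL
  simpa using this

theorem isBoundedAtImInfty_serreDerivative {k : ℤ} (f : ModularForm 𝒮ℒ k) :
    IsBoundedAtImInfty (serreDerivative k f) := by
  have hper := periodic_of_modularForm f
  have hbdd : IsBoundedAtImInfty (f : ℍ → ℂ) := ModularFormClass.bdd_at_infty f
  have h1 : IsBoundedAtImInfty (D (f : ℍ → ℂ)) :=
    (isZeroAtImInfty_D hper f.holo' hbdd).boundedAtFilter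
  have h2 : IsBoundedAtImInfty (fun z : ℍ => (k : ℂ) * 12⁻¹ * E2 z * f z) := by
    have h3 : IsBoundedAtImInfty (fun _ : ℍ => (k : ℂ) * 12⁻¹) := const_boundedAtFilter _ _
    exact (h3.mul isBoundedAtImInfty_E2).mul hbdd
  exact h1.sub h2

theorem serreDerivative_slash_eq {k : ℤ} (f : ModularForm 𝒮ℒ k) (γ : SL(2, ℤ)) :
    serreDerivative k f ∣[k + 2] γ = serreDerivative k f := by
  have hγ : (γ : GL (Fin 2) ℝ) ∈ 𝒮ℒ := ⟨γ, rfl⟩
  refine serreDerivative_slash_invariant f.holo' ?_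
  rw [SL_slash]
  exact SlashInvariantFormClass.slash_action_eq f _ hγ

/-- The Serre derivative of a level-one modular form of weight `k`, as a modular form of weight
`k + 2`. -/
def serreDerivativeMF {k : ℤ} (f : ModularForm 𝒮ℒ k) : ModularForm 𝒮ℒ (k + 2) where
  toFun := serreDerivative k f
  slash_action_eq' := fun _ ⟨γ, hγ⟩ ↦ hγ ▸ serreDerivative_slash_eq f γ
  holo' := serreDerivative_mdifferentiable k f.holo'
  bdd_at_cusps' {c} hc := by
    rw [Subgroup.IsArithmetic.isCusp_iff_isCusp_SL2Z] at hc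
    rw [OnePoint.isBoundedAt_iff_forall_SL2Z hc]
    intro γ _
    rw [serreDerivative_slash_eq f γ]
    exact isBoundedAtImInfty_serreDerivative f

@[simp]
theorem serreDerivativeMF_apply {k : ℤ} (f : ModularForm 𝒮ℒ k) (z : ℍ) :
    serreDerivativeMF f z = D f z - k * 12⁻¹ * E2 z * f z := rfl

/-- A holomorphic periodic function bounded at `i∞` tends to the constant term of its
`q`-expansion. -/
theorem tendsto_atImInfty_coeff_zero {F : ℍ → ℂ} (hper : Periodic (F ∘ ofComplex) 1)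
    (hhol : MDiff F) (hbdd : IsBoundedAtImInfty F) :
    Tendsto F atImInfty (𝓝 ((qExpansion 1 F).coeff 0)) := by
  have han := analyticAt_cuspFunction_zero one_pos hper hhol hbdd
  have h0 : (qExpansion 1 F).coeff 0 = cuspFunction 1 F 0 := by simp [qExpansion_coeff]
  rw [h0]
  have hF : (cuspFunction 1 F ∘ fun τ : ℍ ↦ 𝕢 1 τ : ℍ → ℂ) = F :=
    funext fun τ => eq_cuspFunction τ one_ne_zero hper
  have h := han.continuousAt.tendsto.comp (qParam_tendsto_atImInfty one_pos)
  rwa [hF] at h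

theorem periodic_E2 : Periodic (E2 ∘ ofComplex) 1 := by
  intro w
  by_cases hw : 0 < im w
  · have hw' : 0 < im (w + 1) := by simpa using hw
    simp only [comp_apply, ofComplex_apply_of_im_pos hw', ofComplex_apply_of_im_pos hw]
    rw [E2_eq_tsum_cexp, E2_eq_tsum_cexp]
    have : cexp (2 * π * I * ((⟨w + 1, hw'⟩ : ℍ) : ℂ)) =
        cexp (2 * π * I * ((⟨w, hw⟩ : ℍ) : ℂ)) := by
      show cexp (2 * π * I * (w + 1)) = cexp (2 * π * I * w)
      rw [mul_add, Complex.exp_add]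
      simp [Complex.exp_two_pi_mul_I]
    simp only [this]
  · have hw' : im (w + 1) ≤ 0 := by simpa using not_lt.mp hw
    simp only [comp_apply, ofComplex_apply_of_im_nonpos hw',
      ofComplex_apply_of_im_nonpos (not_lt.mp hw)]

theorem hasSum_qExpansion_E2' (τ : ℍ) : HasSum (fun m : ℕ ↦
    (if m = 0 then 1 else -24 * ArithmeticFunction.sigma 1 m : ℂ) • 𝕢 1 τ ^ m) (E2 τ) := by
  have := hasSum_qExpansion_E2 (z := τ)
  simpa only [Function.Periodic.qParam, ofReal_one, div_one] using this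

theorem qExpansion_E2_coeff_zero : (qExpansion 1 E2).coeff 0 = 1 := by
  have han := analyticAt_cuspFunction_zero one_pos periodic_E2 E2_mdifferentiable
    isBoundedAtImInfty_E2
  have H := hasFPowerSeriesOnBall_cuspFunction (h := 1) (f := E2) one_pos han hasSum_qExpansion_E2'
  have h0 := H.coeff_zero (fun _ => 0)
  have h1 : (qExpansion 1 E2).coeff 0 = cuspFunction 1 E2 0 := by simp [qExpansion_coeff]
  rw [h1, ← h0]
  simp

theorem tendsto_E2_atImInfty : Tendsto E2 atImInfty (𝓝 1) := by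
  have h := tendsto_atImInfty_coeff_zero periodic_E2 E2_mdifferentiable isBoundedAtImInfty_E2
  rwa [qExpansion_E2_coeff_zero] at h

/-- The constant term of the `q`-expansion of the Serre derivative. -/
theorem tendsto_serreDerivative {k : ℤ} (f : ModularForm 𝒮ℒ k) :
    Tendsto (serreDerivative k f) atImInfty
      (𝓝 (-(k : ℂ) * 12⁻¹ * (qExpansion 1 f).coeff 0)) := by
  have hper := periodic_of_modularForm f
  have hbdd : IsBoundedAtImInfty (f : ℍ → ℂ) := ModularFormClass.bdd_at_infty f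
  have h1 : Tendsto (D (f : ℍ → ℂ)) atImInfty (𝓝 0) := isZeroAtImInfty_D hper f.holo' hbdd
  have h2 : Tendsto (f : ℍ → ℂ) atImInfty (𝓝 ((qExpansion 1 f).coeff 0)) :=
    tendsto_atImInfty_coeff_zero hper f.holo' hbdd
  have h3 : Tendsto (fun z : ℍ => (k : ℂ) * 12⁻¹ * E2 z * f z) atImInfty
      (𝓝 ((k : ℂ) * 12⁻¹ * 1 * (qExpansion 1 f).coeff 0)) :=
    ((tendsto_const_nhds.mul tendsto_E2_atImInfty).mul h2)
  have h4 := h1.sub h3
  have h5 : serreDerivative k f = fun z : ℍ => D (f : ℍ → ℂ) z - (k : ℂ) * 12⁻¹ * E2 z * f z := by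
    funext z; simp [serreDerivative]
  have h6 : -(k : ℂ) * 12⁻¹ * (qExpansion 1 f).coeff 0 =
      0 - (k : ℂ) * 12⁻¹ * 1 * (qExpansion 1 f).coeff 0 := by ring
  rw [h5, h6]
  exact h4

theorem qExpansion_serreDerivativeMF_coeff_zero {k : ℤ} (f : ModularForm 𝒮ℒ k) :
    (qExpansion 1 (serreDerivativeMF f)).coeff 0 = -(k : ℂ) * 12⁻¹ * (qExpansion 1 f).coeff 0 := by
  have h1 := tendsto_atImInfty_coeff_zero (periodic_of_modularForm (serreDerivativeMF f))
    (serreDerivativeMF f).holo' (ModularFormClass.bdd_at_infty (serreDerivativeMF f))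
  have h2 := tendsto_serreDerivative f
  exact tendsto_nhds_unique h1 h2

/-- In a one-dimensional space of level-one modular forms containing a form `g₀` with constant
term `1`, every form is its constant term times `g₀`. -/
theorem eq_coeff_zero_smul_of_rank_one {k : ℤ}
    (hrank : Module.rank ℂ (ModularForm 𝒮ℒ k) = 1) (g₀ : ModularForm 𝒮ℒ k)
    (h₀ : (qExpansion 1 g₀).coeff 0 = 1) (g : ModularForm 𝒮ℒ k) :
    g = (qExpansion 1 g).coeff 0 • g₀ := by
  have hne : g₀ ≠ 0 := by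
    intro h
    rw [h] at h₀
    have h1 : qExpansion 1 ((0 : ModularForm 𝒮ℒ k) : ℍ → ℂ) = 0 := by
      rw [FunLike.coe_zero]; exact qExpansion_zero 1
    rw [h1] at h₀
    simp at h₀
  obtain ⟨c, hc⟩ := (finrank_eq_one_iff_of_nonzero' g₀ hne).mp
    (Module.rank_eq_one_iff_finrank_eq_one.mp hrank) g
  have h1 := ModularForm.qExpansion_smul one_pos one_mem_strictPeriods_SL c g₀
  have h2 : (qExpansion 1 g).coeff 0 = c := by
    rw [← hc, FunLike.coe_smul, h1, PowerSeries.coeff_smul, h₀, smul_eq_mul, mul_one]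
  rw [h2, hc]

theorem qExpansion_E₄_coeff_zero : (qExpansion 1 E₄).coeff 0 = 1 :=
  E_qExpansion_coeff_zero _ ⟨2, rfl⟩

theorem qExpansion_E₆_coeff_zero : (qExpansion 1 E₆).coeff 0 = 1 :=
  E_qExpansion_coeff_zero _ ⟨3, rfl⟩

/-- Ramanujan: `∂₄ E₄ = -E₆ / 3`. -/
theorem serreDerivative_E₄ (z : ℍ) : serreDerivative 4 E₄ z = -(1 / 3) * E₆ z := by
  let g : ModularForm 𝒮ℒ 6 := ModularForm.mcast (by norm_num) (serreDerivativeMF E₄)
  have hg : (g : ℍ → ℂ) = serreDerivativeMF E₄ := rfl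
  have h1 := eq_coeff_zero_smul_of_rank_one levelOne_weight_six_rank_one E₆
    qExpansion_E₆_coeff_zero g
  have h2 : (qExpansion 1 g).coeff 0 = -(1 / 3) := by
    rw [hg, qExpansion_serreDerivativeMF_coeff_zero, qExpansion_E₄_coeff_zero]
    norm_num
  rw [h2] at h1
  have h3 : g z = (-(1 / 3 : ℂ) • E₆) z := congrArg (fun f : ModularForm 𝒮ℒ 6 => f z) h1
  have h4 : g z = serreDerivative 4 E₄ z := by
    show serreDerivativeMF E₄ z = _
    rw [serreDerivativeMF_apply, serreDerivative_apply]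
    norm_num
  rw [← h4, h3]
  rfl

theorem levelOne_weight_eight_rank_one : Module.rank ℂ (ModularForm 𝒮ℒ 8) = 1 := by
  have h := dimension_level_one 8 ⟨4, rfl⟩
  have h2 : ¬ (8 ≡ 2 [MOD 12]) := by decide
  rw [if_neg h2] at h
  simpa using h

/-- Ramanujan: `∂₆ E₆ = -E₄² / 2`. -/
theorem serreDerivative_E₆ (z : ℍ) : serreDerivative 6 E₆ z = -(1 / 2) * E₄ z ^ 2 := by
  let g : ModularForm 𝒮ℒ 8 := ModularForm.mcast (by norm_num) (serreDerivativeMF E₆)
  let g₀ : ModularForm 𝒮ℒ 8 := ModularForm.mcast (by norm_num) (E₄.mul E₄)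
  have hg : (g : ℍ → ℂ) = serreDerivativeMF E₆ := rfl
  have hg₀ : (qExpansion 1 g₀).coeff 0 = 1 := by
    have : qExpansion 1 g₀ = qExpansion 1 E₄ * qExpansion 1 E₄ :=
      ModularForm.qExpansion_mul one_pos one_mem_strictPeriods_SL E₄ E₄
    rw [this, PowerSeries.coeff_mul]
    simp [qExpansion_E₄_coeff_zero, -PowerSeries.coeff_zero_eq_constantCoeff]
  have h1 := eq_coeff_zero_smul_of_rank_one levelOne_weight_eight_rank_one g₀ hg₀ g
  have h2 : (qExpansion 1 g).coeff 0 = -(1 / 2) := by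
    rw [hg, qExpansion_serreDerivativeMF_coeff_zero, qExpansion_E₆_coeff_zero]
    norm_num
  rw [h2] at h1
  have h3 : g z = (-(1 / 2 : ℂ) • g₀) z := congrArg (fun f : ModularForm 𝒮ℒ 8 => f z) h1
  have h4 : g z = serreDerivative 6 E₆ z := by
    show serreDerivativeMF E₆ z = _
    rw [serreDerivativeMF_apply, serreDerivative_apply]
    norm_num
  have h5 : (-(1 / 2 : ℂ) • g₀) z = -(1 / 2) * E₄ z ^ 2 := by
    show -(1 / 2 : ℂ) * (E₄ z * E₄ z) = _
    ring
  rw [← h4, h3, h5]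

/-- Ramanujan: `D E₄ = (E₂ E₄ - E₆) / 3`. -/
theorem D_E₄ (z : ℍ) : D E₄ z = (E2 z * E₄ z - E₆ z) / 3 := by
  have h := serreDerivative_E₄ z
  rw [serreDerivative_apply] at h
  have h2 : D (E₄ : ℍ → ℂ) z = -(1 / 3) * E₆ z + ((4 : ℤ) : ℂ) * 12⁻¹ * E2 z * E₄ z := by
    rw [← h]; ring
  rw [h2]
  push_cast
  ring

/-- Ramanujan: `D E₆ = (E₂ E₆ - E₄²) / 2`. -/
theorem D_E₆ (z : ℍ) : D E₆ z = (E2 z * E₆ z - E₄ z ^ 2) / 2 := by
  have h := serreDerivative_E₆ z
  rw [serreDerivative_apply] at h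
  have h2 : D (E₆ : ℍ → ℂ) z = -(1 / 2) * E₄ z ^ 2 + ((6 : ℤ) : ℂ) * 12⁻¹ * E2 z * E₆ z := by
    rw [← h]; ring
  rw [h2]
  push_cast
  ring

/-- Ramanujan: `D Δ = E₂ Δ`. -/
theorem D_discriminant (z : ℍ) :
    D ModularForm.discriminant z = E2 z * ModularForm.discriminant z := by
  have hz : (z : ℂ) ∈ upperHalfPlaneSet := z.im_pos
  have hη : DifferentiableAt ℂ ModularForm.eta (z : ℂ) :=
    differentiableAt_eta_of_mem_upperHalfPlaneSet hz
  have heq : (ModularForm.discriminant ∘ ofComplex) =ᶠ[𝓝 (z : ℂ)]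
      (fun w => ModularForm.eta w ^ 24) := by
    filter_upwards [isOpen_upperHalfPlaneSet.mem_nhds hz] with w hw
    simp [ModularForm.discriminant, ofComplex_apply_of_im_pos hw]
  have hd : HasDerivAt (fun w => ModularForm.eta w ^ 24)
      (24 * ModularForm.eta z ^ 23 * deriv ModularForm.eta z) (z : ℂ) := by
    have := hη.hasDerivAt.fun_pow 24
    simpa using this
  have hderiv : deriv (ModularForm.discriminant ∘ ofComplex) (z : ℂ) =
      24 * ModularForm.eta z ^ 23 * deriv ModularForm.eta z :=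
    (hd.congr_of_eventuallyEq heq).deriv
  have hlog := logDeriv_eta_eq_E2 z
  have hne : ModularForm.eta (z : ℂ) ≠ 0 := eta_ne_zero hz
  rw [logDeriv_apply, div_eq_iff hne] at hlog
  have h2pi : (2 * π * I : ℂ) ≠ 0 := by
    simp [Real.pi_ne_zero, I_ne_zero]
  have hΔ : ModularForm.discriminant z = ModularForm.eta z ^ 24 := by
    simp [ModularForm.discriminant]
  rw [normalizedDerivOfComplex, hderiv, hlog, hΔ]
  field_simp
  ring

end

end Fermat.Agent.X0.Ramanujan
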