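import Fermat.Agent.X0.Defs
import Fermat.Agent.X0.Ramanujan

/-!
# Local orders of the `j`-function (helper23, Program C, piece C-J3)

* `D_jFun`: `D j = -E₄² E₆ / Δ`.
* `jFun_sub_1728`: `j - 1728 = E₆² / Δ`.
* `deriv_E₄_ne_zero`, `deriv_E₆_ne_zero`: the zeros of `E₄`, `E₆` are simple.
* `jFun_order_of_E₄`, `jFun_order_of_E₆`, `jFun_order_generic`, `jFun_orderE`: the local order of
  `j - j(z₀)` at `z₀` is `3`, `2`, `1` according to `E₄ z₀ = 0`, `E₆ z₀ = 0`, neither.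
-/

set_option autoImplicit false

open UpperHalfPlane hiding I
open Real Complex Filter Function
open scoped Manifold MatrixGroups ModularForm Topology

namespace Fermat.Agent.X0.JOrder

open Derivative EisensteinSeries ModularForm Fermat.Agent.X0 Fermat.Agent.X0.Ramanujan

noncomputable section

local notation "Δ" => ModularForm.discriminant

theorem two_pi_I_ne_zero' : (2 * π * I : ℂ) ≠ 0 := by
  simp [Real.pi_ne_zero, I_ne_zero]

/-- `F ∘ ofComplex` is analytic at points of `ℍ` for holomorphic `F`. -/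
theorem analyticAt_comp_ofComplex {F : ℍ → ℂ} (hF : MDiff F) (z : ℍ) :
    AnalyticAt ℂ (F ∘ ofComplex) (z : ℂ) := by
  have h := UpperHalfPlane.mdifferentiable_iff.mp hF
  exact h.analyticAt (isOpen_upperHalfPlaneSet.mem_nhds z.im_pos)

theorem deriv_comp_ofComplex (F : ℍ → ℂ) (z : ℍ) :
    deriv (F ∘ ofComplex) (z : ℂ) = 2 * π * I * D F z := by
  rw [normalizedDerivOfComplex]
  field_simp [two_pi_I_ne_zero']

theorem mdiff_E₄ : MDiff (E₄ : ℍ → ℂ) := E₄.holo'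

theorem mdiff_E₆ : MDiff (E₆ : ℍ → ℂ) := E₆.holo'

theorem mdiff_discriminant : MDiff (Δ : ℍ → ℂ) := CuspForm.discriminant.holo'

/-- `Δ = (E₄³ - E₆²) / 1728` in the form `1728 Δ = E₄³ - E₆²`. -/
theorem discriminant_mul (z : ℍ) : 1728 * Δ z = E₄ z ^ 3 - E₆ z ^ 2 := by
  rw [discriminant_eq_E₄_cube_sub_E₆_sq z]
  ring

theorem jFun_sub_1728 (z : ℍ) : jFun z - 1728 = E₆ z ^ 2 / Δ z := by
  have hΔ := discriminant_ne_zero z
  have h := discriminant_mul z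
  rw [jFun, eq_div_iff hΔ, sub_mul, div_mul_cancel₀ _ hΔ]
  linear_combination -h

theorem E₆_ne_zero_of_E₄_eq_zero {z : ℍ} (h : E₄ z = 0) : E₆ z ≠ 0 := by
  intro h6
  have := discriminant_mul z
  rw [h, h6] at this
  have hΔ := discriminant_ne_zero z
  apply hΔ
  simpa using this

theorem E₄_ne_zero_of_E₆_eq_zero {z : ℍ} (h : E₆ z = 0) : E₄ z ≠ 0 := by
  intro h4
  exact E₆_ne_zero_of_E₄_eq_zero h4 h

theorem hasDerivAt_comp_ofComplex {F : ℍ → ℂ} (hF : MDiff F) (z : ℍ) :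
    HasDerivAt (F ∘ ofComplex) (2 * π * I * D F z) (z : ℂ) := by
  rw [← deriv_comp_ofComplex]
  exact (analyticAt_comp_ofComplex hF z).differentiableAt.hasDerivAt

theorem hasDerivAt_jFun (z : ℍ) :
    HasDerivAt (jFun ∘ ofComplex) (2 * π * I * (-E₄ z ^ 2 * E₆ z / Δ z)) (z : ℂ) := by
  have h4 := hasDerivAt_comp_ofComplex mdiff_E₄ z
  have hΔ := hasDerivAt_comp_ofComplex mdiff_discriminant z
  rw [D_E₄] at h4
  rw [D_discriminant] at hΔ
  have hne : (Δ ∘ ofComplex) (z : ℂ) ≠ 0 := by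
    simp only [Function.comp_apply, ofComplex_apply]
    exact discriminant_ne_zero z
  have h := (h4.fun_pow 3).fun_div hΔ hne
  have heq : (fun w => (E₄ ∘ ofComplex) w ^ 3 / (Δ ∘ ofComplex) w) = jFun ∘ ofComplex := by
    funext w
    simp [jFun]
  rw [heq] at h
  refine h.congr_deriv ?_
  simp only [Function.comp_apply, ofComplex_apply]
  have hΔ0 := discriminant_ne_zero z
  field_simp
  ring

theorem D_jFun (z : ℍ) : D jFun z = -E₄ z ^ 2 * E₆ z / Δ z := by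
  have h := (hasDerivAt_jFun z).deriv
  rw [normalizedDerivOfComplex, h]
  field_simp [two_pi_I_ne_zero']

theorem analyticAt_jFun (z : ℍ) : AnalyticAt ℂ (jFun ∘ ofComplex) (z : ℂ) := by
  have h4 := analyticAt_comp_ofComplex mdiff_E₄ z
  have hΔ := analyticAt_comp_ofComplex mdiff_discriminant z
  have hne : (Δ ∘ ofComplex) (z : ℂ) ≠ 0 := by
    simp only [Function.comp_apply, ofComplex_apply]
    exact discriminant_ne_zero z
  have h := (h4.fun_pow 3).fun_div hΔ hne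
  have heq : (fun w => (E₄ ∘ ofComplex) w ^ 3 / (Δ ∘ ofComplex) w) = jFun ∘ ofComplex := by
    funext w
    simp [jFun]
  rwa [heq] at h

/-- A simple zero factors as `(w - z₀) * g w` with `g` analytic and nonvanishing at `z₀`. -/
theorem exists_factor_of_deriv_ne_zero {f : ℂ → ℂ} {z₀ : ℂ} (hf : AnalyticAt ℂ f z₀)
    (h0 : f z₀ = 0) (hd : deriv f z₀ ≠ 0) :
    ∃ g : ℂ → ℂ, AnalyticAt ℂ g z₀ ∧ g z₀ ≠ 0 ∧ ∀ w, f w = (w - z₀) * g w := by
  obtain ⟨p, hp⟩ := hf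
  refine ⟨dslope f z₀, ⟨_, hp.has_fpower_series_dslope_fslope⟩, ?_, fun w => ?_⟩
  · rwa [dslope_same]
  · have := sub_smul_dslope f z₀ w
    rw [h0, sub_zero, smul_eq_mul] at this
    exact this.symm

theorem deriv_E₄_ne_zero {z : ℍ} (h : E₄ z = 0) : deriv (E₄ ∘ ofComplex) (z : ℂ) ≠ 0 := by
  rw [deriv_comp_ofComplex, D_E₄, h]
  have h6 := E₆_ne_zero_of_E₄_eq_zero h
  have := two_pi_I_ne_zero'
  simp only [mul_zero, zero_sub]
  intro h0
  apply h6
  have h3 : (3 : ℂ) ≠ 0 := by norm_num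
  field_simp at h0
  simpa [this] using h0

theorem deriv_E₆_ne_zero {z : ℍ} (h : E₆ z = 0) : deriv (E₆ ∘ ofComplex) (z : ℂ) ≠ 0 := by
  rw [deriv_comp_ofComplex, D_E₆, h]
  have h4 := E₄_ne_zero_of_E₆_eq_zero h
  have := two_pi_I_ne_zero'
  simp only [mul_zero, zero_sub]
  intro h0
  apply h4
  have h2 : (2 : ℂ) ≠ 0 := by norm_num
  field_simp at h0
  simpa [this] using h0

theorem deriv_jFun_ne_zero {z : ℍ} (h4 : E₄ z ≠ 0) (h6 : E₆ z ≠ 0) :
    deriv (jFun ∘ ofComplex) (z : ℂ) ≠ 0 := by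
  rw [(hasDerivAt_jFun z).deriv]
  have hΔ := discriminant_ne_zero z
  have := two_pi_I_ne_zero'
  refine mul_ne_zero this (div_ne_zero (mul_ne_zero (neg_ne_zero.mpr (pow_ne_zero 2 h4)) h6) hΔ)

theorem analyticAt_discriminant_inv (z : ℍ) :
    AnalyticAt ℂ (fun w => ((Δ ∘ ofComplex) w)⁻¹) (z : ℂ) := by
  have hΔ := analyticAt_comp_ofComplex mdiff_discriminant z
  have hne : (Δ ∘ ofComplex) (z : ℂ) ≠ 0 := by
    simp only [Function.comp_apply, ofComplex_apply]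
    exact discriminant_ne_zero z
  exact hΔ.fun_inv hne

/-- At a zero of `E₄`, the function `j - j(z₀)` has a zero of order `3`. -/
theorem jFun_order_of_E₄ {z₀ : ℍ} (h : E₄ z₀ = 0) :
    ∃ g : ℂ → ℂ, AnalyticAt ℂ g z₀ ∧ g z₀ ≠ 0 ∧
      ∀ᶠ w in 𝓝 (z₀ : ℂ), jFun (ofComplex w) - jFun z₀ = (w - z₀) ^ 3 * g w := by
  obtain ⟨g, hg, hg0, hfac⟩ := exists_factor_of_deriv_ne_zero
    (analyticAt_comp_ofComplex mdiff_E₄ z₀) (by simpa using h) (deriv_E₄_ne_zero h)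
  refine ⟨fun w => g w ^ 3 * ((Δ ∘ ofComplex) w)⁻¹, (hg.fun_pow 3).fun_mul
    (analyticAt_discriminant_inv z₀), ?_, Eventually.of_forall fun w => ?_⟩
  · simp only [Function.comp_apply, ofComplex_apply]
    exact mul_ne_zero (pow_ne_zero 3 hg0) (inv_ne_zero (discriminant_ne_zero z₀))
  · have h1 : jFun z₀ = 0 := by simp [jFun, h]
    have h2 := hfac w
    simp only [Function.comp_apply] at h2 ⊢
    rw [h1, sub_zero, jFun, h2, div_eq_mul_inv]
    ring

/-- At a zero of `E₆`, the function `j - j(z₀)` has a zero of order `2`. -/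
theorem jFun_order_of_E₆ {z₀ : ℍ} (h : E₆ z₀ = 0) :
    ∃ g : ℂ → ℂ, AnalyticAt ℂ g z₀ ∧ g z₀ ≠ 0 ∧
      ∀ᶠ w in 𝓝 (z₀ : ℂ), jFun (ofComplex w) - jFun z₀ = (w - z₀) ^ 2 * g w := by
  obtain ⟨g, hg, hg0, hfac⟩ := exists_factor_of_deriv_ne_zero
    (analyticAt_comp_ofComplex mdiff_E₆ z₀) (by simpa using h) (deriv_E₆_ne_zero h)
  refine ⟨fun w => g w ^ 2 * ((Δ ∘ ofComplex) w)⁻¹, (hg.fun_pow 2).fun_mul
    (analyticAt_discriminant_inv z₀), ?_, Eventually.of_forall fun w => ?_⟩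
  · simp only [Function.comp_apply, ofComplex_apply]
    exact mul_ne_zero (pow_ne_zero 2 hg0) (inv_ne_zero (discriminant_ne_zero z₀))
  · have h1 : jFun z₀ - 1728 = 0 := by rw [jFun_sub_1728, h]; simp
    have h2 := hfac w
    have h3 := jFun_sub_1728 (ofComplex w)
    simp only [Function.comp_apply] at h2 ⊢
    have h4 : jFun (ofComplex w) - jFun z₀ = (jFun (ofComplex w) - 1728) - (jFun z₀ - 1728) := by
      ring
    rw [h4, h1, sub_zero, h3, h2, div_eq_mul_inv]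
    ring

/-- Away from the zeros of `E₄` and `E₆`, `j` is a local coordinate. -/
theorem jFun_order_generic {z₀ : ℍ} (h4 : E₄ z₀ ≠ 0) (h6 : E₆ z₀ ≠ 0) :
    ∃ g : ℂ → ℂ, AnalyticAt ℂ g z₀ ∧ g z₀ ≠ 0 ∧
      ∀ᶠ w in 𝓝 (z₀ : ℂ), jFun (ofComplex w) - jFun z₀ = (w - z₀) ^ 1 * g w := by
  have han : AnalyticAt ℂ (fun w => (jFun ∘ ofComplex) w - jFun z₀) (z₀ : ℂ) :=
    (analyticAt_jFun z₀).fun_sub analyticAt_const
  have hd : deriv (fun w => (jFun ∘ ofComplex) w - jFun z₀) (z₀ : ℂ) ≠ 0 := by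
    rw [deriv_sub_const_fun]
    exact deriv_jFun_ne_zero h4 h6
  obtain ⟨g, hg, hg0, hfac⟩ := exists_factor_of_deriv_ne_zero han (by simp) hd
  refine ⟨g, hg, hg0, Eventually.of_forall fun w => ?_⟩
  have := hfac w
  simp only [Function.comp_apply] at this
  rw [this, pow_one]

/-- The local order of `j` in terms of the vanishing of `E₄`, `E₆`. -/
def ordE (z : ℍ) : ℕ :=
  open scoped Classical in
  if E₄ z = 0 then 3 else if E₆ z = 0 then 2 else 1

theorem jFun_orderE (z₀ : ℍ) :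
    ∃ g : ℂ → ℂ, AnalyticAt ℂ g z₀ ∧ g z₀ ≠ 0 ∧
      ∀ᶠ w in 𝓝 (z₀ : ℂ), jFun (ofComplex w) - jFun z₀ = (w - z₀) ^ ordE z₀ * g w := by
  unfold ordE
  by_cases h4 : E₄ z₀ = 0
  · rw [if_pos h4]; exact jFun_order_of_E₄ h4
  · rw [if_neg h4]
    by_cases h6 : E₆ z₀ = 0
    · rw [if_pos h6]; exact jFun_order_of_E₆ h6
    · rw [if_neg h6]; exact jFun_order_generic h4 h6

theorem analyticOrderAt_jFun (z₀ : ℍ) :
    analyticOrderAt (fun w => jFun (ofComplex w) - jFun z₀) (z₀ : ℂ) = ordE z₀ := by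
  have han : AnalyticAt ℂ (fun w => jFun (ofComplex w) - jFun z₀) (z₀ : ℂ) :=
    (analyticAt_jFun z₀).fun_sub analyticAt_const
  rw [han.analyticOrderAt_eq_natCast]
  obtain ⟨g, hg, hg0, h⟩ := jFun_orderE z₀
  exact ⟨g, hg, hg0, by simpa [smul_eq_mul] using h⟩

end

end Fermat.Agent.X0.JOrder
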