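import Fermat.Agent.X0.AnDefs
import Fermat.Agent.X0.JBasic
import Fermat.Agent.X0.JOrder

/-!
# Local orders of `j` in terms of `ellOrder` (helper23, Program C, piece C-J3, final form)

Everything here is stated against the injectivity of `j` modulo `SL(2, ℤ)` (piece C-J2) as an
explicit hypothesis `hinj`, so that this file does not depend on C-J2; the hypothesis-free versions
are one-liners once `exists_SL2_smul_eq_of_jFun_eq` is available.
-/

set_option autoImplicit false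

open UpperHalfPlane hiding I
open Real Complex Filter Function
open scoped Manifold MatrixGroups ModularForm Topology

namespace Fermat.Agent.X0.JOrderMain

open EisensteinSeries ModularForm Fermat.Agent.X0 Fermat.Agent.X0.JOrder

noncomputable section

local notation "Δ" => ModularForm.discriminant

/-- Injectivity of `j` modulo `SL(2, ℤ)` (the output of C-J2). -/
def JInj : Prop := ∀ z w : ℍ, jFun z = jFun w → ∃ γ : SL(2, ℤ), γ • z = w

theorem jFun_eq_zero_iff (z : ℍ) : jFun z = 0 ↔ E₄ z = 0 := by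
  rw [jFun, div_eq_zero_iff]
  constructor
  · rintro (h | h)
    · exact pow_eq_zero_iff (by norm_num) |>.mp h
    · exact absurd h (discriminant_ne_zero z)
  · intro h; left; rw [h]; norm_num

theorem jFun_eq_1728_iff (z : ℍ) : jFun z = 1728 ↔ E₆ z = 0 := by
  rw [← sub_eq_zero, jFun_sub_1728, div_eq_zero_iff]
  constructor
  · rintro (h | h)
    · exact pow_eq_zero_iff (by norm_num) |>.mp h
    · exact absurd h (discriminant_ne_zero z)
  · intro h; left; rw [h]; norm_num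

theorem E₄_eq_zero_of_smul_ptRho {z : ℍ} (h : ∃ γ : SL(2, ℤ), γ • ptRho = z) : E₄ z = 0 := by
  obtain ⟨γ, rfl⟩ := h
  rw [← jFun_eq_zero_iff, jFun_smul, jFun_ptRho]

theorem E₆_eq_zero_of_smul_ptI {z : ℍ} (h : ∃ γ : SL(2, ℤ), γ • ptI = z) : E₆ z = 0 := by
  obtain ⟨γ, rfl⟩ := h
  rw [← jFun_eq_1728_iff, jFun_smul, jFun_ptI]

theorem E₄_eq_zero_iff_of_inj (hinj : JInj) (z : ℍ) :
    E₄ z = 0 ↔ ∃ γ : SL(2, ℤ), γ • ptRho = z := by
  refine ⟨fun h => hinj ptRho z ?_, E₄_eq_zero_of_smul_ptRho⟩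
  rw [jFun_ptRho, (jFun_eq_zero_iff z).mpr h]

theorem E₆_eq_zero_iff_of_inj (hinj : JInj) (z : ℍ) :
    E₆ z = 0 ↔ ∃ γ : SL(2, ℤ), γ • ptI = z := by
  refine ⟨fun h => hinj ptI z ?_, E₆_eq_zero_of_smul_ptI⟩
  rw [jFun_ptI, (jFun_eq_1728_iff z).mpr h]

theorem ellOrder_eq_ordE_of_inj (hinj : JInj) (z : ℍ) : ellOrder z = ordE z := by
  have h4 := E₄_eq_zero_iff_of_inj hinj z
  have h6 := E₆_eq_zero_iff_of_inj hinj z
  unfold ellOrder ordE
  by_cases h : E₄ z = 0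
  · rw [if_pos h, if_pos (h4.mp h)]
  · rw [if_neg h, if_neg (fun h' => h (h4.mpr h'))]
    by_cases h' : E₆ z = 0
    · rw [if_pos h', if_pos (h6.mp h')]
    · rw [if_neg h', if_neg (fun h'' => h' (h6.mpr h''))]

/-- MAIN (row 135 (d)), modulo `JInj`. -/
theorem jFun_order_of_inj (hinj : JInj) (z₀ : ℍ) :
    ∃ g : ℂ → ℂ, AnalyticAt ℂ g z₀ ∧ g z₀ ≠ 0 ∧
      ∀ᶠ w in 𝓝 (z₀ : ℂ), jFun (ofComplex w) - jFun z₀ = (w - z₀) ^ ellOrder z₀ * g w := by
  rw [ellOrder_eq_ordE_of_inj hinj]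
  exact jFun_orderE z₀

theorem ordH_jFun_sub_eq_ordE (z₀ : ℍ) : ordH (fun z => jFun z - jFun z₀) z₀ = ordE z₀ :=
  analyticOrderAt_jFun z₀

/-- The order of `j - j(z₀)` at `z₀` is `ellOrder z₀`, modulo `JInj`. -/
theorem ordH_jFun_sub_of_inj (hinj : JInj) (z₀ : ℍ) :
    ordH (fun z => jFun z - jFun z₀) z₀ = ellOrder z₀ := by
  rw [ellOrder_eq_ordE_of_inj hinj]
  exact analyticOrderAt_jFun z₀

/-- Variant with a constant `c = j(z₀)`. -/
theorem ordH_jFun_sub_const_of_inj (hinj : JInj) (z₀ : ℍ) (c : ℂ) (hc : jFun z₀ = c) :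
    ordH (fun z => jFun z - c) z₀ = ellOrder z₀ := by
  subst hc
  exact ordH_jFun_sub_of_inj hinj z₀

/-- If `c ≠ j(z₀)` then `j - c` has order `0` at `z₀`. -/
theorem ordH_jFun_sub_const_of_ne (z₀ : ℍ) (c : ℂ) (hc : jFun z₀ ≠ c) :
    ordH (fun z => jFun z - c) z₀ = 0 := by
  have han : AnalyticAt ℂ ((fun z => jFun z - c) ∘ ofComplex) (z₀ : ℂ) :=
    (analyticAt_jFun z₀).fun_sub analyticAt_const
  rw [ordH, han.analyticOrderAt_eq_zero]
  simp only [Function.comp_apply, ofComplex_apply]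
  exact sub_ne_zero.mpr hc

theorem ellOrder_pos (z : ℍ) : 0 < ellOrder z := by
  unfold ellOrder
  split_ifs <;> norm_num

theorem ellOrder_le_three (z : ℍ) : ellOrder z ≤ 3 := by
  unfold ellOrder
  split_ifs <;> norm_num

theorem ellOrder_smul (γ : SL(2, ℤ)) (z : ℍ) : ellOrder (γ • z) = ellOrder z := by
  have h : ∀ p : ℍ, (∃ δ : SL(2, ℤ), δ • p = γ • z) ↔ ∃ δ : SL(2, ℤ), δ • p = z := by
    intro p
    constructor
    · rintro ⟨δ, hδ⟩
      refine ⟨γ⁻¹ * δ, ?_⟩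
      rw [mul_smul, hδ, inv_smul_smul]
    · rintro ⟨δ, hδ⟩
      exact ⟨γ * δ, by rw [mul_smul, hδ]⟩
  unfold ellOrder
  by_cases h1 : ∃ δ : SL(2, ℤ), δ • ptRho = z
  · rw [if_pos h1, if_pos ((h ptRho).mpr h1)]
  · rw [if_neg h1, if_neg (fun h' => h1 ((h ptRho).mp h'))]
    by_cases h2 : ∃ δ : SL(2, ℤ), δ • ptI = z
    · rw [if_pos h2, if_pos ((h ptI).mpr h2)]
    · rw [if_neg h2, if_neg (fun h' => h2 ((h ptI).mp h'))]

theorem ellOrder_ptRho : ellOrder ptRho = 3 := by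
  unfold ellOrder
  rw [if_pos ⟨1, one_smul _ _⟩]

theorem ellOrder_ptI : ellOrder ptI = 2 := by
  unfold ellOrder
  have h : ¬ ∃ γ : SL(2, ℤ), γ • ptRho = ptI := by
    intro h
    have h4 := E₄_eq_zero_of_smul_ptRho h
    exact E₄_ne_zero_of_E₆_eq_zero E₆_ptI h4
  rw [if_neg h, if_pos ⟨1, one_smul _ _⟩]

end

end Fermat.Agent.X0.JOrderMain
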