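import Fermat.Agent.X0.HolSymm
import Fermat.Agent.X0.FFPlace
import Fermat.Agent.X0.JOrderMain

/-!
# C-P1a: places of `F = ℚbar(j_d : d ∣ N)` coming from points of the upper half plane
(helper23, Program C)

For a realisation `Θ : R = ℚbar[j_d] → Hol(ℍ)` (`IsRealize`), `g ∈ SL(2, ℤ)` and `z₀ ∈ ℍ`, the function
`u ↦ ord_{z₀} (Θ u ∘ g⁻¹)` is a discrete valuation on `R`, trivial on `ℚbar`; when `j(z₀) ∈ ι(ℚbar)`
it is non-trivial and gives a place of `F`.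
-/

set_option autoImplicit false
set_option linter.unusedSectionVars false

open UpperHalfPlane hiding I
open Complex Filter Function
open scoped Manifold MatrixGroups Topology

namespace Fermat.Agent.X0.PointPlaces

open Fermat.Agent.X0 Fermat.Agent.X0.JOrderMain AlgebraicCurve

noncomputable section

variable {N : ℕ} [NeZero N]

/-- `j ∈ R`. -/
theorem jF_mem_Rsub (N : ℕ) [NeZero N] : jF N ∈ Rsub N :=
  Algebra.subset_adjoin ⟨1, inferInstance, one_dvd N, rfl⟩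

/-- The properties of the analytic realisation `Θ : R → Hol(ℍ)` (piece C-F2c) that we use. -/
structure IsRealize (Θ : Rsub N →+* (ℍ → ℂ)) : Prop where
  inj : Function.Injective Θ
  map_algebraMap : ∀ c : Kbar, Θ (algebraMap Kbar (Rsub N) c) = fun _ => iotaK c
  map_jF : Θ ⟨jF N, jF_mem_Rsub N⟩ = jFun
  hol : ∀ u, Θ u ∈ HolH
  inv : ∀ (u : Rsub N) (γ : SL(2, ℤ)), γ ∈ CongruenceSubgroup.Gamma0 N → compSL (Θ u) γ = Θ u

theorem scaleH_one (z : ℍ) : scaleH 1 z = z := by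
  apply UpperHalfPlane.ext
  simp [coe_scaleH]

theorem jdFun_one : jdFun 1 = jFun := by
  funext z
  simp [jdFun, scaleH_one]

/-- The order function on `R` attached to `g` and `z₀`. -/
def ptOrd (Θ : Rsub N →+* (ℍ → ℂ)) (g : SL(2, ℤ)) (z₀ : ℍ) (u : Rsub N) : ℕ∞ :=
  ordH (compSL (Θ u) g⁻¹) z₀

variable {Θ : Rsub N →+* (ℍ → ℂ)}

theorem compSL_inv_cancel (f : ℍ → ℂ) (g : SL(2, ℤ)) : compSL (compSL f g⁻¹) g = f := by
  rw [← compSL_mul, inv_mul_cancel, compSL_one]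

theorem ptOrd_ne_top (hΘ : IsRealize Θ) (g : SL(2, ℤ)) (z₀ : ℍ) {u : Rsub N} (hu : u ≠ 0) :
    ptOrd Θ g z₀ u ≠ ⊤ := by
  intro h
  have h0 := eq_zero_of_ordH_eq_top (compSL_mem_HolH (hΘ.hol u) g⁻¹) z₀ h
  have h1 : Θ u = 0 := by
    rw [← compSL_inv_cancel (Θ u) g, h0]
    rfl
  exact hu (hΘ.inj (by rw [h1, map_zero]))

theorem ptOrd_mul (hΘ : IsRealize Θ) (g : SL(2, ℤ)) (z₀ : ℍ) (u s : Rsub N) :
    ptOrd Θ g z₀ (u * s) = ptOrd Θ g z₀ u + ptOrd Θ g z₀ s := by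
  unfold ptOrd
  rw [map_mul, compSL_mul_fun]
  exact ordH_mul (compSL_mem_HolH (hΘ.hol u) g⁻¹) (compSL_mem_HolH (hΘ.hol s) g⁻¹) z₀

theorem ptOrd_add (hΘ : IsRealize Θ) (g : SL(2, ℤ)) (z₀ : ℍ) (u s : Rsub N) :
    min (ptOrd Θ g z₀ u) (ptOrd Θ g z₀ s) ≤ ptOrd Θ g z₀ (u + s) := by
  unfold ptOrd
  rw [map_add, compSL_add_fun]
  exact le_ordH_add (compSL_mem_HolH (hΘ.hol u) g⁻¹) (compSL_mem_HolH (hΘ.hol s) g⁻¹) z₀

theorem ptOrd_algebraMap (hΘ : IsRealize Θ) (g : SL(2, ℤ)) (z₀ : ℍ) {c : Kbar} (hc : c ≠ 0) :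
    ptOrd Θ g z₀ (algebraMap Kbar (Rsub N) c) = 0 := by
  unfold ptOrd
  rw [hΘ.map_algebraMap, compSL_const]
  exact ordH_const (fun h => hc (iotaK_injective (by rw [h, map_zero]))) z₀

/-- The element `j - c` of `R`. -/
def jSub (N : ℕ) [NeZero N] (c : Kbar) : Rsub N :=
  ⟨jF N, jF_mem_Rsub N⟩ - algebraMap Kbar (Rsub N) c

theorem coe_jSub (c : Kbar) : ((jSub N c : Rsub N) : FF N) = jF N - algebraMap Kbar (FF N) c := rfl

theorem realize_jSub (hΘ : IsRealize Θ) (c : Kbar) : Θ (jSub N c) = fun z => jFun z - iotaK c := by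
  unfold jSub
  rw [map_sub, hΘ.map_jF, hΘ.map_algebraMap]
  rfl

theorem compSL_jFun_sub (c : ℂ) (γ : SL(2, ℤ)) :
    compSL (fun z => jFun z - c) γ = fun z => jFun z - c := by
  funext z
  show jFun (γ • z) - c = jFun z - c
  rw [jFun_smul]

theorem ptOrd_jSub (hΘ : IsRealize Θ) (hinj : JInj) (g : SL(2, ℤ)) (z₀ : ℍ) (c : Kbar)
    (hc : jFun z₀ = iotaK c) : ptOrd Θ g z₀ (jSub N c) = ellOrder z₀ := by
  unfold ptOrd
  rw [realize_jSub hΘ, compSL_jFun_sub]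
  exact ordH_jFun_sub_const_of_inj hinj z₀ _ hc

theorem ptOrd_jSub_of_ne (hΘ : IsRealize Θ) (g : SL(2, ℤ)) (z₀ : ℍ) (c : Kbar)
    (hc : jFun z₀ ≠ iotaK c) : ptOrd Θ g z₀ (jSub N c) = 0 := by
  unfold ptOrd
  rw [realize_jSub hΘ, compSL_jFun_sub]
  exact ordH_jFun_sub_const_of_ne z₀ _ hc

/-- The order function only depends on the coset `g Γ₀(N)`. -/
theorem ptOrd_mul_Gamma0 (hΘ : IsRealize Θ) (g γ : SL(2, ℤ))
    (hγ : γ ∈ CongruenceSubgroup.Gamma0 N) (z₀ : ℍ) (u : Rsub N) :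
    ptOrd Θ (g * γ) z₀ u = ptOrd Θ g z₀ u := by
  unfold ptOrd
  rw [mul_inv_rev, compSL_mul, hΘ.inv u γ⁻¹ (inv_mem hγ)]

/-- Moving the point by `σ` and the coset by `σ` gives the same order function. -/
theorem ptOrd_smul (hΘ : IsRealize Θ) (σ g : SL(2, ℤ)) (z₀ : ℍ) (u : Rsub N) :
    ptOrd Θ (σ * g) (σ • z₀) u = ptOrd Θ g z₀ u := by
  unfold ptOrd
  rw [mul_inv_rev, compSL_mul, ordH_compSL (compSL_mem_HolH (hΘ.hol u) g⁻¹), inv_smul_smul]

/-- If `σ` fixes `z₀` then the cosets `g Γ₀(N)` and `σ g Γ₀(N)` give the same order function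
at `z₀`. -/
theorem ptOrd_mul_of_fixed (hΘ : IsRealize Θ) (σ g : SL(2, ℤ)) (z₀ : ℍ) (hσ : σ • z₀ = z₀)
    (u : Rsub N) : ptOrd Θ (σ * g) z₀ u = ptOrd Θ g z₀ u := by
  have := ptOrd_smul hΘ σ g z₀ u
  rwa [hσ] at this

section Extension

variable {K F : Type*} [Field K] [Field F] [Algebra K F] (R : Subalgebra K F)

/-- The statement of (FF5): an integer valued order function on `F`, trivial on `K` and
non-trivial, is a positive multiple of the order function of a unique place. -/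
def OrdFunPlace (K F : Type*) [Field K] [Field F] [Algebra K F] : Prop :=
  ∀ (w : F → ℤ), (∀ f g, f ≠ 0 → g ≠ 0 → w (f * g) = w f + w g) →
    (∀ f g, f ≠ 0 → g ≠ 0 → f + g ≠ 0 → min (w f) (w g) ≤ w (f + g)) →
    (∀ c : K, algebraMap K F c ≠ 0 → w (algebraMap K F c) = 0) →
    (∃ f, f ≠ 0 ∧ w f ≠ 0) →
    ∃ (v : Place K F) (m : ℕ), 0 < m ∧ ∀ f, f ≠ 0 → w f = m * v.ord f

variable {R}

theorem pp_coe_ne_zero {u : R} (hu : u ≠ 0) : (u : F) ≠ 0 :=
  fun h => hu (Subtype.ext h)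

variable [IsFractionRing R F]

theorem pp_exists_div (f : F) (hf : f ≠ 0) :
    ∃ u s : R, u ≠ 0 ∧ s ≠ 0 ∧ f = (u : F) / (s : F) := by
  obtain ⟨u, s, hs, rfl⟩ := IsFractionRing.div_surjective (A := R) f
  have hs0 : s ≠ 0 := nonZeroDivisors.ne_zero hs
  refine ⟨u, s, ?_, hs0, rfl⟩
  rintro rfl
  apply hf
  simp

/-- Extension of an additive function on `R \ {0}` to `F = Frac R`. -/
theorem pp_exists_extension (w0 : R → ℤ)
    (hmul : ∀ u s : R, u ≠ 0 → s ≠ 0 → w0 (u * s) = w0 u + w0 s) :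
    ∃ w : F → ℤ, ∀ u s : R, u ≠ 0 → s ≠ 0 → w ((u : F) / (s : F)) = w0 u - w0 s := by
  classical
  have hwd : ∀ u s u' s' : R, u ≠ 0 → s ≠ 0 → u' ≠ 0 → s' ≠ 0 →
      (u : F) / (s : F) = (u' : F) / (s' : F) → w0 u - w0 s = w0 u' - w0 s' := by
    intro u s u' s' hu hs hu' hs' h
    have hsF := pp_coe_ne_zero (F := F) hs
    have hsF' := pp_coe_ne_zero (F := F) hs'
    rw [div_eq_div_iff hsF hsF'] at h
    have h2 : u * s' = u' * s := Subtype.ext (by simpa using h)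
    have h3 := hmul u s' hu hs'
    have h4 := hmul u' s hu' hs
    rw [h2] at h3
    omega
  refine ⟨fun f => if hf : f = 0 then 0 else
    w0 (pp_exists_div (R := R) f hf).choose - w0 (pp_exists_div (R := R) f hf).choose_spec.choose, ?_⟩
  intro u s hu hs
  have hf : (u : F) / (s : F) ≠ 0 := div_ne_zero (pp_coe_ne_zero hu) (pp_coe_ne_zero hs)
  simp only [dif_neg hf]
  obtain ⟨h1, h2, h3⟩ := (pp_exists_div (R := R) ((u : F) / (s : F)) hf).choose_spec.choose_spec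
  exact (hwd _ _ _ _ hu hs h1 h2 h3).symm

/-- (FF5) for an order function given on a subalgebra `R` with `Frac R = F`. -/
theorem pp_exists_place (hFF5 : OrdFunPlace K F) (w0 : R → ℤ)
    (hmul : ∀ u s : R, u ≠ 0 → s ≠ 0 → w0 (u * s) = w0 u + w0 s)
    (hadd : ∀ u s : R, u ≠ 0 → s ≠ 0 → u + s ≠ 0 → min (w0 u) (w0 s) ≤ w0 (u + s))
    (hK : ∀ c : K, c ≠ 0 → w0 (algebraMap K R c) = 0)
    (hnt : ∃ u : R, u ≠ 0 ∧ w0 u ≠ 0) :
    ∃ (v : Place K F) (m : ℕ), 0 < m ∧ ∀ u : R, u ≠ 0 → w0 u = m * v.ord (u : F) := by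
  obtain ⟨w, hw⟩ := pp_exists_extension (F := F) w0 hmul
  have h1 : (1 : R) ≠ 0 := one_ne_zero
  have hw01 : w0 1 = 0 := by
    have := hmul 1 1 h1 h1
    rw [mul_one] at this
    omega
  have hwR : ∀ u : R, u ≠ 0 → w (u : F) = w0 u := by
    intro u hu
    have := hw u 1 hu h1
    rw [hw01, sub_zero] at this
    simpa using this
  have hmul' : ∀ f g : F, f ≠ 0 → g ≠ 0 → w (f * g) = w f + w g := by
    intro f g hf hg
    obtain ⟨u, s, hu, hs, rfl⟩ := pp_exists_div (R := R) f hf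
    obtain ⟨u', s', hu', hs', rfl⟩ := pp_exists_div (R := R) g hg
    have e : (u : F) / (s : F) * ((u' : F) / (s' : F)) = ((u * u' : R) : F) / ((s * s' : R) : F) := by
      push_cast
      rw [div_mul_div_comm]
    rw [e, hw _ _ (mul_ne_zero hu hu') (mul_ne_zero hs hs'), hw _ _ hu hs, hw _ _ hu' hs',
      hmul u u' hu hu', hmul s s' hs hs']
    ring
  have hadd' : ∀ f g : F, f ≠ 0 → g ≠ 0 → f + g ≠ 0 → min (w f) (w g) ≤ w (f + g) := by
    intro f g hf hg hfg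
    obtain ⟨u, s, hu, hs, rfl⟩ := pp_exists_div (R := R) f hf
    obtain ⟨u', s', hu', hs', rfl⟩ := pp_exists_div (R := R) g hg
    have hsF := pp_coe_ne_zero (F := F) hs
    have hsF' := pp_coe_ne_zero (F := F) hs'
    have e : (u : F) / (s : F) + ((u' : F) / (s' : F)) =
        ((u * s' + u' * s : R) : F) / ((s * s' : R) : F) := by
      push_cast
      rw [div_add_div _ _ hsF hsF']
      ring
    have hnum : u * s' + u' * s ≠ 0 := by
      intro h0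
      apply hfg
      rw [e, h0]
      simp
    rw [e, hw _ _ hnum (mul_ne_zero hs hs'), hw _ _ hu hs, hw _ _ hu' hs', hmul s s' hs hs']
    have h2 := hadd (u * s') (u' * s) (mul_ne_zero hu hs') (mul_ne_zero hu' hs) hnum
    rw [hmul u s' hu hs', hmul u' s hu' hs] at h2
    have h3 : min (w0 u - w0 s) (w0 u' - w0 s') =
        min (w0 u + w0 s') (w0 u' + w0 s) - (w0 s + w0 s') := by
      rw [← min_sub_sub_right]
      congr 1 <;> ring
    rw [h3]
    omega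
  have hK' : ∀ c : K, algebraMap K F c ≠ 0 → w (algebraMap K F c) = 0 := by
    intro c hc
    have hc0 : c ≠ 0 := fun h => hc (by rw [h, map_zero])
    have hcR : algebraMap K R c ≠ 0 := fun h => hc (by
      have := congrArg (Subtype.val) h
      simpa using this)
    have := hwR (algebraMap K R c) hcR
    rw [hK c hc0] at this
    exact this
  have hnt' : ∃ f : F, f ≠ 0 ∧ w f ≠ 0 := by
    obtain ⟨u, hu, hwu⟩ := hnt
    exact ⟨(u : F), pp_coe_ne_zero hu, by rwa [hwR u hu]⟩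
  obtain ⟨v, m, hm, hv⟩ := hFF5 w hmul' hadd' hK' hnt'
  exact ⟨v, m, hm, fun u hu => by rw [← hwR u hu, hv _ (pp_coe_ne_zero hu)]⟩

/-- Two places whose order functions are positive multiples of the same function on `R`
coincide. -/
theorem pp_place_unique {v v' : Place K F} {m m' : ℕ} (hm : 0 < m) (hm' : 0 < m')
    (h : ∀ u : R, u ≠ 0 → (m : ℤ) * v.ord (u : F) = m' * v'.ord (u : F)) : v = v' := by
  have key : ∀ f : F, f ≠ 0 → (m : ℤ) * v.ord f = m' * v'.ord f := by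
    intro f hf
    obtain ⟨u, s, hu, hs, rfl⟩ := pp_exists_div (R := R) f hf
    have huF := pp_coe_ne_zero (F := F) hu
    have hsF := pp_coe_ne_zero (F := F) hs
    rw [div_eq_mul_inv, v.ord_mul huF (inv_ne_zero hsF), v'.ord_mul huF (inv_ne_zero hsF),
      v.ord_inv, v'.ord_inv, mul_add, mul_add, mul_neg, mul_neg, h u hu, h s hs]
  apply Place.ext
  ext f
  rcases eq_or_ne f 0 with rfl | hf
  · simp
  rw [FF.ffp_mem_iff_ord_nonneg, FF.ffp_mem_iff_ord_nonneg]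
  have hk := key f hf
  have hmZ : (0 : ℤ) < m := by exact_mod_cast hm
  have hmZ' : (0 : ℤ) < m' := by exact_mod_cast hm'
  constructor
  · intro h0
    by_contra hneg
    rw [not_le] at hneg
    have h1 : 0 ≤ (m : ℤ) * v.ord f := mul_nonneg hmZ.le h0
    have h2 : (m' : ℤ) * v'.ord f < 0 := mul_neg_of_pos_of_neg hmZ' hneg
    omega
  · intro h0
    by_contra hneg
    rw [not_le] at hneg
    have h1 : 0 ≤ (m' : ℤ) * v'.ord f := mul_nonneg hmZ'.le h0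
    have h2 : (m : ℤ) * v.ord f < 0 := mul_neg_of_pos_of_neg hmZ hneg
    omega

end Extension

section Concrete

variable {N : ℕ} [NeZero N] [IsFractionRing (Rsub N) (FF N)] {Θ : Rsub N →+* (ℍ → ℂ)}

theorem ptOrd_zero (g : SL(2, ℤ)) (z₀ : ℍ) : ptOrd Θ g z₀ 0 = ⊤ := by
  unfold ptOrd ordH
  rw [map_zero, compSL_zero_fun]
  rw [analyticOrderAt_eq_top]
  exact Eventually.of_forall fun w => rfl

/-- `v` is the place attached to `(g, z₀)`, with multiplicity `m`. -/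
def IsPointPlace (Θ : Rsub N →+* (ℍ → ℂ)) (g : SL(2, ℤ)) (z₀ : ℍ) (v : Place Kbar (FF N))
    (m : ℕ) : Prop :=
  0 < m ∧ ∀ u : Rsub N, u ≠ 0 → ((ptOrd Θ g z₀ u).toNat : ℤ) = m * v.ord (u : FF N)

theorem jSub_ne_zero (hΘ : IsRealize Θ) (hinj : JInj) (z₀ : ℍ) (c : Kbar)
    (hc : jFun z₀ = iotaK c) : jSub N c ≠ 0 := by
  intro h
  have h1 := ptOrd_jSub hΘ hinj 1 z₀ c hc
  rw [h, ptOrd_zero] at h1
  exact ENat.top_ne_natCast _ h1

theorem toNat_ptOrd_mul (hΘ : IsRealize Θ) (g : SL(2, ℤ)) (z₀ : ℍ) {u s : Rsub N} (hu : u ≠ 0)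
    (hs : s ≠ 0) : (ptOrd Θ g z₀ (u * s)).toNat = (ptOrd Θ g z₀ u).toNat + (ptOrd Θ g z₀ s).toNat := by
  rw [ptOrd_mul hΘ, ENat.toNat_add (ptOrd_ne_top hΘ g z₀ hu) (ptOrd_ne_top hΘ g z₀ hs)]

theorem toNat_ptOrd_add (hΘ : IsRealize Θ) (g : SL(2, ℤ)) (z₀ : ℍ) {u s : Rsub N} (hu : u ≠ 0)
    (hs : s ≠ 0) (hus : u + s ≠ 0) :
    min (ptOrd Θ g z₀ u).toNat (ptOrd Θ g z₀ s).toNat ≤ (ptOrd Θ g z₀ (u + s)).toNat := by
  have h := ptOrd_add hΘ g z₀ u s
  have hu' := ptOrd_ne_top hΘ g z₀ hu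
  have hs' := ptOrd_ne_top hΘ g z₀ hs
  have hus' := ptOrd_ne_top hΘ g z₀ hus
  rw [← ENat.natCast_toNat hu', ← ENat.natCast_toNat hs', ← ENat.natCast_toNat hus'] at h
  rcases min_le_iff.mp h with h | h
  · exact min_le_iff.mpr (Or.inl (by exact_mod_cast h))
  · exact min_le_iff.mpr (Or.inr (by exact_mod_cast h))

/-- Existence of the place attached to `(g, z₀)` when `j(z₀) = ι(c)`, `c ∈ ℚbar`. -/
theorem exists_isPointPlace (hFF5 : OrdFunPlace Kbar (FF N)) (hΘ : IsRealize Θ) (hinj : JInj)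
    (g : SL(2, ℤ)) (z₀ : ℍ) (c : Kbar) (hc : jFun z₀ = iotaK c) :
    ∃ (v : Place Kbar (FF N)) (m : ℕ), IsPointPlace Θ g z₀ v m := by
  have h := pp_exists_place (R := Rsub N) hFF5 (fun u => ((ptOrd Θ g z₀ u).toNat : ℤ))
    (fun u s hu hs => by
      rw [toNat_ptOrd_mul hΘ g z₀ hu hs]
      push_cast
      ring)
    (fun u s hu hs hus => by
      exact_mod_cast toNat_ptOrd_add hΘ g z₀ hu hs hus)
    (fun c hc => by
      rw [ptOrd_algebraMap hΘ g z₀ hc]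
      simp)
    ⟨jSub N c, jSub_ne_zero hΘ hinj z₀ c hc, by
      rw [ptOrd_jSub hΘ hinj g z₀ c hc]
      have := ellOrder_pos z₀
      simp only [ENat.toNat_natCast]
      exact_mod_cast this.ne'⟩
  obtain ⟨v, m, hm, hv⟩ := h
  exact ⟨v, m, hm, hv⟩

namespace IsPointPlace

variable {g : SL(2, ℤ)} {z₀ : ℍ} {v v' : Place Kbar (FF N)} {m m' : ℕ}

theorem place_unique (h : IsPointPlace Θ g z₀ v m) (h' : IsPointPlace Θ g z₀ v' m') : v = v' :=
  pp_place_unique (R := Rsub N) h.1 h'.1 fun u hu => by rw [← h.2 u hu, ← h'.2 u hu]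

theorem ord_jSub (h : IsPointPlace Θ g z₀ v m) (hΘ : IsRealize Θ) (hinj : JInj) (c : Kbar)
    (hc : jFun z₀ = iotaK c) :
    (m : ℤ) * v.ord (jF N - algebraMap Kbar (FF N) c) = ellOrder z₀ := by
  have := h.2 (jSub N c) (jSub_ne_zero hΘ hinj z₀ c hc)
  rw [ptOrd_jSub hΘ hinj g z₀ c hc, coe_jSub] at this
  rw [← this]
  simp

theorem ord_jSub_pos (h : IsPointPlace Θ g z₀ v m) (hΘ : IsRealize Θ) (hinj : JInj) (c : Kbar)
    (hc : jFun z₀ = iotaK c) : 0 < v.ord (jF N - algebraMap Kbar (FF N) c) := by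
  have h1 := h.ord_jSub hΘ hinj c hc
  have h2 : (0 : ℤ) < ellOrder z₀ := by exact_mod_cast ellOrder_pos z₀
  have hm : (0 : ℤ) < m := by exact_mod_cast h.1
  rw [← h1] at h2
  exact (mul_pos_iff_of_pos_left hm).mp h2

theorem ord_jSub_le (h : IsPointPlace Θ g z₀ v m) (hΘ : IsRealize Θ) (hinj : JInj) (c : Kbar)
    (hc : jFun z₀ = iotaK c) : v.ord (jF N - algebraMap Kbar (FF N) c) ≤ ellOrder z₀ := by
  have h1 := h.ord_jSub hΘ hinj c hc
  have h2 := h.ord_jSub_pos hΘ hinj c hc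
  have hm : (1 : ℤ) ≤ m := by exact_mod_cast h.1
  rw [← h1]
  nlinarith

theorem mul_Gamma0 (h : IsPointPlace Θ g z₀ v m) (hΘ : IsRealize Θ) (γ : SL(2, ℤ))
    (hγ : γ ∈ CongruenceSubgroup.Gamma0 N) : IsPointPlace Θ (g * γ) z₀ v m :=
  ⟨h.1, fun u hu => by rw [ptOrd_mul_Gamma0 hΘ g γ hγ]; exact h.2 u hu⟩

theorem smul (h : IsPointPlace Θ g z₀ v m) (hΘ : IsRealize Θ) (σ : SL(2, ℤ)) :
    IsPointPlace Θ (σ * g) (σ • z₀) v m :=
  ⟨h.1, fun u hu => by rw [ptOrd_smul hΘ σ g z₀]; exact h.2 u hu⟩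

theorem mul_of_fixed (h : IsPointPlace Θ g z₀ v m) (hΘ : IsRealize Θ) (σ : SL(2, ℤ))
    (hσ : σ • z₀ = z₀) : IsPointPlace Θ (σ * g) z₀ v m := by
  have := h.smul hΘ σ
  rwa [hσ] at this

/-- If all values of the order function are divisible by `k` then so is the multiplicity. -/
theorem dvd_mult (h : IsPointPlace Θ g z₀ v m) (k : ℕ)
    (hk : ∀ u : Rsub N, u ≠ 0 → k ∣ (ptOrd Θ g z₀ u).toNat) : k ∣ m := by
  obtain ⟨π, hπ⟩ := FF.ffp_exists_irreducible v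
  have hπ1 : v.ord (π : FF N) = 1 := v.ord_coe_irreducible hπ
  have hπ0 : (π : FF N) ≠ 0 := by
    intro h0
    rw [h0] at hπ1
    simp at hπ1
  obtain ⟨u, s, hu, hs, hus⟩ := pp_exists_div (R := Rsub N) (π : FF N) hπ0
  have huF := pp_coe_ne_zero (F := FF N) hu
  have hsF := pp_coe_ne_zero (F := FF N) hs
  have h1 : v.ord (u : FF N) - v.ord (s : FF N) = 1 := by
    rw [← hπ1, hus, div_eq_mul_inv, v.ord_mul huF (inv_ne_zero hsF), v.ord_inv]
    ring
  have h2 := h.2 u hu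
  have h3 := h.2 s hs
  have h4 : (m : ℤ) = (ptOrd Θ g z₀ u).toNat - (ptOrd Θ g z₀ s).toNat := by
    rw [h2, h3, ← mul_sub, h1, mul_one]
  have h5 : (k : ℤ) ∣ (m : ℤ) := by
    rw [h4]
    exact dvd_sub (by exact_mod_cast hk u hu) (by exact_mod_cast hk s hs)
  exact_mod_cast h5

end IsPointPlace

end Concrete

section Fixed

variable {N : ℕ} [NeZero N] [IsFractionRing (Rsub N) (FF N)] {Θ : Rsub N →+* (ℍ → ℂ)}

/-- If the coset `g Γ₀(N)` is fixed by `σ` then `Θ u ∘ g⁻¹` is `σ`-invariant. -/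
theorem compSL_invariant_of_fixed (hΘ : IsRealize Θ) (g σ : SL(2, ℤ))
    (hfix : g⁻¹ * σ * g ∈ CongruenceSubgroup.Gamma0 N) (u : Rsub N) :
    compSL (compSL (Θ u) g⁻¹) σ = compSL (Θ u) g⁻¹ := by
  have h1 : g⁻¹ * σ = (g⁻¹ * σ * g) * g⁻¹ := by group
  rw [← compSL_mul, h1, compSL_mul, hΘ.inv u _ hfix]

variable {g : SL(2, ℤ)} {v : Place Kbar (FF N)} {m : ℕ}

/-- FIXED cosets over `i`: multiplicity `2`, so `j - c` is a uniformizer. -/
theorem IsPointPlace.of_fixed_S {hh : SL(2, ℤ)} (h : IsPointPlace Θ g (hh • ptI) v m)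
    (hΘ : IsRealize Θ) (hinj : JInj)
    (hfix : g⁻¹ * (hh * ModularGroup.S * hh⁻¹) * g ∈ CongruenceSubgroup.Gamma0 N)
    (c : Kbar) (hc : jFun (hh • ptI) = iotaK c) :
    m = 2 ∧ v.ord (jF N - algebraMap Kbar (FF N) c) = 1 := by
  have h2 : 2 ∣ m := by
    refine h.dvd_mult 2 fun u hu => ?_
    have hne := ptOrd_ne_top hΘ g (hh • ptI) hu
    exact two_dvd_of_invariant_S (compSL_mem_HolH (hΘ.hol u) g⁻¹) hh
      (compSL_invariant_of_fixed hΘ g _ hfix u) (ENat.natCast_toNat hne).symm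
  have h3 := h.ord_jSub hΘ hinj c hc
  have h4 := h.ord_jSub_pos hΘ hinj c hc
  rw [ellOrder_smul, ellOrder_ptI] at h3
  obtain ⟨k, rfl⟩ := h2
  have hk : 0 < k := by
    have := h.1
    omega
  push_cast at h3
  have hk' : (1 : ℤ) ≤ k := by exact_mod_cast hk
  have h5 : v.ord (jF N - algebraMap Kbar (FF N) c) = 1 := by nlinarith
  refine ⟨?_, h5⟩
  rw [h5] at h3
  have : (k : ℤ) = 1 := by linarith
  have : k = 1 := by exact_mod_cast this
  omega

/-- FIXED cosets over `ρ`: multiplicity `3`, so `j - c` is a uniformizer. -/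
theorem IsPointPlace.of_fixed_ST {hh : SL(2, ℤ)} (h : IsPointPlace Θ g (hh • ptRho) v m)
    (hΘ : IsRealize Θ) (hinj : JInj)
    (hfix : g⁻¹ * (hh * (ModularGroup.S * ModularGroup.T) * hh⁻¹) * g ∈
      CongruenceSubgroup.Gamma0 N)
    (c : Kbar) (hc : jFun (hh • ptRho) = iotaK c) :
    m = 3 ∧ v.ord (jF N - algebraMap Kbar (FF N) c) = 1 := by
  have h2 : 3 ∣ m := by
    refine h.dvd_mult 3 fun u hu => ?_
    have hne := ptOrd_ne_top hΘ g (hh • ptRho) hu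
    exact three_dvd_of_invariant_ST (compSL_mem_HolH (hΘ.hol u) g⁻¹) hh
      (compSL_invariant_of_fixed hΘ g _ hfix u) (ENat.natCast_toNat hne).symm
  have h3 := h.ord_jSub hΘ hinj c hc
  have h4 := h.ord_jSub_pos hΘ hinj c hc
  rw [ellOrder_smul, ellOrder_ptRho] at h3
  obtain ⟨k, rfl⟩ := h2
  have hk : 0 < k := by
    have := h.1
    omega
  push_cast at h3
  have hk' : (1 : ℤ) ≤ k := by exact_mod_cast hk
  have h5 : v.ord (jF N - algebraMap Kbar (FF N) c) = 1 := by nlinarith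
  refine ⟨?_, h5⟩
  rw [h5] at h3
  have : (k : ℤ) = 1 := by linarith
  have : k = 1 := by exact_mod_cast this
  omega

/-- Generic points: multiplicity `1`. -/
theorem IsPointPlace.of_ellOrder_eq_one {z₀ : ℍ} (h : IsPointPlace Θ g z₀ v m)
    (hΘ : IsRealize Θ) (hinj : JInj) (h1 : ellOrder z₀ = 1)
    (c : Kbar) (hc : jFun z₀ = iotaK c) :
    m = 1 ∧ v.ord (jF N - algebraMap Kbar (FF N) c) = 1 := by
  have h3 := h.ord_jSub hΘ hinj c hc
  have h4 := h.ord_jSub_pos hΘ hinj c hc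
  rw [h1] at h3
  have hm : (1 : ℤ) ≤ m := by exact_mod_cast h.1
  push_cast at h3
  have h5 : v.ord (jF N - algebraMap Kbar (FF N) c) = 1 := by nlinarith
  refine ⟨?_, h5⟩
  rw [h5] at h3
  have : (m : ℤ) = 1 := by linarith
  exact_mod_cast this

end Fixed

section Bundled

variable {N : ℕ} [NeZero N] [IsFractionRing (Rsub N) (FF N)] {Θ : Rsub N →+* (ℍ → ℂ)}

/-- The places of `F` over `j = c`. -/
abbrev PlacesOver (N : ℕ) [NeZero N] (c : Kbar) : Type :=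
  {v : Place Kbar (FF N) // 0 < v.ord (jF N - algebraMap Kbar (FF N) c)}

variable (hFF5 : OrdFunPlace Kbar (FF N)) (hΘ : IsRealize Θ) (hinj : JInj) (z₀ : ℍ) (c : Kbar)
  (hc : jFun z₀ = iotaK c)

/-- The place attached to `g ∈ SL(2, ℤ)` and the point `z₀`. -/
def pointPlace (g : SL(2, ℤ)) : Place Kbar (FF N) :=
  (exists_isPointPlace hFF5 hΘ hinj g z₀ c hc).choose

/-- The multiplicity of the place attached to `g ∈ SL(2, ℤ)` and the point `z₀`. -/
def pointMult (g : SL(2, ℤ)) : ℕ :=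
  (exists_isPointPlace hFF5 hΘ hinj g z₀ c hc).choose_spec.choose

theorem isPointPlace_pointPlace (g : SL(2, ℤ)) :
    IsPointPlace Θ g z₀ (pointPlace hFF5 hΘ hinj z₀ c hc g) (pointMult hFF5 hΘ hinj z₀ c hc g) :=
  (exists_isPointPlace hFF5 hΘ hinj g z₀ c hc).choose_spec.choose_spec

theorem pointPlace_eq_of_isPointPlace {g : SL(2, ℤ)} {v : Place Kbar (FF N)} {m : ℕ}
    (h : IsPointPlace Θ g z₀ v m) : pointPlace hFF5 hΘ hinj z₀ c hc g = v :=
  (isPointPlace_pointPlace hFF5 hΘ hinj z₀ c hc g).place_unique h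

theorem pointPlace_mul_Gamma0 (g γ : SL(2, ℤ)) (hγ : γ ∈ CongruenceSubgroup.Gamma0 N) :
    pointPlace hFF5 hΘ hinj z₀ c hc (g * γ) = pointPlace hFF5 hΘ hinj z₀ c hc g :=
  pointPlace_eq_of_isPointPlace hFF5 hΘ hinj z₀ c hc
    ((isPointPlace_pointPlace hFF5 hΘ hinj z₀ c hc g).mul_Gamma0 hΘ γ hγ)

theorem pointPlace_mul_of_fixed (σ g : SL(2, ℤ)) (hσ : σ • z₀ = z₀) :
    pointPlace hFF5 hΘ hinj z₀ c hc (σ * g) = pointPlace hFF5 hΘ hinj z₀ c hc g :=
  pointPlace_eq_of_isPointPlace hFF5 hΘ hinj z₀ c hc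
    ((isPointPlace_pointPlace hFF5 hΘ hinj z₀ c hc g).mul_of_fixed hΘ σ hσ)

theorem ord_pointPlace_pos (g : SL(2, ℤ)) :
    0 < (pointPlace hFF5 hΘ hinj z₀ c hc g).ord (jF N - algebraMap Kbar (FF N) c) :=
  (isPointPlace_pointPlace hFF5 hΘ hinj z₀ c hc g).ord_jSub_pos hΘ hinj c hc

theorem ord_pointPlace_le (g : SL(2, ℤ)) :
    (pointPlace hFF5 hΘ hinj z₀ c hc g).ord (jF N - algebraMap Kbar (FF N) c) ≤ ellOrder z₀ :=
  (isPointPlace_pointPlace hFF5 hΘ hinj z₀ c hc g).ord_jSub_le hΘ hinj c hc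

/-- The map from cosets `SL(2, ℤ) ⧸ Γ₀(N)` to the places over `c`. -/
def pointPlaceX (x : SL(2, ℤ) ⧸ CongruenceSubgroup.Gamma0 N) : PlacesOver N c :=
  Quotient.liftOn' x
    (fun g => (⟨pointPlace hFF5 hΘ hinj z₀ c hc g, ord_pointPlace_pos hFF5 hΘ hinj z₀ c hc g⟩ :
      PlacesOver N c))
    (fun a b hab => by
      have hab' : a⁻¹ * b ∈ CongruenceSubgroup.Gamma0 N := QuotientGroup.leftRel_apply.mp hab
      apply Subtype.ext
      have := pointPlace_mul_Gamma0 hFF5 hΘ hinj z₀ c hc a (a⁻¹ * b) hab'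
      rw [mul_inv_cancel_left] at this
      exact this.symm)

@[simp] theorem pointPlaceX_mk (g : SL(2, ℤ)) :
    (pointPlaceX hFF5 hΘ hinj z₀ c hc (QuotientGroup.mk g)).1 =
      pointPlace hFF5 hΘ hinj z₀ c hc g := rfl

theorem pointPlaceX_smul_of_fixed (σ : SL(2, ℤ)) (hσ : σ • z₀ = z₀)
    (x : SL(2, ℤ) ⧸ CongruenceSubgroup.Gamma0 N) :
    pointPlaceX hFF5 hΘ hinj z₀ c hc (σ • x) = pointPlaceX hFF5 hΘ hinj z₀ c hc x := by
  induction x using QuotientGroup.induction_on with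
  | H g =>
    apply Subtype.ext
    show (pointPlaceX hFF5 hΘ hinj z₀ c hc (QuotientGroup.mk (σ * g))).1 = _
    rw [pointPlaceX_mk, pointPlaceX_mk]
    exact pointPlace_mul_of_fixed hFF5 hΘ hinj z₀ c hc σ g hσ

theorem ord_pointPlaceX_le (x : SL(2, ℤ) ⧸ CongruenceSubgroup.Gamma0 N) :
    (pointPlaceX hFF5 hΘ hinj z₀ c hc x).1.ord (jF N - algebraMap Kbar (FF N) c) ≤ ellOrder z₀ := by
  induction x using QuotientGroup.induction_on with
  | H g => exact ord_pointPlace_le hFF5 hΘ hinj z₀ c hc g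

end Bundled

section BundledFixed

variable {N : ℕ} [NeZero N] [IsFractionRing (Rsub N) (FF N)] {Θ : Rsub N →+* (ℍ → ℂ)}

theorem smul_mk_eq_iff (σ g : SL(2, ℤ)) :
    σ • (QuotientGroup.mk g : SL(2, ℤ) ⧸ CongruenceSubgroup.Gamma0 N) = QuotientGroup.mk g ↔
      g⁻¹ * σ * g ∈ CongruenceSubgroup.Gamma0 N := by
  rw [MulAction.Quotient.smul_mk, QuotientGroup.eq]
  constructor
  · intro h
    have := inv_mem h
    simpa [mul_assoc] using this
  · intro h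
    have := inv_mem h
    simpa [mul_assoc] using this

variable (hFF5 : OrdFunPlace Kbar (FF N)) (hΘ : IsRealize Θ) (hinj : JInj) (c : Kbar)

theorem ord_pointPlaceX_of_fixed_S (hh : SL(2, ℤ)) (hc : jFun (hh • ptI) = iotaK c)
    (x : SL(2, ℤ) ⧸ CongruenceSubgroup.Gamma0 N)
    (hx : (hh * ModularGroup.S * hh⁻¹) • x = x) :
    (pointPlaceX hFF5 hΘ hinj (hh • ptI) c hc x).1.ord (jF N - algebraMap Kbar (FF N) c) = 1 := by
  induction x using QuotientGroup.induction_on with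
  | H g =>
    rw [smul_mk_eq_iff] at hx
    rw [pointPlaceX_mk]
    exact ((isPointPlace_pointPlace hFF5 hΘ hinj (hh • ptI) c hc g).of_fixed_S hΘ hinj hx c hc).2

theorem ord_pointPlaceX_of_fixed_ST (hh : SL(2, ℤ)) (hc : jFun (hh • ptRho) = iotaK c)
    (x : SL(2, ℤ) ⧸ CongruenceSubgroup.Gamma0 N)
    (hx : (hh * (ModularGroup.S * ModularGroup.T) * hh⁻¹) • x = x) :
    (pointPlaceX hFF5 hΘ hinj (hh • ptRho) c hc x).1.ord (jF N - algebraMap Kbar (FF N) c) = 1 := by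
  induction x using QuotientGroup.induction_on with
  | H g =>
    rw [smul_mk_eq_iff] at hx
    rw [pointPlaceX_mk]
    exact ((isPointPlace_pointPlace hFF5 hΘ hinj (hh • ptRho) c hc g).of_fixed_ST hΘ hinj hx c hc).2

theorem ord_pointPlaceX_of_ellOrder_eq_one (z₀ : ℍ) (hc : jFun z₀ = iotaK c) (h1 : ellOrder z₀ = 1)
    (x : SL(2, ℤ) ⧸ CongruenceSubgroup.Gamma0 N) :
    (pointPlaceX hFF5 hΘ hinj z₀ c hc x).1.ord (jF N - algebraMap Kbar (FF N) c) = 1 := by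
  induction x using QuotientGroup.induction_on with
  | H g =>
    rw [pointPlaceX_mk]
    exact ((isPointPlace_pointPlace hFF5 hΘ hinj z₀ c hc g).of_ellOrder_eq_one hΘ hinj h1 c hc).2

end BundledFixed

end

end Fermat.Agent.X0.PointPlaces
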