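/-
Program C, piece (e-1) of dispatch #5 (helper14): Taylor expansion of holomorphic functions on the
upper half plane at a point `z₀`, as an injective ring homomorphism `HolH →+* PowerSeries ℂ`
whose `PowerSeries.order` is the order of vanishing `ordH · z₀`.

Used to embed the function field `FF N` into the valued field `LaurentSeries ℂ` at finite points
(for the surjectivity of `pointPlaceX`).
-/
import Fermat.Agent.X0.AnDefs
import Fermat.Agent.X0.HolOrder

set_option autoImplicit false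

open UpperHalfPlane Complex Filter Topology
open scoped Nat Manifold

namespace Fermat.Agent.X0.TaylorH

open Fermat.Agent.X0

noncomputable section

/-! ### Taylor power series of a function `ℂ → ℂ` at a point -/

/-- The Taylor power series of `f : ℂ → ℂ` at the point `a`. -/
def tpsAt (a : ℂ) (f : ℂ → ℂ) : PowerSeries ℂ :=
  PowerSeries.mk fun m => ((m ! : ℕ) : ℂ)⁻¹ * iteratedDeriv m f a

theorem coeff_tpsAt (a : ℂ) (f : ℂ → ℂ) (m : ℕ) :
    PowerSeries.coeff m (tpsAt a f) = ((m ! : ℕ) : ℂ)⁻¹ * iteratedDeriv m f a := by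
  simp [tpsAt]

theorem coeff_tpsAt_eq_zero_iff (a : ℂ) (f : ℂ → ℂ) (m : ℕ) :
    PowerSeries.coeff m (tpsAt a f) = 0 ↔ iteratedDeriv m f a = 0 := by
  rw [coeff_tpsAt, mul_eq_zero]
  have : ((m ! : ℕ) : ℂ)⁻¹ ≠ 0 := inv_ne_zero (by exact_mod_cast Nat.factorial_ne_zero m)
  simp [this]

theorem tpsAt_congr {a : ℂ} {f g : ℂ → ℂ} (h : f =ᶠ[𝓝 a] g) : tpsAt a f = tpsAt a g := by
  ext m
  rw [coeff_tpsAt, coeff_tpsAt, h.iteratedDeriv_eq m]

theorem tpsAt_mul {a : ℂ} {f g : ℂ → ℂ} (hf : AnalyticAt ℂ f a) (hg : AnalyticAt ℂ g a) :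
    tpsAt a (f * g) = tpsAt a f * tpsAt a g := by
  ext m
  simp only [coeff_tpsAt, iteratedDeriv_mul hf.contDiffAt hg.contDiffAt, Finset.mul_sum,
    PowerSeries.coeff_mul, Finset.Nat.sum_antidiagonal_eq_sum_range_succ_mk, Nat.succ_eq_add_one]
  refine Finset.sum_congr rfl fun i hi => ?_
  have hi' : i ≤ m := by
    have := Finset.mem_range.mp hi
    omega
  rw [Nat.cast_choose ℂ hi']
  have h1 : ((m ! : ℕ) : ℂ) ≠ 0 := by exact_mod_cast Nat.factorial_ne_zero m
  have h2 : ((i ! : ℕ) : ℂ) ≠ 0 := by exact_mod_cast Nat.factorial_ne_zero i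
  have h3 : (((m - i) ! : ℕ) : ℂ) ≠ 0 := by exact_mod_cast Nat.factorial_ne_zero (m - i)
  field_simp

theorem tpsAt_add {a : ℂ} {f g : ℂ → ℂ} (hf : AnalyticAt ℂ f a) (hg : AnalyticAt ℂ g a) :
    tpsAt a (f + g) = tpsAt a f + tpsAt a g := by
  ext m
  simp [coeff_tpsAt, iteratedDeriv_add hf.contDiffAt hg.contDiffAt, mul_add]

theorem tpsAt_const (a c : ℂ) : tpsAt a (fun _ => c) = PowerSeries.C c := by
  ext m
  rw [coeff_tpsAt, iteratedDeriv_const, PowerSeries.coeff_C]
  split_ifs with h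
  · subst h; simp
  · simp

/-- The order of the Taylor series is the analytic order. -/
theorem order_tpsAt {a : ℂ} {f : ℂ → ℂ} (hf : AnalyticAt ℂ f a) :
    (tpsAt a f).order = analyticOrderAt f a := by
  apply ENat.eq_of_forall_natCast_le_iff
  intro n
  rw [natCast_le_analyticOrderAt_iff_iteratedDeriv_eq_zero hf]
  constructor
  · intro h i hi
    rw [← coeff_tpsAt_eq_zero_iff]
    exact PowerSeries.coeff_of_lt_order i (lt_of_lt_of_le (by exact_mod_cast hi) h)
  · intro h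
    exact PowerSeries.nat_le_order _ n fun i hi => (coeff_tpsAt_eq_zero_iff a f i).mpr (h i hi)

/-! ### The Taylor expansion homomorphism on `HolH` -/

/-- Taylor expansion at `z₀ : ℍ` of holomorphic functions on the upper half plane:
`coeff n (taylorAt z₀ f) = iteratedDeriv n (f ∘ ofComplex) z₀ / n!`. -/
def taylorAt (z₀ : ℍ) : HolH →+* PowerSeries ℂ where
  toFun f := tpsAt (z₀ : ℂ) ((f : ℍ → ℂ) ∘ ofComplex)
  map_one' := by
    have : (((1 : HolH) : ℍ → ℂ) ∘ ofComplex) = fun _ => (1 : ℂ) := rfl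
    rw [this, tpsAt_const]; rfl
  map_mul' f g := by
    have : (((f * g : HolH) : ℍ → ℂ) ∘ ofComplex) =
        ((f : ℍ → ℂ) ∘ ofComplex) * ((g : ℍ → ℂ) ∘ ofComplex) := rfl
    rw [this, tpsAt_mul (analyticAt_comp_ofComplex f.2 z₀) (analyticAt_comp_ofComplex g.2 z₀)]
  map_zero' := by
    have : (((0 : HolH) : ℍ → ℂ) ∘ ofComplex) = fun _ => (0 : ℂ) := rfl
    rw [this, tpsAt_const]; simp
  map_add' f g := by
    have : (((f + g : HolH) : ℍ → ℂ) ∘ ofComplex) =
        ((f : ℍ → ℂ) ∘ ofComplex) + ((g : ℍ → ℂ) ∘ ofComplex) := rfl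
    rw [this, tpsAt_add (analyticAt_comp_ofComplex f.2 z₀) (analyticAt_comp_ofComplex g.2 z₀)]

theorem taylorAt_apply (z₀ : ℍ) (f : HolH) :
    taylorAt z₀ f = tpsAt (z₀ : ℂ) ((f : ℍ → ℂ) ∘ ofComplex) := rfl

theorem coeff_taylorAt (z₀ : ℍ) (f : HolH) (n : ℕ) :
    PowerSeries.coeff n (taylorAt z₀ f) =
      ((n ! : ℕ) : ℂ)⁻¹ * iteratedDeriv n ((f : ℍ → ℂ) ∘ ofComplex) (z₀ : ℂ) :=
  coeff_tpsAt _ _ n

theorem coeff_taylorAt' (z₀ : ℍ) (f : HolH) (n : ℕ) :
    PowerSeries.coeff n (taylorAt z₀ f) =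
      iteratedDeriv n ((f : ℍ → ℂ) ∘ ofComplex) (z₀ : ℂ) / (n ! : ℕ) := by
  rw [coeff_taylorAt, div_eq_inv_mul]

/-- **Order**: the order of the Taylor series at `z₀` is the order of vanishing at `z₀`. -/
theorem order_taylorAt (z₀ : ℍ) (f : HolH) : (taylorAt z₀ f).order = ordH (f : ℍ → ℂ) z₀ :=
  order_tpsAt (analyticAt_comp_ofComplex f.2 z₀)

theorem taylorAt_eq_zero_iff (z₀ : ℍ) (f : HolH) : taylorAt z₀ f = 0 ↔ f = 0 := by
  constructor
  · intro h
    have h1 : ordH (f : ℍ → ℂ) z₀ = ⊤ := by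
      rw [← order_taylorAt, h, PowerSeries.order_zero]
    exact Subtype.ext (eq_zero_of_ordH_eq_top f.2 z₀ h1)
  · rintro rfl; exact map_zero _

/-- **Injectivity** (identity theorem). -/
theorem taylorAt_injective (z₀ : ℍ) : Function.Injective (taylorAt z₀) :=
  (injective_iff_map_eq_zero _).mpr fun f hf => (taylorAt_eq_zero_iff z₀ f).mp hf

/-- **Constants**. -/
theorem taylorAt_algebraMap (z₀ : ℍ) (c : ℂ) :
    taylorAt z₀ (algebraMap ℂ HolH c) = PowerSeries.C c := by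
  have : (((algebraMap ℂ HolH c : HolH) : ℍ → ℂ) ∘ ofComplex) = fun _ => c := rfl
  rw [taylorAt_apply, this, tpsAt_const]

/-- Constants, for a constant function given with a proof of holomorphy. -/
theorem taylorAt_const (z₀ : ℍ) (c : ℂ) (h : (fun _ : ℍ => c) ∈ HolH) :
    taylorAt z₀ ⟨fun _ => c, h⟩ = PowerSeries.C c := by
  have : (((⟨fun _ => c, h⟩ : HolH) : ℍ → ℂ) ∘ ofComplex) = fun _ => c := rfl
  rw [taylorAt_apply, this, tpsAt_const]

theorem constantCoeff_taylorAt (z₀ : ℍ) (f : HolH) :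
    PowerSeries.constantCoeff (taylorAt z₀ f) = (f : ℍ → ℂ) z₀ := by
  rw [← PowerSeries.coeff_zero_eq_constantCoeff_apply, coeff_taylorAt]
  simp [ofComplex_apply]

/-- `taylorAt` is a `ℂ`-algebra homomorphism. -/
def taylorAtAlgHom (z₀ : ℍ) : HolH →ₐ[ℂ] PowerSeries ℂ :=
  { taylorAt z₀ with
    commutes' := fun c => by
      show taylorAt z₀ (algebraMap ℂ HolH c) = _
      rw [taylorAt_algebraMap]; rfl }

@[simp] theorem taylorAtAlgHom_apply (z₀ : ℍ) (f : HolH) : taylorAtAlgHom z₀ f = taylorAt z₀ f :=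
  rfl

/-! ### The Laurent-series valued version -/

/-- Taylor expansion with values in the valued field `LaurentSeries ℂ`. -/
def taylorLaurent (z₀ : ℍ) : HolH →+* LaurentSeries ℂ :=
  (HahnSeries.ofPowerSeries ℤ ℂ).comp (taylorAt z₀)

theorem taylorLaurent_apply (z₀ : ℍ) (f : HolH) :
    taylorLaurent z₀ f = HahnSeries.ofPowerSeries ℤ ℂ (taylorAt z₀ f) := rfl

theorem taylorLaurent_injective (z₀ : ℍ) : Function.Injective (taylorLaurent z₀) :=
  HahnSeries.ofPowerSeries_injective.comp (taylorAt_injective z₀)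

theorem taylorLaurent_algebraMap (z₀ : ℍ) (c : ℂ) :
    taylorLaurent z₀ (algebraMap ℂ HolH c) = HahnSeries.C c := by
  rw [taylorLaurent_apply, taylorAt_algebraMap, HahnSeries.ofPowerSeries_C]

/-- The order of the Laurent series attached to a nonzero power series. -/
theorem order_ofPowerSeries {P : PowerSeries ℂ} (hP : P ≠ 0) :
    (HahnSeries.ofPowerSeries ℤ ℂ P).order = (P.order.toNat : ℤ) := by
  have hne : HahnSeries.ofPowerSeries ℤ ℂ P ≠ 0 := fun h =>
    hP (HahnSeries.ofPowerSeries_injective (h.trans (map_zero _).symm))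
  apply le_antisymm
  · apply HahnSeries.order_le_of_coeff_ne_zero
    rw [HahnSeries.ofPowerSeries_apply_coeff]
    exact PowerSeries.coeff_order hP
  · rw [HahnSeries.le_order_iff_forall hne]
    intro j hj
    by_cases hj0 : j < 0
    · exact ModularCurve.ofPowerSeries_coeff_of_neg _ hj0
    · obtain ⟨k, rfl⟩ := Int.eq_ofNat_of_zero_le (not_lt.mp hj0)
      rw [HahnSeries.ofPowerSeries_apply_coeff]
      exact PowerSeries.coeff_of_lt_order_toNat k (by exact_mod_cast hj)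

/-- The order of the Laurent expansion of `f ≠ 0` is its order of vanishing. -/
theorem order_taylorLaurent (z₀ : ℍ) {f : HolH} (hf : f ≠ 0) :
    (taylorLaurent z₀ f).order = ((ordH (f : ℍ → ℂ) z₀).toNat : ℤ) := by
  have h0 : taylorAt z₀ f ≠ 0 := fun h => hf ((taylorAt_eq_zero_iff z₀ f).mp h)
  rw [taylorLaurent_apply, order_ofPowerSeries h0, order_taylorAt]

end

end Fermat.Agent.X0.TaylorH
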