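/-
C-P1c, ABS-SURJ (helper5): abstract surjectivity lemma, valuation-ring form.

Setting: `F / k` finite separable, a family `σ i : F →+* E` (`i : ι`) of embeddings into a field
`E`, pairwise distinct, agreeing on `k`, with `card ι = [F : k]` (so after extending scalars to an
algebraic closure they are ALL the `k`-embeddings of `F`).  Let `V` be a valuation subring of `E` and
`O` a valuation subring of `F` such that `O ∩ k = (σ i)⁻¹ V ∩ k`.  Then `O = (σ i)⁻¹ V` for some `i`
(`exists_eq_comap`).  No norms, no integral closures: only valuation subrings.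
-/
import Mathlib

set_option autoImplicit false

open Polynomial Module

namespace Fermat.Agent.X0.AbsSurj

section Basic

variable {K : Type*} [Field K]

theorem mem_nonunits_iff_inv_notMem {A : ValuationSubring K} {a : K} (ha : a ≠ 0) :
    a ∈ A.nonunits ↔ a⁻¹ ∉ A := by
  rw [ValuationSubring.mem_nonunits_iff, ← ValuationSubring.valuation_le_one_iff, map_inv₀,
    not_le]
  have h0 : A.valuation a ≠ 0 := (Valuation.ne_zero_iff _).mpr ha
  constructor
  · intro h
    exact (one_lt_inv₀ (zero_lt_iff.mpr h0)).mpr h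
  · intro h
    exact (one_lt_inv₀ (zero_lt_iff.mpr h0)).mp h

theorem nonunits_le (A : ValuationSubring K) {a : K} (ha : a ∈ A.nonunits) : a ∈ A := by
  rw [ValuationSubring.mem_nonunits_iff] at ha
  exact (A.valuation_le_one_iff _).mp ha.le

theorem inv_mem_of_mem_of_notMem_nonunits (A : ValuationSubring K) {a : K} (_ha : a ∈ A)
    (ha' : a ∉ A.nonunits) : a⁻¹ ∈ A := by
  by_cases h0 : a = 0
  · rw [h0, inv_zero]; exact A.zero_mem
  · by_contra h
    exact ha' ((mem_nonunits_iff_inv_notMem h0).mpr h)

theorem mul_mem_nonunits_left (A : ValuationSubring K) {a b : K} (ha : a ∈ A.nonunits)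
    (hb : b ∈ A) : a * b ∈ A.nonunits := by
  rw [ValuationSubring.mem_nonunits_iff] at ha ⊢
  rw [map_mul]
  have hb' : A.valuation b ≤ 1 := (A.valuation_le_one_iff _).mpr hb
  calc A.valuation a * A.valuation b ≤ A.valuation a * 1 := by gcongr
    _ < 1 := by rwa [mul_one]

theorem sub_mem_nonunits (A : ValuationSubring K) {a b : K} (ha : a ∈ A.nonunits)
    (hb : b ∈ A.nonunits) : a - b ∈ A.nonunits := by
  rw [ValuationSubring.mem_nonunits_iff] at ha hb ⊢
  exact lt_of_le_of_lt (Valuation.map_sub _ _ _) (max_lt ha hb)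

theorem one_notMem_nonunits (A : ValuationSubring K) : (1 : K) ∉ A.nonunits := by
  rw [ValuationSubring.mem_nonunits_iff, map_one]
  exact lt_irrefl _

theorem zero_mem_nonunits (A : ValuationSubring K) : (0 : K) ∈ A.nonunits := by
  rw [ValuationSubring.mem_nonunits_iff, map_zero]
  exact zero_lt_one

end Basic

section Horner

variable {k F : Type*} [Field k] [Field F] [Algebra k F]

/-- polynomial expressions in an element of a valuation subring, with coefficients there. -/
theorem aeval_mem (W : ValuationSubring F) {y : F} (hy : y ∈ W) (g : k[X])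
    (hg : ∀ n, algebraMap k F (g.coeff n) ∈ W) : aeval y g ∈ W := by
  rw [aeval_eq_sum_range]
  refine Subring.sum_mem W.toSubring fun i _ => ?_
  rw [Algebra.smul_def]
  exact W.mul_mem _ _ (hg i) (pow_mem hy i)

theorem coeff_iterate_divX (f : k[X]) (m n : ℕ) : (divX^[m] f).coeff n = f.coeff (n + m) := by
  induction m generalizing n with
  | zero => simp
  | succ m ih =>
    rw [Function.iterate_succ_apply', coeff_divX, ih]
    congr 1
    ring

theorem horner_rec (f : k[X]) (y : F) (m : ℕ) :
    aeval y (divX^[m] f) = aeval y (divX^[m+1] f) * y + algebraMap k F (f.coeff m) := by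
  rw [Function.iterate_succ_apply']
  conv_lhs => rw [← divX_mul_X_add (divX^[m] f)]
  rw [map_add, map_mul, aeval_X, aeval_C, coeff_iterate_divX, zero_add]

/-- Horner partial sums of a polynomial killing `y`, with coefficients in a valuation subring `W`,
lie in `W`. -/
theorem horner_mem (W : ValuationSubring F) (y : F) (f : k[X])
    (hf : ∀ n, algebraMap k F (f.coeff n) ∈ W) (hfy : aeval y f = 0) (m : ℕ) :
    aeval y (divX^[m] f) ∈ W := by
  by_cases hy : y ∈ W
  · exact aeval_mem W hy _ (fun n => by rw [coeff_iterate_divX]; exact hf _)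
  · have hy0 : y ≠ 0 := by
      rintro rfl
      exact hy W.zero_mem
    have hyinv : y⁻¹ ∈ W := (W.mem_or_inv_mem y).resolve_left hy
    induction m with
    | zero =>
      rw [Function.iterate_zero, id, hfy]
      exact W.zero_mem
    | succ m ih =>
      have h1 := horner_rec f y m
      have h2 : aeval y (divX^[m+1] f) = (aeval y (divX^[m] f) - algebraMap k F (f.coeff m)) * y⁻¹ := by
        rw [h1, add_sub_cancel_right, mul_assoc, mul_inv_cancel₀ hy0, mul_one]
      rw [h2]
      exact W.mul_mem _ _ (sub_mem ih (hf m)) hyinv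

/-- A root of a monic polynomial with coefficients in a valuation subring lies in it. -/
theorem mem_of_monic_root (W : ValuationSubring F) (y : F) (f : k[X]) (hm : f.Monic)
    (hf : ∀ n, algebraMap k F (f.coeff n) ∈ W) (hfy : aeval y f = 0) : y ∈ W := by
  by_contra hy
  -- `divX^[natDegree f] f = 1`, and the Horner sum lies in `W`; use the recursion downward.
  have hy0 : y ≠ 0 := by
    rintro rfl
    exact hy W.zero_mem
  have hyinv : y⁻¹ ∈ W := (W.mem_or_inv_mem y).resolve_left hy
  -- all Horner sums lie in `W`, in particular the one of index `natDegree f - 1`, which is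
  -- `y + a_{n-1}`.
  rcases Nat.eq_zero_or_pos f.natDegree with h0 | hpos
  · -- f = 1
    have : f = 1 := by
      rw [eq_C_of_natDegree_eq_zero h0]
      have := hm.coeff_natDegree
      rw [h0] at this
      rw [this, C_1]
    rw [this] at hfy
    simp at hfy
  · obtain ⟨n, hn⟩ := Nat.exists_eq_succ_of_ne_zero hpos.ne'
    have hH := horner_mem W y f hf hfy n
    have hrec := horner_rec f y n
    have htop : aeval y (divX^[n+1] f) = 1 := by
      have : divX^[n+1] f = 1 := by
        ext i
        rw [coeff_iterate_divX, coeff_one]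
        rcases Nat.eq_zero_or_pos i with hi | hi
        · subst hi
          have h1 := hm.coeff_natDegree
          rw [hn] at h1
          simpa using h1
        · rw [if_neg (by omega)]
          exact coeff_eq_zero_of_natDegree_lt (by omega)
      rw [this, map_one]
    rw [htop, one_mul] at hrec
    apply hy
    have : y = aeval y (divX^[n] f) - algebraMap k F (f.coeff n) := by rw [hrec]; ring
    rw [this]
    exact sub_mem hH (hf n)


/-- Every element of a valuation subring `W` of `F` (algebraic over `k`) is a quotient `b₁ / b₂`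
with `b₂` a unit of `W`, and `b₁, b₂` lying in every valuation subring of `F` whose trace on `k`
contains that of `W`. -/
theorem exists_num_den [Algebra.IsAlgebraic k F] (W : ValuationSubring F) {y : F} (hy : y ∈ W) :
    ∃ b₁ b₂ : F, y * b₂ = b₁ ∧ b₂ ∈ W ∧ b₂ ∉ W.nonunits ∧
      ∀ W' : ValuationSubring F,
        (∀ z : k, algebraMap k F z ∈ W → algebraMap k F z ∈ W') → b₁ ∈ W' ∧ b₂ ∈ W' := by
  classical
  have hint : IsIntegral k y := (Algebra.IsAlgebraic.isAlgebraic y).isIntegral
  set p := minpoly k y with hp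
  have hp0 : p ≠ 0 := minpoly.ne_zero hint
  set v : k → _ := fun a => W.valuation (algebraMap k F a) with hv
  have hSne : p.support.Nonempty := by
    rw [Finset.nonempty_iff_ne_empty, Ne, Polynomial.support_eq_empty]; exact hp0
  obtain ⟨i₀, hi₀S, hi₀max⟩ := Finset.exists_max_image p.support (fun i => v (p.coeff i)) hSne
  set T := p.support.filter (fun i => v (p.coeff i) = v (p.coeff i₀)) with hT
  have hTne : T.Nonempty := ⟨i₀, by simp [hT, hi₀S]⟩
  set r := T.max' hTne with hr
  have hrT : r ∈ T := Finset.max'_mem T hTne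
  have hrS : r ∈ p.support := (Finset.mem_filter.mp hrT).1
  have hrv : v (p.coeff r) = v (p.coeff i₀) := (Finset.mem_filter.mp hrT).2
  have har0 : p.coeff r ≠ 0 := Polynomial.mem_support_iff.mp hrS
  have harF : algebraMap k F (p.coeff r) ≠ 0 := by
    simpa using har0
  have hvr0 : v (p.coeff r) ≠ 0 := by
    simp only [hv]; exact (Valuation.ne_zero_iff _).mpr harF
  set f := C (p.coeff r)⁻¹ * p with hf
  have hfc : ∀ n, f.coeff n = (p.coeff r)⁻¹ * p.coeff n := fun n => by rw [hf, coeff_C_mul]
  have hvf : ∀ n, W.valuation (algebraMap k F (f.coeff n)) = (v (p.coeff r))⁻¹ * v (p.coeff n) := by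
    intro n
    rw [hfc, map_mul, map_mul, map_inv₀, map_inv₀]
  have hle : ∀ n, v (p.coeff n) ≤ v (p.coeff r) := by
    intro n
    by_cases hn : n ∈ p.support
    · rw [hrv]; exact hi₀max n hn
    · rw [notMem_support_iff.mp hn]
      simp only [hv, map_zero]
      exact zero_le
  have hfW : ∀ n, algebraMap k F (f.coeff n) ∈ W := by
    intro n
    rw [← W.valuation_le_one_iff, hvf]
    calc (v (p.coeff r))⁻¹ * v (p.coeff n) ≤ (v (p.coeff r))⁻¹ * v (p.coeff r) := by
            gcongr; exact hle n
      _ = 1 := inv_mul_cancel₀ hvr0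
  have hflt : ∀ n, r < n → W.valuation (algebraMap k F (f.coeff n)) < 1 := by
    intro n hn
    rw [hvf]
    have hlt : v (p.coeff n) < v (p.coeff r) := by
      refine lt_of_le_of_ne (hle n) fun heq => ?_
      have hnS : n ∈ p.support := by
        rw [Polynomial.mem_support_iff]
        intro h0
        rw [h0] at heq
        simp only [hv, map_zero] at heq
        exact hvr0 heq.symm
      have hnT : n ∈ T := Finset.mem_filter.mpr ⟨hnS, heq.trans hrv⟩
      exact absurd (Finset.le_max' T n hnT) (not_le.mpr hn)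
    calc (v (p.coeff r))⁻¹ * v (p.coeff n) < (v (p.coeff r))⁻¹ * v (p.coeff r) := by
            exact mul_lt_mul_of_pos_left hlt (by rw [inv_pos]; exact zero_lt_iff.mpr hvr0)
      _ = 1 := inv_mul_cancel₀ hvr0
  have hfr : f.coeff r = 1 := by rw [hfc, inv_mul_cancel₀ har0]
  have hfy : aeval y f = 0 := by
    rw [hf, map_mul, hp, minpoly.aeval, mul_zero]
  have hyv : W.valuation y ≤ 1 := (W.valuation_le_one_iff _).mpr hy
  -- the tail has valuation `< 1`
  have htail : W.valuation (aeval y (divX^[r+1] f)) < 1 := by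
    rw [aeval_eq_sum_range]
    refine Valuation.map_sum_lt _ one_ne_zero fun i _ => ?_
    rw [Algebra.smul_def, map_mul, coeff_iterate_divX, map_pow]
    calc W.valuation (algebraMap k F (f.coeff (i + (r + 1)))) * W.valuation y ^ i
        ≤ W.valuation (algebraMap k F (f.coeff (i + (r + 1)))) * 1 := by
          gcongr; exact pow_le_one₀ zero_le hyv
      _ < 1 := by rw [mul_one]; exact hflt _ (by omega)
  have hrec := horner_rec f y r
  rw [hfr, map_one] at hrec
  refine ⟨y * aeval y (divX^[r] f), aeval y (divX^[r] f), rfl,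
    horner_mem W y f hfW hfy r, ?_, ?_⟩
  · intro hb
    have hb' : W.valuation (aeval y (divX^[r] f)) < 1 := hb
    have h1 : W.valuation (1 : F) < 1 := by
      have : (1 : F) = aeval y (divX^[r] f) - aeval y (divX^[r+1] f) * y := by rw [hrec]; ring
      rw [this]
      refine lt_of_le_of_lt (Valuation.map_sub _ _ _) (max_lt hb' ?_)
      rw [map_mul]
      calc W.valuation (aeval y (divX^[r+1] f)) * W.valuation y
          ≤ W.valuation (aeval y (divX^[r+1] f)) * 1 := by gcongr
        _ < 1 := by rw [mul_one]; exact htail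
    rw [map_one] at h1
    exact lt_irrefl _ h1
  · intro W' hW'
    have hfW' : ∀ n, algebraMap k F (f.coeff n) ∈ W' := fun n => hW' _ (hfW n)
    refine ⟨?_, horner_mem W' y f hfW' hfy r⟩
    rcases Nat.eq_zero_or_pos r with h0 | hpos
    · rw [h0, Function.iterate_zero, id, hfy, mul_zero]
      exact W'.zero_mem
    · obtain ⟨r', hr'⟩ := Nat.exists_eq_succ_of_ne_zero hpos.ne'
      have h1 := horner_rec f y r'
      have h2 : y * aeval y (divX^[r] f) = aeval y (divX^[r'] f) - algebraMap k F (f.coeff r') := by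
        rw [h1, hr']; ring
      rw [h2]
      exact sub_mem (horner_mem W' y f hfW' hfy r') (hfW' r')

end Horner

section LemmaI

variable {k F E : Type*} [Field k] [Field F] [Field E] [Algebra k F]
  [FiniteDimensional k F] [Algebra.IsSeparable k F]

variable {ι : Type*} [Fintype ι] (σ : ι → F →+* E)

/-- **Lemma I**: if all `σ j b` lie in the valuation subring `V`, then so do the images of the
coefficients of the minimal polynomial of `b` over `k`. -/
theorem coeff_minpoly_mem
    (hcard : Fintype.card ι = finrank k F) (hinj : Function.Injective σ)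
    (hagree : ∀ i j (y : k), σ i (algebraMap k F y) = σ j (algebraMap k F y))
    (V : ValuationSubring E) (i₀ : ι) (b : F) (hb : ∀ j, σ j b ∈ V) (n : ℕ) :
    σ i₀ (algebraMap k F ((minpoly k b).coeff n)) ∈ V := by
  classical
  let Ω := AlgebraicClosure E
  let _ : Algebra k Ω := ((algebraMap E Ω).comp ((σ i₀).comp (algebraMap k F))).toAlgebra
  have halg : ∀ r : k, algebraMap k Ω r = algebraMap E Ω (σ i₀ (algebraMap k F r)) := fun _ => rfl
  let τ : ι → (F →ₐ[k] Ω) := fun i =>
    { toRingHom := (algebraMap E Ω).comp (σ i)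
      commutes' := fun r => by
        show algebraMap E Ω (σ i (algebraMap k F r)) = algebraMap E Ω (σ i₀ (algebraMap k F r))
        rw [hagree i i₀] }
  have hτinj : Function.Injective τ := by
    intro i j hij
    apply hinj
    ext y
    have := congrArg (fun f : F →ₐ[k] Ω => f y) hij
    exact (algebraMap E Ω).injective this
  have hbij : Function.Bijective τ := by
    rw [Fintype.bijective_iff_injective_and_card]
    exact ⟨hτinj, by rw [hcard, AlgHom.card]⟩
  -- the minimal polynomial, mapped to `Ω`, lifts to `V[X]`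
  set p := minpoly k b with hp
  have hint : IsIntegral k b := Algebra.IsIntegral.isIntegral b
  have hmonic : (p.map (algebraMap k Ω)).Monic := (minpoly.monic hint).map _
  have hsplits : (p.map (algebraMap k Ω)).Splits := IsAlgClosed.splits _
  let iV : V →+* Ω := (algebraMap E Ω).comp V.subtype
  have hroots : ∀ a ∈ (p.map (algebraMap k Ω)).roots, a ∈ iV.range := by
    intro a ha
    have ha' : a ∈ p.rootSet Ω := by
      rw [mem_rootSet]
      refine ⟨minpoly.ne_zero hint, ?_⟩
      have := (mem_roots (hmonic.ne_zero)).mp ha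
      rwa [IsRoot, eval_map_algebraMap] at this
    rw [← Algebra.IsAlgebraic.range_eval_eq_rootSet_minpoly Ω b] at ha'
    obtain ⟨ψ, rfl⟩ := ha'
    obtain ⟨j, rfl⟩ := hbij.2 ψ
    exact ⟨⟨σ j b, hb j⟩, rfl⟩
  have hlift := hsplits.mem_lift_of_roots_mem_range hmonic iV hroots
  rw [lifts_iff_coeff_lifts] at hlift
  obtain ⟨c, hc⟩ := hlift n
  rw [coeff_map, halg] at hc
  have : (c : E) = σ i₀ (algebraMap k F (p.coeff n)) := (algebraMap E Ω).injective hc
  rw [← this]
  exact c.2

end LemmaI

section Intrinsic

variable {k F : Type*} [Field k] [Field F] [Algebra k F]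

variable {ι : Type*} (W : ι → ValuationSubring F)

/-- Compatibility on `k` passes to nonunits. -/
theorem compat_nonunits (O O' : ValuationSubring F)
    (hcompat : ∀ y : k, algebraMap k F y ∈ O ↔ algebraMap k F y ∈ O') (y : k) :
    algebraMap k F y ∈ O.nonunits ↔ algebraMap k F y ∈ O'.nonunits := by
  by_cases hy : y = 0
  · subst hy
    simp only [map_zero]
    exact ⟨fun _ => zero_mem_nonunits O', fun _ => zero_mem_nonunits O⟩
  · have h1 : algebraMap k F y ≠ 0 := by simpa using hy
    rw [mem_nonunits_iff_inv_notMem h1, mem_nonunits_iff_inv_notMem h1, ← map_inv₀, hcompat]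

variable [Algebra.IsAlgebraic k F]

/-- Step 4: an element of the semilocal ring `⋂ W j ∩ O` which is a nonunit of `O` is a nonunit
of some `W j`. -/
theorem exists_mem_nonunits [Nonempty ι] (O : ValuationSubring F)
    (hI : ∀ b : F, (∀ j, b ∈ W j) → ∀ n, algebraMap k F ((minpoly k b).coeff n) ∈ O)
    (b : F) (hbO : b ∈ O.nonunits) (hb : ∀ j, b ∈ W j) : ∃ j, b ∈ (W j).nonunits := by
  obtain ⟨i₀⟩ := ‹Nonempty ι›
  by_contra hcon
  push Not at hcon
  have hb0 : b ≠ 0 := by
    rintro rfl
    exact hcon i₀ (zero_mem_nonunits _)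
  have hinv : ∀ j, b⁻¹ ∈ W j := fun j =>
    inv_mem_of_mem_of_notMem_nonunits (W j) (hb j) (hcon j)
  have hint : IsIntegral k b⁻¹ := (Algebra.IsAlgebraic.isAlgebraic _).isIntegral
  have hmem : b⁻¹ ∈ O :=
    mem_of_monic_root O b⁻¹ (minpoly k b⁻¹) (minpoly.monic hint) (hI b⁻¹ hinv)
      (minpoly.aeval k b⁻¹)
  exact (mem_nonunits_iff_inv_notMem hb0).mp hbO hmem

/-- Step 6 (incomparability): if every element of the semilocal ring which is a nonunit of `O` is
a nonunit of `W j`, then conversely every element of the semilocal ring which is a nonunit of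
`W j` is a nonunit of `O`. -/
theorem mem_nonunits_of_le (O : ValuationSubring F)
    (hcompat : ∀ i (y : k), algebraMap k F y ∈ O ↔ algebraMap k F y ∈ W i)
    (hI : ∀ b : F, (∀ j, b ∈ W j) → ∀ n, algebraMap k F ((minpoly k b).coeff n) ∈ O) (j : ι)
    (hle : ∀ b : F, b ∈ O.nonunits → (∀ i, b ∈ W i) → b ∈ (W j).nonunits)
    (b : F) (hbO : b ∈ O) (hb : ∀ i, b ∈ W i) (hbj : b ∈ (W j).nonunits) :
    b ∈ O.nonunits := by
  by_contra hcon
  have hbinv : b⁻¹ ∈ O := inv_mem_of_mem_of_notMem_nonunits O hbO hcon
  have hb0 : b ≠ 0 := by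
    rintro rfl
    exact hcon (zero_mem_nonunits O)
  set f := minpoly k b with hf
  have hint : IsIntegral k b := (Algebra.IsAlgebraic.isAlgebraic _).isIntegral
  have hcoeffO : ∀ n, algebraMap k F (f.coeff n) ∈ O := hI b hb
  have hcoeffW : ∀ i n, algebraMap k F (f.coeff n) ∈ W i := fun i n =>
    (hcompat i _).mp (hcoeffO n)
  have hfb : aeval b f = 0 := minpoly.aeval k b
  -- Horner sums lie in the semilocal ring
  have hcO : ∀ m, aeval b (divX^[m] f) ∈ O := fun m => horner_mem O b f hcoeffO hfb m
  have hcW : ∀ m i, aeval b (divX^[m] f) ∈ W i := fun m i =>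
    horner_mem (W i) b f (hcoeffW i) hfb m
  -- all Horner sums are nonunits of `O`
  have hall : ∀ m, aeval b (divX^[m] f) ∈ O.nonunits := by
    intro m
    induction m with
    | zero =>
      rw [Function.iterate_zero, id, hfb]
      exact zero_mem_nonunits O
    | succ m ih =>
      have hrec := horner_rec f b m
      -- `c_m ∈ (W j).nonunits`
      have h1 : aeval b (divX^[m] f) ∈ (W j).nonunits := hle _ ih (hcW m)
      -- `c_{m+1} * b ∈ (W j).nonunits`
      have h2 : aeval b (divX^[m+1] f) * b ∈ (W j).nonunits := by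
        rw [mul_comm]
        exact mul_mem_nonunits_left (W j) hbj (hcW (m+1) j)
      -- hence `a_m ∈ (W j).nonunits`
      have h3 : algebraMap k F (f.coeff m) ∈ (W j).nonunits := by
        have : algebraMap k F (f.coeff m) = aeval b (divX^[m] f) - aeval b (divX^[m+1] f) * b := by
          rw [hrec]; ring
        rw [this]
        exact sub_mem_nonunits (W j) h1 h2
      -- hence `a_m ∈ O.nonunits`
      have h4 : algebraMap k F (f.coeff m) ∈ O.nonunits :=
        (compat_nonunits O (W j) (hcompat j) _).mpr h3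
      -- hence `c_{m+1} * b ∈ O.nonunits`
      have h5 : aeval b (divX^[m+1] f) * b ∈ O.nonunits := by
        have : aeval b (divX^[m+1] f) * b = aeval b (divX^[m] f) - algebraMap k F (f.coeff m) := by
          rw [hrec]; ring
        rw [this]
        exact sub_mem_nonunits O ih h4
      have h6 : aeval b (divX^[m+1] f) = aeval b (divX^[m+1] f) * b * b⁻¹ := by
        rw [mul_assoc, mul_inv_cancel₀ hb0, mul_one]
      rw [h6]
      exact mul_mem_nonunits_left O h5 hbinv
  -- but the top Horner sum is `1`
  have htop : divX^[f.natDegree] f = 1 := by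
    ext i
    rw [coeff_iterate_divX, coeff_one]
    rcases Nat.eq_zero_or_pos i with hi | hi
    · subst hi
      rw [zero_add, if_pos rfl]
      exact (minpoly.monic hint).coeff_natDegree
    · rw [if_neg (by omega)]
      exact coeff_eq_zero_of_natDegree_lt (by omega)
  have := hall f.natDegree
  rw [htop, map_one] at this
  exact one_notMem_nonunits O this

/-- The ideal of a subring `B ≤ A` cut out by the nonunits of the valuation subring `A`. -/
def nonunitsIdeal (B : Subring F) (A : ValuationSubring F) (h : ∀ b ∈ B, b ∈ A) : Ideal B where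
  carrier := {b | (b : F) ∈ A.nonunits}
  add_mem' := by
    intro a b ha hb
    change (a : F) ∈ A.nonunits at ha
    change (b : F) ∈ A.nonunits at hb
    change ((a + b : B) : F) ∈ A.nonunits
    rw [ValuationSubring.mem_nonunits_iff] at ha hb ⊢
    push_cast
    exact lt_of_le_of_lt (Valuation.map_add _ _ _) (max_lt ha hb)
  zero_mem' := zero_mem_nonunits A
  smul_mem' := by
    intro c b hb
    change (b : F) ∈ A.nonunits at hb
    change ((c • b : B) : F) ∈ A.nonunits
    rw [smul_eq_mul]
    push_cast
    rw [mul_comm]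
    exact mul_mem_nonunits_left A hb (h _ c.2)

theorem mem_nonunitsIdeal {B : Subring F} {A : ValuationSubring F} {h : ∀ b ∈ B, b ∈ A} {b : B} :
    b ∈ nonunitsIdeal B A h ↔ (b : F) ∈ A.nonunits := Iff.rfl

theorem nonunitsIdeal_isPrime (B : Subring F) (A : ValuationSubring F) (h : ∀ b ∈ B, b ∈ A) :
    (nonunitsIdeal B A h).IsPrime := by
  rw [Ideal.isPrime_iff]
  constructor
  · rw [Ne, Ideal.eq_top_iff_one, mem_nonunitsIdeal]
    exact one_notMem_nonunits A
  · intro x y hxy
    rw [mem_nonunitsIdeal] at hxy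
    rw [mem_nonunitsIdeal, mem_nonunitsIdeal]
    by_contra hcon
    push Not at hcon
    have hx : A.valuation (x : F) = 1 := by
      refine le_antisymm ((A.valuation_le_one_iff _).mpr (h _ x.2)) ?_
      have := hcon.1
      rwa [ValuationSubring.mem_nonunits_iff, not_lt] at this
    have hy : A.valuation (y : F) = 1 := by
      refine le_antisymm ((A.valuation_le_one_iff _).mpr (h _ y.2)) ?_
      have := hcon.2
      rwa [ValuationSubring.mem_nonunits_iff, not_lt] at this
    rw [ValuationSubring.mem_nonunits_iff] at hxy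
    push_cast at hxy
    rw [map_mul, hx, hy, mul_one] at hxy
    exact lt_irrefl _ hxy

/-- **Abstract surjectivity, intrinsic form.**  Let `F / k` be algebraic, `W j` finitely many
valuation subrings of `F` and `O` a valuation subring with the same trace on `k`.  If every element
of `⋂ W j` is integral over `O ∩ k` (hypothesis `hI`), then `O` is one of the `W j`. -/
theorem exists_eq_of_integral [Finite ι] [Nonempty ι] (O : ValuationSubring F)
    (hcompat : ∀ i (y : k), algebraMap k F y ∈ O ↔ algebraMap k F y ∈ W i)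
    (hI : ∀ b : F, (∀ j, b ∈ W j) → ∀ n, algebraMap k F ((minpoly k b).coeff n) ∈ O) :
    ∃ j, O = W j := by
  classical
  have := Fintype.ofFinite ι
  -- the semilocal ring
  let B : Subring F := O.toSubring ⊓ ⨅ j, (W j).toSubring
  have hB : ∀ b, b ∈ B ↔ b ∈ O ∧ ∀ j, b ∈ W j := by
    intro b
    simp only [B, Subring.mem_inf, Subring.mem_iInf, ValuationSubring.mem_toSubring]
  have hBO : ∀ b ∈ B, b ∈ O := fun b hb => ((hB b).mp hb).1
  have hBW : ∀ j, ∀ b ∈ B, b ∈ W j := fun j b hb => ((hB b).mp hb).2 j
  let I : Ideal B := nonunitsIdeal B O hBO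
  let P : ι → Ideal B := fun j => nonunitsIdeal B (W j) (hBW j)
  obtain ⟨i₀⟩ := ‹Nonempty ι›
  have hsub : (I : Set B) ⊆ ⋃ j ∈ ((Finset.univ : Finset ι) : Set ι), (P j : Set B) := by
    intro b hb
    obtain ⟨j, hj⟩ := exists_mem_nonunits W O hI (b : F) hb (fun j => hBW j _ b.2)
    simp only [Finset.coe_univ, Set.mem_univ, Set.iUnion_true, Set.mem_iUnion, SetLike.mem_coe]
    exact ⟨j, hj⟩
  obtain ⟨j, -, hj⟩ := (Ideal.subset_union_prime (s := Finset.univ) (f := P) i₀ i₀
    (fun i _ _ _ => nonunitsIdeal_isPrime B (W i) (hBW i))).mp hsub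
  have hle : ∀ b : F, b ∈ O.nonunits → (∀ i, b ∈ W i) → b ∈ (W j).nonunits := by
    intro b hb hbW
    have hbB : b ∈ B := (hB b).mpr ⟨nonunits_le O hb, hbW⟩
    exact hj (show (⟨b, hbB⟩ : B) ∈ I from hb)
  have hge : ∀ b : F, b ∈ O → (∀ i, b ∈ W i) → b ∈ (W j).nonunits → b ∈ O.nonunits :=
    mem_nonunits_of_le W O hcompat hI j hle
  refine ⟨j, le_antisymm ?_ ?_⟩
  · intro y hy
    obtain ⟨b₁, b₂, hyb, hb₂O, hb₂n, hW'⟩ := exists_num_den (k := k) O hy
    have h1 : ∀ i, b₁ ∈ W i ∧ b₂ ∈ W i := fun i => hW' (W i) (fun z hz => (hcompat i z).mp hz)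
    have hb₂j : b₂ ∉ (W j).nonunits := fun h => hb₂n (hge b₂ hb₂O (fun i => (h1 i).2) h)
    have hb₂0 : b₂ ≠ 0 := by
      rintro rfl
      exact hb₂n (zero_mem_nonunits O)
    have : y = b₁ * b₂⁻¹ := by
      rw [← hyb, mul_assoc, mul_inv_cancel₀ hb₂0, mul_one]
    rw [this]
    exact (W j).mul_mem _ _ (h1 j).1 (inv_mem_of_mem_of_notMem_nonunits (W j) (h1 j).2 hb₂j)
  · intro y hy
    obtain ⟨b₁, b₂, hyb, hb₂W, hb₂n, hW'⟩ := exists_num_den (k := k) (W j) hy
    have h1 : ∀ i, b₁ ∈ W i ∧ b₂ ∈ W i := fun i =>
      hW' (W i) (fun z hz => (hcompat i z).mp ((hcompat j z).mpr hz))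
    have h2 : b₁ ∈ O ∧ b₂ ∈ O := hW' O (fun z hz => (hcompat j z).mpr hz)
    have hb₂O : b₂ ∉ O.nonunits := fun h => hb₂n (hle b₂ h (fun i => (h1 i).2))
    have hb₂0 : b₂ ≠ 0 := by
      rintro rfl
      exact hb₂n (zero_mem_nonunits _)
    have : y = b₁ * b₂⁻¹ := by
      rw [← hyb, mul_assoc, mul_inv_cancel₀ hb₂0, mul_one]
    rw [this]
    exact O.mul_mem _ _ h2.1 (inv_mem_of_mem_of_notMem_nonunits O h2.2 hb₂O)

end Intrinsic

section Embeddings

variable {k F E : Type*} [Field k] [Field F] [Field E] [Algebra k F]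
  [FiniteDimensional k F] [Algebra.IsSeparable k F]

variable {ι : Type*} [Fintype ι] (σ : ι → F →+* E)

/-- **Abstract surjectivity, embedding form.**  `F / k` finite separable, `σ i : F →+* E` a family
of `[F : k]` pairwise distinct embeddings agreeing on `k`, `V` a valuation subring of `E`, `O` a
valuation subring of `F` with `O ∩ k = (σ i)⁻¹ V ∩ k`.  Then `O = (σ i)⁻¹ V` for some `i`. -/
theorem exists_eq_comap
    (hcard : Fintype.card ι = finrank k F) (hinj : Function.Injective σ)
    (hagree : ∀ i j (y : k), σ i (algebraMap k F y) = σ j (algebraMap k F y))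
    (V : ValuationSubring E) (O : ValuationSubring F)
    (hcompat : ∀ i (y : k), algebraMap k F y ∈ O ↔ σ i (algebraMap k F y) ∈ V) :
    ∃ i, O = V.comap (σ i) := by
  have hne : Nonempty ι := by
    rw [← Fintype.card_pos_iff, hcard]
    exact Module.finrank_pos
  obtain ⟨i₀⟩ := id hne
  refine exists_eq_of_integral (k := k) (fun i => V.comap (σ i)) O ?_ ?_
  · intro i y
    rw [ValuationSubring.mem_comap]
    exact hcompat i y
  · intro b hb n
    rw [hcompat i₀]
    exact coeff_minpoly_mem σ hcard hinj hagree V i₀ b (fun j => hb j) n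

end Embeddings

end Fermat.Agent.X0.AbsSurj
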