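/-
C-P1c (helper5): uniqueness of the valuation subring of `K(x)` centred at `x = c` (resp. at `∞`),
and the consumer-level forms of the abstract surjectivity lemma `AbsSurj.exists_eq_comap`.

* `mem_iff_of_sub_mem_nonunits` : two valuation subrings of `F ⊇ K` in which `x - c` is a nonunit
  have the same trace on `K⟮x⟯`;
* `mem_iff_of_notMem` : the same at infinity (`x ∉ O`, `x ∉ O'`);
* `exists_eq_comap_of_sub_mem_nonunits`, `exists_eq_comap_of_notMem` : every valuation subring `O ⊇ K`
  of `F` centred at `x = c` (resp. `∞`) is the pull-back of `V` along one of the `[F : K(x)]`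
  embeddings `σ i : F →+* E`.
-/
import Fermat.Agent.X0.AbsSurj

set_option autoImplicit false

open Polynomial Module IntermediateField

namespace Fermat.Agent.X0.ValUniq

open Fermat.Agent.X0.AbsSurj

variable {K F : Type*} [Field K] [Field F] [Algebra K F]

theorem aeval_mem_of_mem (A : ValuationSubring F) (hK : ∀ a : K, algebraMap K F a ∈ A) {x : F}
    (hx : x ∈ A) (p : K[X]) : aeval x p ∈ A :=
  AbsSurj.aeval_mem A hx p (fun _ => hK _)

/-- If `x - c` is a nonunit of `A ⊇ K` and `p(c) ≠ 0` then `p(x)` is a unit of `A`. -/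
theorem valuation_aeval_eq_one (A : ValuationSubring F) (hK : ∀ a : K, algebraMap K F a ∈ A)
    (x : F) (c : K) (hx : x - algebraMap K F c ∈ A.nonunits) (p : K[X]) (hp : p.eval c ≠ 0) :
    A.valuation (aeval x p) = 1 := by
  have hxA : x ∈ A := by
    have : x = (x - algebraMap K F c) + algebraMap K F c := by ring
    rw [this]
    exact A.add_mem _ _ (nonunits_le A hx) (hK c)
  have hroot : (p - C (p.eval c)).IsRoot c := by
    simp [IsRoot]
  obtain ⟨r, hr⟩ := dvd_iff_isRoot.mpr hroot
  have hp' : p = (X - C c) * r + C (p.eval c) := by rw [← hr]; ring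
  have hval : aeval x p = (x - algebraMap K F c) * aeval x r + algebraMap K F (p.eval c) := by
    conv_lhs => rw [hp']
    simp only [map_add, map_mul, map_sub, aeval_X, aeval_C]
  have h1 : A.valuation ((x - algebraMap K F c) * aeval x r) < 1 := by
    rw [← ValuationSubring.mem_nonunits_iff]
    exact mul_mem_nonunits_left A hx (aeval_mem_of_mem A hK hxA r)
  have h2 : A.valuation (algebraMap K F (p.eval c)) = 1 := by
    have hne : algebraMap K F (p.eval c) ≠ 0 := by simpa using hp
    refine le_antisymm ((A.valuation_le_one_iff _).mpr (hK _)) ?_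
    have hinv : A.valuation (algebraMap K F (p.eval c))⁻¹ ≤ 1 := by
      rw [← map_inv₀]
      exact (A.valuation_le_one_iff _).mpr (hK _)
    rw [map_inv₀] at hinv
    have h0 : A.valuation (algebraMap K F (p.eval c)) ≠ 0 := (Valuation.ne_zero_iff _).mpr hne
    exact (inv_le_one₀ (zero_lt_iff.mpr h0)).mp hinv
  rw [hval, add_comm]
  rw [Valuation.map_add_eq_of_lt_left _ (by rw [h2]; exact h1), h2]

/-- The valuation of `p(x)` is the `rootMultiplicity`-th power of the valuation of `x - c`. -/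
theorem valuation_aeval (A : ValuationSubring F) (hK : ∀ a : K, algebraMap K F a ∈ A)
    (x : F) (c : K) (hx : x - algebraMap K F c ∈ A.nonunits) (p : K[X]) (hp : p ≠ 0) :
    A.valuation (aeval x p) = A.valuation (x - algebraMap K F c) ^ p.rootMultiplicity c := by
  obtain ⟨p₁, hp₁, hndvd⟩ := exists_eq_pow_rootMultiplicity_mul_and_not_dvd p hp c
  have hp₁c : p₁.eval c ≠ 0 := fun h => hndvd (dvd_iff_isRoot.mpr h)
  conv_lhs => rw [hp₁]
  rw [map_mul, map_pow, map_sub, aeval_X, aeval_C, map_mul, map_pow,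
    valuation_aeval_eq_one A hK x c hx p₁ hp₁c, mul_one]

/-- Membership of `p(x)/q(x)` in a valuation subring `A ⊇ K` centred at `x = c`. -/
theorem div_mem_iff (A : ValuationSubring F) (hK : ∀ a : K, algebraMap K F a ∈ A)
    (x : F) (c : K) (hx : x - algebraMap K F c ∈ A.nonunits) (hx0 : x - algebraMap K F c ≠ 0)
    (p q : K[X]) (hp : p ≠ 0) (hq : q ≠ 0) :
    aeval x p / aeval x q ∈ A ↔ q.rootMultiplicity c ≤ p.rootMultiplicity c := by
  rw [← A.valuation_le_one_iff, map_div₀, valuation_aeval A hK x c hx p hp,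
    valuation_aeval A hK x c hx q hq]
  set t := A.valuation (x - algebraMap K F c) with ht
  have ht0 : 0 < t := zero_lt_iff.mpr ((Valuation.ne_zero_iff _).mpr hx0)
  have ht1 : t < 1 := (ValuationSubring.mem_nonunits_iff _).mp hx
  rw [div_le_one₀ (pow_pos ht0 _)]
  exact pow_le_pow_iff_right_of_lt_one₀ ht0 ht1

/-- **Uniqueness at `x = c`.** -/
theorem mem_iff_of_sub_mem_nonunits (O O' : ValuationSubring F)
    (hK : ∀ a : K, algebraMap K F a ∈ O) (hK' : ∀ a : K, algebraMap K F a ∈ O')
    (x : F) (c : K) (hx : x - algebraMap K F c ∈ O.nonunits)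
    (hx' : x - algebraMap K F c ∈ O'.nonunits) {y : F} (hy : y ∈ K⟮x⟯) :
    y ∈ O ↔ y ∈ O' := by
  obtain ⟨p, q, rfl⟩ := (mem_adjoin_simple_iff K y).mp hy
  by_cases hx0 : x - algebraMap K F c = 0
  · have hxc : x = algebraMap K F c := sub_eq_zero.mp hx0
    have h1 : ∀ r : K[X], aeval x r = algebraMap K F (r.eval c) := by
      intro r
      rw [hxc, aeval_algebraMap_apply, coe_aeval_eq_eval]
    rw [h1, h1, ← map_div₀]
    exact ⟨fun _ => hK' _, fun _ => hK _⟩
  by_cases hp : aeval x p = 0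
  · rw [hp, zero_div]
    exact ⟨fun _ => O'.zero_mem, fun _ => O.zero_mem⟩
  by_cases hq : aeval x q = 0
  · rw [hq, div_zero]
    exact ⟨fun _ => O'.zero_mem, fun _ => O.zero_mem⟩
  have hp0 : p ≠ 0 := by rintro rfl; simp at hp
  have hq0 : q ≠ 0 := by rintro rfl; simp at hq
  rw [div_mem_iff O hK x c hx hx0 p q hp0 hq0, div_mem_iff O' hK' x c hx' hx0 p q hp0 hq0]

/-- **Uniqueness at infinity.** -/
theorem mem_iff_of_notMem (O O' : ValuationSubring F)
    (hK : ∀ a : K, algebraMap K F a ∈ O) (hK' : ∀ a : K, algebraMap K F a ∈ O')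
    (x : F) (hx : x ∉ O) (hx' : x ∉ O') {y : F} (hy : y ∈ K⟮x⟯) :
    y ∈ O ↔ y ∈ O' := by
  have hx0 : x ≠ 0 := by
    rintro rfl
    exact hx O.zero_mem
  have hy' : y ∈ K⟮x⁻¹⟯ := by
    have hle : K⟮x⟯ ≤ K⟮x⁻¹⟯ := by
      rw [adjoin_simple_le_iff]
      have h1 : (x⁻¹)⁻¹ ∈ K⟮x⁻¹⟯ := inv_mem (mem_adjoin_simple_self K x⁻¹)
      rwa [inv_inv] at h1
    exact hle hy
  refine mem_iff_of_sub_mem_nonunits O O' hK hK' x⁻¹ 0 ?_ ?_ hy'
  · rw [map_zero, sub_zero, mem_nonunits_iff_inv_notMem (inv_ne_zero hx0), inv_inv]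
    exact hx
  · rw [map_zero, sub_zero, mem_nonunits_iff_inv_notMem (inv_ne_zero hx0), inv_inv]
    exact hx'

section Consumer

variable {E : Type*} [Field E]

theorem mem_comap_nonunits_iff (V : ValuationSubring E) (σ : F →+* E) (y : F) :
    y ∈ (V.comap σ).nonunits ↔ σ y ∈ V.nonunits := by
  by_cases hy : y = 0
  · subst hy
    rw [map_zero]
    exact ⟨fun _ => zero_mem_nonunits V, fun _ => zero_mem_nonunits _⟩
  · have hy' : σ y ≠ 0 := by simpa using hy
    rw [mem_nonunits_iff_inv_notMem hy, mem_nonunits_iff_inv_notMem hy', ValuationSubring.mem_comap,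
      map_inv₀]

/-- Two ring homs out of `F` agreeing on `K` and at `x` agree on `K⟮x⟯`. -/
theorem eq_on_adjoin_simple (σ τ : F →+* E)
    (hK : ∀ a : K, σ (algebraMap K F a) = τ (algebraMap K F a)) (x : F) (hx : σ x = τ x)
    {y : F} (hy : y ∈ K⟮x⟯) : σ y = τ y := by
  obtain ⟨p, q, rfl⟩ := (mem_adjoin_simple_iff K y).mp hy
  have hcomp : σ.comp (algebraMap K F) = τ.comp (algebraMap K F) := RingHom.ext hK
  have h : ∀ r : K[X], σ (aeval x r) = τ (aeval x r) := by
    intro r
    rw [aeval_def, hom_eval₂, hom_eval₂, hcomp, hx]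
  rw [map_div₀, map_div₀, h, h]

variable (x : F) [FiniteDimensional K⟮x⟯ F] [Algebra.IsSeparable K⟮x⟯ F]
  {ι : Type*} [Finite ι] (σ : ι → F →+* E)

/-- **Surjectivity at `x = c`** (consumer form).  `F / K(x)` finite separable, `σ i : F →+* E`
(`i : ι`) pairwise distinct, `Nat.card ι = [F : K(x)]`, agreeing on `K` and at `x`; `V` a valuation
subring of `E` containing (the image of) `K`, in which `x - c` is a nonunit.  Then every valuation
subring `O ⊇ K` of `F` in which `x - c` is a nonunit is `(σ i)⁻¹ V` for some `i`. -/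
theorem exists_eq_comap_of_sub_mem_nonunits
    (hcard : Nat.card ι = finrank K⟮x⟯ F) (hinj : Function.Injective σ)
    (hagreeK : ∀ i j (a : K), σ i (algebraMap K F a) = σ j (algebraMap K F a))
    (hagreex : ∀ i j, σ i x = σ j x)
    (V : ValuationSubring E) (hKV : ∀ i (a : K), σ i (algebraMap K F a) ∈ V)
    (O : ValuationSubring F) (hKO : ∀ a : K, algebraMap K F a ∈ O)
    (c : K) (hV : ∀ i, σ i (x - algebraMap K F c) ∈ V.nonunits)
    (hO : x - algebraMap K F c ∈ O.nonunits) :
    ∃ i, O = V.comap (σ i) := by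
  have := Fintype.ofFinite ι
  rw [Nat.card_eq_fintype_card] at hcard
  refine AbsSurj.exists_eq_comap (k := K⟮x⟯) σ hcard hinj ?_ V O ?_
  · intro i j y
    exact eq_on_adjoin_simple (σ i) (σ j) (hagreeK i j) x (hagreex i j) y.2
  · intro i y
    rw [← ValuationSubring.mem_comap]
    exact mem_iff_of_sub_mem_nonunits O (V.comap (σ i)) hKO (fun a => hKV i a) x c hO
      ((mem_comap_nonunits_iff V (σ i) _).mpr (hV i)) y.2

/-- **Surjectivity at infinity** (consumer form): the same with `x ∉ V` (after any `σ i`) and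
`x ∉ O`. -/
theorem exists_eq_comap_of_notMem
    (hcard : Nat.card ι = finrank K⟮x⟯ F) (hinj : Function.Injective σ)
    (hagreeK : ∀ i j (a : K), σ i (algebraMap K F a) = σ j (algebraMap K F a))
    (hagreex : ∀ i j, σ i x = σ j x)
    (V : ValuationSubring E) (hKV : ∀ i (a : K), σ i (algebraMap K F a) ∈ V)
    (O : ValuationSubring F) (hKO : ∀ a : K, algebraMap K F a ∈ O)
    (hV : ∀ i, σ i x ∉ V) (hO : x ∉ O) :
    ∃ i, O = V.comap (σ i) := by
  have := Fintype.ofFinite ι
  rw [Nat.card_eq_fintype_card] at hcard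
  refine AbsSurj.exists_eq_comap (k := K⟮x⟯) σ hcard hinj ?_ V O ?_
  · intro i j y
    exact eq_on_adjoin_simple (σ i) (σ j) (hagreeK i j) x (hagreex i j) y.2
  · intro i y
    rw [← ValuationSubring.mem_comap]
    exact mem_iff_of_notMem O (V.comap (σ i)) hKO (fun a => hKV i a) x hO (hV i) y.2

end Consumer

end Fermat.Agent.X0.ValUniq
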