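/-
C-P1c, finite points (helper12): every place of `F = FF N` over `j = c` is one of the point places
`pointPlaceD D z₀ c hc g`.  Input: the abstract surjectivity lemma
`ValUniq.exists_eq_comap_of_sub_mem_nonunits` (helper5) applied to the `ψ(N)` Taylor embeddings
`F →+* ℂ((t))`, `u ↦ Taylor series at z₀ of Θ u ∘ (rep x)⁻¹` (helper14 `TaylorH`), pairwise distinct
by `Degree.mem_Gamma0_of_compSL_eq`.
-/
import Fermat.Agent.X0.TaylorH
import Fermat.Agent.X0.ValUniq
import Fermat.Agent.X0.Degree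
import Fermat.Agent.X0.PointPlacesD
import Fermat.Agent.X0.PointPlacesPos
import Fermat.Agent.X0.LaurentPlace
import Fermat.Agent.X0.FracR

set_option autoImplicit false

open AlgebraicCurve IntermediateField UpperHalfPlane
open scoped MatrixGroups
open CongruenceSubgroup

noncomputable section

namespace Fermat.Agent.X0.PointSurjT

open Fermat.Agent.X0 Fermat.Agent.X0.PointPlaces Fermat.Agent.X0.PointPlacesD

/-! ### The valuation subring of `ℂ((t))` -/

theorem algebraMap_laurentC (c : ℂ) :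
    (RingHom.id (LaurentSeries ℂ)) (algebraMap ℂ (LaurentSeries ℂ) c) = HahnSeries.C c := by
  rw [RingHom.id_apply, ModularCurve.algebraMap_laurentSeries_eq_single]
  rfl

/-- The order function of `ℂ((t))`. -/
theorem isOrderFun_orderC : FF.IsOrderFun ℂ (fun f : LaurentSeries ℂ => f.order) :=
  LaurentPlace.isOrderFun_embOrd (RingHom.id (LaurentSeries ℂ)) algebraMap_laurentC

/-- The valuation subring `{f | f = 0 ∨ 0 ≤ order f}` of `ℂ((t))`. -/
def laurentVC : ValuationSubring (LaurentSeries ℂ) := isOrderFun_orderC.valuationSubring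

theorem mem_laurentVC_of_ne_zero {f : LaurentSeries ℂ} (hf : f ≠ 0) :
    f ∈ laurentVC ↔ 0 ≤ f.order :=
  isOrderFun_orderC.mem_valuationSubring_of_ne_zero hf

theorem C_mem_laurentVC (c : ℂ) : HahnSeries.C c ∈ laurentVC := by
  by_cases hc : c = 0
  · left; simp [hc]
  · right
    show 0 ≤ (HahnSeries.C c : LaurentSeries ℂ).order
    rw [HahnSeries.order_C]

theorem mem_nonunits_laurentVC {f : LaurentSeries ℂ} (hf : f ≠ 0) (h : 0 < f.order) :
    f ∈ laurentVC.nonunits := by
  rw [AbsSurj.mem_nonunits_iff_inv_notMem hf, mem_laurentVC_of_ne_zero (inv_ne_zero hf)]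
  have := isOrderFun_orderC.map_inv hf
  rw [this]
  omega

/-! ### The Taylor embeddings -/

variable {N : ℕ} [NeZero N] (D : RealizeData N) (z₀ : ℍ)

/-- `u ↦ Θ u ∘ g⁻¹` as a ring hom `R → HolH`. -/
def toHolH (g : SL(2, ℤ)) : Rsub N →+* HolH where
  toFun u := ⟨compSL (D.Θ u) g⁻¹, compSL_mem_HolH (D.mem_HolH u) g⁻¹⟩
  map_one' := Subtype.ext (by simp only [map_one]; rfl)
  map_mul' u v := Subtype.ext (by simp only [map_mul, compSL_mul_fun]; rfl)
  map_zero' := Subtype.ext (by simp only [map_zero]; rfl)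
  map_add' u v := Subtype.ext (by simp only [map_add, compSL_add_fun]; rfl)

omit [NeZero N] in
@[simp] theorem coe_toHolH (g : SL(2, ℤ)) (u : Rsub N) :
    ((toHolH D g u : HolH) : ℍ → ℂ) = compSL (D.Θ u) g⁻¹ := rfl

omit [NeZero N] in
theorem toHolH_injective (g : SL(2, ℤ)) : Function.Injective (toHolH D g) := by
  rw [injective_iff_map_eq_zero]
  intro u hu
  have h0 : compSL (D.Θ u) g⁻¹ = 0 := congrArg Subtype.val hu
  have h1 : D.Θ u = 0 := by
    rw [← compSL_inv_cancel (D.Θ u) g, h0]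
    rfl
  exact (injective_iff_map_eq_zero D.Θ).mp D.injective u h1

/-- Taylor expansion at `z₀` of `Θ u ∘ g⁻¹`. -/
def rhoR (g : SL(2, ℤ)) : Rsub N →+* LaurentSeries ℂ :=
  (TaylorH.taylorLaurent z₀).comp (toHolH D g)

omit [NeZero N] in
theorem rhoR_injective (g : SL(2, ℤ)) : Function.Injective (rhoR D z₀ g) :=
  (TaylorH.taylorLaurent_injective z₀).comp (toHolH_injective D g)

/-- The Taylor embedding of the function field attached to `g`. -/
def sigmaF (g : SL(2, ℤ)) : FF N →+* LaurentSeries ℂ :=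
  haveI := FracR.isFractionRing N
  IsFractionRing.lift (rhoR_injective D z₀ g)

theorem sigmaF_coe (g : SL(2, ℤ)) (u : Rsub N) : sigmaF D z₀ g (u : FF N) = rhoR D z₀ g u := by
  have := FracR.isFractionRing N
  exact IsFractionRing.lift_algebraMap (rhoR_injective D z₀ g) u

theorem sigmaF_ne_zero (g : SL(2, ℤ)) {f : FF N} (hf : f ≠ 0) : sigmaF D z₀ g f ≠ 0 :=
  (map_ne_zero (sigmaF D z₀ g)).mpr hf

theorem order_sigmaF_coe (g : SL(2, ℤ)) {u : Rsub N} (hu : u ≠ 0) :
    (sigmaF D z₀ g (u : FF N)).order = ((ptOrd D.Θ g z₀ u).toNat : ℤ) := by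
  rw [sigmaF_coe, rhoR, RingHom.comp_apply,
    TaylorH.order_taylorLaurent z₀ (fun h => hu (toHolH_injective D g (h.trans (map_zero _).symm)))]
  rfl

theorem sigmaF_const (g : SL(2, ℤ)) (c : Kbar) :
    sigmaF D z₀ g (algebraMap Kbar (FF N) c) = HahnSeries.C (iotaK c) := by
  have h1 : algebraMap Kbar (FF N) c = ((algebraMap Kbar (Rsub N) c : Rsub N) : FF N) := rfl
  rw [h1, sigmaF_coe, rhoR, RingHom.comp_apply]
  have h2 : toHolH D g (algebraMap Kbar (Rsub N) c) = algebraMap ℂ HolH (iotaK c) := by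
    apply Subtype.ext
    rw [coe_toHolH, D.algebraMap_eq]
    rfl
  rw [h2, TaylorH.taylorLaurent_algebraMap]

theorem toHolH_jF (g g' : SL(2, ℤ)) :
    toHolH D g ⟨jF N, jF_mem_Rsub N⟩ = toHolH D g' ⟨jF N, jF_mem_Rsub N⟩ := by
  apply Subtype.ext
  rw [coe_toHolH, coe_toHolH, (isRealize D).map_jF]
  funext z
  rw [compSL_apply, compSL_apply, jFun_smul, jFun_smul]

theorem sigmaF_jF (g g' : SL(2, ℤ)) : sigmaF D z₀ g (jF N) = sigmaF D z₀ g' (jF N) := by
  have h1 : jF N = ((⟨jF N, jF_mem_Rsub N⟩ : Rsub N) : FF N) := rfl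
  rw [h1, sigmaF_coe, sigmaF_coe, rhoR, rhoR, RingHom.comp_apply, RingHom.comp_apply,
    toHolH_jF D g g']

/-- The embedding attached to a coset, via a representative. -/
def sigma (x : SL(2, ℤ) ⧸ Gamma0 N) : FF N →+* LaurentSeries ℂ :=
  sigmaF D z₀ (Quotient.out x)

theorem sigma_injective (C : CuspData N D) : Function.Injective (sigma D z₀) := by
  intro x y hxy
  have hu : ∀ u : Rsub N, compSL (D.Θ u) (Quotient.out x)⁻¹ = compSL (D.Θ u) (Quotient.out y)⁻¹ := by
    intro u
    have h1 : sigmaF D z₀ (Quotient.out x) (u : FF N) = sigmaF D z₀ (Quotient.out y) (u : FF N) :=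
      congrArg (fun φ : FF N →+* LaurentSeries ℂ => φ (u : FF N)) hxy
    rw [sigmaF_coe, sigmaF_coe, rhoR, rhoR, RingHom.comp_apply, RingHom.comp_apply] at h1
    exact congrArg Subtype.val (TaylorH.taylorLaurent_injective z₀ h1)
  have h := Degree.mem_Gamma0_of_compSL_eq N D C _ _ hu
  rw [inv_inv] at h
  have h2 : (QuotientGroup.mk (Quotient.out y) : SL(2, ℤ) ⧸ Gamma0 N)
      = QuotientGroup.mk (Quotient.out x) := QuotientGroup.eq.mpr h
  have hx : (QuotientGroup.mk (Quotient.out x) : SL(2, ℤ) ⧸ Gamma0 N) = x := Quotient.out_eq' x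
  have hy : (QuotientGroup.mk (Quotient.out y) : SL(2, ℤ) ⧸ Gamma0 N) = y := Quotient.out_eq' y
  rw [hx, hy] at h2
  exact h2.symm

/-! ### Surjectivity -/

/-- **Surjectivity at finite points.** Every place `v` of `F` with `0 < ord_v (j - c)` is a point
place over any `z₀` with `j(z₀) = ι(c)`. -/
theorem exists_pointPlaceD_eq (C : CuspData N D) (c : Kbar) (hc : jFun z₀ = iotaK c)
    (v : Place Kbar (FF N)) (hv : 0 < v.ord (jF N - algebraMap Kbar (FF N) c)) :
    ∃ g : SL(2, ℤ), pointPlaceD D z₀ c hc g = v := by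
  have := FracR.isFractionRing N
  have := Degree.finiteDimensional_adjoin N D C
  have := Degree.isSeparable_adjoin N D C
  have hcard := Degree.card_eq_finrank_adjoin N D C
  have hΘ := isRealize D
  have hjne : jF N - algebraMap Kbar (FF N) c ≠ 0 := by
    intro h
    rw [h, Place.ord_zero] at hv
    exact lt_irrefl _ hv
  have hjS : (jSub N c : Rsub N) ≠ 0 := by
    intro h
    apply hjne
    rw [← coe_jSub, h]
    rfl
  have hO : jF N - algebraMap Kbar (FF N) c ∈ v.toValuationSubring.nonunits := by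
    rw [AbsSurj.mem_nonunits_iff_inv_notMem hjne, FF.ffp_mem_iff_ord_nonneg, Place.ord_inv]
    omega
  have hV : ∀ x : SL(2, ℤ) ⧸ Gamma0 N,
      sigma D z₀ x (jF N - algebraMap Kbar (FF N) c) ∈ laurentVC.nonunits := by
    intro x
    show sigmaF D z₀ (Quotient.out x) _ ∈ _
    apply mem_nonunits_laurentVC (sigmaF_ne_zero D z₀ _ hjne)
    rw [← coe_jSub, order_sigmaF_coe D z₀ _ hjS,
      ptOrd_jSub hΘ JOrderFinal.jInj _ z₀ c hc]
    have := JOrderMain.ellOrder_pos z₀
    simp only [ENat.toNat_natCast]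
    exact_mod_cast this
  obtain ⟨x, hx⟩ := ValUniq.exists_eq_comap_of_sub_mem_nonunits (K := Kbar) (F := FF N)
    (E := LaurentSeries ℂ) (jF N) (sigma D z₀) hcard (sigma_injective D z₀ C)
    (fun i j a => (sigmaF_const D z₀ _ a).trans (sigmaF_const D z₀ _ a).symm)
    (fun i j => sigmaF_jF D z₀ _ _)
    laurentVC (fun i a => by
      show sigmaF D z₀ (Quotient.out i) _ ∈ _
      rw [sigmaF_const]; exact C_mem_laurentVC _)
    v.toValuationSubring v.algebraMap_mem' c hV hO
  refine ⟨Quotient.out x, ?_⟩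
  have hP := isPointPlace_pointPlaceD D z₀ c hc (Quotient.out x)
  apply Place.ext
  ext f
  by_cases hf : f = 0
  · subst hf
    simp only [zero_mem]
  · obtain ⟨u, s, hs, hfus⟩ := FracR.exists_div_ne_zero N f
    have hu : u ≠ 0 := by
      rintro rfl
      apply hf
      rw [hfus]
      simp
    have huF : (u : FF N) ≠ 0 := fun h => hu (Subtype.ext h)
    have hsF : (s : FF N) ≠ 0 := fun h => hs (Subtype.ext h)
    have hm : (0 : ℤ) < pointMultD D z₀ c hc (Quotient.out x) := by
      exact_mod_cast pointMultD_pos D z₀ c hc (Quotient.out x)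
    have h1 := PointPlacesPos.ord_div hP hu hs
    rw [hx, ValuationSubring.mem_comap, FF.ffp_mem_iff_ord_nonneg]
    show 0 ≤ _ ↔ sigmaF D z₀ (Quotient.out x) f ∈ laurentVC
    rw [mem_laurentVC_of_ne_zero (sigmaF_ne_zero D z₀ _ hf), hfus, map_div₀]
    have h2 := isOrderFun_orderC.map_div (sigmaF_ne_zero D z₀ (Quotient.out x) huF)
      (sigmaF_ne_zero D z₀ (Quotient.out x) hsF)
    rw [h2, order_sigmaF_coe D z₀ _ hu, order_sigmaF_coe D z₀ _ hs, ← h1]
    constructor
    · intro h
      exact mul_nonneg hm.le h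
    · intro h
      exact nonneg_of_mul_nonneg_right h hm

end Fermat.Agent.X0.PointSurjT
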