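/-
C-F2c (helper1): the `RealizeData N` of `X0/Iface.lean`, built from `X0/Analytic.lean`.
-/
import Mathlib
import Fermat.Agent.X0.Analytic
import Fermat.Agent.X0.Iface

set_option autoImplicit false
set_option linter.unusedSectionVars false

open ModularCurve HahnSeries UpperHalfPlane
open scoped Topology Manifold MatrixGroups

noncomputable section

namespace Fermat.Agent.X0

namespace Analytic

open Fermat.Agent.X0.JQExp

/-- coefficients of `laurentOf m P`. -/
theorem coeff_laurentOf {R : Type*} [CommRing R] (m : ℕ) (P : PowerSeries R) (k : ℤ) :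
    (laurentOf m P).coeff k = if 0 ≤ k + m then PowerSeries.coeff (k + m).toNat P else 0 := by
  rw [laurentOf, HahnSeries.coeff_single_mul, one_mul, sub_neg_eq_add]
  split_ifs with h
  · obtain ⟨n, hn⟩ := Int.eq_ofNat_of_zero_le h
    rw [hn, Int.toNat_natCast, HahnSeries.ofPowerSeries_apply_coeff]
  · exact ModularCurve.ofPowerSeries_coeff_of_neg _ (by omega)

theorem coeffMap_laurentOf {R S : Type*} [CommRing R] [CommRing S] (φ : R →+* S) (m : ℕ)
    (P : PowerSeries R) :
    ModularCurve.coeffMap φ (laurentOf m P) = laurentOf m (P.map φ) := by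
  ext k
  rw [coeffMap_coeff, coeff_laurentOf, coeff_laurentOf]
  split_ifs with h
  · rw [PowerSeries.coeff_map]
  · rw [map_zero]

/-- A Laurent series over `ℚbar` whose complexification is `laurentOf m Q` is itself of the form
`laurentOf m P` with `P.map iotaK = Q`. -/
theorem exists_laurentOf_of_toC {x : LaurentSeries Kbar} {m : ℕ} {Q : PowerSeries ℂ}
    (h : toC x = laurentOf m Q) :
    ∃ P : PowerSeries Kbar, x = laurentOf m P ∧ P.map iotaK = Q := by
  let P : PowerSeries Kbar := PowerSeries.mk fun n => x.coeff ((n : ℤ) - m)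
  have hx : x = laurentOf m P := by
    ext k
    rw [coeff_laurentOf]
    split_ifs with hk
    · rw [PowerSeries.coeff_mk]
      congr 1
      rw [Int.toNat_of_nonneg hk]
      ring
    · have h1 := congrArg (fun s : LaurentSeries ℂ => s.coeff k) h
      simp only [toC_coeff, coeff_laurentOf, if_neg hk] at h1
      exact (map_eq_zero_iff iotaK iotaK_injective).mp h1
  refine ⟨P, hx, ?_⟩
  have h2 : laurentOf m (P.map iotaK) = laurentOf m Q := by
    rw [← coeffMap_laurentOf, ← hx]
    exact h
  exact lau_injective m h2

end Analytic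

open Analytic

variable (N : ℕ) [NeZero N]

theorem realize_isQExp_Kbar (u : Rsub N) :
    ∃ (m : ℕ) (P : PowerSeries Kbar), IsQExp 1 (realize N u) m (P.map iotaK) ∧
      (((u : FF N) : LaurentSeries Kbar)) = laurentOf m P := by
  obtain ⟨m, Q, hQ, hu⟩ := realize_isQExp N u
  obtain ⟨P, hP, hPQ⟩ := Analytic.exists_laurentOf_of_toC (x := ((u : FF N) : LaurentSeries Kbar)) hu
  exact ⟨m, P, hPQ ▸ hQ, hP⟩

/-- The analytic realisation data of `X0/Iface.lean`. -/
def realizeData : RealizeData N where
  Θ := realize N
  injective := realize_injective N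
  algebraMap_eq := realize_algebraMap N
  jd_eq := fun d _ hd => realize_jdF N d hd
  mem_HolH := realize_mem_HolH N
  isQExp := realize_isQExp_Kbar N
  invariant := realize_Gamma0_invariant N

@[simp] theorem realizeData_Θ : (realizeData N).Θ = realize N := rfl

end Fermat.Agent.X0
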