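/-
C-S24 (helper20): instantiation of `S24Core` with the point places (C-P1a, `PointPlaces`) and the
cusp places (C-P1b, `CuspPlaces`).  Remaining hypotheses: FF5 (`OrdFunPlace`), the realisation
(`IsRealize Θ`), injectivity of `j` (`JInj`), `IsFractionRing R F`, the Riemann–Hurwitz package
`GenusHyp ℚbar j` (C-F1), the degree `[F : ℚbar(j)] = ψ(N)` (C-F2e), `C.Good` (C-F2d) and the two
surjectivity statements of C-P1c.
-/
import Mathlib
import Fermat.Agent.X0.S24Core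
import Fermat.Agent.X0.PointPlaces
import Fermat.Agent.X0.CuspPlaces
import Fermat.Agent.X0.JBasic

set_option autoImplicit false

namespace Fermat.Agent.X0.S24Points

open AlgebraicCurve MulAction Subgroup Matrix MatrixGroups ModularGroup CongruenceSubgroup
open IntermediateField UpperHalfPlane
open Fermat.Agent.X0 Fermat.Agent.X0.FF Fermat.Agent.X0.PointPlaces Fermat.Agent.X0.JOrderMain
open Fermat.Agent.X0.JOrder Fermat.Agent.X0.S24Core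

variable {N : ℕ} [NeZero N] [IsFractionRing (Rsub N) (FF N)] {Θ : Rsub N →+* (ℍ → ℂ)}
  {D : RealizeData N} {C : CuspData N D}

/-- A point which is neither in the orbit of `ρ` nor of `i` has `ellOrder = 1`. -/
theorem ellOrder_eq_one_of_ne (hinj : JInj) (z₀ : ℍ) (h0 : jFun z₀ ≠ 0) (h1 : jFun z₀ ≠ 1728) :
    ellOrder z₀ = 1 := by
  rw [ellOrder_eq_ordE_of_inj hinj z₀]
  unfold ordE
  have h4 : ¬ ModularForm.E₄ z₀ = 0 := fun h => h0 ((jFun_eq_zero_iff z₀).mpr h)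
  have h6 : ¬ ModularForm.E₆ z₀ = 0 := fun h => h1 ((jFun_eq_1728_iff z₀).mpr h)
  rw [if_neg h4, if_neg h6]

/-- **S24 modulo the inputs** of C-F1 (`GenusHyp`), C-F2e (degree), C-F2d (`C.Good`) and C-P1c
(surjectivity). -/
theorem genus_eq_genusFormula_of_places
    [HasCanonicalDivisor (K := Kbar) (F := FF N)]
    (hFF5 : OrdFunPlace Kbar (FF N)) (hΘ : IsRealize Θ) (hinj : JInj)
    (H : GenusHyp Kbar (jF N))
    (hdeg : Module.finrank Kbar⟮jF N⟯ (FF N) = ModularCurve.dedekindPsi N)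
    (hC : C.Good)
    (hsurjP : ∀ (z₀ : ℍ) (c : Kbar) (hc : jFun z₀ = iotaK c) (v : Place Kbar (FF N)),
      0 < v.ord (jF N - algebraMap Kbar (FF N) c) →
      ∃ g : SL(2, ℤ), pointPlace hFF5 hΘ hinj z₀ c hc g = v)
    (hsurjC : ∀ v : Place Kbar (FF N), v.ord (jF N) < 0 → ∃ g : SL(2, ℤ), cuspPlace hC g = v) :
    (genus Kbar (FF N) : ℚ) = ModularCurve.genusFormula N := by
  -- the two special points
  have hc0 : jFun ((1 : SL(2, ℤ)) • ptRho) = iotaK 0 := by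
    rw [one_smul, jFun_ptRho, map_zero]
  have hc1 : jFun ((1 : SL(2, ℤ)) • ptI) = iotaK 1728 := by
    rw [one_smul, jFun_ptI, map_ofNat]
  have hfixρ : ((1 : SL(2, ℤ)) * (S * T) * (1 : SL(2, ℤ))⁻¹) • ((1 : SL(2, ℤ)) • ptRho)
      = (1 : SL(2, ℤ)) • ptRho := by
    rw [one_smul, inv_one, mul_one, one_mul]
    exact ho_ST_smul_ptRho
  have hfixI : ((1 : SL(2, ℤ)) * S * (1 : SL(2, ℤ))⁻¹) • ((1 : SL(2, ℤ)) • ptI)
      = (1 : SL(2, ℤ)) • ptI := by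
    rw [one_smul, inv_one, mul_one, one_mul]
    exact ho_S_smul_ptI
  have hsurjX : ∀ (z₀ : ℍ) (c : Kbar) (hc : jFun z₀ = iotaK c) (v : Place Kbar (FF N)),
      0 < v.ord (jF N - algebraMap Kbar (FF N) c) →
      ∃ a, (pointPlaceX hFF5 hΘ hinj z₀ c hc a).1 = v := by
    intro z₀ c hc v hv
    obtain ⟨g, hg⟩ := hsurjP z₀ c hc v hv
    exact ⟨QuotientGroup.mk g, by rw [pointPlaceX_mk, hg]⟩
  -- fibre over `0`
  let pl₀ : SL(2, ℤ) ⧸ Gamma0 N → Place Kbar (FF N) :=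
    fun a => (pointPlaceX hFF5 hΘ hinj ((1 : SL(2, ℤ)) • ptRho) 0 hc0 a).1
  have hpos₀ : ∀ a, 0 < (pl₀ a).ord (jF N - algebraMap Kbar (FF N) 0) :=
    fun a => (pointPlaceX hFF5 hΘ hinj _ 0 hc0 a).2
  have hsurj₀ : ∀ v : Place Kbar (FF N), 0 < v.ord (jF N - algebraMap Kbar (FF N) 0) →
      ∃ a, pl₀ a = v := hsurjX _ 0 hc0
  have hinv₀ : ∀ a, pl₀ (((1 : SL(2, ℤ)) * (S * T) * (1 : SL(2, ℤ))⁻¹) • a) = pl₀ a := by
    intro a
    show (pointPlaceX hFF5 hΘ hinj _ 0 hc0 _).1 = (pointPlaceX hFF5 hΘ hinj _ 0 hc0 a).1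
    rw [pointPlaceX_smul_of_fixed hFF5 hΘ hinj _ 0 hc0 _ hfixρ a]
  have hle₀ : ∀ a, (pl₀ a).ord (jF N - algebraMap Kbar (FF N) 0) ≤ 3 := by
    intro a
    have h := ord_pointPlaceX_le hFF5 hΘ hinj _ 0 hc0 a
    have e : ellOrder ((1 : SL(2, ℤ)) • ptRho) = 3 := by rw [ellOrder_smul, ellOrder_ptRho]
    rw [e] at h
    exact_mod_cast h
  have hfix₀ : ∀ a, ((1 : SL(2, ℤ)) * (S * T) * (1 : SL(2, ℤ))⁻¹) • a = a →
      (pl₀ a).ord (jF N - algebraMap Kbar (FF N) 0) = 1 :=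
    fun a ha => ord_pointPlaceX_of_fixed_ST hFF5 hΘ hinj 0 1 hc0 a ha
  -- fibre over `1728`
  let pl₁ : SL(2, ℤ) ⧸ Gamma0 N → Place Kbar (FF N) :=
    fun a => (pointPlaceX hFF5 hΘ hinj ((1 : SL(2, ℤ)) • ptI) 1728 hc1 a).1
  have hpos₁ : ∀ a, 0 < (pl₁ a).ord (jF N - algebraMap Kbar (FF N) 1728) :=
    fun a => (pointPlaceX hFF5 hΘ hinj _ 1728 hc1 a).2
  have hsurj₁ : ∀ v : Place Kbar (FF N), 0 < v.ord (jF N - algebraMap Kbar (FF N) 1728) →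
      ∃ a, pl₁ a = v := hsurjX _ 1728 hc1
  have hinv₁ : ∀ a, pl₁ (((1 : SL(2, ℤ)) * S * (1 : SL(2, ℤ))⁻¹) • a) = pl₁ a := by
    intro a
    show (pointPlaceX hFF5 hΘ hinj _ 1728 hc1 _).1 = (pointPlaceX hFF5 hΘ hinj _ 1728 hc1 a).1
    rw [pointPlaceX_smul_of_fixed hFF5 hΘ hinj _ 1728 hc1 _ hfixI a]
  have hle₁ : ∀ a, (pl₁ a).ord (jF N - algebraMap Kbar (FF N) 1728) ≤ 2 := by
    intro a
    have h := ord_pointPlaceX_le hFF5 hΘ hinj _ 1728 hc1 a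
    have e : ellOrder ((1 : SL(2, ℤ)) • ptI) = 2 := by rw [ellOrder_smul, ellOrder_ptI]
    rw [e] at h
    exact_mod_cast h
  have hfix₁ : ∀ a, ((1 : SL(2, ℤ)) * S * (1 : SL(2, ℤ))⁻¹) • a = a →
      (pl₁ a).ord (jF N - algebraMap Kbar (FF N) 1728) = 1 :=
    fun a ha => ord_pointPlaceX_of_fixed_S hFF5 hΘ hinj 1728 1 hc1 a ha
  -- generic values
  have hgen : ∀ c : Kbar, c ≠ 0 → c ≠ 1728 → ∀ v : Place Kbar (FF N),
      0 < v.ord (jF N - algebraMap Kbar (FF N) c) →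
      v.ord (jF N - algebraMap Kbar (FF N) c) = 1 := by
    intro c h0 h1728 v hv
    obtain ⟨z₀, hz₀⟩ := jFun_surjective (iotaK c)
    have hne0 : jFun z₀ ≠ 0 := by
      rw [hz₀]
      intro h
      exact h0 (iotaK_injective (by rw [h, map_zero]))
    have hne1 : jFun z₀ ≠ 1728 := by
      rw [hz₀]
      intro h
      exact h1728 (iotaK_injective (by rw [h, map_ofNat]))
    obtain ⟨a, rfl⟩ := hsurjX z₀ c hz₀ v hv
    exact ord_pointPlaceX_of_ellOrder_eq_one hFF5 hΘ hinj c z₀ hz₀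
      (ellOrder_eq_one_of_ne hinj z₀ hne0 hne1) a
  -- cusps
  have hsurjI : ∀ v : Place Kbar (FF N), v.ord (jF N) < 0 → ∃ a, cuspPlaceX hC a = v := by
    intro v hv
    obtain ⟨g, hg⟩ := hsurjC v hv
    exact ⟨QuotientGroup.mk g, by rw [cuspPlaceX_mk, hg]⟩
  have hinvI : ∀ a, cuspPlaceX hC (T • a) = cuspPlaceX hC a :=
    fun a => cuspPlaceX_smul_zpowers_T hC ⟨T, mem_zpowers T⟩ a
  exact genus_eq_genusFormula_of_data N H hdeg 1 pl₀ hpos₀ hsurj₀ hinv₀ hle₀ hfix₀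
    1 pl₁ hpos₁ hsurj₁ hinv₁ hle₁ hfix₁ hgen (cuspPlaceX hC) (cuspPlaceX_ord_jF_neg hC) hsurjI
    hinvI (cuspPlaceX_neg_ord_jF_le hC)

end Fermat.Agent.X0.S24Points
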