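/-
C-S24 (helper20): `S24Points` specialised to a `RealizeData N` / `CuspData N D` (Iface), using the
hypothesis-free point places `PointPlacesD`.  Remaining inputs: `GenusHyp ℚbar j` (C-F1),
the degree (C-F2e), `C.Good` (C-F2d) and surjectivity (C-P1c).
-/
import Mathlib
import Fermat.Agent.X0.S24Points
import Fermat.Agent.X0.PointPlacesD

set_option autoImplicit false

namespace Fermat.Agent.X0.S24PointsD

open AlgebraicCurve IntermediateField UpperHalfPlane MatrixGroups
open Fermat.Agent.X0 Fermat.Agent.X0.FF Fermat.Agent.X0.PointPlaces Fermat.Agent.X0.PointPlacesD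
open Fermat.Agent.X0.S24Points

variable {N : ℕ} [NeZero N]

/-- **S24 modulo** `GenusHyp`, the degree, `C.Good` and surjectivity of the point / cusp places. -/
theorem genus_eq_genusFormula_of_surj (D : RealizeData N) (C : CuspData N D)
    [HasCanonicalDivisor (K := Kbar) (F := FF N)]
    (H : GenusHyp Kbar (jF N))
    (hdeg : Module.finrank Kbar⟮jF N⟯ (FF N) = ModularCurve.dedekindPsi N)
    (hC : C.Good)
    (hsurjP : ∀ (z₀ : ℍ) (c : Kbar) (hc : jFun z₀ = iotaK c) (v : Place Kbar (FF N)),
      0 < v.ord (jF N - algebraMap Kbar (FF N) c) →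
      ∃ g : SL(2, ℤ), pointPlaceD D z₀ c hc g = v)
    (hsurjC : ∀ v : Place Kbar (FF N), v.ord (jF N) < 0 → ∃ g : SL(2, ℤ), cuspPlace hC g = v) :
    (genus Kbar (FF N) : ℚ) = ModularCurve.genusFormula N :=
  genus_eq_genusFormula_of_places (ordFunPlace _ _) (isRealize D) JOrderFinal.jInj H hdeg hC
    hsurjP hsurjC

end Fermat.Agent.X0.S24PointsD
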