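/-
PROGRAM C / C-F1 (helper18): the instance `AlgebraicCurve.HasCanonicalDivisor` for a function field
in one variable whose generator `x` has finitely many finite branch values (contained in a finite
set `S`): the divisor of every nonzero differential has finite support.
-/
import Mathlib
import Fermat.Agent.X0.FFGenus

set_option autoImplicit false
set_option linter.unusedSectionVars false

open AlgebraicCurve IntermediateField KaehlerDifferential Fermat.Agent.X0.FF

namespace Fermat.Agent.X0.FFCanon

variable {K F : Type*} [Field K] [Field F] [Algebra K F]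

/-- Finiteness of the support of `v ↦ ord_v (dx)` from the abstract interface. -/
theorem finite_support_dx {x : F} (H : GenusHyp K x) (S : Finset K)
    (hS : ∀ c ∉ S, ∀ v : Place K F, 0 < v.ord (x - algebraMap K F c) →
      v.ord (x - algebraMap K F c) = 1) :
    {v : Place K F | v.ordDifferential (D K F x) ≠ 0}.Finite := by
  have hfin : ({v : Place K F | v.ord x < 0} ∪
      ⋃ c ∈ S, {v : Place K F | 0 < v.ord (x - algebraMap K F c)}).Finite :=
    H.finite_poles.union (S.finite_toSet.biUnion fun c _ => H.finite_fibre c)
  refine hfin.subset fun v hv => ?_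
  rcases H.pole_or_zero v with hp | ⟨c, hc⟩
  · exact Or.inl hp
  · right
    by_cases hcS : c ∈ S
    · exact Set.mem_biUnion (Finset.mem_coe.mpr hcS) hc
    · exfalso
      apply hv
      rw [H.ordDifferential_dx_of_zero hc, hS c hcS v hc, sub_self]

/-- Finiteness of the support of the divisor of any nonzero differential. -/
theorem finite_support_ordDifferential {x : F} (H : GenusHyp K x) (S : Finset K)
    (hS : ∀ c ∉ S, ∀ v : Place K F, 0 < v.ord (x - algebraMap K F c) →
      v.ord (x - algebraMap K F c) = 1) {ω : Ω[F⁄K]} (hω : ω ≠ 0) :
    {v : Place K F | v.ordDifferential ω ≠ 0}.Finite := by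
  have hmem : ω ∈ Submodule.span F {D K F x} := by rw [H.span_D_eq_top]; trivial
  obtain ⟨g, rfl⟩ := Submodule.mem_span_singleton.mp hmem
  have hg : g ≠ 0 := by rintro rfl; exact hω (zero_smul _ _)
  refine ((H.finite_support_ord g hg).union (finite_support_dx H S hS)).subset fun v hv => ?_
  by_contra hnot
  rw [Set.mem_union, not_or] at hnot
  apply hv
  have h1 : v.ord g = 0 := by
    by_contra h; exact hnot.1 h
  have h2 : v.ordDifferential (D K F x) = 0 := by
    by_contra h; exact hnot.2 h
  rw [H.ordDifferential_smul' v g hg _ H.D_ne_zero, h1, h2, add_zero]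

/-- `HasCanonicalDivisor` from the abstract interface and a finite branch locus. -/
theorem hasCanonicalDivisor_of_genusHyp {x : F} (H : GenusHyp K x) (S : Finset K)
    (hS : ∀ c ∉ S, ∀ v : Place K F, 0 < v.ord (x - algebraMap K F c) →
      v.ord (x - algebraMap K F c) = 1) :
    HasCanonicalDivisor (K := K) (F := F) where
  exists_divisor ω hω := by
    classical
    refine ⟨Finsupp.ofSupportFinite (fun v : Place K F => v.ordDifferential ω) ?_, fun v => rfl⟩
    exact finite_support_ordDifferential H S hS hω

/-- `HasCanonicalDivisor` for a function field over an algebraically closed field of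
characteristic zero with a generator having finitely many finite branch values. -/
theorem hasCanonicalDivisor [IsAlgClosed K] [CharZero K] {x : F} (hx : IsGen K x) (S : Finset K)
    (hS : ∀ c ∉ S, ∀ v : Place K F, 0 < v.ord (x - algebraMap K F c) →
      v.ord (x - algebraMap K F c) = 1) :
    HasCanonicalDivisor (K := K) (F := F) :=
  hasCanonicalDivisor_of_genusHyp (FFGenus.genusHyp hx) S hS

end Fermat.Agent.X0.FFCanon
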