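/-
C-RR / S20 glue (helper20, helper4's dispatch item 6): the facts on `ordDifferential` needed by the
Riemann–Roch chain (`RR.Duality.DiffHyp`) and the REAL instance `HasCanonicalDivisor` for
`F = FF N` over `ℚbar`, from `GenusHyp` + a finite branch locus (`FFCanon`), the degree
(`Degree.isGen_jF`) and the surjectivity of the point places (unramifiedness outside `{0, 1728}`).
-/
import Mathlib
import Fermat.Agent.X0.FFCanon
import Fermat.Agent.RR.Duality
import Fermat.Agent.X0.PointPlacesD
import Fermat.Agent.X0.Degree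
import Fermat.Agent.X0.JBasic

set_option autoImplicit false

namespace Fermat.Agent.X0.HasCanDiv

open AlgebraicCurve IntermediateField UpperHalfPlane MatrixGroups KaehlerDifferential
open Fermat.Agent.X0 Fermat.Agent.X0.FF Fermat.Agent.X0.PointPlaces Fermat.Agent.X0.PointPlacesD

section Abstract

variable {K F : Type*} [Field K] [Field F] [Algebra K F]

/-- `DiffHyp` (input of the Riemann–Roch chain) from `GenusHyp` and a finite branch locus. -/
theorem diffHyp_of_genusHyp {x : F} (H : GenusHyp K x) (S : Finset K)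
    (hS : ∀ c ∉ S, ∀ v : Place K F, 0 < v.ord (x - algebraMap K F c) →
      v.ord (x - algebraMap K F c) = 1) :
    Fermat.Agent.RR.Duality.DiffHyp K F where
  ordDifferential_smul := H.ordDifferential_smul'
  finite_support := fun _ hω => FFCanon.finite_support_ordDifferential H S hS hω

/-- `DiffHyp` from a generator with finite branch locus (`K` algebraically closed, char. 0). -/
theorem diffHyp [IsAlgClosed K] [CharZero K] {x : F} (hx : IsGen K x) (S : Finset K)
    (hS : ∀ c ∉ S, ∀ v : Place K F, 0 < v.ord (x - algebraMap K F c) →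
      v.ord (x - algebraMap K F c) = 1) :
    Fermat.Agent.RR.Duality.DiffHyp K F :=
  diffHyp_of_genusHyp (FFGenus.genusHyp hx) S hS

end Abstract

section Concrete

variable {N : ℕ} [NeZero N]

/-- Over a value `c ∉ {0, 1728}` the function `j` is unramified, if every place over `c` is a
point place (C-P1c). -/
theorem unramified_of_surj (D : RealizeData N)
    (hsurjP : ∀ (z₀ : ℍ) (c : Kbar) (hc : jFun z₀ = iotaK c) (v : Place Kbar (FF N)),
      0 < v.ord (jF N - algebraMap Kbar (FF N) c) →
      ∃ g : SL(2, ℤ), pointPlaceD D z₀ c hc g = v) :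
    ∀ c : Kbar, c ≠ 0 ∧ c ≠ 1728 → ∀ v : Place Kbar (FF N),
      0 < v.ord (jF N - algebraMap Kbar (FF N) c) →
      v.ord (jF N - algebraMap Kbar (FF N) c) = 1 := by
  intro c hc v hv
  obtain ⟨z₀, hz₀⟩ := jFun_surjective (iotaK c)
  have hne0 : jFun z₀ ≠ 0 := by
    rw [hz₀]
    intro h
    exact hc.1 (iotaK_injective (by rw [h, map_zero]))
  have hne1 : jFun z₀ ≠ 1728 := by
    rw [hz₀]
    intro h
    exact hc.2 (iotaK_injective (by rw [h, map_ofNat]))
  obtain ⟨g, rfl⟩ := hsurjP z₀ c hz₀ v hv
  have := pointPlaceDX_ord_of_ellOrder_eq_one D z₀ c hz₀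
    (JOrderFinal.ellOrder_eq_one_of_jFun_ne hne0 hne1) (QuotientGroup.mk g)
  rwa [pointPlaceDX_mk] at this

/-- The real `HasCanonicalDivisor` for `FF N` over `ℚbar`. -/
theorem hasCanonicalDivisor_FF (D : RealizeData N) (C : CuspData N D)
    (hsurjP : ∀ (z₀ : ℍ) (c : Kbar) (hc : jFun z₀ = iotaK c) (v : Place Kbar (FF N)),
      0 < v.ord (jF N - algebraMap Kbar (FF N) c) →
      ∃ g : SL(2, ℤ), pointPlaceD D z₀ c hc g = v) :
    HasCanonicalDivisor (K := Kbar) (F := FF N) := by
  classical
  refine FFCanon.hasCanonicalDivisor (Degree.isGen_jF N D C) ({0, 1728} : Finset Kbar)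
    (fun c hc => ?_)
  simp only [Finset.mem_insert, Finset.mem_singleton, not_or] at hc
  exact unramified_of_surj D hsurjP c hc

/-- `DiffHyp` for `FF N` over `ℚbar`. -/
theorem diffHyp_FF (D : RealizeData N) (C : CuspData N D)
    (hsurjP : ∀ (z₀ : ℍ) (c : Kbar) (hc : jFun z₀ = iotaK c) (v : Place Kbar (FF N)),
      0 < v.ord (jF N - algebraMap Kbar (FF N) c) →
      ∃ g : SL(2, ℤ), pointPlaceD D z₀ c hc g = v) :
    Fermat.Agent.RR.Duality.DiffHyp Kbar (FF N) := by
  classical
  refine diffHyp (Degree.isGen_jF N D C) ({0, 1728} : Finset Kbar) (fun c hc => ?_)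
  simp only [Finset.mem_insert, Finset.mem_singleton, not_or] at hc
  exact unramified_of_surj D hsurjP c hc

/-- The genus hypothesis bundle for `FF N`. -/
theorem genusHyp_FF (D : RealizeData N) (C : CuspData N D) : GenusHyp Kbar (jF N) :=
  FFGenus.genusHyp (Degree.isGen_jF N D C)

end Concrete

end Fermat.Agent.X0.HasCanDiv
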