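/-
C-RR / S20 glue (helper20): hypothesis-free versions of `HasCanDiv` for `FF N` over `ℚbar`, obtained
by plugging the surjectivity of the point places (`PointSurjT.exists_pointPlaceD_eq`) and the
concrete data `realizeData N`, `cuspData N`.
-/
import Mathlib
import Fermat.Agent.X0.HasCanDiv
import Fermat.Agent.X0.PointSurjT
import Fermat.Agent.X0.CuspExpand
import Fermat.Agent.X0.RealizeData

set_option autoImplicit false

namespace Fermat.Agent.X0.HasCanDivInst

open AlgebraicCurve UpperHalfPlane MatrixGroups
open Fermat.Agent.X0 Fermat.Agent.X0.FF Fermat.Agent.X0.PointPlacesD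

variable (N : ℕ) [NeZero N]

/-- `j` generates: `FF N` is a function field in one variable with separating element `jF N`. -/
theorem isGen : IsGen Kbar (jF N) :=
  Degree.isGen_jF N (realizeData N) (cuspData N)

/-- The genus hypothesis bundle for `FF N`. -/
theorem genusHyp : GenusHyp Kbar (jF N) :=
  HasCanDiv.genusHyp_FF (realizeData N) (cuspData N)

/-- Every place over `j = c` is a point place (restating `PointSurjT` for `realizeData N`). -/
theorem surjPoint (z₀ : ℍ) (c : Kbar) (hc : jFun z₀ = iotaK c) (v : Place Kbar (FF N))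
    (hv : 0 < v.ord (jF N - algebraMap Kbar (FF N) c)) :
    ∃ g : SL(2, ℤ), pointPlaceD (realizeData N) z₀ c hc g = v :=
  PointSurjT.exists_pointPlaceD_eq _ z₀ (cuspData N) c hc v hv

/-- `j` is unramified outside `{0, 1728, ∞}`. -/
theorem unramified (c : Kbar) (hc : c ≠ 0 ∧ c ≠ 1728) (v : Place Kbar (FF N))
    (hv : 0 < v.ord (jF N - algebraMap Kbar (FF N) c)) :
    v.ord (jF N - algebraMap Kbar (FF N) c) = 1 :=
  HasCanDiv.unramified_of_surj (realizeData N) (surjPoint N) c hc v hv

/-- The real `HasCanonicalDivisor` for `FF N` over `ℚbar`, hypothesis-free. -/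
theorem hasCanonicalDivisor : HasCanonicalDivisor (K := Kbar) (F := FF N) :=
  HasCanDiv.hasCanonicalDivisor_FF (realizeData N) (cuspData N) (surjPoint N)

/-- The same in the literal shape of the frozen statement S24. -/
theorem hasCanonicalDivisor' :
    HasCanonicalDivisor (K := AlgebraicClosure ℚ)
      (F := ↥(ModularCurve.modularFunctionFieldBar N)) :=
  hasCanonicalDivisor N

/-- `DiffHyp` (input of the Riemann–Roch chain) for `FF N` over `ℚbar`, hypothesis-free. -/
theorem diffHyp : Fermat.Agent.RR.Duality.DiffHyp Kbar (FF N) :=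
  HasCanDiv.diffHyp_FF (realizeData N) (cuspData N) (surjPoint N)

end Fermat.Agent.X0.HasCanDivInst
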