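/-
C-P1d part (2a) (helper20): abstract fibre-count glue in the function-field setting.
Given the fundamental identity `∑_{v, 0 < ord_v f} ord_v f = n`, a finite `G`-set `X` with
`#X = n` and a `G`-invariant surjection `pl` from `X` onto the places where `f` vanishes such
that `ord_{pl a} f ≤ #(G · a)`, the number of such places is the number of `G`-orbits and all
the inequalities are equalities.
-/
import Mathlib
import Fermat.Prelude.Def_AlgebraicCurve_CanonicalDivisor
import Fermat.Agent.X0.Count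

set_option autoImplicit false

namespace Fermat.Agent.X0.PlaceCount

open AlgebraicCurve MulAction

variable {K F : Type*} [Field K] [Field F] [Algebra K F]

/-- Abstract count of the zeros of `f` (apply with `f = x - c`). -/
theorem pc_zero_count (f : F) (n : ℕ)
    (hfin : {v : Place K F | 0 < v.ord f}.Finite)
    (hsum : ∑ᶠ (v : Place K F) (_ : 0 < v.ord f), v.ord f = (n : ℤ))
    {X G : Type*} [Finite X] [Group G] [MulAction G X]
    (hcard : Nat.card X = n)
    (pl : X → Place K F) (hpos : ∀ a, 0 < (pl a).ord f)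
    (hsurj : ∀ v : Place K F, 0 < v.ord f → ∃ a, pl a = v)
    (hinv : ∀ (g : G) (a : X), pl (g • a) = pl a)
    (hle : ∀ a, (pl a).ord f ≤ (Nat.card (orbit G a) : ℤ)) :
    Nat.card {v : Place K F // 0 < v.ord f} = Nat.card (orbitRel.Quotient G X) ∧
      ∀ a, (pl a).ord f = (Nat.card (orbit G a) : ℤ) := by
  classical
  have : Fintype X := Fintype.ofFinite X
  let V := {v : Place K F // 0 < v.ord f}
  have hV : Fintype V := hfin.fintype
  let p : X → V := fun a => ⟨pl a, hpos a⟩
  let e : V → ℕ := fun v => (v.1.ord f).toNat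
  have he : ∀ v : V, ((e v : ℕ) : ℤ) = v.1.ord f := fun v => Int.toNat_of_nonneg v.2.le
  have hp : Function.Surjective p := by
    rintro ⟨v, hv⟩
    obtain ⟨a, rfl⟩ := hsurj v hv
    exact ⟨a, rfl⟩
  have hinv' : ∀ (g : G) (a : X), p (g • a) = p a := fun g a => Subtype.ext (hinv g a)
  have hle' : ∀ a, e (p a) ≤ Nat.card (orbit G a) := by
    intro a
    have := hle a
    have h2 := he (p a)
    change ((e (p a) : ℕ) : ℤ) = (pl a).ord f at h2
    omega
  have hsum' : ∑ v, e v = Fintype.card X := by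
    rw [← Nat.card_eq_fintype_card, hcard]
    have h1 : ∑ᶠ (v : Place K F) (_ : 0 < v.ord f), v.ord f
        = ∑ v ∈ hfin.toFinset, v.ord f :=
      finsum_mem_eq_finite_toFinset_sum (s := {v : Place K F | 0 < v.ord f})
        (fun v : Place K F => v.ord f) hfin
    have h2 : ∑ v ∈ hfin.toFinset, v.ord f = ∑ v : V, v.1.ord f := by
      refine (Finset.sum_subtype hfin.toFinset (fun v => ?_) (fun v => v.ord f))
      simp
    have h3 : ((∑ v, e v : ℕ) : ℤ) = (n : ℤ) := by
      rw [← hsum, h1, h2]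
      push_cast
      exact Finset.sum_congr rfl (fun v _ => he v)
    exact_mod_cast h3
  obtain ⟨h1, h2⟩ := Count.card_eq_card_orbits p hp hinv' e hle' hsum'
  refine ⟨?_, fun a => ?_⟩
  · rw [← h1, Nat.card_eq_fintype_card]
  · have := h2 a
    have h3 := he (p a)
    change ((e (p a) : ℕ) : ℤ) = (pl a).ord f at h3
    omega

/-- Abstract count of the poles of `x`. -/
theorem pc_pole_count (x : F) (n : ℕ)
    (hfin : {v : Place K F | v.ord x < 0}.Finite)
    (hsum : ∑ᶠ (v : Place K F) (_ : v.ord x < 0), -v.ord x = (n : ℤ))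
    {X G : Type*} [Finite X] [Group G] [MulAction G X]
    (hcard : Nat.card X = n)
    (pl : X → Place K F) (hneg : ∀ a, (pl a).ord x < 0)
    (hsurj : ∀ v : Place K F, v.ord x < 0 → ∃ a, pl a = v)
    (hinv : ∀ (g : G) (a : X), pl (g • a) = pl a)
    (hle : ∀ a, -(pl a).ord x ≤ (Nat.card (orbit G a) : ℤ)) :
    Nat.card {v : Place K F // v.ord x < 0} = Nat.card (orbitRel.Quotient G X) ∧
      ∀ a, -(pl a).ord x = (Nat.card (orbit G a) : ℤ) := by
  have hiff : ∀ v : Place K F, 0 < v.ord x⁻¹ ↔ v.ord x < 0 := by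
    intro v
    rw [Place.ord_inv]
    omega
  have hset : {v : Place K F | 0 < v.ord x⁻¹} = {v : Place K F | v.ord x < 0} := by
    ext v
    exact hiff v
  have hsum' : ∑ᶠ (v : Place K F) (_ : 0 < v.ord x⁻¹), v.ord x⁻¹ = (n : ℤ) := by
    rw [← hsum]
    have : ∀ v : Place K F, (∑ᶠ (_ : 0 < v.ord x⁻¹), v.ord x⁻¹) = ∑ᶠ (_ : v.ord x < 0), -v.ord x := by
      intro v
      rw [Place.ord_inv]
      exact finsum_congr_Prop (by rw [← hiff v, Place.ord_inv]) (fun _ => rfl)
    exact finsum_congr this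
  obtain ⟨h1, h2⟩ := pc_zero_count (K := K) x⁻¹ n (hset ▸ hfin) hsum' hcard pl
    (fun a => (hiff _).mpr (hneg a)) (fun v hv => hsurj v ((hiff v).mp hv)) hinv
    (fun a => by rw [Place.ord_inv]; exact hle a)
  refine ⟨?_, fun a => ?_⟩
  · rw [← h1]
    exact Nat.card_congr (Equiv.subtypeEquivRight (fun v => (hiff v).symm))
  · rw [← h2 a, Place.ord_inv]

end Fermat.Agent.X0.PlaceCount
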