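/-
C-P1d part (2b) (helper20): fibre counts over the coset space `X = SL(2, ℤ) ⧸ Γ₀(N)`.
Abstract in the function field (`K`, `F`, local function `f`), concrete in the group theory:
combining `PlaceCount` with the orbit counts of `C-G1` gives the numbers of places over
`1728` (`2 r = ψ + ν₂`), over `0` (`3 r = ψ + 2 ν₃`), over a generic value (`r = ψ`, unramified)
and over `∞` (`r = cuspCount N`).
-/
import Mathlib
import Fermat.Prelude.Def_AlgebraicCurve_CanonicalDivisor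
import Fermat.Prelude.Def_ModularCurve_GenusNumerics
import Fermat.Agent.X0.PlaceCount
import Fermat.Agent.X0.G1Elliptic
import Fermat.Agent.X0.G1Cusps
import Fermat.Agent.X0.G1Index

set_option autoImplicit false

namespace Fermat.Agent.X0.PlaceCountX0

open AlgebraicCurve MulAction Subgroup Matrix MatrixGroups ModularGroup CongruenceSubgroup
open Fermat.Agent.X0.PlaceCount Fermat.Agent.X0.OrbitCount Fermat.Agent.X0.G1Elliptic
open Fermat.Agent.X0.G1Cusps Fermat.Agent.X0.G1Index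

variable {K F : Type*} [Field K] [Field F] [Algebra K F]

/-- Invariance under a generator gives invariance under all integer powers. -/
theorem pcx_inv_zpow {G X Y : Type*} [Group G] [MulAction G X] (σ : G) (pl : X → Y)
    (hinv : ∀ a, pl (σ • a) = pl a) (k : ℤ) : ∀ a : X, pl (σ ^ k • a) = pl a := by
  have hinv' : ∀ a, pl (σ⁻¹ • a) = pl a := by
    intro a
    rw [← hinv (σ⁻¹ • a), smul_inv_smul]
  induction k using Int.induction_on with
  | zero => intro a; simp
  | succ n ih =>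
    intro a
    rw [_root_.zpow_add_one, mul_smul, ih, hinv]
  | pred n ih =>
    intro a
    rw [_root_.zpow_sub_one, mul_smul, ih, hinv']

/-- Invariance under a generator gives invariance under `zpowers`. -/
theorem pcx_inv_zpowers {G X Y : Type*} [Group G] [MulAction G X] (σ : G) (pl : X → Y)
    (hinv : ∀ a, pl (σ • a) = pl a) (g : zpowers σ) (a : X) : pl (g • a) = pl a := by
  obtain ⟨g, hg⟩ := g
  obtain ⟨k, rfl⟩ := mem_zpowers_iff.mp hg
  exact pcx_inv_zpow σ pl hinv k a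

/-- Fibre count when the stabiliser is generated (modulo elements acting trivially) by an element
`σ` with `σ ^ p` acting trivially, `p` prime. -/
theorem pcx_count_of_prime (N : ℕ) [NeZero N] (f : F)
    (hfin : {v : Place K F | 0 < v.ord f}.Finite)
    (hsum : ∑ᶠ (v : Place K F) (_ : 0 < v.ord f), v.ord f = (ModularCurve.dedekindPsi N : ℤ))
    (σ : SL(2, ℤ)) (p : ℕ) (hp : p.Prime)
    (hσ : ∀ a : SL(2, ℤ) ⧸ Gamma0 N, σ ^ p • a = a)
    (pl : SL(2, ℤ) ⧸ Gamma0 N → Place K F)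
    (hpos : ∀ a, 0 < (pl a).ord f)
    (hsurj : ∀ v : Place K F, 0 < v.ord f → ∃ a, pl a = v)
    (hinv : ∀ a, pl (σ • a) = pl a)
    (hle : ∀ a, (pl a).ord f ≤ p)
    (hfix : ∀ a, σ • a = a → (pl a).ord f = 1) :
    p * Nat.card {v : Place K F // 0 < v.ord f} =
      ModularCurve.dedekindPsi N + (p - 1) * Nat.card (fixedBy (SL(2, ℤ) ⧸ Gamma0 N) σ) ∧
      ∀ a, σ • a ≠ a → (pl a).ord f = p := by
  have hle' : ∀ a, (pl a).ord f ≤ (Nat.card (orbit (zpowers σ) a) : ℤ) := by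
    intro a
    by_cases h : σ • a = a
    · have e1 : Nat.card (orbit (zpowers σ) a) = 1 := card_orbit_zpowers_eq_one_iff.mpr h
      rw [e1, hfix a h]
      norm_num
    · have e1 : Nat.card (orbit (zpowers σ) a) = p :=
        card_orbit_zpowers_of_prime hp (hσ a) h
      rw [e1]
      exact hle a
  obtain ⟨h1, h2⟩ := pc_zero_count (K := K) f (ModularCurve.dedekindPsi N) hfin hsum
    (X := SL(2, ℤ) ⧸ Gamma0 N) (G := zpowers σ) (g1_card N) pl hpos hsurj
    (pcx_inv_zpowers σ pl hinv) hle'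
  refine ⟨?_, fun a ha => ?_⟩
  · have e2 : p * Nat.card (orbitRel.Quotient (zpowers σ) (SL(2, ℤ) ⧸ Gamma0 N)) =
        Nat.card (SL(2, ℤ) ⧸ Gamma0 N) + (p - 1) * Nat.card (fixedBy (SL(2, ℤ) ⧸ Gamma0 N) σ) :=
      card_orbits_zpowers_of_prime hp hσ
    rw [h1, e2, g1_card N]
  · have e1 : Nat.card (orbit (zpowers σ) a) = p :=
      card_orbit_zpowers_of_prime hp (hσ a) ha
    rw [h2 a, e1]

/-- Places over `1728`: `2 r = ψ + ν₂`. -/
theorem pcx_count_conj_S (N : ℕ) [NeZero N] (f : F)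
    (hfin : {v : Place K F | 0 < v.ord f}.Finite)
    (hsum : ∑ᶠ (v : Place K F) (_ : 0 < v.ord f), v.ord f = (ModularCurve.dedekindPsi N : ℤ))
    (γ : SL(2, ℤ)) (pl : SL(2, ℤ) ⧸ Gamma0 N → Place K F)
    (hpos : ∀ a, 0 < (pl a).ord f)
    (hsurj : ∀ v : Place K F, 0 < v.ord f → ∃ a, pl a = v)
    (hinv : ∀ a, pl ((γ * S * γ⁻¹) • a) = pl a)
    (hle : ∀ a, (pl a).ord f ≤ 2)
    (hfix : ∀ a, (γ * S * γ⁻¹) • a = a → (pl a).ord f = 1) :
    2 * Nat.card {v : Place K F // 0 < v.ord f} =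
      ModularCurve.dedekindPsi N + ModularCurve.nuTwo N := by
  have h := (pcx_count_of_prime (K := K) N f hfin hsum (γ * S * γ⁻¹) 2 Nat.prime_two
    (g1_conj_pow_smul g1_S_sq_smul γ) pl hpos hsurj hinv (by exact_mod_cast hle) hfix).1
  rw [g1_card_fixedBy_conj_S, show 2 - 1 = 1 from rfl, one_mul] at h
  exact h

/-- Places over `0`: `3 r = ψ + 2 ν₃`. -/
theorem pcx_count_conj_ST (N : ℕ) [NeZero N] (f : F)
    (hfin : {v : Place K F | 0 < v.ord f}.Finite)
    (hsum : ∑ᶠ (v : Place K F) (_ : 0 < v.ord f), v.ord f = (ModularCurve.dedekindPsi N : ℤ))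
    (γ : SL(2, ℤ)) (pl : SL(2, ℤ) ⧸ Gamma0 N → Place K F)
    (hpos : ∀ a, 0 < (pl a).ord f)
    (hsurj : ∀ v : Place K F, 0 < v.ord f → ∃ a, pl a = v)
    (hinv : ∀ a, pl ((γ * (S * T) * γ⁻¹) • a) = pl a)
    (hle : ∀ a, (pl a).ord f ≤ 3)
    (hfix : ∀ a, (γ * (S * T) * γ⁻¹) • a = a → (pl a).ord f = 1) :
    3 * Nat.card {v : Place K F // 0 < v.ord f} =
      ModularCurve.dedekindPsi N + 2 * ModularCurve.nuThree N := by
  have h := (pcx_count_of_prime (K := K) N f hfin hsum (γ * (S * T) * γ⁻¹) 3 Nat.prime_three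
    (g1_conj_pow_smul g1_ST_cube_smul γ) pl hpos hsurj hinv (by exact_mod_cast hle) hfix).1
  rw [g1_card_fixedBy_conj_ST] at h
  exact h

/-- Places over a generic value are unramified. -/
theorem pcx_unramified {X : Type*} (f : F) (pl : X → Place K F)
    (hsurj : ∀ v : Place K F, 0 < v.ord f → ∃ a, pl a = v)
    (hle : ∀ a, (pl a).ord f ≤ 1) (v : Place K F) (hv : 0 < v.ord f) : v.ord f = 1 := by
  obtain ⟨a, rfl⟩ := hsurj v hv
  have := hle a
  omega

/-- Places over `∞`: `r_∞ = cuspCount N`. -/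
theorem pcx_count_cusps (N : ℕ) [NeZero N] (x : F)
    (hfin : {v : Place K F | v.ord x < 0}.Finite)
    (hsum : ∑ᶠ (v : Place K F) (_ : v.ord x < 0), -v.ord x = (ModularCurve.dedekindPsi N : ℤ))
    (pl : SL(2, ℤ) ⧸ Gamma0 N → Place K F)
    (hneg : ∀ a, (pl a).ord x < 0)
    (hsurj : ∀ v : Place K F, v.ord x < 0 → ∃ a, pl a = v)
    (hinv : ∀ a, pl (T • a) = pl a)
    (hle : ∀ a, -(pl a).ord x ≤ (Nat.card (orbit (zpowers T) a) : ℤ)) :
    Nat.card {v : Place K F // v.ord x < 0} = ModularCurve.cuspCount N ∧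
      ∀ a, -(pl a).ord x = (Nat.card (orbit (zpowers T) a) : ℤ) := by
  obtain ⟨h1, h2⟩ := pc_pole_count (K := K) x (ModularCurve.dedekindPsi N) hfin hsum
    (X := SL(2, ℤ) ⧸ Gamma0 N) (G := zpowers T) (g1_card N) pl hneg hsurj
    (pcx_inv_zpowers T pl hinv) hle
  exact ⟨by rw [h1, g1_orbits_T], h2⟩

end Fermat.Agent.X0.PlaceCountX0
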