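/-
PROGRAM C / C-F1 (helper18): compatibility shim.  The lemmas `ffp_*` live in `X0/FFPlace.lean`;
this module only re-exports it (it exists because of a short-lived file-name collision).
-/
import Fermat.Agent.X0.FFPlace
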