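/-
PROGRAM C / C-F1 (FF1 support, helper21): places of `F` versus height-one primes of a Dedekind
domain `B` with fraction field `F` (Prelude `Place.ofHeightOneSpectrum`).
-/
import Mathlib
import Fermat.Prelude.Def_AlgebraicCurve_DivisorClassGroup
import Fermat.Agent.X0.FFOrdLemmas

set_option autoImplicit false
set_option linter.unusedSectionVars false

open AlgebraicCurve IsDedekindDomain IsLocalRing Fermat.Agent.X0.FF

namespace Fermat.Agent.X0.FFDedekind

variable {K F : Type*} [Field K] [Field F] [Algebra K F]
variable {B : Type*} [CommRing B] [IsDedekindDomain B] [Algebra B F] [IsFractionRing B F]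
  [Algebra K B] [IsScalarTower K B F]

/-- In `ℤᵐ⁰`: `a * b = 1`, `a ≤ 1`, `b ≤ 1` imply `a = 1`. -/
theorem ffk_eq_one_of_mul_eq_one {a b : WithZero (Multiplicative ℤ)} (hab : a * b = 1)
    (ha : a ≤ 1) (hb : b ≤ 1) : a = 1 := by
  apply le_antisymm ha
  calc (1 : WithZero (Multiplicative ℤ)) = a * b := hab.symm
    _ ≤ a * 1 := mul_le_mul_right hb a
    _ = a := mul_one a

/-- The order function of the place attached to a height-one prime `w` of `B` is
`-log` of the `w`-adic valuation. -/
theorem ord_ofHeightOneSpectrum (w : HeightOneSpectrum B) (f : F) :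
    (Place.ofHeightOneSpectrum (K := K) (F := F) w).ord f = -(WithZero.log (w.valuation F f)) := by
  rcases eq_or_ne f 0 with rfl | hf
  · simp
  set v := Place.ofHeightOneSpectrum (K := K) (F := F) w with hv
  have hmem : ∀ g : F, g ∈ v.toValuationSubring ↔ w.valuation F g ≤ 1 := fun g => Iff.rfl
  -- units have valuation one
  have hunit : ∀ u : v.toValuationSubringˣ,
      w.valuation F ((u : v.toValuationSubring) : F) = 1 := by
    intro u
    have h1 := (hmem _).mp (u : v.toValuationSubring).2
    have h2 := (hmem _).mp ((u⁻¹ : v.toValuationSubringˣ) : v.toValuationSubring).2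
    have h3 : ((u : v.toValuationSubring) : F) *
        (((u⁻¹ : v.toValuationSubringˣ) : v.toValuationSubring) : F) = 1 := by
      have h0 : (u : v.toValuationSubring) * ((u⁻¹ : v.toValuationSubringˣ) : v.toValuationSubring)
          = 1 := u.mul_inv
      have := congrArg (Subtype.val : v.toValuationSubring → F) h0
      rwa [MulMemClass.coe_mul, OneMemClass.coe_one] at this
    have h4 := congrArg (w.valuation F) h3
    rw [map_mul, map_one] at h4
    exact ffk_eq_one_of_mul_eq_one h4 h1 h2
  obtain ⟨π, hπ⟩ := ffp_exists_irreducible v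
  have hπF : (π : F) ≠ 0 := by
    simpa [ne_eq, ZeroMemClass.coe_eq_zero] using hπ.ne_zero
  -- `l := log (val π)` equals `-1`
  have hπval0 : w.valuation F (π : F) ≠ 0 := (Valuation.ne_zero_iff _).mpr hπF
  obtain ⟨ϖ, hϖ⟩ := w.valuation_exists_uniformizer F
  have hϖ0 : ϖ ≠ 0 := by
    rintro rfl
    rw [map_zero] at hϖ
    exact WithZero.exp_ne_zero hϖ.symm
  obtain ⟨u', hu'⟩ := v.exists_unit_mul_zpow hϖ0 hπ
  have hl : WithZero.log (w.valuation F (π : F)) = -1 := by
    have h1 := congrArg (fun t => WithZero.log (w.valuation F t)) hu'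
    simp only [map_mul, map_zpow₀, hunit u', one_mul, WithZero.log_zpow, hϖ, WithZero.log_exp,
      smul_eq_mul] at h1
    -- `h1 : -1 = ord ϖ * l`
    have h2 : WithZero.log (w.valuation F (π : F)) ≤ 0 := by
      have h3 : w.valuation F (π : F) ≤ 1 := (hmem _).mp π.2
      rw [← WithZero.exp_log hπval0, ← WithZero.exp_zero, WithZero.exp_le_exp] at h3
      exact h3
    have h4 : IsUnit (WithZero.log (w.valuation F (π : F))) :=
      IsUnit.of_mul_eq_one (-(v.ord ϖ)) (by linarith)
    rcases Int.isUnit_iff.mp h4 with h5 | h5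
    · omega
    · exact h5
  obtain ⟨u, hu⟩ := v.exists_unit_mul_zpow hf hπ
  have h1 := congrArg (fun t => WithZero.log (w.valuation F t)) hu
  simp only [map_mul, map_zpow₀, hunit u, one_mul, WithZero.log_zpow, hl, smul_eq_mul] at h1
  rw [h1]
  ring

/-- For `b ∈ B` nonzero, the order at `w` is the exponent of `w` in the ideal `(b)`. -/
theorem ord_ofHeightOneSpectrum_algebraMap (w : HeightOneSpectrum B) {b : B} (hb : b ≠ 0) :
    (Place.ofHeightOneSpectrum (K := K) (F := F) w).ord (algebraMap B F b)
      = ((Associates.mk w.asIdeal).count (Associates.mk (Ideal.span {b} : Ideal B)).factors : ℤ) := by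
  rw [ord_ofHeightOneSpectrum, HeightOneSpectrum.valuation_of_algebraMap,
    HeightOneSpectrum.intValuation_if_neg _ hb, WithZero.log_exp, neg_neg]

theorem ord_ofHeightOneSpectrum_algebraMap_nonneg (w : HeightOneSpectrum B) (b : B) :
    0 ≤ (Place.ofHeightOneSpectrum (K := K) (F := F) w).ord (algebraMap B F b) := by
  rcases eq_or_ne b 0 with rfl | hb
  · simp
  · rw [ord_ofHeightOneSpectrum_algebraMap w hb]
    exact Int.natCast_nonneg _

/-- `0 < ord_w b` iff `b ∈ w` (for `b ≠ 0`). -/
theorem ord_ofHeightOneSpectrum_algebraMap_pos_iff (w : HeightOneSpectrum B) {b : B}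
    (hb : b ≠ 0) :
    0 < (Place.ofHeightOneSpectrum (K := K) (F := F) w).ord (algebraMap B F b)
      ↔ b ∈ w.asIdeal := by
  rw [← HeightOneSpectrum.valuation_lt_one_iff_mem (K := F), ord_ofHeightOneSpectrum]
  have h0 : w.valuation F (algebraMap B F b) ≠ 0 :=
    (Valuation.ne_zero_iff _).mpr ((map_ne_zero_iff _ (IsFractionRing.injective B F)).mpr hb)
  constructor
  · intro h
    rw [← WithZero.exp_log h0, ← WithZero.exp_zero, WithZero.exp_lt_exp]
    omega
  · intro h
    rw [← WithZero.exp_log h0, ← WithZero.exp_zero, WithZero.exp_lt_exp] at h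
    omega

/-- The ring hom `B → O_v` when `B ⊆ O_v`. -/
def toValuationSubringHom (v : Place K F)
    (hB : ∀ b : B, algebraMap B F b ∈ v.toValuationSubring) : B →+* v.toValuationSubring :=
  (algebraMap B F).codRestrict v.toValuationSubring.toSubring hB

@[simp] theorem coe_toValuationSubringHom (v : Place K F)
    (hB : ∀ b : B, algebraMap B F b ∈ v.toValuationSubring) (b : B) :
    ((toValuationSubringHom v hB b : v.toValuationSubring) : F) = algebraMap B F b := rfl

/-- The centre on `B` of a place `v` with `B ⊆ O_v`. -/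
def centre (v : Place K F) (hB : ∀ b : B, algebraMap B F b ∈ v.toValuationSubring) : Ideal B :=
  (maximalIdeal v.toValuationSubring).comap (toValuationSubringHom v hB)

theorem mem_centre_iff (v : Place K F) (hB : ∀ b : B, algebraMap B F b ∈ v.toValuationSubring)
    (b : B) : b ∈ centre v hB ↔ ¬ IsUnit (toValuationSubringHom v hB b) := by
  rw [centre, Ideal.mem_comap, mem_maximalIdeal, mem_nonunits_iff]

instance centre_isPrime (v : Place K F)
    (hB : ∀ b : B, algebraMap B F b ∈ v.toValuationSubring) : (centre v hB).IsPrime :=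
  Ideal.comap_isPrime _ _

theorem centre_ne_bot (v : Place K F) (hB : ∀ b : B, algebraMap B F b ∈ v.toValuationSubring) :
    centre v hB ≠ ⊥ := by
  intro hbot
  have hunit : ∀ b : B, b ≠ 0 → v.ord (algebraMap B F b) = 0 := by
    intro b hb
    have h1 : b ∉ centre v hB := by rw [hbot]; exact hb
    rw [mem_centre_iff, not_not] at h1
    have := ffp_ord_eq_zero_of_isUnit v h1
    rwa [coe_toValuationSubringHom] at this
  obtain ⟨π, hπ⟩ := ffp_exists_irreducible v
  have hπ1 := v.ord_coe_irreducible hπ
  obtain ⟨a, s, hs, has⟩ := IsFractionRing.div_surjective (A := B) (π : F)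
  have hs0 : s ≠ 0 := nonZeroDivisors.ne_zero hs
  have hsF : algebraMap B F s ≠ 0 :=
    (map_ne_zero_iff _ (IsFractionRing.injective B F)).mpr hs0
  have hπF : (π : F) ≠ 0 := by
    simpa [ne_eq, ZeroMemClass.coe_eq_zero] using hπ.ne_zero
  have ha0 : a ≠ 0 := by
    rintro rfl
    rw [map_zero, zero_div] at has
    exact hπF has.symm
  have haF : algebraMap B F a ≠ 0 :=
    (map_ne_zero_iff _ (IsFractionRing.injective B F)).mpr ha0
  rw [← has, div_eq_mul_inv, v.ord_mul haF (inv_ne_zero hsF), v.ord_inv, hunit a ha0,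
    hunit s hs0] at hπ1
  omega

/-- The height-one prime of `B` under a place `v` with `B ⊆ O_v`. -/
def centreSpec (v : Place K F) (hB : ∀ b : B, algebraMap B F b ∈ v.toValuationSubring) :
    HeightOneSpectrum B :=
  ⟨centre v hB, centre_isPrime v hB, centre_ne_bot v hB⟩

/-- **(D2)** A place whose valuation ring contains `B` is the place of its centre. -/
theorem ofHeightOneSpectrum_centreSpec (v : Place K F)
    (hB : ∀ b : B, algebraMap B F b ∈ v.toValuationSubring) :
    Place.ofHeightOneSpectrum (K := K) (F := F) (centreSpec v hB) = v := by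
  apply Place.ext
  rw [Place.ofHeightOneSpectrum_toValuationSubring,
    ← HeightOneSpectrum.valuationSubringAtPrime_eq_valuationSubring]
  refine ValuationSubring.eq_of_le_of_ne_top _ ?_ v.ne_top'
  rintro x ⟨a, s, hs, rfl⟩
  have hs' : IsUnit (toValuationSubringHom v hB s) := by
    have : s ∉ centre v hB := hs
    rwa [mem_centre_iff, not_not] at this
  have h1 : (algebraMap B F s)⁻¹ ∈ v.toValuationSubring := by
    obtain ⟨u, hu⟩ := hs'
    have h2 : ((u⁻¹ : v.toValuationSubringˣ) : v.toValuationSubring) *
        toValuationSubringHom v hB s = 1 := by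
      rw [← hu]; exact u.inv_mul
    have h3 := congrArg (Subtype.val : v.toValuationSubring → F) h2
    rw [MulMemClass.coe_mul, OneMemClass.coe_one, coe_toValuationSubringHom] at h3
    rw [← eq_inv_of_mul_eq_one_left h3]
    exact ((u⁻¹ : v.toValuationSubringˣ) : v.toValuationSubring).2
  exact mul_mem (hB a) h1

/-- Injectivity of `w ↦ Place.ofHeightOneSpectrum w`. -/
theorem ofHeightOneSpectrum_injective :
    Function.Injective (Place.ofHeightOneSpectrum (K := K) (F := F) (R := B)) := by
  intro w w' h
  apply HeightOneSpectrum.ext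
  ext b
  rcases eq_or_ne b 0 with rfl | hb
  · simp
  rw [← ord_ofHeightOneSpectrum_algebraMap_pos_iff (K := K) (F := F) w hb,
    ← ord_ofHeightOneSpectrum_algebraMap_pos_iff (K := K) (F := F) w' hb, h]

/-- The centre of `Place.ofHeightOneSpectrum w` is `w`. -/
theorem algebraMap_mem_ofHeightOneSpectrum (w : HeightOneSpectrum B) (b : B) :
    algebraMap B F b ∈ (Place.ofHeightOneSpectrum (K := K) (F := F) w).toValuationSubring :=
  ffp_mem_of_ord_nonneg _ (ord_ofHeightOneSpectrum_algebraMap_nonneg w b)

theorem centreSpec_ofHeightOneSpectrum (w : HeightOneSpectrum B) :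
    centreSpec (Place.ofHeightOneSpectrum (K := K) (F := F) w)
      (algebraMap_mem_ofHeightOneSpectrum w) = w :=
  ofHeightOneSpectrum_injective (K := K) (F := F)
    (ofHeightOneSpectrum_centreSpec _ (algebraMap_mem_ofHeightOneSpectrum w))

/-- **(D3)**, API-neutral form: the exponent of `w` in `(b)` is `ord_w b`. -/
theorem count_normalizedFactors_eq_ord (w : HeightOneSpectrum B) {b : B} (hb : b ≠ 0) :
    ((UniqueFactorizationMonoid.normalizedFactors (Ideal.span {b} : Ideal B)).count w.asIdeal : ℤ)
      = (Place.ofHeightOneSpectrum (K := K) (F := F) w).ord (algebraMap B F b) := by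
  have hI : (Ideal.span {b} : Ideal B) ≠ 0 := by
    rw [Ne, Ideal.zero_eq_bot, Ideal.span_singleton_eq_bot]
    exact hb
  rw [ord_ofHeightOneSpectrum_algebraMap w hb,
    Ideal.count_associates_factors_eq hI w.isPrime w.ne_bot]

/-- **(D3)**: the ramification index of `w` over `(π) ⊆ A` is `ord_w π`. -/
theorem ramificationIdx_eq_ord {A : Type*} [CommRing A] [Algebra A B] (w : HeightOneSpectrum B)
    (π : A) (hπ : algebraMap A B π ≠ 0) [w.asIdeal.LiesOver (Ideal.span {π})] :
    ((w.asIdeal.ramificationIdx A : ℕ) : ℤ)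
      = (Place.ofHeightOneSpectrum (K := K) (F := F) w).ord (algebraMap B F (algebraMap A B π)) := by
  have hmap : (Ideal.span {π}).map (algebraMap A B) = Ideal.span {algebraMap A B π} := by
    rw [Ideal.map_span, Set.image_singleton]
  have hp0 : (Ideal.span {π}).map (algebraMap A B) ≠ ⊥ := by
    rw [hmap, Ne, Ideal.span_singleton_eq_bot]
    exact hπ
  rw [Ideal.IsDedekindDomain.ramificationIdx_eq_normalizedFactors_count (Ideal.span {π}) w.asIdeal hp0,
    hmap, count_normalizedFactors_eq_ord (K := K) (F := F) w hπ]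

/-- Valuation rings of places are integrally closed: an element of `F` integral over a ring `A`
whose image lies in `O_v` is in `O_v`. -/
theorem mem_of_isIntegral_of_algebraMap_mem (v : Place K F) {A : Type*} [CommRing A] [Algebra A F]
    (hA : ∀ a : A, algebraMap A F a ∈ v.toValuationSubring) {f : F} (hf : IsIntegral A f) :
    f ∈ v.toValuationSubring := by
  obtain ⟨p, hmonic, hp⟩ := hf
  let φ : A →+* v.toValuationSubring := (algebraMap A F).codRestrict v.toValuationSubring.toSubring hA
  have h1 : IsIntegral v.toValuationSubring f := by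
    refine ⟨p.map φ, hmonic.map φ, ?_⟩
    rw [Polynomial.eval₂_map]
    exact hp
  obtain ⟨y, hy⟩ := (IsIntegrallyClosed.isIntegral_iff (R := v.toValuationSubring) (K := F)).mp h1
  rw [← hy]
  exact y.2

end Fermat.Agent.X0.FFDedekind
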