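/-
C-P1c (helper5): the valuation subring of `Frac S` attached to an `ℕ∞`-valued order function on a
domain `S` (used with `S = HolH`, `w = ordH · z₀`, to get a valued overfield at a point `z₀ ∈ ℍ`).
-/
import Mathlib

set_option autoImplicit false

namespace Fermat.Agent.X0.OrdVal

variable {S : Type*} [CommRing S]

/-- Axioms of an `ℕ∞`-valued order function on a commutative ring. -/
structure IsOrd (w : S → ℕ∞) : Prop where
  top_iff : ∀ a, w a = ⊤ ↔ a = 0
  map_mul : ∀ a b, w (a * b) = w a + w b
  map_add : ∀ a b, min (w a) (w b) ≤ w (a + b)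

namespace IsOrd

variable {w : S → ℕ∞} (hw : IsOrd w)

include hw

theorem map_zero : w 0 = ⊤ := (hw.top_iff 0).mpr rfl

theorem ne_top {a : S} (ha : a ≠ 0) : w a ≠ ⊤ := fun h => ha ((hw.top_iff a).mp h)

theorem map_one [Nontrivial S] : w 1 = 0 := by
  have h := hw.map_mul 1 1
  rw [mul_one] at h
  have h1 : w 1 ≠ ⊤ := hw.ne_top one_ne_zero
  lift w 1 to ℕ using h1 with n
  have : n = n + n := by exact_mod_cast h
  have : n = 0 := by omega
  simp [this]

theorem map_neg_one [Nontrivial S] : w (-1) = 0 := by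
  have h := hw.map_mul (-1) (-1)
  rw [neg_mul_neg, mul_one, hw.map_one] at h
  have h1 : w (-1) ≠ ⊤ := hw.ne_top (neg_ne_zero.mpr one_ne_zero)
  lift w (-1) to ℕ using h1 with n
  have : 0 = n + n := by exact_mod_cast h
  have : n = 0 := by omega
  simp [this]

theorem map_neg [Nontrivial S] (a : S) : w (-a) = w a := by
  have h := hw.map_mul (-1) a
  rw [neg_one_mul, hw.map_neg_one, zero_add] at h
  exact h

variable {E : Type*} [Field E] [Algebra S E] [IsFractionRing S E] [IsDomain S]

/-- The valuation subring of `E = Frac S` attached to the order function `w`. -/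
def valuationSubring : ValuationSubring E where
  carrier := {x | ∃ a b : S, b ≠ 0 ∧ w b ≤ w a ∧ x * algebraMap S E b = algebraMap S E a}
  mul_mem' := by
    rintro x y ⟨a, b, hb, hab, hx⟩ ⟨a', b', hb', hab', hy⟩
    refine ⟨a * a', b * b', mul_ne_zero hb hb', ?_, ?_⟩
    · rw [hw.map_mul, hw.map_mul]
      exact add_le_add hab hab'
    · rw [_root_.map_mul, _root_.map_mul, ← hx, ← hy]
      ring
  one_mem' := ⟨1, 1, one_ne_zero, le_refl _, by simp⟩
  add_mem' := by
    rintro x y ⟨a, b, hb, hab, hx⟩ ⟨a', b', hb', hab', hy⟩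
    refine ⟨a * b' + a' * b, b * b', mul_ne_zero hb hb', ?_, ?_⟩
    · refine le_trans ?_ (hw.map_add _ _)
      rw [hw.map_mul, hw.map_mul, hw.map_mul]
      refine le_min (add_le_add hab (le_refl _)) ?_
      rw [add_comm (w b)]
      exact add_le_add hab' (le_refl _)
    · rw [_root_.map_add, _root_.map_mul, _root_.map_mul, _root_.map_mul, ← hx, ← hy]
      ring
  zero_mem' := ⟨0, 1, one_ne_zero, by rw [hw.map_zero]; exact le_top, by simp⟩
  neg_mem' := by
    rintro x ⟨a, b, hb, hab, hx⟩
    refine ⟨-a, b, hb, by rw [hw.map_neg]; exact hab, ?_⟩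
    rw [_root_.map_neg, ← hx]
    ring
  mem_or_inv_mem' := by
    intro x
    obtain ⟨a, b, hb, rfl⟩ := IsFractionRing.div_surjective (A := S) x
    have hb0 : b ≠ 0 := nonZeroDivisors.ne_zero hb
    have hbE : algebraMap S E b ≠ 0 := by
      rwa [Ne, IsFractionRing.to_map_eq_zero_iff]
    by_cases ha0 : a = 0
    · left
      refine ⟨0, 1, one_ne_zero, by rw [hw.map_zero]; exact le_top, ?_⟩
      simp [ha0]
    have haE : algebraMap S E a ≠ 0 := by
      rwa [Ne, IsFractionRing.to_map_eq_zero_iff]
    rcases le_total (w b) (w a) with h | h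
    · left
      exact ⟨a, b, hb0, h, div_mul_cancel₀ _ hbE⟩
    · right
      refine ⟨b, a, ha0, h, ?_⟩
      rw [inv_div, div_mul_cancel₀ _ haE]

theorem div_mem_valuationSubring_iff (a b : S) (hb : b ≠ 0) :
    algebraMap S E a / algebraMap S E b ∈ hw.valuationSubring (E := E) ↔ w b ≤ w a := by
  have hbE : algebraMap S E b ≠ 0 := by
    rwa [Ne, IsFractionRing.to_map_eq_zero_iff]
  constructor
  · rintro ⟨a', b', hb', hab', hx⟩
    have hb'E : algebraMap S E b' ≠ 0 := by
      rwa [Ne, IsFractionRing.to_map_eq_zero_iff]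
    have h1 : algebraMap S E (a * b') = algebraMap S E (a' * b) := by
      rw [_root_.map_mul, _root_.map_mul, ← hx]
      field_simp
    have h2 : a * b' = a' * b := IsFractionRing.injective S E h1
    have h3 : w a + w b' = w a' + w b := by rw [← hw.map_mul, ← hw.map_mul, h2]
    have hb't : w b' ≠ ⊤ := hw.ne_top hb'
    have h4 : w b + w b' ≤ w a + w b' := by
      rw [h3, add_comm (w b)]
      exact add_le_add hab' (le_refl _)
    exact (ENat.add_le_add_iff_right hb't).mp h4
  · intro h
    exact ⟨a, b, hb, h, div_mul_cancel₀ _ hbE⟩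

theorem div_mem_nonunits_iff (a b : S) (hb : b ≠ 0) :
    algebraMap S E a / algebraMap S E b ∈ (hw.valuationSubring (E := E)).nonunits ↔
      w b < w a := by
  have hbE : algebraMap S E b ≠ 0 := by
    rwa [Ne, IsFractionRing.to_map_eq_zero_iff]
  by_cases ha0 : a = 0
  · subst ha0
    rw [_root_.map_zero, zero_div, hw.map_zero]
    refine ⟨fun _ => lt_top_iff_ne_top.mpr (hw.ne_top hb), fun _ => ?_⟩
    rw [ValuationSubring.mem_nonunits_iff, _root_.map_zero]
    exact zero_lt_one
  · have haE : algebraMap S E a ≠ 0 := by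
      rwa [Ne, IsFractionRing.to_map_eq_zero_iff]
    rw [ValuationSubring.mem_nonunits_iff_or, inv_div, hw.div_mem_valuationSubring_iff b a ha0,
      not_le]
    constructor
    · rintro (h | h)
      · exact absurd h (div_ne_zero haE hbE)
      · exact h
    · intro h
      exact Or.inr h

theorem algebraMap_mem_valuationSubring (a : S) :
    algebraMap S E a ∈ hw.valuationSubring (E := E) :=
  ⟨a, 1, one_ne_zero, by rw [hw.map_one]; exact zero_le, by simp⟩

theorem algebraMap_mem_nonunits_iff (a : S) :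
    algebraMap S E a ∈ (hw.valuationSubring (E := E)).nonunits ↔ 0 < w a := by
  have h := hw.div_mem_nonunits_iff (E := E) a 1 one_ne_zero
  rwa [_root_.map_one, div_one, hw.map_one] at h

end IsOrd

end Fermat.Agent.X0.OrdVal
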