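/-
C-P1c (helper5): SURJ at finite points.  Every place `v` of `F = FF N` with
`0 < v.ord (j - c)`, `j(z₀) = ι c`, is the point place `pointPlace g z₀` for some `g ∈ SL(2, ℤ)`.

Method: the valued overfield at `z₀` is `E := FractionRing HolH` with the valuation subring attached
to the order function `ordH · z₀` (`OrdVal`); the `ψ(N) = [F : ℚbar(j)]` embeddings are the
`Frac`-lifts of `u ↦ Θ u ∘ g⁻¹`; then `ValUniq.exists_eq_comap_of_sub_mem_nonunits`.
-/
import Fermat.Agent.X0.PointPlaces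
import Fermat.Agent.X0.ValUniq
import Fermat.Agent.X0.OrdVal

set_option autoImplicit false
set_option linter.unusedSectionVars false

open UpperHalfPlane hiding I
open Complex Filter Function Module
open scoped Manifold MatrixGroups Topology

namespace Fermat.Agent.X0.SurjPoint

open Fermat.Agent.X0 Fermat.Agent.X0.JOrderMain Fermat.Agent.X0.PointPlaces AlgebraicCurve

noncomputable section

/-! ### `HolH` is a domain, `ordH · z₀` is an order function on it -/

instance : Nontrivial HolH :=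
  ⟨⟨0, 1, fun h => by
    have h1 := congrArg (fun f : HolH => (f : ℍ → ℂ) ptI) h
    simp at h1⟩⟩

instance : NoZeroDivisors HolH :=
  ⟨fun {a b} h => by
    have h1 : (a : ℍ → ℂ) * (b : ℍ → ℂ) = 0 := congrArg (fun f : HolH => (f : ℍ → ℂ)) h
    rcases mul_eq_zero_HolH a.2 b.2 h1 with h2 | h2
    · exact Or.inl (Subtype.ext h2)
    · exact Or.inr (Subtype.ext h2)⟩

instance : IsDomain HolH := NoZeroDivisors.to_isDomain _

theorem ordH_zero (z₀ : ℍ) : ordH (0 : ℍ → ℂ) z₀ = ⊤ := by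
  unfold ordH
  rw [analyticOrderAt_eq_top]
  exact Eventually.of_forall fun w => rfl

/-- `ordH · z₀` is an order function on `HolH`. -/
theorem isOrd_ordH (z₀ : ℍ) : OrdVal.IsOrd (fun a : HolH => ordH (a : ℍ → ℂ) z₀) where
  top_iff a := by
    constructor
    · intro h
      exact Subtype.ext (eq_zero_of_ordH_eq_top a.2 z₀ h)
    · rintro rfl
      exact ordH_zero z₀
  map_mul a b := ordH_mul a.2 b.2 z₀
  map_add a b := le_ordH_add a.2 b.2 z₀

/-- The field of meromorphic functions on `ℍ`. -/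
abbrev MerH : Type := FractionRing HolH

/-- The valuation subring of `MerH` of functions regular at `z₀`. -/
def valAt (z₀ : ℍ) : ValuationSubring MerH := (isOrd_ordH z₀).valuationSubring

/-! ### The embeddings `F → MerH` -/

variable {N : ℕ} [NeZero N] [IsFractionRing (Rsub N) (FF N)] {Θ : Rsub N →+* (ℍ → ℂ)}

/-- `u ↦ Θ u ∘ g⁻¹` as a ring hom `R → HolH`. -/
def embR (hΘ : IsRealize Θ) (g : SL(2, ℤ)) : Rsub N →+* HolH :=
  (compSLHom g⁻¹).comp (Θ.codRestrict HolH hΘ.hol)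

theorem coe_embR (hΘ : IsRealize Θ) (g : SL(2, ℤ)) (u : Rsub N) :
    ((embR hΘ g u : HolH) : ℍ → ℂ) = compSL (Θ u) g⁻¹ := rfl

theorem ordH_embR (hΘ : IsRealize Θ) (g : SL(2, ℤ)) (z₀ : ℍ) (u : Rsub N) :
    ordH ((embR hΘ g u : HolH) : ℍ → ℂ) z₀ = ptOrd Θ g z₀ u := rfl

theorem embR_injective (hΘ : IsRealize Θ) (g : SL(2, ℤ)) : Function.Injective (embR hΘ g) := by
  rw [injective_iff_map_eq_zero]
  intro u hu
  have h0 : compSL (Θ u) g⁻¹ = 0 := by
    rw [← coe_embR hΘ g u, hu]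
    rfl
  have h1 : Θ u = 0 := by
    rw [← compSL_inv_cancel (Θ u) g, h0]
    rfl
  exact hΘ.inj (by rw [h1, map_zero])

theorem embR_ne_zero (hΘ : IsRealize Θ) (g : SL(2, ℤ)) {u : Rsub N} (hu : u ≠ 0) :
    embR hΘ g u ≠ 0 := fun h => hu (embR_injective hΘ g (by rw [h, map_zero]))

/-- The embedding `F → MerH`, `u / s ↦ (Θ u ∘ g⁻¹) / (Θ s ∘ g⁻¹)`. -/
def emb (hΘ : IsRealize Θ) (g : SL(2, ℤ)) : FF N →+* MerH :=
  IsFractionRing.lift (A := Rsub N) (K := FF N)
    (g := (algebraMap HolH MerH).comp (embR hΘ g))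
    ((IsFractionRing.injective HolH MerH).comp (embR_injective hΘ g))

theorem emb_coe (hΘ : IsRealize Θ) (g : SL(2, ℤ)) (u : Rsub N) :
    emb hΘ g (u : FF N) = algebraMap HolH MerH (embR hΘ g u) :=
  IsFractionRing.lift_algebraMap _ u

theorem emb_div (hΘ : IsRealize Θ) (g : SL(2, ℤ)) (u s : Rsub N) :
    emb hΘ g ((u : FF N) / (s : FF N)) =
      algebraMap HolH MerH (embR hΘ g u) / algebraMap HolH MerH (embR hΘ g s) := by
  rw [map_div₀, emb_coe, emb_coe]

theorem emb_div_mem_iff (hΘ : IsRealize Θ) (g : SL(2, ℤ)) (z₀ : ℍ) (u s : Rsub N) (hs : s ≠ 0) :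
    emb hΘ g ((u : FF N) / (s : FF N)) ∈ valAt z₀ ↔ ptOrd Θ g z₀ s ≤ ptOrd Θ g z₀ u := by
  rw [emb_div]
  exact (isOrd_ordH z₀).div_mem_valuationSubring_iff _ _ (embR_ne_zero hΘ g hs)

theorem emb_algebraMap (hΘ : IsRealize Θ) (g : SL(2, ℤ)) (a : Kbar) :
    emb hΘ g (algebraMap Kbar (FF N) a) =
      algebraMap HolH MerH ⟨fun _ => iotaK a, mdifferentiable_const⟩ := by
  change emb hΘ g ((algebraMap Kbar (Rsub N) a : Rsub N) : FF N) = _
  rw [emb_coe]
  congr 1
  apply Subtype.ext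
  rw [coe_embR, hΘ.map_algebraMap]
  rfl

theorem emb_jF (hΘ : IsRealize Θ) (g : SL(2, ℤ)) :
    emb hΘ g (jF N) = algebraMap HolH MerH ⟨jFun, jFun_mdifferentiable⟩ := by
  change emb hΘ g ((⟨jF N, jF_mem_Rsub N⟩ : Rsub N) : FF N) = _
  rw [emb_coe]
  congr 1
  apply Subtype.ext
  rw [coe_embR]
  change compSL (Θ ⟨jF N, jF_mem_Rsub N⟩) g⁻¹ = jFun
  rw [hΘ.map_jF]
  funext z
  exact jFun_smul g⁻¹ z

/-! ### Surjectivity -/

open IntermediateField in
/-- **SURJ at finite points, valuation-subring form.** -/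
theorem exists_comap_eq (hΘ : IsRealize Θ) (hinj : JInj)
    [FiniteDimensional (Kj N) (FF N)]
    (hdeg : Nat.card (SL(2, ℤ) ⧸ CongruenceSubgroup.Gamma0 N) = finrank (Kj N) (FF N))
    (hdist : ∀ γ γ' : SL(2, ℤ), (∀ u : Rsub N, compSL (Θ u) γ = compSL (Θ u) γ') →
      γ' * γ⁻¹ ∈ CongruenceSubgroup.Gamma0 N)
    (z₀ : ℍ) (c : Kbar) (hc : jFun z₀ = iotaK c)
    (v : Place Kbar (FF N)) (hv : 0 < v.ord (jF N - algebraMap Kbar (FF N) c)) :
    ∃ g : SL(2, ℤ), v.toValuationSubring = (valAt z₀).comap (emb hΘ g) := by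
  have : FiniteDimensional Kbar⟮jF N⟯ (FF N) := ‹FiniteDimensional (Kj N) (FF N)›
  have : CharZero Kbar⟮jF N⟯ :=
    charZero_of_injective_algebraMap (algebraMap Kbar Kbar⟮jF N⟯).injective
  have : Algebra.IsIntegral Kbar⟮jF N⟯ (FF N) := Algebra.IsIntegral.of_finite _ _
  have : Algebra.IsSeparable Kbar⟮jF N⟯ (FF N) := Algebra.IsSeparable.of_integral _ _
  have hdeg' : Nat.card (SL(2, ℤ) ⧸ CongruenceSubgroup.Gamma0 N) = finrank Kbar⟮jF N⟯ (FF N) :=
    hdeg
  have : Finite (SL(2, ℤ) ⧸ CongruenceSubgroup.Gamma0 N) := by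
    apply Nat.finite_of_card_ne_zero
    rw [hdeg']
    exact (Module.finrank_pos).ne'
  let σ : SL(2, ℤ) ⧸ CongruenceSubgroup.Gamma0 N → FF N →+* MerH := fun x => emb hΘ x.out
  have hσinj : Function.Injective σ := by
    intro x y hxy
    have h1 : ∀ u : Rsub N, compSL (Θ u) (x.out)⁻¹ = compSL (Θ u) (y.out)⁻¹ := by
      intro u
      have h2 : emb hΘ x.out (u : FF N) = emb hΘ y.out (u : FF N) :=
        congrArg (fun f : FF N →+* MerH => f (u : FF N)) hxy
      rw [emb_coe, emb_coe] at h2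
      have h3 := IsFractionRing.injective HolH MerH h2
      rw [← coe_embR hΘ, ← coe_embR hΘ, h3]
    have h4 := hdist _ _ h1
    rw [inv_inv] at h4
    have h5 : ((y.out : SL(2, ℤ)) : SL(2, ℤ) ⧸ CongruenceSubgroup.Gamma0 N) = (x.out : SL(2, ℤ)) :=
      QuotientGroup.eq.mpr h4
    rw [QuotientGroup.out_eq', QuotientGroup.out_eq'] at h5
    exact h5.symm
  obtain ⟨x, hx⟩ := ValUniq.exists_eq_comap_of_sub_mem_nonunits (K := Kbar) (jF N) σ hdeg' hσinj
    (fun i j a => by simp only [σ]; rw [emb_algebraMap, emb_algebraMap])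
    (fun i j => by simp only [σ]; rw [emb_jF, emb_jF])
    (valAt z₀)
    (fun i a => by
      simp only [σ]
      rw [emb_algebraMap]
      exact (isOrd_ordH z₀).algebraMap_mem_valuationSubring _)
    v.toValuationSubring v.algebraMap_mem' c
    (fun i => by
      simp only [σ]
      rw [← coe_jSub, emb_coe]
      refine ((isOrd_ordH z₀).algebraMap_mem_nonunits_iff _).mpr ?_
      show 0 < ordH ((embR hΘ i.out (jSub N c) : HolH) : ℍ → ℂ) z₀
      rw [ordH_embR, ptOrd_jSub hΘ hinj _ z₀ c hc]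
      exact_mod_cast ellOrder_pos z₀)
    (by
      rw [ValuationSubring.mem_nonunits_iff_or]
      right
      rw [FF.ffp_mem_iff_ord_nonneg, v.ord_inv]
      omega)
  exact ⟨x.out, hx⟩

/-- **SURJ at finite points**: every place over `j = c = j(z₀)` is a point place. -/
theorem exists_pointPlace_eq (hFF5 : OrdFunPlace Kbar (FF N)) (hΘ : IsRealize Θ) (hinj : JInj)
    (z₀ : ℍ) (c : Kbar) (hc : jFun z₀ = iotaK c)
    [FiniteDimensional (Kj N) (FF N)]
    (hdeg : Nat.card (SL(2, ℤ) ⧸ CongruenceSubgroup.Gamma0 N) = finrank (Kj N) (FF N))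
    (hdist : ∀ γ γ' : SL(2, ℤ), (∀ u : Rsub N, compSL (Θ u) γ = compSL (Θ u) γ') →
      γ' * γ⁻¹ ∈ CongruenceSubgroup.Gamma0 N)
    (v : Place Kbar (FF N)) (hv : 0 < v.ord (jF N - algebraMap Kbar (FF N) c)) :
    ∃ g : SL(2, ℤ), pointPlace hFF5 hΘ hinj z₀ c hc g = v := by
  obtain ⟨g, hg⟩ := exists_comap_eq hΘ hinj hdeg hdist z₀ c hc v hv
  obtain ⟨v', m, hm, hv'⟩ := exists_isPointPlace hFF5 hΘ hinj g z₀ c hc
  have hvv' : v = v' := by
    apply Place.ext
    ext f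
    rcases eq_or_ne f 0 with rfl | hf
    · simp
    obtain ⟨u, s, hu, hs, rfl⟩ := pp_exists_div (R := Rsub N) f hf
    have huF := pp_coe_ne_zero (F := FF N) hu
    have hsF := pp_coe_ne_zero (F := FF N) hs
    rw [hg, ValuationSubring.mem_comap, emb_div_mem_iff hΘ g z₀ u s hs,
      FF.ffp_mem_iff_ord_nonneg, div_eq_mul_inv, v'.ord_mul huF (inv_ne_zero hsF), v'.ord_inv]
    have h1 := hv' u hu
    have h2 := hv' s hs
    have hu' := ptOrd_ne_top hΘ g z₀ hu
    have hs' := ptOrd_ne_top hΘ g z₀ hs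
    rw [← ENat.natCast_toNat hu', ← ENat.natCast_toNat hs', Nat.cast_le]
    have hmZ : (0 : ℤ) < m := by exact_mod_cast hm
    constructor
    · intro h
      have h3 : ((ptOrd Θ g z₀ s).toNat : ℤ) ≤ ((ptOrd Θ g z₀ u).toNat : ℤ) := by exact_mod_cast h
      rw [h1, h2] at h3
      have := le_of_mul_le_mul_left h3 hmZ
      omega
    · intro h
      have h3 : (m : ℤ) * v'.ord (s : FF N) ≤ m * v'.ord (u : FF N) :=
        mul_le_mul_of_nonneg_left (by omega) hmZ.le
      rw [← h1, ← h2] at h3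
      exact_mod_cast h3
  subst hvv'
  exact ⟨g, pointPlace_eq_of_isPointPlace hFF5 hΘ hinj z₀ c hc ⟨hm, hv'⟩⟩

end

end Fermat.Agent.X0.SurjPoint
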