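/-
C-F2a part 2 (helper7): the symmetry lemma at elliptic points.
If `f` is holomorphic on the upper half plane and invariant under an elliptic element fixing `z₀`,
then its order at `z₀` is divisible by the order of the stabiliser (2 at `i`, 3 at `ρ`).
-/
import Fermat.Agent.X0.HolOrder

set_option autoImplicit false

open UpperHalfPlane Complex Filter Topology
open scoped MatrixGroups Manifold

namespace Fermat.Agent.X0

noncomputable section

/-- Local symmetry lemma: if `F` has order `k` at a fixed point `z₀` of `m`, `F ∘ m = F` near `z₀`,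
and `m w - z₀ = (w - z₀) μ w`, then `μ z₀ ^ k = 1`. -/
theorem pow_eq_one_of_comp_eventuallyEq {F m μ : ℂ → ℂ} {z₀ : ℂ} {k : ℕ}
    (hF : AnalyticAt ℂ F z₀) (hk : analyticOrderAt F z₀ = k)
    (hm : ContinuousAt m z₀) (hmz : m z₀ = z₀)
    (hμ : ContinuousAt μ z₀) (hfac : ∀ᶠ w in 𝓝 z₀, m w - z₀ = (w - z₀) * μ w)
    (hinv : ∀ᶠ w in 𝓝 z₀, F (m w) = F w) : μ z₀ ^ k = 1 := by
  obtain ⟨H, hHa, hH0, hFH⟩ := (hF.analyticOrderAt_eq_natCast).mp hk
  have hmt : Tendsto m (𝓝 z₀) (𝓝 z₀) := by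
    have := hm.tendsto
    rwa [hmz] at this
  have h1 : ∀ᶠ w in 𝓝 z₀, F (m w) = (m w - z₀) ^ k • H (m w) := hmt.eventually hFH
  set D : ℂ → ℂ := fun w => μ w ^ k * H (m w) - H w with hD
  have hDc : ContinuousAt D z₀ := by
    have hHm : ContinuousAt (fun w => H (m w)) z₀ := by
      have : ContinuousAt H (m z₀) := by rw [hmz]; exact hHa.continuousAt
      exact ContinuousAt.comp (g := H) this hm
    exact ((hμ.pow k).mul hHm).sub hHa.continuousAt
  have h2 : ∀ᶠ w in 𝓝[≠] z₀, D w = 0 := by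
    rw [eventually_nhdsWithin_iff]
    filter_upwards [hFH, h1, hfac, hinv] with w a b c d hw
    have hw0 : w - z₀ ≠ 0 := sub_ne_zero.mpr hw
    have e : (w - z₀) ^ k * D w = 0 := by
      have : (w - z₀) ^ k * D w = (m w - z₀) ^ k • H (m w) - (w - z₀) ^ k • H w := by
        rw [c, mul_pow, hD]; simp only [smul_eq_mul]; ring
      rw [this, ← b, ← a, d, sub_self]
    exact (mul_eq_zero.mp e).resolve_left (pow_ne_zero k hw0)
  have h3 : Tendsto D (𝓝[≠] z₀) (𝓝 (D z₀)) := hDc.tendsto.mono_left nhdsWithin_le_nhds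
  have h4 : Tendsto D (𝓝[≠] z₀) (𝓝 0) := by
    refine Tendsto.congr' ?_ tendsto_const_nhds
    filter_upwards [h2] with w hw
    exact hw.symm
  have h5 : D z₀ = 0 := tendsto_nhds_unique h3 h4
  simp only [hD, hmz] at h5
  have : (μ z₀ ^ k - 1) * H z₀ = 0 := by rw [← h5]; ring
  exact sub_eq_zero.mp ((mul_eq_zero.mp this).resolve_right hH0)

/-- The determinant relation of `γ : SL(2, ℤ)` cast to `ℂ`. -/
theorem det_coe_complex (γ : SL(2, ℤ)) :
    ((γ 0 0 : ℤ) : ℂ) * (γ 1 1 : ℤ) - ((γ 0 1 : ℤ) : ℂ) * (γ 1 0 : ℤ) = 1 := by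
  have := γ.det_coe
  rw [Matrix.det_fin_two] at this
  exact_mod_cast this

/-- Symmetry at a fixed point: if `σ z₀ = z₀`, `f ∘ σ = f` and `f` has order `k` at `z₀`, then
`(c z₀ + d) ^ (2 k) = 1`. -/
theorem denom_pow_eq_one_of_invariant {f : ℍ → ℂ} (hf : f ∈ HolH) (σ : SL(2, ℤ)) (z₀ : ℍ)
    (hfix : σ • z₀ = z₀) (hinv : compSL f σ = f) {k : ℕ} (hk : ordH f z₀ = k) :
    ((((σ 1 0 : ℤ) : ℂ) * z₀ + (σ 1 1 : ℤ)) ^ 2) ^ k = 1 := by
  set c : ℂ := ((σ 1 0 : ℤ) : ℂ) with hc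
  set d : ℂ := ((σ 1 1 : ℤ) : ℂ) with hd
  have hden0 : c * z₀ + d ≠ 0 := moebC_denom_ne_zero σ z₀
  have hmz : moebC σ (z₀ : ℂ) = z₀ := by rw [← coe_smul_eq_moebC, hfix]
  have key := pow_eq_one_of_comp_eventuallyEq (F := f ∘ ofComplex) (m := moebC σ)
    (μ := fun w => 1 / ((c * w + d) * (c * z₀ + d))) (z₀ := (z₀ : ℂ)) (k := k)
    (analyticAt_comp_ofComplex hf z₀) hk (analyticAt_moebC σ z₀).continuousAt hmz ?_ ?_ ?_
  · have h2 : (1 / ((c * (z₀ : ℂ) + d) * (c * z₀ + d))) ^ k = 1 := key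
    rw [one_div, inv_pow, inv_eq_one, ← sq] at h2
    exact h2
  · -- continuity of μ
    have hc1 : ContinuousAt (fun w : ℂ => (c * w + d) * (c * z₀ + d)) (z₀ : ℂ) := by fun_prop
    exact continuousAt_const.div hc1 (mul_ne_zero hden0 hden0)
  · -- factorisation
    filter_upwards [isOpen_upperHalfPlaneSet.mem_nhds z₀.im_pos] with w hw
    have hdw : c * w + d ≠ 0 := moebC_denom_ne_zero σ ⟨w, hw⟩
    have hdet := det_coe_complex σ
    have e1 : moebC σ w - z₀ = moebC σ w - moebC σ z₀ := by rw [hmz]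
    rw [e1]
    simp only [moebC]
    rw [div_sub_div _ _ hdw hden0, mul_one_div, div_eq_div_iff (mul_ne_zero hdw hden0)
      (mul_ne_zero hdw hden0)]
    linear_combination (w - z₀) * ((c * w + d) * (c * z₀ + d)) * hdet
  · -- invariance
    have h1 := compSL_comp_ofComplex_eventuallyEq f σ z₀
    rw [hinv] at h1
    filter_upwards [h1] with w hw
    exact hw.symm

theorem ho_S_entries : (ModularGroup.S 0 0 = 0) ∧ (ModularGroup.S 0 1 = -1) ∧
    (ModularGroup.S 1 0 = 1) ∧ (ModularGroup.S 1 1 = 0) := by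
  refine ⟨?_, ?_, ?_, ?_⟩ <;> simp [ModularGroup.S]

theorem ho_ST_entries : ((ModularGroup.S * ModularGroup.T) 0 0 = 0) ∧
    ((ModularGroup.S * ModularGroup.T) 0 1 = -1) ∧
    ((ModularGroup.S * ModularGroup.T) 1 0 = 1) ∧ ((ModularGroup.S * ModularGroup.T) 1 1 = 1) := by
  refine ⟨?_, ?_, ?_, ?_⟩ <;>
    simp [ModularGroup.coe_S, ModularGroup.coe_T, Matrix.SpecialLinearGroup.coe_mul,
      Matrix.mul_apply, Fin.sum_univ_two]

theorem ho_ptI_coe : ((ptI : ℍ) : ℂ) = Complex.I := rfl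

theorem ho_S_smul_ptI : ModularGroup.S • ptI = ptI := by
  apply UpperHalfPlane.ext
  rw [coe_smul_eq_moebC, moebC]
  obtain ⟨h00, h01, h10, h11⟩ := ho_S_entries
  rw [h00, h01, h10, h11, ho_ptI_coe]
  simp

theorem ho_ptRho_coe : ((ptRho : ℍ) : ℂ) = ⟨-1 / 2, Real.sqrt 3 / 2⟩ := rfl

theorem ho_ptRho_sq_add : ((ptRho : ℍ) : ℂ) ^ 2 + (ptRho : ℂ) + 1 = 0 := by
  rw [ho_ptRho_coe]
  have h3 : Real.sqrt 3 * Real.sqrt 3 = 3 := Real.mul_self_sqrt (by norm_num)
  apply Complex.ext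
  · simp [sq]; nlinarith
  · simp [sq]; ring

theorem ho_ptRho_cube : ((ptRho : ℍ) : ℂ) ^ 3 = 1 := by
  linear_combination ((ptRho : ℂ) - 1) * ho_ptRho_sq_add

theorem ho_ptRho_ne_one : ((ptRho : ℍ) : ℂ) ≠ 1 := by
  intro h
  have h2 := ho_ptRho_sq_add
  rw [h] at h2
  norm_num at h2

theorem ho_ST_smul_ptRho : (ModularGroup.S * ModularGroup.T) • ptRho = ptRho := by
  apply UpperHalfPlane.ext
  rw [coe_smul_eq_moebC, moebC]
  obtain ⟨h00, h01, h10, h11⟩ := ho_ST_entries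
  rw [h00, h01, h10, h11]
  have hden : ((1 : ℤ) : ℂ) * (ptRho : ℂ) + ((1 : ℤ) : ℂ) ≠ 0 := by
    have := moebC_denom_ne_zero (ModularGroup.S * ModularGroup.T) ptRho
    rwa [h10, h11] at this
  rw [div_eq_iff hden]
  push_cast
  linear_combination -ho_ptRho_sq_add

theorem ho_isPrimitiveRoot_ptRho : IsPrimitiveRoot ((ptRho : ℍ) : ℂ) 3 := by
  refine IsPrimitiveRoot.mk_of_lt _ (by norm_num) ho_ptRho_cube ?_
  intro l hl0 hl3 h
  interval_cases l
  · exact ho_ptRho_ne_one (by simpa using h)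
  · have h2 := ho_ptRho_sq_add
    rw [h] at h2
    have : ((ptRho : ℍ) : ℂ) = -2 := by linear_combination h2
    have h3 := ho_ptRho_cube
    rw [this] at h3
    norm_num at h3

/-- Item 8 (a): at the orbit of `i`. -/
theorem two_dvd_of_invariant_S {f : ℍ → ℂ} (hf : f ∈ HolH) (g : SL(2, ℤ))
    (hinv : compSL f (g * ModularGroup.S * g⁻¹) = f) {k : ℕ} (hk : ordH f (g • ptI) = k) :
    2 ∣ k := by
  have hf' : compSL f g ∈ HolH := compSL_mem_HolH hf g
  have hinv' : compSL (compSL f g) ModularGroup.S = compSL f g := by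
    rw [← compSL_mul]
    conv_rhs => rw [← hinv]
    rw [← compSL_mul]
    congr 1
    group
  have hk' : ordH (compSL f g) ptI = k := by rw [ordH_compSL hf, hk]
  have key := denom_pow_eq_one_of_invariant hf' ModularGroup.S ptI ho_S_smul_ptI hinv' hk'
  obtain ⟨h00, h01, h10, h11⟩ := ho_S_entries
  rw [h10, h11, ho_ptI_coe] at key
  have h1 : (((1 : ℤ) : ℂ) * Complex.I + ((0 : ℤ) : ℂ)) ^ 2 = -1 := by
    push_cast; rw [mul_comm, add_zero, mul_one, Complex.I_sq]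
  rw [h1] at key
  rcases Nat.even_or_odd k with he | ho
  · exact he.two_dvd
  · rw [ho.neg_one_pow] at key
    norm_num at key

/-- Item 8 (b): at the orbit of `ρ`. -/
theorem three_dvd_of_invariant_ST {f : ℍ → ℂ} (hf : f ∈ HolH) (g : SL(2, ℤ))
    (hinv : compSL f (g * (ModularGroup.S * ModularGroup.T) * g⁻¹) = f) {k : ℕ}
    (hk : ordH f (g • ptRho) = k) : 3 ∣ k := by
  have hf' : compSL f g ∈ HolH := compSL_mem_HolH hf g
  have hinv' : compSL (compSL f g) (ModularGroup.S * ModularGroup.T) = compSL f g := by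
    rw [← compSL_mul]
    conv_rhs => rw [← hinv]
    rw [← compSL_mul]
    congr 1
    group
  have hk' : ordH (compSL f g) ptRho = k := by rw [ordH_compSL hf, hk]
  have key := denom_pow_eq_one_of_invariant hf' (ModularGroup.S * ModularGroup.T) ptRho
    ho_ST_smul_ptRho hinv' hk'
  obtain ⟨h00, h01, h10, h11⟩ := ho_ST_entries
  rw [h10, h11] at key
  have h1 : (((1 : ℤ) : ℂ) * (ptRho : ℂ) + ((1 : ℤ) : ℂ)) ^ 2 = (ptRho : ℂ) := by
    push_cast
    linear_combination ho_ptRho_sq_add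
  rw [h1] at key
  exact (ho_isPrimitiveRoot_ptRho.pow_eq_one_iff_dvd k).mp key

end

end Fermat.Agent.X0
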