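/-
C-F2d (helper19): basic closure and uniqueness properties of `IsQExp` for holomorphic functions
(constants, shift, sums, products, uniqueness of the attached Laurent series), via Mathlib's
`qExpansion` API. Names live in `Fermat.Agent.X0.QExpBasic`.
-/
import Fermat.Agent.X0.AnDefs
import Fermat.Agent.X0.JdExp

set_option autoImplicit false

noncomputable section

namespace Fermat.Agent.X0.QExpBasic

open Fermat.Agent.X0
open UpperHalfPlane hiding I
open ModularForm Complex Filter Topology
open scoped Real Manifold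

local notation "𝕢" => Function.Periodic.qParam

theorem qh_def (h : ℕ) (z : ℍ) : qh h z = 𝕢 (h : ℝ) (z : ℂ) := rfl

theorem qh_ne_zero' (h : ℕ) (z : ℍ) : qh h z ≠ 0 := Function.Periodic.qParam_ne_zero _

/-- `q_h` is holomorphic on `ℍ`. -/
theorem qh_mem_HolH (h : ℕ) : (fun z : ℍ => qh h z) ∈ HolH := by
  rw [mem_HolH, UpperHalfPlane.mdifferentiable_iff]
  have : DifferentiableOn ℂ (fun w : ℂ => 𝕢 (h : ℝ) w) {z | 0 < z.im} := by
    unfold Function.Periodic.qParam
    fun_prop
  refine this.congr fun w hw => ?_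
  simp only [Function.comp_apply, qh, ofComplex_apply_of_im_pos hw, coe_mk]

theorem pow_qh_mem_HolH (h m : ℕ) : (fun z : ℍ => qh h z ^ m) ∈ HolH := by
  have := HolH.pow_mem (qh_mem_HolH h) m
  exact this

/-- The function `f * q_h ^ m`. -/
def twist (h : ℕ) (f : ℍ → ℂ) (m : ℕ) : ℍ → ℂ := fun z => f z * qh h z ^ m

theorem twist_mem_HolH {h : ℕ} {f : ℍ → ℂ} (hf : f ∈ HolH) (m : ℕ) : twist h f m ∈ HolH :=
  HolH.mul_mem hf (pow_qh_mem_HolH h m)

variable {h : ℕ} [NeZero h]

theorem h_pos : (0 : ℝ) < (h : ℝ) := by exact_mod_cast Nat.pos_of_ne_zero (NeZero.ne h)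

theorem qParam_add_period (w : ℂ) : 𝕢 (h : ℝ) (w + (h : ℝ)) = 𝕢 (h : ℝ) w := by
  have hh : ((h : ℝ) : ℂ) ≠ 0 := by
    have := (h_pos (h := h)).ne'
    exact_mod_cast this
  unfold Function.Periodic.qParam
  have : 2 * (π : ℂ) * I * (w + ((h : ℝ) : ℂ)) / ((h : ℝ) : ℂ)
      = 2 * π * I * w / ((h : ℝ) : ℂ) + 2 * π * I := by
    field_simp
  rw [this, Complex.exp_add, Complex.exp_two_pi_mul_I, mul_one]

/-- A function given by a `q_h`-series on all of `ℍ` is `h`-periodic. -/
theorem periodic_of_hasSum {F : ℍ → ℂ} {c : ℕ → ℂ}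
    (hc : ∀ z : ℍ, HasSum (fun n : ℕ => c n * qh h z ^ n) (F z)) :
    Function.Periodic (F ∘ ofComplex) (h : ℝ) := by
  intro w
  by_cases hw : 0 < w.im
  · have hw' : 0 < (w + (h : ℝ)).im := by simpa using hw
    simp only [Function.comp_apply, ofComplex_apply_of_im_pos hw, ofComplex_apply_of_im_pos hw']
    refine (hc _).unique ?_
    have hq : qh h ⟨w + (h : ℝ), hw'⟩ = qh h ⟨w, hw⟩ := qParam_add_period w
    simp only [hq]
    exact hc _
  · have hw1 : w.im ≤ 0 := not_lt.mp hw
    have hw' : (w + (h : ℝ)).im ≤ 0 := by simpa using hw1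
    simp only [Function.comp_apply, ofComplex_apply_of_im_nonpos hw1,
      ofComplex_apply_of_im_nonpos hw']

/-- Analyticity of the cusp function at `0`. -/
theorem analyticAt_cuspFunction_of_hasSum {F : ℍ → ℂ} (hF : F ∈ HolH) {c : ℕ → ℂ}
    (hc : ∀ z : ℍ, HasSum (fun n : ℕ => c n * qh h z ^ n) (F z)) :
    AnalyticAt ℂ (cuspFunction (h : ℝ) F) 0 := by
  have hc' : ∀ τ : ℍ, HasSum (fun m : ℕ => c m • 𝕢 (h : ℝ) τ ^ m) (F τ) := fun τ => by
    simpa only [smul_eq_mul, qh] using hc τ
  exact analyticAt_cuspFunction_zero h_pos (periodic_of_hasSum hc) hF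
    (isBoundedAtImInfty_of_hasSum_qExpansion h_pos hc')

/-- Uniqueness of the coefficients. -/
theorem coeff_eq_qExpansion {F : ℍ → ℂ} (hF : F ∈ HolH) {c : ℕ → ℂ}
    (hc : ∀ z : ℍ, HasSum (fun n : ℕ => c n * qh h z ^ n) (F z)) (n : ℕ) :
    c n = PowerSeries.coeff n (qExpansion (h : ℝ) F) := by
  have hc' : ∀ τ : ℍ, HasSum (fun m : ℕ => c m • 𝕢 (h : ℝ) τ ^ m) (F τ) := fun τ => by
    simpa only [smul_eq_mul, qh] using hc τ
  have ha := analyticAt_cuspFunction_of_hasSum hF hc
  have h1 := (hasFPowerSeriesOnBall_cuspFunction (h_pos (h := h)) ha hc').hasFPowerSeriesAt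
  have h2 := ha.hasFPowerSeriesAt
  have h3 := congr_arg (FormalMultilinearSeries.coeff · n) (h1.eq_formalMultilinearSeries h2)
  simp only [FormalMultilinearSeries.coeff_ofScalars] at h3
  rw [h3, qExpansion_coeff, div_eq_mul_inv, mul_comm]

/-- For holomorphic `f`, the series in `IsQExp` is the Mathlib `q`-expansion of the twist. -/
theorem eq_qExpansion_twist {f : ℍ → ℂ} (hf : f ∈ HolH) {m : ℕ} {P : PowerSeries ℂ}
    (hP : IsQExp h f m P) : P = qExpansion (h : ℝ) (twist h f m) := by
  ext n
  exact coeff_eq_qExpansion (twist_mem_HolH hf m) hP n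

theorem isQExp_const (c : ℂ) : IsQExp h (fun _ => c) 0 (PowerSeries.C c) := by
  intro z
  have : HasSum (fun n : ℕ => PowerSeries.coeff n (PowerSeries.C c) * qh h z ^ n)
      (PowerSeries.coeff 0 (PowerSeries.C c) * qh h z ^ 0) := by
    refine hasSum_single 0 fun n hn => ?_
    rw [PowerSeries.coeff_C, if_neg hn, zero_mul]
  simpa using this

theorem isQExp_shift {f : ℍ → ℂ} {m : ℕ} {P : PowerSeries ℂ} (hP : IsQExp h f m P) (k : ℕ) :
    IsQExp h f (m + k) (PowerSeries.X ^ k * P) := by
  intro z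
  have h1 := (hP z).mul_right (qh h z ^ k)
  have hinj : Function.Injective (fun n : ℕ => n + k) := fun a b hab => by simpa using hab
  have key : HasSum ((fun n : ℕ => PowerSeries.coeff n (PowerSeries.X ^ k * P) * qh h z ^ n)
      ∘ fun n : ℕ => n + k) (f z * qh h z ^ (m + k)) := by
    rw [pow_add, ← mul_assoc]
    refine h1.congr_fun fun n => ?_
    simp only [Function.comp_apply, PowerSeries.coeff_X_pow_mul, pow_add]
    ring
  rw [hinj.hasSum_iff] at key
  · exact key
  · intro n hn
    have hlt : n < k := by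
      by_contra hge
      exact hn ⟨n - k, by simp; omega⟩
    rw [PowerSeries.coeff_X_pow_mul', if_neg (by omega), zero_mul]

theorem isQExp_add_same {f g : ℍ → ℂ} {m : ℕ} {P Q : PowerSeries ℂ} (hP : IsQExp h f m P)
    (hQ : IsQExp h g m Q) : IsQExp h (f + g) m (P + Q) := by
  intro z
  have := (hP z).add (hQ z)
  have hval : (f + g) z * qh h z ^ m = f z * qh h z ^ m + g z * qh h z ^ m := by
    simp only [Pi.add_apply]; ring
  rw [hval]
  refine this.congr_fun fun n => ?_
  simp only [map_add]; ring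

theorem isQExp_add {f g : ℍ → ℂ} {m m' : ℕ} {P Q : PowerSeries ℂ} (hP : IsQExp h f m P)
    (hQ : IsQExp h g m' Q) :
    IsQExp h (f + g) (m + m') (PowerSeries.X ^ m' * P + PowerSeries.X ^ m * Q) := by
  have h1 := isQExp_shift hP m'
  have h2 := isQExp_shift hQ m
  rw [add_comm m' m] at h2
  exact isQExp_add_same h1 h2

theorem isQExp_mul {f g : ℍ → ℂ} (hf : f ∈ HolH) (hg : g ∈ HolH) {m m' : ℕ}
    {P Q : PowerSeries ℂ} (hP : IsQExp h f m P) (hQ : IsQExp h g m' Q) :
    IsQExp h (f * g) (m + m') (P * Q) := by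
  have hF := twist_mem_HolH (h := h) hf m
  have hG := twist_mem_HolH (h := h) hg m'
  have hFG : twist h f m * twist h g m' ∈ HolH := HolH.mul_mem hF hG
  have hP' : ∀ τ : ℍ, HasSum (fun n : ℕ => PowerSeries.coeff n P • 𝕢 (h : ℝ) τ ^ n)
      (twist h f m τ) := fun τ => by simpa only [smul_eq_mul, qh, twist] using hP τ
  have hQ' : ∀ τ : ℍ, HasSum (fun n : ℕ => PowerSeries.coeff n Q • 𝕢 (h : ℝ) τ ^ n)
      (twist h g m' τ) := fun τ => by simpa only [smul_eq_mul, qh, twist] using hQ τ
  have hbF := isBoundedAtImInfty_of_hasSum_qExpansion h_pos hP'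
  have hbG := isBoundedAtImInfty_of_hasSum_qExpansion h_pos hQ'
  have hperF : Function.Periodic (twist h f m ∘ ofComplex) (h : ℝ) :=
    periodic_of_hasSum (h := h) hP
  have hperG : Function.Periodic (twist h g m' ∘ ofComplex) (h : ℝ) :=
    periodic_of_hasSum (h := h) hQ
  have haF := analyticAt_cuspFunction_of_hasSum (h := h) hF hP
  have haG := analyticAt_cuspFunction_of_hasSum (h := h) hG hQ
  have hmul : qExpansion (h : ℝ) (twist h f m * twist h g m') = P * Q := by
    rw [qExpansion_mul haF haG, ← eq_qExpansion_twist hf hP, ← eq_qExpansion_twist hg hQ]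
  have hper : Function.Periodic ((twist h f m * twist h g m') ∘ ofComplex) (h : ℝ) := by
    intro w
    have h1 := hperF w
    have h2 := hperG w
    simp only [Function.comp_apply, Pi.mul_apply] at h1 h2 ⊢
    rw [h1, h2]
  have hsum := hasSum_qExpansion h_pos hper hFG (hbF.mul hbG)
  intro z
  have := hsum z
  rw [hmul] at this
  have hval : (twist h f m * twist h g m') z = (f * g) z * qh h z ^ (m + m') := by
    simp only [twist, Pi.mul_apply, pow_add]; ring
  rw [hval] at this
  simpa only [smul_eq_mul, qh] using this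

/-! ### The attached Laurent series -/

section Laurent

variable {R S : Type*} [CommRing R] [CommRing S]

theorem laurentOf_mul (m m' : ℕ) (P Q : PowerSeries R) :
    laurentOf (m + m') (P * Q) = laurentOf m P * laurentOf m' Q := by
  simp only [laurentOf, map_mul, Nat.cast_add, neg_add]
  rw [show HahnSeries.single (-(m : ℤ) + -(m' : ℤ)) (1 : R)
      = HahnSeries.single (-(m : ℤ)) 1 * HahnSeries.single (-(m' : ℤ)) 1 by
    rw [HahnSeries.single_mul_single, one_mul]]
  ring

theorem laurentOf_X_pow (k : ℕ) : laurentOf k (PowerSeries.X ^ k : PowerSeries R) = 1 := by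
  rw [laurentOf, HahnSeries.ofPowerSeries_X_pow, HahnSeries.single_mul_single, one_mul,
    neg_add_cancel]
  rfl

theorem laurentOf_shift (m k : ℕ) (P : PowerSeries R) :
    laurentOf (m + k) (PowerSeries.X ^ k * P) = laurentOf m P := by
  rw [add_comm m k, laurentOf_mul, laurentOf_X_pow, one_mul]

theorem laurentOf_add_same (m : ℕ) (P Q : PowerSeries R) :
    laurentOf m (P + Q) = laurentOf m P + laurentOf m Q := by
  simp only [laurentOf, map_add, mul_add]

theorem laurentOf_add (m m' : ℕ) (P Q : PowerSeries R) :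
    laurentOf (m + m') (PowerSeries.X ^ m' * P + PowerSeries.X ^ m * Q)
      = laurentOf m P + laurentOf m' Q := by
  rw [laurentOf_add_same, laurentOf_shift]
  conv_lhs => rw [add_comm m m', laurentOf_shift]

theorem laurentOf_zero_C (c : R) : laurentOf 0 (PowerSeries.C c) = HahnSeries.C c := by
  rw [laurentOf, HahnSeries.ofPowerSeries_C]
  simp

theorem laurentOf_map (φ : R →+* S) (m : ℕ) (P : PowerSeries R) :
    laurentOf m (P.map φ) = ModularCurve.coeffMap φ (laurentOf m P) := by
  ext k
  rw [ModularCurve.coeffMap_coeff, laurentOf_coeff, laurentOf_coeff]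
  split_ifs
  · rw [PowerSeries.coeff_map]
  · rw [map_zero]

theorem coeffMap_injective {φ : R →+* S} (hφ : Function.Injective φ) :
    Function.Injective (ModularCurve.coeffMap φ) := by
  intro x y hxy
  ext k
  apply hφ
  have := congrArg (fun s => HahnSeries.coeff s k) hxy
  simpa using this

theorem laurentOf_injective (m : ℕ) : Function.Injective (laurentOf (R := R) m) := by
  intro P Q hPQ
  ext n
  have := congrArg (fun s => HahnSeries.coeff s ((n : ℤ) - m)) hPQ
  simp only [laurentOf_coeff, sub_add_cancel, Int.natCast_nonneg, if_true, Int.toNat_natCast]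
    at this
  exact this

end Laurent

variable {h : ℕ} [NeZero h]

/-- Uniqueness of the Laurent series attached to a `q_h`-expansion of a holomorphic function. -/
theorem laurentOf_unique {f : ℍ → ℂ} (hf : f ∈ HolH) {m m' : ℕ} {P P' : PowerSeries ℂ}
    (hP : IsQExp h f m P) (hP' : IsQExp h f m' P') : laurentOf m P = laurentOf m' P' := by
  have h1 := isQExp_shift hP m'
  have h2 := isQExp_shift hP' m
  rw [add_comm m' m] at h2
  have e1 := eq_qExpansion_twist hf h1
  have e2 := eq_qExpansion_twist hf h2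
  rw [← laurentOf_shift m m' P, ← laurentOf_shift m' m P', add_comm m' m, e1, e2]

/-- `ℚbar`-coefficient version of `laurentOf_unique`. -/
theorem laurentOf_unique_K {f : ℍ → ℂ} (hf : f ∈ HolH) {m m' : ℕ} {P P' : PowerSeries Kbar}
    (hP : IsQExp h f m (P.map iotaK)) (hP' : IsQExp h f m' (P'.map iotaK)) :
    laurentOf m P = laurentOf m' P' := by
  apply coeffMap_injective iotaK_injective
  rw [← laurentOf_map, ← laurentOf_map]
  exact laurentOf_unique hf hP hP'

/-- If the attached Laurent series vanishes then so does the function. -/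
theorem eq_zero_of_laurentOf_eq_zero {f : ℍ → ℂ} {m : ℕ} {P : PowerSeries ℂ}
    (hP : IsQExp h f m P) (h0 : laurentOf m P = 0) : f = 0 := by
  have hP0 : P = 0 := laurentOf_injective m (by rw [h0]; simp [laurentOf])
  funext z
  have := hP z
  rw [hP0] at this
  have h2 : HasSum (fun n : ℕ => PowerSeries.coeff n (0 : PowerSeries ℂ) * qh h z ^ n) 0 := by
    simp [hasSum_zero]
  have h3 := this.unique h2
  rcases mul_eq_zero.mp h3 with h4 | h4
  · exact h4
  · exact absurd h4 (pow_ne_zero _ (qh_ne_zero' h z))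

/-- The Laurent series attached to the zero function vanishes. -/
theorem laurentOf_eq_zero_of_eq_zero {m : ℕ} {P : PowerSeries ℂ}
    (hP : IsQExp h (0 : ℍ → ℂ) m P) : laurentOf m P = 0 := by
  have h0 : IsQExp h (0 : ℍ → ℂ) 0 (PowerSeries.C 0) := by
    have := isQExp_const (h := h) 0
    exact this
  have hz : (0 : ℍ → ℂ) ∈ HolH := HolH.zero_mem
  rw [laurentOf_unique hz hP h0, laurentOf_zero_C]
  simp

end Fermat.Agent.X0.QExpBasic
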