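import Mathlib
import Fermat.Prelude.Def_AlgebraicCurve_CanonicalDivisor
import Fermat.Agent.X0.FFSum
import Fermat.Agent.X0.FFPrincipal
import Fermat.Agent.X0.FFDiff
import Fermat.Agent.X0.FFGenusCore

/-!
# C-F1: final wiring of FF1–FF4 (helper6)

From a single hypothesis `hx : IsGen K x` (`K` algebraically closed of characteristic zero, `x`
transcendental, `F` finite over `K(x)`):

* `ff1Data hx : FF1Data K F` (the bundle consumed by `FFPrincipal.lean`);
* `finite_support_ord`, `degree_eq_zero_of_principal`, `hasPrincipalDivisors` (FF2, final names);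
* `genusHyp hx : GenusHyp K x` (the bundle consumed by `FFGenusCore.lean`);
* `degree_canonical_of_isGen`, `genus_eq_of_isGen`: Riemann–Hurwitz and the genus formula.
-/

set_option autoImplicit false

open AlgebraicCurve IntermediateField KaehlerDifferential

namespace Fermat.Agent.X0.FF

variable {K F : Type*} [Field K] [Field F] [Algebra K F] [IsAlgClosed K] [CharZero K] {x : F}

/-- the FF1 bundle of `FFPrincipal.lean` -/
theorem ff1Data (hx : IsGen K x) : FF1Data K F where
  isGen_of_transcendental := fun _ hy => hx.of_transcendental hy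
  eq_algebraMap_of_isAlgebraic := fun _ hy => eq_algebraMap_of_isAlgebraic hy
  deg_eq_one := fun v => deg_eq_one hx v
  finite_zeros := fun _ hy => finite_zeros hy
  sum_ord_zeros := fun _ hy => sum_ord_zeros hy
  finite_poles := fun _ hy => finite_poles hy
  sum_ord_poles := fun _ hy => sum_ord_poles hy

theorem finite_support_ord (hx : IsGen K x) {f : F} (hf : f ≠ 0) :
    {v : Place K F | v.ord f ≠ 0}.Finite :=
  ffq_finite_support_ord (ff1Data hx) hf

theorem degree_eq_zero_of_principal (hx : IsGen K x) {f : F} (hf : f ≠ 0) (D : Divisor K F)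
    (hD : ∀ v, D v = v.ord f) : Divisor.degree D = 0 :=
  ffq_degree_eq_zero_of_principal (ff1Data hx) hf D hD

theorem hasPrincipalDivisors (hx : IsGen K x) : HasPrincipalDivisors K F :=
  ffq_hasPrincipalDivisors (ff1Data hx)

/-- the FF1/FF2/FF3 bundle of `FFGenusCore.lean` -/
theorem genusHyp (hx : IsGen K x) : GenusHyp K x where
  transcendental := hx.transcendental
  deg_eq_one := fun v => deg_eq_one hx v
  exists_ord_sub_pos := fun v _ hf => exists_ord_sub_pos hx v hf
  finite_fibre := fun c => finite_fibre hx c
  sum_ord_fibre := fun c => sum_ord_fibre hx c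
  finite_poles := finite_poles hx
  sum_ord_poles := sum_ord_poles hx
  finite_support_ord := fun _ hf => finite_support_ord hx hf
  degree_eq_zero_of_principal := fun _ hf D hD => degree_eq_zero_of_principal hx hf D hD
  span_D_eq_top := span_D_eq_top hx
  D_ne_zero := D_ne_zero hx
  ordDifferential_D_of_ord_ne_zero := fun v _ hy => ordDifferential_D_of_ord_ne_zero hx v hy
  ordDifferential_smul' := fun v _ hg _ hω => ordDifferential_smul' hx v hg hω

/-- **Riemann–Hurwitz**: degree of the divisor of a nonzero differential. -/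
theorem degree_canonical_of_isGen (hx : IsGen K x) {ω : Ω[F⁄K]} (hω : ω ≠ 0) (Dv : Divisor K F)
    (hD : ∀ v, Dv v = v.ordDifferential ω) (S : Finset K)
    (hS : ∀ c ∉ S, ∀ v : Place K F, 0 < v.ord (x - algebraMap K F c) →
      v.ord (x - algebraMap K F c) = 1) :
    Divisor.degree Dv = ∑ c ∈ S, ((Module.finrank K⟮x⟯ F : ℤ) -
        Nat.card {v : Place K F // 0 < v.ord (x - algebraMap K F c)})
      - (Module.finrank K⟮x⟯ F : ℤ) - Nat.card {v : Place K F // v.ord x < 0} :=
  (genusHyp hx).degree_canonical hω Dv hD S hS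

/-- **Genus formula** in terms of the ramification data of a generator `x`. -/
theorem genus_eq_of_isGen (hx : IsGen K x) [HasCanonicalDivisor (K := K) (F := F)] (S : Finset K)
    (hS : ∀ c ∉ S, ∀ v : Place K F, 0 < v.ord (x - algebraMap K F c) →
      v.ord (x - algebraMap K F c) = 1) :
    genus K F = ((∑ c ∈ S, ((Module.finrank K⟮x⟯ F : ℤ) -
        Nat.card {v : Place K F // 0 < v.ord (x - algebraMap K F c)})
      - (Module.finrank K⟮x⟯ F : ℤ) - Nat.card {v : Place K F // v.ord x < 0}) + 2).toNat / 2 :=
  (genusHyp hx).genus_eq S hS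

end Fermat.Agent.X0.FF
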