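-- Program C (C-P1d part 1, helper3): abstract counting lemma.
-- A surjection `p : X → V` constant on the orbits of a group action, with weights `e v` bounded by
-- the orbit sizes and summing to `|X|`, identifies `V` with the set of orbits.
import Mathlib

set_option autoImplicit false

namespace Fermat.Agent.X0.Count

open MulAction

theorem card_eq_card_orbits {X V G : Type*} [Fintype X] [Fintype V] [Group G] [MulAction G X]
    (p : X → V) (hp : Function.Surjective p) (hinv : ∀ (g : G) x, p (g • x) = p x)
    (e : V → ℕ) (hle : ∀ x, e (p x) ≤ Nat.card (MulAction.orbit G x))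
    (hsum : ∑ v, e v = Fintype.card X) :
    Fintype.card V = Nat.card (MulAction.orbitRel.Quotient G X) ∧
      ∀ x, e (p x) = Nat.card (MulAction.orbit G x) := by
  classical
  let Ω := MulAction.orbitRel.Quotient G X
  have : Fintype Ω := Fintype.ofFinite Ω
  -- the induced map on orbits
  let pbar : Ω → V := Quotient.lift p (by
    intro a b h
    change a ∈ MulAction.orbit G b at h
    obtain ⟨g, rfl⟩ := h
    exact hinv g b)
  have hpbar_mk : ∀ x, pbar (Quotient.mk'' x) = p x := fun x => rfl
  have hpbar_surj : Function.Surjective pbar := fun v => by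
    obtain ⟨x, rfl⟩ := hp v
    exact ⟨Quotient.mk'' x, rfl⟩
  -- orbit sizes
  let sz : Ω → ℕ := fun ω => Nat.card ω.orbit
  have hsz_mk : ∀ x, sz (Quotient.mk'' x) = Nat.card (MulAction.orbit G x) := fun x => by
    simp only [sz, MulAction.orbitRel.Quotient.orbit_mk]
  have hsz_pos : ∀ ω, 1 ≤ sz ω := by
    intro ω
    induction ω using Quotient.inductionOn' with
    | h x =>
      rw [hsz_mk]
      have : Nonempty (MulAction.orbit G x) := ⟨⟨x, MulAction.mem_orbit_self x⟩⟩
      exact Nat.one_le_iff_ne_zero.mpr (Nat.card_ne_zero.mpr ⟨this, inferInstance⟩)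
  have hle' : ∀ ω, e (pbar ω) ≤ sz ω := by
    intro ω
    induction ω using Quotient.inductionOn' with
    | h x => rw [hsz_mk, hpbar_mk]; exact hle x
  have hsz_sum : ∑ ω, sz ω = Fintype.card X := by
    have h1 : Fintype.card X = Fintype.card (Σ ω : Ω, ω.orbit) :=
      Fintype.card_congr (MulAction.selfEquivSigmaOrbits' G X)
    rw [h1, Fintype.card_sigma]
    refine Finset.sum_congr rfl fun ω _ => ?_
    simp only [sz, Nat.card_eq_fintype_card]
  -- a section of `pbar`
  obtain ⟨s, hs⟩ := hpbar_surj.hasRightInverse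
  have hs_inj : Function.Injective s := hs.injective
  have h1 : ∑ v, e v ≤ ∑ v, sz (s v) := by
    refine Finset.sum_le_sum fun v _ => ?_
    have := hle' (s v)
    rwa [hs v] at this
  have h2 : ∑ v, sz (s v) = ∑ ω ∈ Finset.univ.image s, sz ω := by
    rw [Finset.sum_image]
    intro a _ b _ hab
    exact hs_inj hab
  have h3 : ∑ ω ∈ Finset.univ.image s, sz ω + ∑ ω ∈ Finset.univ \ Finset.univ.image s, sz ω
      = ∑ ω, sz ω := by
    rw [add_comm]
    exact Finset.sum_sdiff (Finset.subset_univ _)
  have h4 : ∑ ω ∈ Finset.univ \ Finset.univ.image s, sz ω = 0 := by omega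
  have hs_surj : Function.Surjective s := by
    intro ω
    by_contra hω
    have hmem : ω ∈ Finset.univ \ Finset.univ.image s := by
      simp only [Finset.mem_sdiff, Finset.mem_univ, Finset.mem_image, true_and]
      rintro ⟨v, hv⟩
      exact hω ⟨v, hv⟩
    have := (Finset.sum_eq_zero_iff.mp h4) ω hmem
    have := hsz_pos ω
    omega
  have hs_bij : Function.Bijective s := ⟨hs_inj, hs_surj⟩
  have hpbar_inj : Function.Injective pbar := by
    intro a b hab
    obtain ⟨va, rfl⟩ := hs_surj a
    obtain ⟨vb, rfl⟩ := hs_surj b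
    rw [hs va, hs vb] at hab
    rw [hab]
  have heq : ∀ v, e v = sz (s v) := by
    have hsum_eq : ∑ v, e v = ∑ v, sz (s v) := by
      have : ∑ ω ∈ Finset.univ.image s, sz ω = ∑ ω, sz ω := by omega
      omega
    have hterm : ∀ v ∈ (Finset.univ : Finset V), e v ≤ sz (s v) := by
      intro v _
      have := hle' (s v)
      rwa [hs v] at this
    intro v
    exact (Finset.sum_eq_sum_iff_of_le hterm).mp hsum_eq v (Finset.mem_univ v)
  refine ⟨?_, fun x => ?_⟩
  · rw [Nat.card_eq_fintype_card]
    exact Fintype.card_of_bijective hs_bij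
  · have h5 : s (p x) = Quotient.mk'' x := by
      apply hpbar_inj
      rw [hs (p x), hpbar_mk]
    rw [heq (p x), h5, hsz_mk]

end Fermat.Agent.X0.Count
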