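/-
Program C, piece C-F2d (helper16): variants of `Hermite.exists_scaleH_smul` and
`CuspGen.exists_isQExp_compSL_jdFun` which also expose the second-row equations of the Hermite
form (needed by `DISTINCT` through `HermiteCoset.mem_Gamma0_of_hermite`).
-/
import Fermat.Agent.X0.CuspGen
import Fermat.Agent.X0.HermiteCoset

set_option autoImplicit false

open UpperHalfPlane Complex
open scoped MatrixGroups Real

noncomputable section

namespace Fermat.Agent.X0.CuspGen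

open Fermat.Agent.X0.Hermite Fermat.Agent.X0.QExpAffine

/-- `Hermite.exists_scaleH_smul` with the second-row equations. -/
theorem exists_scaleH_smul_full (γ : SL(2, ℤ)) (d : ℕ) [NeZero d] :
    ∃ (γ' : SL(2, ℤ)) (a e : ℕ) (b : ℤ) (ha : 0 < a) (he : 0 < e), a * e = d ∧ 0 ≤ b ∧ b < e ∧
      (∀ n : ℤ, n ∣ (a : ℤ) → n ∣ b → n ∣ (e : ℤ) → IsUnit n) ∧
      γ 1 0 = γ' 1 0 * a ∧ γ 1 1 = γ' 1 0 * b + γ' 1 1 * e ∧
      ∀ z : ℍ, jdFun d (γ • z) = jFun (affH a e b ha he z) := by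
  have hd : 0 < d := Nat.pos_of_ne_zero (NeZero.ne d)
  have hdet : γ 0 0 * γ 1 1 - γ 0 1 * γ 1 0 = 1 := by
    have := γ.det_coe
    rw [Matrix.det_fin_two] at this
    exact this
  obtain ⟨γ', a, e, b, hae, ha, he, hb0, hbe, h1, h2, h3, h4⟩ := exists_hermite γ hd
  refine ⟨γ', a, e, b, ha, he, hae, hb0, hbe,
    fun n hna hnb hne => isUnit_of_dvd_of_hermite hdet h3 h4 hna hnb hne, h3, h4, fun z => ?_⟩
  have key : scaleH d (γ • z) = γ' • affH a e b ha he z := by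
    apply UpperHalfPlane.ext
    rw [coe_scaleH, coe_smul', coe_smul', coe_affH]
    have hden := denom_ne_zero' γ z
    have hden' := denom_ne_zero' γ' (affH a e b ha he z)
    rw [coe_affH] at hden'
    have heC : (e : ℂ) ≠ 0 := by exact_mod_cast he.ne'
    have e1 : ((d : ℤ) : ℂ) * ((γ 0 0 : ℤ) : ℂ) = ((γ' 0 0 : ℤ) : ℂ) * ((a : ℤ) : ℂ) := by
      exact_mod_cast congrArg (Int.cast : ℤ → ℂ) h1
    have e2 : ((d : ℤ) : ℂ) * ((γ 0 1 : ℤ) : ℂ) =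
        ((γ' 0 0 : ℤ) : ℂ) * (b : ℂ) + ((γ' 0 1 : ℤ) : ℂ) * ((e : ℤ) : ℂ) := by
      exact_mod_cast congrArg (Int.cast : ℤ → ℂ) h2
    have e3 : ((γ 1 0 : ℤ) : ℂ) = ((γ' 1 0 : ℤ) : ℂ) * ((a : ℤ) : ℂ) := by
      exact_mod_cast congrArg (Int.cast : ℤ → ℂ) h3
    have e4 : ((γ 1 1 : ℤ) : ℂ) =
        ((γ' 1 0 : ℤ) : ℂ) * (b : ℂ) + ((γ' 1 1 : ℤ) : ℂ) * ((e : ℤ) : ℂ) := by
      exact_mod_cast congrArg (Int.cast : ℤ → ℂ) h4
    simp only [Int.cast_natCast] at e1 e2 e3 e4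
    have hnum : ((γ' 0 0 : ℤ) : ℂ) * (((a : ℂ) * z + b) / e) + ((γ' 0 1 : ℤ) : ℂ) =
        ((d : ℂ) * (((γ 0 0 : ℤ) : ℂ) * z + ((γ 0 1 : ℤ) : ℂ))) / e := by
      field_simp
      linear_combination (-(z : ℂ)) * e1 - e2
    have hdenom : ((γ' 1 0 : ℤ) : ℂ) * (((a : ℂ) * z + b) / e) + ((γ' 1 1 : ℤ) : ℂ) =
        (((γ 1 0 : ℤ) : ℂ) * z + ((γ 1 1 : ℤ) : ℂ)) / e := by
      field_simp
      linear_combination (-(z : ℂ)) * e3 - e4
    rw [hnum, hdenom]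
    field_simp
  rw [jdFun, key, jFun_smul]

variable (N : ℕ) [NeZero N]

/-- `exists_isQExp_compSL_jdFun` with the second-row equations of the Hermite form. -/
theorem exists_isQExp_compSL_jdFun_full (d : ℕ) [NeZero d] (hd : d ∣ N) (γ : SL(2, ℤ)) :
    ∃ (γ' : SL(2, ℤ)) (a e : ℕ) (b : ℤ) (ζ : Kbar), 0 < a ∧ 0 < e ∧ a * e = d ∧ 0 ≤ b ∧ b < e ∧
      (∀ n : ℤ, n ∣ (a : ℤ) → n ∣ b → n ∣ (e : ℤ) → IsUnit n) ∧
      γ 1 0 = γ' 1 0 * a ∧ γ 1 1 = γ' 1 0 * b + γ' 1 1 * e ∧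
      iotaK ζ = zetaC e ∧
      IsQExp N (compSL (jdFun d) γ) (a * (N / e))
        ((affQ jNumK 1 (a * (N / e)) b ζ).map iotaK) ∧
      PowerSeries.coeff 0 (affQ jNumK 1 (a * (N / e)) b ζ) = ζ ^ (-b) := by
  obtain ⟨γ', a, e, b, ha, he, hae, hb0, hbe, hcop, h3, h4, hfun⟩ := exists_scaleH_smul_full γ d
  obtain ⟨ζ, hζ⟩ := exists_iotaK_eq_zetaC he
  have heN : e ∣ N := (Dvd.intro_left a hae).trans hd
  refine ⟨γ', a, e, b, ζ, ha, he, hae, hb0, hbe, hcop, h3, h4, hζ, ?_, ?_⟩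
  · have hfun' : compSL (jdFun d) γ = fun z => jFun (affH a e b ha he z) := funext hfun
    rw [hfun', affQ_map, hζ]
    have := isQExp_affine (N := N) isQExp_jFun_K b ha he heN
    rwa [one_mul] at this
  · rw [coeff_zero_affQ, coeff_zero_jNumK, one_mul, Nat.cast_one, mul_one]

/-- **DISTINCT, assembled core**: if the cusp expansions of `j_N` along `γ` and `γ'` have the same
pole order and the same leading coefficient (as produced by `exists_isQExp_compSL_jdFun_full`),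
then `γ' γ⁻¹ ∈ Γ₀(N)`.  Stated on the Hermite data. -/
theorem mem_Gamma0_of_leading_eq (γ γ' γ₁ γ₂ : SL(2, ℤ)) {a e a' e' : ℕ} {b b' : ℤ} {ζ ζ' : Kbar}
    (he : 0 < e) (he' : 0 < e') (hae : a * e = N) (hae' : a' * e' = N)
    (h3 : γ 1 0 = γ₁ 1 0 * a) (h4 : γ 1 1 = γ₁ 1 0 * b + γ₁ 1 1 * e)
    (h3' : γ' 1 0 = γ₂ 1 0 * a') (h4' : γ' 1 1 = γ₂ 1 0 * b' + γ₂ 1 1 * e')
    (hζ : iotaK ζ = zetaC e) (hζ' : iotaK ζ' = zetaC e')
    (hord : a * (N / e) = a' * (N / e')) (hlead : ζ ^ (-b) = ζ' ^ (-b')) :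
    γ' * γ⁻¹ ∈ CongruenceSubgroup.Gamma0 N := by
  obtain ⟨rfl, rfl, hbb⟩ := hermite_unique he he' hae hae' hζ hζ' hord hlead
  exact mem_Gamma0_of_hermite γ γ' hae hbb h3 h4 h3' h4'

end Fermat.Agent.X0.CuspGen
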