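/-
Program C, piece C-F2d (3) (helper16): packaging the cusp expansions into a `CuspData`.

Given `D : RealizeData N` and the existence of `q_N`-expansions with `ℚbar`-coefficients of all
`Θ u ∘ γ` (`HasCuspExp D`), we build the ring homs `T γ : F → ℚbar((q_N))` and the structure
`CuspData N D`.
-/
import Fermat.Agent.X0.Iface
import Fermat.Agent.X0.QExpRing
import Fermat.Agent.X0.FracR

set_option autoImplicit false

open UpperHalfPlane
open scoped MatrixGroups

noncomputable section

namespace Fermat.Agent.X0.CuspPack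

open Fermat.Agent.X0

variable {N : ℕ} [NeZero N]

/-- every `Θ u ∘ γ` has a `q_N`-expansion with coefficients in `ι(ℚbar)`. -/
def HasCuspExp (D : RealizeData N) : Prop :=
  ∀ (γ : SL(2, ℤ)) (u : Rsub N), ∃ (m : ℕ) (P : PowerSeries Kbar),
    IsQExp N (compSL (D.Θ u) γ) m (P.map iotaK)

theorem laurentOf_map_inj {m m' : ℕ} {P P' : PowerSeries Kbar}
    (h : laurentOf m (P.map iotaK) = laurentOf m' (P'.map iotaK)) :
    laurentOf m P = laurentOf m' P' := by
  rw [laurentOf_eq_iff] at h ⊢
  apply PowerSeries.map_injective iotaK iotaK_injective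
  rw [map_mul, map_mul, map_pow, map_pow, PowerSeries.map_X]
  exact h

theorem compSL_add (f g : ℍ → ℂ) (γ : SL(2, ℤ)) : compSL (f + g) γ = compSL f γ + compSL g γ :=
  rfl

theorem compSL_mul (f g : ℍ → ℂ) (γ : SL(2, ℤ)) : compSL (f * g) γ = compSL f γ * compSL g γ :=
  rfl

theorem compSL_const (c : ℂ) (γ : SL(2, ℤ)) : compSL (fun _ => c) γ = fun _ => c := rfl

theorem eq_zero_of_compSL_eq_zero {f : ℍ → ℂ} {γ : SL(2, ℤ)} (h : compSL f γ = 0) : f = 0 := by
  funext z
  have := congrFun h (γ⁻¹ • z)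
  simpa [compSL, smul_smul] using this

variable (D : RealizeData N) (hex : HasCuspExp D)

/-- the expansion map on `R`, as a function. -/
def TRfun (γ : SL(2, ℤ)) (u : Rsub N) : LaurentSeries Kbar :=
  laurentOf (hex γ u).choose (hex γ u).choose_spec.choose

theorem TRfun_eq (γ : SL(2, ℤ)) (u : Rsub N) {m : ℕ} {P : PowerSeries Kbar}
    (h : IsQExp N (compSL (D.Θ u) γ) m (P.map iotaK)) : TRfun D hex γ u = laurentOf m P :=
  laurentOf_map_inj ((hex γ u).choose_spec.choose_spec.unique h)

omit [NeZero N] in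
theorem TRfun_spec (γ : SL(2, ℤ)) (u : Rsub N) : ∃ (m : ℕ) (P : PowerSeries Kbar),
    IsQExp N (compSL (D.Θ u) γ) m (P.map iotaK) ∧ TRfun D hex γ u = laurentOf m P :=
  ⟨_, _, (hex γ u).choose_spec.choose_spec, rfl⟩

/-- the expansion map on `R`, as a ring hom. -/
def TR (γ : SL(2, ℤ)) : Rsub N →+* LaurentSeries Kbar where
  toFun := TRfun D hex γ
  map_one' := by
    have h : IsQExp N (compSL (D.Θ (1 : Rsub N)) γ) 0 ((PowerSeries.C (1 : Kbar)).map iotaK) := by
      rw [map_one, PowerSeries.map_C, map_one]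
      exact isQExp_const N 1
    rw [TRfun_eq D hex γ 1 h, laurentOf_zero_left, map_one, map_one]
  map_mul' := by
    intro u v
    obtain ⟨m, P, hP, eP⟩ := TRfun_spec D hex γ u
    obtain ⟨m', P', hP', eP'⟩ := TRfun_spec D hex γ v
    have h : IsQExp N (compSL (D.Θ (u * v)) γ) (m + m') ((P * P').map iotaK) := by
      rw [map_mul, compSL_mul, map_mul]
      exact hP.mul hP'
    rw [TRfun_eq D hex γ _ h, eP, eP', laurentOf_mul]
  map_zero' := by
    have h : IsQExp N (compSL (D.Θ (0 : Rsub N)) γ) 0 ((0 : PowerSeries Kbar).map iotaK) := by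
      rw [map_zero, map_zero]
      exact isQExp_zero N 0
    rw [TRfun_eq D hex γ 0 h]
    exact (laurentOf_eq_zero_iff 0 _).mpr rfl
  map_add' := by
    intro u v
    obtain ⟨m, P, hP, eP⟩ := TRfun_spec D hex γ u
    obtain ⟨m', P', hP', eP'⟩ := TRfun_spec D hex γ v
    have h : IsQExp N (compSL (D.Θ (u + v)) γ) (m + m')
        ((PowerSeries.X ^ m' * P + PowerSeries.X ^ m * P').map iotaK) := by
      rw [map_add, compSL_add, map_add, map_mul, map_mul, map_pow, map_pow, PowerSeries.map_X]
      exact hP.add hP'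
    rw [TRfun_eq D hex γ _ h, eP, eP', laurentOf_add, laurentOf_shift, add_comm m m',
      laurentOf_shift]

theorem TR_apply (γ : SL(2, ℤ)) (u : Rsub N) : TR D hex γ u = TRfun D hex γ u := rfl

theorem TR_injective (γ : SL(2, ℤ)) : Function.Injective (TR D hex γ) := by
  rw [injective_iff_map_eq_zero]
  intro u hu
  obtain ⟨m, P, hP, eP⟩ := TRfun_spec D hex γ u
  rw [TR_apply, eP, laurentOf_eq_zero_iff] at hu
  subst hu
  rw [map_zero] at hP
  have h0 : compSL (D.Θ u) γ = 0 := hP.eq_zero_iff.mpr rfl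
  have h1 : D.Θ u = 0 := eq_zero_of_compSL_eq_zero h0
  apply D.injective
  rw [h1, map_zero]

/-- the expansion maps on `F = Frac R`. -/
def T (γ : SL(2, ℤ)) : FF N →+* LaurentSeries Kbar :=
  IsFractionRing.lift (A := Rsub N) (K := FF N) (g := TR D hex γ) (TR_injective D hex γ)

theorem T_coe (γ : SL(2, ℤ)) (u : Rsub N) : T D hex γ (u : FF N) = TR D hex γ u :=
  IsFractionRing.lift_algebraMap (A := Rsub N) (K := FF N) (TR_injective D hex γ) u

/-- **The cusp data** built from the existence of cusp expansions. -/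
def cuspDataOf : CuspData N D where
  T := T D hex
  spec := by
    intro γ u
    obtain ⟨m, P, hP, eP⟩ := TRfun_spec D hex γ u
    exact ⟨m, P, hP, by rw [T_coe, TR_apply, eP]⟩

end Fermat.Agent.X0.CuspPack
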