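/-
PROGRAM C / C-F1 (helper18): power series expansion at a uniformizer.
For a discrete valuation ring `O` containing a field `K` which maps onto the residue field, and a
uniformizer `t`, every element of `O` has a unique expansion as a power series in `t`; this gives
an injective `K`-algebra homomorphism `O → K⟦X⟧` sending `t` to `X`.
-/
import Mathlib

set_option autoImplicit false
set_option linter.style.haveILetI false
set_option linter.unusedSectionVars false

namespace Fermat.Agent.X0.FF

open IsLocalRing Polynomial

variable {K O : Type*} [Field K] [CommRing O] [IsDomain O] [Algebra K O]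

/-- `p` is an expansion of `a` in powers of `t`. -/
def IsExp (t : O) (a : O) (p : PowerSeries K) : Prop :=
  ∀ n : ℕ, t ^ n ∣ a - aeval t (PowerSeries.trunc n p)

section Basic

variable {t : O}

theorem IsExp.add {a b : O} {p q : PowerSeries K} (ha : IsExp t a p) (hb : IsExp t b q) :
    IsExp t (a + b) (p + q) := by
  intro n
  have : a + b - aeval t (PowerSeries.trunc n (p + q)) =
      (a - aeval t (PowerSeries.trunc n p)) + (b - aeval t (PowerSeries.trunc n q)) := by
    rw [map_add, map_add]; ring
  rw [this]
  exact dvd_add (ha n) (hb n)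

theorem IsExp.sub {a b : O} {p q : PowerSeries K} (ha : IsExp t a p) (hb : IsExp t b q) :
    IsExp t (a - b) (p - q) := by
  intro n
  have : a - b - aeval t (PowerSeries.trunc n (p - q)) =
      (a - aeval t (PowerSeries.trunc n p)) - (b - aeval t (PowerSeries.trunc n q)) := by
    rw [map_sub, map_sub]; ring
  rw [this]
  exact dvd_sub (ha n) (hb n)

/-- A polynomial congruent to its truncation modulo `X ^ n`. -/
theorem ffs_X_pow_dvd_sub_trunc (P : K[X]) (n : ℕ) :
    (X : K[X]) ^ n ∣ P - PowerSeries.trunc n (P : PowerSeries K) := by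
  rw [Polynomial.X_pow_dvd_iff]
  intro d hd
  rw [Polynomial.coeff_sub, PowerSeries.coeff_trunc, if_pos hd, Polynomial.coeff_coe, sub_self]

theorem IsExp.mul {a b : O} {p q : PowerSeries K} (ha : IsExp t a p) (hb : IsExp t b q) :
    IsExp t (a * b) (p * q) := by
  intro n
  set P := PowerSeries.trunc n p
  set Q := PowerSeries.trunc n q
  have h1 : PowerSeries.trunc n (p * q) = PowerSeries.trunc n ((P * Q : K[X]) : PowerSeries K) := by
    rw [Polynomial.coe_mul, PowerSeries.trunc_trunc_mul_trunc]
  have h2 : t ^ n ∣ aeval t (P * Q) - aeval t (PowerSeries.trunc n (p * q)) := by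
    rw [h1, ← map_sub]
    obtain ⟨R, hR⟩ := ffs_X_pow_dvd_sub_trunc (P * Q) n
    rw [hR, map_mul, map_pow, aeval_X]
    exact dvd_mul_right _ _
  have hPQ : aeval t (P * Q) = aeval t P * aeval t Q := map_mul (aeval t) P Q
  have h3 : a * b - aeval t (PowerSeries.trunc n (p * q)) =
      (a - aeval t P) * b + aeval t P * (b - aeval t Q) +
        (aeval t (P * Q) - aeval t (PowerSeries.trunc n (p * q))) := by
    rw [hPQ]; ring
  rw [h3]
  exact dvd_add (dvd_add (Dvd.dvd.mul_right (ha n) _) (Dvd.dvd.mul_left (hb n) _)) h2

theorem isExp_algebraMap (c : K) : IsExp t (algebraMap K O c) (PowerSeries.C c) := by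
  intro n
  rcases n with _ | n
  · simp
  · rw [PowerSeries.trunc_C, aeval_C, sub_self]
    exact dvd_zero _

theorem isExp_self : IsExp t t (PowerSeries.X : PowerSeries K) := by
  intro n
  rcases n with _ | _ | n
  · simp
  · simp
  · rw [PowerSeries.trunc_X, aeval_X, sub_self]
    exact dvd_zero _

theorem isExp_zero : IsExp t (0 : O) (0 : PowerSeries K) := by
  intro n; simp

theorem isExp_one : IsExp t (1 : O) (1 : PowerSeries K) := by
  have := isExp_algebraMap (O := O) (t := t) (1 : K)
  simpa using this

end Basic

section DVR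

variable [IsDiscreteValuationRing O] {t : O} (ht : Irreducible t)
  (hres : ∀ a : O, ∃ c : K, a - algebraMap K O c ∈ maximalIdeal O)

include ht in
theorem ffs_algebraMap_eq_zero_of_dvd {c : K} (h : t ∣ algebraMap K O c) : c = 0 := by
  by_contra hc
  have hu : IsUnit (algebraMap K O c) := (IsUnit.mk0 c hc).map _
  exact ht.not_isUnit (isUnit_of_dvd_unit h hu)

include ht in
/-- A polynomial of degree `< n` whose value at `t` is divisible by `t ^ n` vanishes. -/
theorem ffs_eq_zero_of_pow_dvd_aeval : ∀ (n : ℕ) (r : K[X]), r.degree < n →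
    t ^ n ∣ aeval t r → r = 0 := by
  intro n
  induction n with
  | zero =>
    intro r hr _
    rw [Polynomial.degree_lt_iff_coeff_zero] at hr
    ext m
    rw [Polynomial.coeff_zero]
    exact hr m (Nat.zero_le m)
  | succ n ih =>
    intro r hr hdvd
    have hr' : r = r.divX * X + C (r.coeff 0) := (Polynomial.divX_mul_X_add r).symm
    have h0 : r.coeff 0 = 0 := by
      apply ffs_algebraMap_eq_zero_of_dvd ht
      have h1 : t ∣ aeval t r := dvd_trans (dvd_pow_self t (Nat.succ_ne_zero n)) hdvd
      rw [hr', map_add, map_mul, aeval_X, aeval_C] at h1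
      exact (dvd_add_right (dvd_mul_left t _)).mp h1
    rw [h0, map_zero, add_zero] at hr'
    have h2 : t ^ n ∣ aeval t r.divX := by
      rw [hr', map_mul, aeval_X, pow_succ] at hdvd
      exact (mul_dvd_mul_iff_right ht.ne_zero).mp hdvd
    have h3 : r.divX.degree < n := by
      rw [Polynomial.degree_lt_iff_coeff_zero] at hr ⊢
      intro m hm
      rw [Polynomial.coeff_divX]
      exact hr (m + 1) (Nat.succ_le_succ hm)
    rw [hr', ih r.divX h3 h2, zero_mul]

include ht in
/-- Uniqueness of expansions. -/
theorem IsExp.unique {a : O} {p q : PowerSeries K} (hp : IsExp t a p) (hq : IsExp t a q) :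
    p = q := by
  ext n
  have h1 : t ^ (n + 1) ∣ aeval t (PowerSeries.trunc (n + 1) p - PowerSeries.trunc (n + 1) q) := by
    have := dvd_sub (hq (n + 1)) (hp (n + 1))
    rw [map_sub]
    convert this using 1
    ring
  have h2 : (PowerSeries.trunc (n + 1) p - PowerSeries.trunc (n + 1) q).degree < (n + 1 : ℕ) :=
    lt_of_le_of_lt (Polynomial.degree_sub_le _ _)
      (max_lt (PowerSeries.degree_trunc_lt p (n + 1)) (PowerSeries.degree_trunc_lt q (n + 1)))
  have h3 := ffs_eq_zero_of_pow_dvd_aeval ht (n + 1) _ h2 h1
  have h4 := congrArg (fun r => Polynomial.coeff r n) h3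
  simp only [Polynomial.coeff_sub, PowerSeries.coeff_trunc, Polynomial.coeff_zero] at h4
  rw [if_pos (Nat.lt_succ_self n), if_pos (Nat.lt_succ_self n)] at h4
  exact sub_eq_zero.mp h4

include ht hres in
/-- Existence of expansions. -/
theorem exists_isExp (a : O) : ∃ p : PowerSeries K, IsExp t a p := by
  classical
  -- one step: `a = c + t * b`
  have hstep : ∀ a : O, ∃ (c : K) (b : O), a = algebraMap K O c + t * b := by
    intro a
    obtain ⟨c, hc⟩ := hres a
    rw [ht.maximalIdeal_eq, Ideal.mem_span_singleton] at hc
    obtain ⟨b, hb⟩ := hc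
    exact ⟨c, b, by rw [← hb]; ring⟩
  choose c b hcb using hstep
  -- the sequence of remainders
  let r : ℕ → O := fun n => b^[n] a
  refine ⟨PowerSeries.mk fun n => c (r n), ?_⟩
  have key : ∀ n, a = aeval t (PowerSeries.trunc n (PowerSeries.mk fun n => c (r n))) +
      t ^ n * r n := by
    intro n
    induction n with
    | zero => simp [r]
    | succ n ih =>
      rw [PowerSeries.trunc_succ, map_add, aeval_monomial, PowerSeries.coeff_mk]
      have h1 : r n = algebraMap K O (c (r n)) + t * r (n + 1) := by
        have := hcb (r n)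
        simp only [r, Function.iterate_succ_apply'] at this ⊢
        exact this
      linear_combination ih + t ^ n * h1
  intro n
  refine ⟨r n, ?_⟩
  have := key n
  linear_combination this

/-- The expansion of an element. -/
noncomputable def expand (a : O) : PowerSeries K := (exists_isExp ht hres a).choose

theorem isExp_expand (a : O) : IsExp t a (expand ht hres a) :=
  (exists_isExp ht hres a).choose_spec

theorem expand_eq {a : O} {p : PowerSeries K} (h : IsExp t a p) : expand ht hres a = p :=
  (isExp_expand ht hres a).unique ht h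

/-- The expansion homomorphism `O →ₐ[K] K⟦X⟧`. -/
noncomputable def expandHom : O →ₐ[K] PowerSeries K where
  toFun := expand ht hres
  map_one' := expand_eq ht hres isExp_one
  map_mul' a b := expand_eq ht hres ((isExp_expand ht hres a).mul (isExp_expand ht hres b))
  map_zero' := expand_eq ht hres isExp_zero
  map_add' a b := expand_eq ht hres ((isExp_expand ht hres a).add (isExp_expand ht hres b))
  commutes' c := expand_eq ht hres (isExp_algebraMap c)

theorem isExp_expandHom (a : O) : IsExp t a (expandHom ht hres a) := isExp_expand ht hres a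

@[simp] theorem expandHom_self : expandHom ht hres t = PowerSeries.X :=
  expand_eq ht hres isExp_self

theorem constantCoeff_expandHom_eq_zero_iff (a : O) :
    PowerSeries.constantCoeff (expandHom ht hres a) = 0 ↔ t ∣ a := by
  have h1 := isExp_expandHom ht hres a 1
  rw [pow_one, PowerSeries.trunc_one_left, aeval_C, PowerSeries.coeff_zero_eq_constantCoeff] at h1
  constructor
  · intro h0
    rw [h0, map_zero, sub_zero] at h1
    exact h1
  · intro hta
    have h2 : t ∣ algebraMap K O (PowerSeries.constantCoeff (expandHom ht hres a)) := by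
      have := dvd_sub hta h1
      rwa [sub_sub_cancel] at this
    exact ffs_algebraMap_eq_zero_of_dvd ht h2

theorem expandHom_injective : Function.Injective (expandHom ht hres) := by
  rw [injective_iff_map_eq_zero]
  intro a ha
  by_contra ha0
  obtain ⟨k, u, hu⟩ := IsDiscreteValuationRing.eq_unit_mul_pow_irreducible ha0 ht
  have h1 : t ^ (k + 1) ∣ a := by
    have := isExp_expandHom ht hres a (k + 1)
    rwa [ha, map_zero, map_zero, sub_zero] at this
  rw [hu, pow_succ, mul_comm (u : O), mul_dvd_mul_iff_left (pow_ne_zero k ht.ne_zero)] at h1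
  exact ht.not_isUnit (isUnit_of_dvd_unit h1 u.isUnit)

theorem isUnit_expandHom_of_isUnit {a : O} (ha : IsUnit a) : IsUnit (expandHom ht hres a) :=
  ha.map _

theorem constantCoeff_expandHom_ne_zero_of_isUnit {a : O} (ha : IsUnit a) :
    PowerSeries.constantCoeff (expandHom ht hres a) ≠ 0 := by
  intro h
  rw [constantCoeff_expandHom_eq_zero_iff] at h
  exact ht.not_isUnit (isUnit_of_dvd_unit h ha)

end DVR

end Fermat.Agent.X0.FF
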