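/-
PROGRAM C / C-F1 (helper18): the derivative lemma.
`O` a discrete valuation ring containing a field `K` mapping onto its residue field, `t` a
uniformizer, `F = Frac O`.  If `d a = δ • d t` in `Ω[F⁄K]` with `a ∈ O`, then `δ ∈ O`.
(The derivation `d/dX ∘ expandHom : O → K⟦X⟧` factors through `Ω[O⁄K]`, and `Ω[F⁄K]` is the
localization of `Ω[O⁄K]`.)
-/
import Mathlib
import Fermat.Agent.X0.FFSeries

set_option autoImplicit false
set_option linter.style.haveILetI false
set_option linter.unusedSectionVars false

namespace Fermat.Agent.X0.FF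

open IsLocalRing Polynomial KaehlerDifferential

variable {K O : Type*} [Field K] [CommRing O] [IsDomain O] [Algebra K O]
  [IsDiscreteValuationRing O] {t : O} (ht : Irreducible t)
  (hres : ∀ a : O, ∃ c : K, a - algebraMap K O c ∈ maximalIdeal O)

/-- Divisibility by powers of `X` of the expansion reflects divisibility by powers of `t`. -/
theorem ffv_pow_dvd_of_X_pow_dvd : ∀ (k : ℕ) (a : O),
    (PowerSeries.X : PowerSeries K) ^ k ∣ expandHom ht hres a → t ^ k ∣ a := by
  intro k
  induction k with
  | zero => intro a _; simp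
  | succ k ih =>
    intro a h
    have h1 : (PowerSeries.X : PowerSeries K) ∣ expandHom ht hres a :=
      dvd_trans (dvd_pow_self _ (Nat.succ_ne_zero k)) h
    rw [PowerSeries.X_dvd_iff, constantCoeff_expandHom_eq_zero_iff] at h1
    obtain ⟨a', rfl⟩ := h1
    rw [map_mul, expandHom_self, pow_succ', mul_dvd_mul_iff_left PowerSeries.X_ne_zero] at h
    rw [pow_succ']
    exact mul_dvd_mul_left t (ih a' h)

theorem ffv_X_pow_dvd_of_pow_dvd {k : ℕ} {a : O} (h : t ^ k ∣ a) :
    (PowerSeries.X : PowerSeries K) ^ k ∣ expandHom ht hres a := by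
  obtain ⟨b, rfl⟩ := h
  rw [map_mul, map_pow, expandHom_self]
  exact dvd_mul_right _ _

variable {F : Type*} [Field F] [Algebra K F] [Algebra O F] [IsScalarTower K O F]
  [IsFractionRing O F]

include ht hres in
/-- **Derivative lemma.**  If `d a = δ • d t` in `Ω[F⁄K]` with `a ∈ O` then `δ ∈ O`. -/
theorem ffv_deriv_mem (a : O) (δ : F)
    (h : D K F (algebraMap O F a) = δ • D K F (algebraMap O F t)) :
    ∃ b : O, algebraMap O F b = δ := by
  classical
  obtain ⟨p, s, hs, hδ⟩ := IsFractionRing.div_surjective (A := O) δ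
  have hs0 : s ≠ 0 := nonZeroDivisors.ne_zero hs
  have hsF : algebraMap O F s ≠ 0 := by
    rw [ne_eq, map_eq_zero_iff _ (IsFractionRing.injective O F)]
    exact hs0
  -- the relation in `Ω[O⁄K]` up to torsion
  set m : Ω[O⁄K] := s • D K O a - p • D K O t with hm
  have hm0 : KaehlerDifferential.map K K O F m = 0 := by
    rw [hm, map_sub, map_smul, map_smul, KaehlerDifferential.map_D, KaehlerDifferential.map_D,
      ← algebraMap_smul F s, ← algebraMap_smul F p, h, ← hδ, smul_smul,
      mul_div_cancel₀ _ hsF, sub_self]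
  obtain ⟨c, hc⟩ :=
    (IsLocalizedModule.eq_zero_iff (nonZeroDivisors O) (KaehlerDifferential.map K K O F)).mp hm0
  -- the power series derivation
  let φ : O →ₐ[K] PowerSeries K := expandHom ht hres
  letI : Algebra O (PowerSeries K) := φ.toRingHom.toAlgebra
  haveI : IsScalarTower K O (PowerSeries K) :=
    IsScalarTower.of_algebraMap_eq (fun c => (φ.commutes c).symm)
  let dd : Derivation K O (PowerSeries K) := (PowerSeries.derivative K).compAlgebraMap O
  have hdd : ∀ b : O, dd b = PowerSeries.derivative K (φ b) := fun b => rfl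
  have hsm : ∀ (b : O) (q : PowerSeries K), b • q = φ b * q := fun b q => rfl
  have key := congrArg dd.liftKaehlerDifferential hc
  rw [map_zero, Submonoid.smul_def, map_smul, hm, map_sub, map_smul, map_smul,
    Derivation.liftKaehlerDifferential_comp_D, Derivation.liftKaehlerDifferential_comp_D,
    hdd, hdd, hsm, hsm, hsm] at key
  have hφt : φ t = PowerSeries.X := expandHom_self ht hres
  rw [hφt, PowerSeries.derivative_X, mul_one] at key
  have hφc : φ (c : O) ≠ 0 := by
    intro h0
    have : (c : O) = 0 := expandHom_injective ht hres (by rw [h0, map_zero])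
    exact nonZeroDivisors.ne_zero c.2 this
  have key2 : φ p = φ s * PowerSeries.derivative K (φ a) := by
    rcases mul_eq_zero.mp key with h1 | h1
    · exact absurd h1 hφc
    · exact (sub_eq_zero.mp h1).symm
  -- compare orders
  obtain ⟨k, u, hu⟩ := IsDiscreteValuationRing.eq_unit_mul_pow_irreducible hs0 ht
  have h1 : (PowerSeries.X : PowerSeries K) ^ k ∣ φ p := by
    rw [key2]
    refine Dvd.dvd.mul_right ?_ _
    exact ffv_X_pow_dvd_of_pow_dvd ht hres ⟨u, by rw [hu, mul_comm]⟩
  obtain ⟨p', hp'⟩ := ffv_pow_dvd_of_X_pow_dvd ht hres k p h1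
  refine ⟨p' * ((u⁻¹ : Oˣ) : O), ?_⟩
  rw [← hδ, hp', hu, map_mul, map_mul, map_mul, map_pow]
  have htF : algebraMap O F t ≠ 0 := by
    rw [ne_eq, map_eq_zero_iff _ (IsFractionRing.injective O F)]
    exact ht.ne_zero
  have huF : algebraMap O F (u : O) ≠ 0 := by
    rw [ne_eq, map_eq_zero_iff _ (IsFractionRing.injective O F)]
    exact u.ne_zero
  have huinv : algebraMap O F ((u⁻¹ : Oˣ) : O) = (algebraMap O F (u : O))⁻¹ := by
    apply eq_inv_of_mul_eq_one_left
    rw [← map_mul, Units.inv_mul, map_one]
  rw [huinv]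
  field_simp

end Fermat.Agent.X0.FF
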