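/-
PROGRAM C / C-F1 (helper18): bookkeeping around the fundamental identity.
* `K⟮x⁻¹⟯ = K⟮x⟯`, `K⟮x - c⟯ = K⟮x⟯`, generators `x⁻¹`, `x - c`;
* fibres over `c` and poles, from the statement about zeros of an arbitrary generator;
* `deg v = 1`, `Module.Finite K v.ResidueField`.
-/
import Mathlib
import Fermat.Prelude.Def_AlgebraicCurve_CanonicalDivisor
import Fermat.Agent.X0.FFDefs
import Fermat.Agent.X0.FFResK

set_option autoImplicit false
set_option linter.style.haveILetI false
set_option linter.unusedSectionVars false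

namespace Fermat.Agent.X0.FF

open AlgebraicCurve IsLocalRing IntermediateField Polynomial

variable {K F : Type*} [Field K] [Field F] [Algebra K F]

section Adjoin

theorem ffb_adjoin_inv (x : F) : K⟮x⁻¹⟯ = K⟮x⟯ := by
  apply le_antisymm
  · rw [IntermediateField.adjoin_simple_le_iff]
    exact inv_mem (IntermediateField.mem_adjoin_simple_self K x)
  · rw [IntermediateField.adjoin_simple_le_iff]
    have := inv_mem (IntermediateField.mem_adjoin_simple_self K x⁻¹)
    rwa [inv_inv] at this

theorem ffb_adjoin_sub (x : F) (c : K) : K⟮x - algebraMap K F c⟯ = K⟮x⟯ := by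
  apply le_antisymm
  · rw [IntermediateField.adjoin_simple_le_iff]
    exact sub_mem (IntermediateField.mem_adjoin_simple_self K x) (K⟮x⟯.algebraMap_mem c)
  · rw [IntermediateField.adjoin_simple_le_iff]
    have := add_mem (IntermediateField.mem_adjoin_simple_self K (x - algebraMap K F c))
      (K⟮x - algebraMap K F c⟯.algebraMap_mem c)
    rwa [sub_add_cancel] at this

theorem ffb_transcendental_inv {x : F} (hx : Transcendental K x) : Transcendental K x⁻¹ := by
  intro h
  apply hx
  have := h.inv
  rwa [inv_inv] at this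

theorem ffb_transcendental_sub {x : F} (hx : Transcendental K x) (c : K) :
    Transcendental K (x - algebraMap K F c) := by
  intro h
  apply hx
  have := h.add (isAlgebraic_algebraMap (R := K) (A := F) c)
  rwa [sub_add_cancel] at this

theorem ffb_isGen_inv {x : F} (hx : IsGen K x) : IsGen K x⁻¹ := by
  refine ⟨ffb_transcendental_inv hx.transcendental, ?_⟩
  rw [ffb_adjoin_inv]
  exact hx.finite

theorem ffb_isGen_sub {x : F} (hx : IsGen K x) (c : K) : IsGen K (x - algebraMap K F c) := by
  refine ⟨ffb_transcendental_sub hx.transcendental c, ?_⟩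
  rw [ffb_adjoin_sub]
  exact hx.finite

theorem ffb_finrank_inv (x : F) : Module.finrank K⟮x⁻¹⟯ F = Module.finrank K⟮x⟯ F := by
  rw [ffb_adjoin_inv]

theorem ffb_finrank_sub (x : F) (c : K) :
    Module.finrank K⟮x - algebraMap K F c⟯ F = Module.finrank K⟮x⟯ F := by
  rw [ffb_adjoin_sub]

end Adjoin

section FromZeros

/-- The statement about zeros of a generator `y`. -/
def ZerosStatement (K : Type*) {F : Type*} [Field K] [Field F] [Algebra K F] (y : F) : Prop :=
  {v : Place K F | 0 < v.ord y}.Finite ∧
    ∑ᶠ (v : Place K F) (_ : 0 < v.ord y), v.ord y = (Module.finrank K⟮y⟯ F : ℤ)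

variable {x : F}

theorem ffb_finite_fibre (c : K) (H : ZerosStatement K (x - algebraMap K F c)) :
    {v : Place K F | 0 < v.ord (x - algebraMap K F c)}.Finite := H.1

theorem ffb_sum_ord_fibre (c : K) (H : ZerosStatement K (x - algebraMap K F c)) :
    ∑ᶠ (v : Place K F) (_ : 0 < v.ord (x - algebraMap K F c)), v.ord (x - algebraMap K F c)
      = (Module.finrank K⟮x⟯ F : ℤ) := by
  rw [H.2, ffb_finrank_sub]

theorem ffb_finite_poles (H : ZerosStatement K x⁻¹) : {v : Place K F | v.ord x < 0}.Finite := by
  have : {v : Place K F | v.ord x < 0} = {v : Place K F | 0 < v.ord x⁻¹} := by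
    ext v
    show v.ord x < 0 ↔ 0 < v.ord x⁻¹
    rw [v.ord_inv]
    omega
  rw [this]
  exact H.1

theorem ffb_sum_ord_poles (H : ZerosStatement K x⁻¹) :
    ∑ᶠ (v : Place K F) (_ : v.ord x < 0), -v.ord x = (Module.finrank K⟮x⟯ F : ℤ) := by
  rw [← ffb_finrank_inv, ← H.2]
  refine finsum_congr fun v => ?_
  classical
  have hiff : v.ord x < 0 ↔ 0 < v.ord x⁻¹ := by rw [v.ord_inv]; omega
  rw [finsum_eq_if, finsum_eq_if]
  by_cases h : v.ord x < 0
  · rw [if_pos h, if_pos (hiff.mp h), v.ord_inv]
  · rw [if_neg h, if_neg (fun h' => h (hiff.mpr h'))]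

end FromZeros

section Degree

variable [IsAlgClosed K] (v : Place K F)

theorem ffb_residue_surjective (x : F) (halg : Algebra.IsAlgebraic K⟮x⟯ F) :
    Function.Surjective (algebraMap K v.ResidueField) := by
  intro z
  obtain ⟨a, rfl⟩ := IsLocalRing.residue_surjective z
  obtain ⟨c, hc⟩ := ffp_exists_sub_mem_maximalIdeal v x halg a
  refine ⟨c, ?_⟩
  have h1 : algebraMap K v.ResidueField c =
      IsLocalRing.residue v.toValuationSubring (algebraMap K v.toValuationSubring c) := rfl
  rw [h1, eq_comm, ← sub_eq_zero, ← map_sub, IsLocalRing.residue_eq_zero_iff]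
  exact hc

theorem ffb_deg_eq_one (x : F) (halg : Algebra.IsAlgebraic K⟮x⟯ F) : v.deg = 1 := by
  rw [Place.deg, finrank_eq_one_iff_of_nonzero' (1 : v.ResidueField) one_ne_zero]
  intro w
  obtain ⟨c, hc⟩ := ffb_residue_surjective v x halg w
  exact ⟨c, by rw [Algebra.smul_def, mul_one, hc]⟩

theorem ffb_finiteResidue (x : F) (halg : Algebra.IsAlgebraic K⟮x⟯ F) :
    Module.Finite K v.ResidueField :=
  Module.finite_of_finrank_pos (by
    have := ffb_deg_eq_one v x halg
    rw [Place.deg] at this
    omega)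

end Degree

end Fermat.Agent.X0.FF
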