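/-
Program C (S24), piece C-F1 (FF5) (helper13): a place of a function field from an integer-valued
order function.

`exists_place_of_ordFun` : if `w : F → ℤ` is additive on products of nonzero elements, satisfies
`min (w f) (w g) ≤ w (f + g)`, vanishes on the nonzero constants and is not identically zero on
`F \ {0}`, then there are a place `v` of `F / K` (in the sense of the Prelude) and `m > 0` with
`w f = m * v.ord f` for all `f ≠ 0`.

`exists_place_of_ordFun_fraction` : the same starting from an order function on a domain `R` with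
fraction field `F`.
-/
import Mathlib
import Fermat.Prelude.Def_AlgebraicCurve_DivisorClassGroup

set_option autoImplicit false

namespace Fermat.Agent.X0.FFOrd

open AlgebraicCurve

variable {K F : Type*} [Field K] [Field F] [Algebra K F]

/-- An order function on the nonzero elements of a field (the value at `0` is irrelevant). -/
structure IsOrdFun (w : F → ℤ) : Prop where
  mul : ∀ f g, f ≠ 0 → g ≠ 0 → w (f * g) = w f + w g
  add : ∀ f g, f ≠ 0 → g ≠ 0 → f + g ≠ 0 → min (w f) (w g) ≤ w (f + g)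

namespace IsOrdFun

variable {w : F → ℤ} (hw : IsOrdFun w)
include hw

lemma map_one : w 1 = 0 := by
  have := hw.mul 1 1 one_ne_zero one_ne_zero
  rw [mul_one] at this
  omega

lemma map_inv {f : F} (hf : f ≠ 0) : w f⁻¹ = -w f := by
  have := hw.mul f f⁻¹ hf (inv_ne_zero hf)
  rw [mul_inv_cancel₀ hf, hw.map_one] at this
  omega

lemma map_neg_one : w (-1) = 0 := by
  have h1 : (-1 : F) ≠ 0 := neg_ne_zero.mpr one_ne_zero
  have := hw.mul (-1) (-1) h1 h1
  rw [neg_mul_neg, mul_one, hw.map_one] at this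
  omega

lemma map_neg {f : F} (hf : f ≠ 0) : w (-f) = w f := by
  have h1 : (-1 : F) ≠ 0 := neg_ne_zero.mpr one_ne_zero
  have := hw.mul (-1) f h1 hf
  rw [neg_one_mul, hw.map_neg_one, zero_add] at this
  exact this

lemma map_pow {f : F} (hf : f ≠ 0) (n : ℕ) : w (f ^ n) = n * w f := by
  induction n with
  | zero => simp [hw.map_one]
  | succ n ih =>
    rw [pow_succ, hw.mul _ _ (pow_ne_zero n hf) hf, ih]
    push_cast
    ring

lemma map_zpow {f : F} (hf : f ≠ 0) (n : ℤ) : w (f ^ n) = n * w f := by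
  obtain ⟨k, rfl | rfl⟩ := n.eq_nat_or_neg
  · rw [zpow_natCast, hw.map_pow hf]
  · rw [zpow_neg, zpow_natCast, hw.map_inv (pow_ne_zero k hf), hw.map_pow hf]
    ring

lemma map_div {f g : F} (hf : f ≠ 0) (hg : g ≠ 0) : w (f / g) = w f - w g := by
  rw [div_eq_mul_inv, hw.mul _ _ hf (inv_ne_zero hg), hw.map_inv hg]
  ring

/-- The valuation subring `{f | f = 0 ∨ 0 ≤ w f}` of an order function. -/
def valuationSubring : ValuationSubring F where
  carrier := {f | f = 0 ∨ 0 ≤ w f}
  mul_mem' := by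
    rintro a b (rfl | ha) (rfl | hb)
    · exact Or.inl (mul_zero _)
    · exact Or.inl (zero_mul _)
    · exact Or.inl (mul_zero _)
    · by_cases ha0 : a = 0
      · exact Or.inl (by rw [ha0, zero_mul])
      by_cases hb0 : b = 0
      · exact Or.inl (by rw [hb0, mul_zero])
      right
      show 0 ≤ w (a * b)
      rw [hw.mul a b ha0 hb0]
      exact add_nonneg ha hb
  one_mem' := Or.inr (by show 0 ≤ w 1; rw [hw.map_one])
  add_mem' := by
    intro a b ha hb
    by_cases ha0 : a = 0
    · rw [ha0, zero_add]; exact hb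
    by_cases hb0 : b = 0
    · rw [hb0, add_zero]; exact ha
    by_cases hab : a + b = 0
    · exact Or.inl hab
    right
    have ha' : 0 ≤ w a := ha.resolve_left ha0
    have hb' : 0 ≤ w b := hb.resolve_left hb0
    exact le_trans (le_min ha' hb') (hw.add a b ha0 hb0 hab)
  zero_mem' := Or.inl rfl
  neg_mem' := by
    rintro a (rfl | ha)
    · exact Or.inl neg_zero
    · by_cases ha0 : a = 0
      · exact Or.inl (by rw [ha0, neg_zero])
      right
      show 0 ≤ w (-a)
      rw [hw.map_neg ha0]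
      exact ha
  mem_or_inv_mem' := by
    intro a
    by_cases ha0 : a = 0
    · exact Or.inl (Or.inl ha0)
    rcases le_total 0 (w a) with h | h
    · exact Or.inl (Or.inr h)
    · right
      right
      show 0 ≤ w a⁻¹
      rw [hw.map_inv ha0]
      omega

lemma mem_valuationSubring {f : F} : f ∈ hw.valuationSubring ↔ f = 0 ∨ 0 ≤ w f := Iff.rfl

lemma mem_valuationSubring_of_ne {f : F} (hf : f ≠ 0) : f ∈ hw.valuationSubring ↔ 0 ≤ w f :=
  ⟨fun h => h.resolve_left hf, Or.inr⟩

/-- A nonzero element of the valuation subring with `w = 0` is a unit. -/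
lemma isUnit_of_map_eq_zero {a : hw.valuationSubring} (ha0 : a ≠ 0) (ha : w (a : F) = 0) :
    IsUnit a := by
  have ha0' : (a : F) ≠ 0 := fun h => ha0 (Subtype.ext h)
  have hinv : (a : F)⁻¹ ∈ hw.valuationSubring :=
    Or.inr (by show 0 ≤ w (a : F)⁻¹; rw [hw.map_inv ha0', ha, neg_zero])
  refine IsUnit.of_mul_eq_one (⟨(a : F)⁻¹, hinv⟩ : hw.valuationSubring) ?_
  apply Subtype.ext
  show (a : F) * (a : F)⁻¹ = 1
  exact mul_inv_cancel₀ ha0'

/-- Units of the valuation subring have `w = 0`. -/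
lemma map_eq_zero_of_isUnit {a : hw.valuationSubring} (ha : IsUnit a) : w (a : F) = 0 := by
  obtain ⟨u, rfl⟩ := ha
  have h1 : ((u : hw.valuationSubring) : F) * ((u⁻¹ : (hw.valuationSubring)ˣ) : hw.valuationSubring)
      = 1 := by
    have h := congrArg (fun a : hw.valuationSubring => (a : F)) u.mul_inv
    exact h
  have hu0 : ((u : hw.valuationSubring) : F) ≠ 0 := left_ne_zero_of_mul_eq_one h1
  have hv0 : (((u⁻¹ : (hw.valuationSubring)ˣ) : hw.valuationSubring) : F) ≠ 0 :=
    right_ne_zero_of_mul_eq_one h1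
  have h2 := hw.mul _ _ hu0 hv0
  rw [h1, hw.map_one] at h2
  have h3 : 0 ≤ w ((u : hw.valuationSubring) : F) :=
    ((u : hw.valuationSubring).2).resolve_left hu0
  have h4 : 0 ≤ w (((u⁻¹ : (hw.valuationSubring)ˣ) : hw.valuationSubring) : F) :=
    (((u⁻¹ : (hw.valuationSubring)ˣ) : hw.valuationSubring).2).resolve_left hv0
  omega

end IsOrdFun

/-- **(FF5)** A place from an integer-valued order function. -/
theorem exists_place_of_ordFun (w : F → ℤ)
    (hmul : ∀ f g, f ≠ 0 → g ≠ 0 → w (f * g) = w f + w g)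
    (hadd : ∀ f g, f ≠ 0 → g ≠ 0 → f + g ≠ 0 → min (w f) (w g) ≤ w (f + g))
    (hK : ∀ c : K, algebraMap K F c ≠ 0 → w (algebraMap K F c) = 0)
    (hnt : ∃ f, f ≠ 0 ∧ w f ≠ 0) :
    ∃ (v : Place K F) (m : ℕ), 0 < m ∧ ∀ f, f ≠ 0 → w f = m * v.ord f := by
  classical
  have hw : IsOrdFun w := ⟨hmul, hadd⟩
  obtain ⟨f₀, hf₀, hwf₀⟩ := hnt
  -- a positive value exists
  have hpos : ∃ n : ℕ, 0 < n ∧ ∃ f, f ≠ 0 ∧ w f = n := by
    rcases lt_or_gt_of_ne hwf₀ with h | h
    · refine ⟨(-(w f₀)).toNat, by omega, f₀⁻¹, inv_ne_zero hf₀, ?_⟩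
      rw [hw.map_inv hf₀]; omega
    · exact ⟨(w f₀).toNat, by omega, f₀, hf₀, by omega⟩
  obtain ⟨m, hm⟩ : ∃ m, m = Nat.find hpos := ⟨_, rfl⟩
  obtain ⟨hm0, π, hπ0, hπ⟩ : 0 < m ∧ ∃ f, f ≠ 0 ∧ w f = m := hm ▸ Nat.find_spec hpos
  have hmin : ∀ n : ℕ, 0 < n → (∃ f, f ≠ 0 ∧ w f = n) → m ≤ n := fun n h1 h2 =>
    hm ▸ Nat.find_min' hpos ⟨h1, h2⟩
  have hmZ : (0 : ℤ) < m := by exact_mod_cast hm0
  -- every value is a multiple of `m`
  have hdvd : ∀ f, f ≠ 0 → (m : ℤ) ∣ w f := by
    intro f hf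
    have hr0 : 0 ≤ w f % m := Int.emod_nonneg _ hmZ.ne'
    have hrm : w f % m < m := Int.emod_lt_of_pos _ hmZ
    have hg0 : f * π ^ (-(w f / m)) ≠ 0 := mul_ne_zero hf (zpow_ne_zero _ hπ0)
    have hg : w (f * π ^ (-(w f / m))) = w f % m := by
      rw [hw.mul _ _ hf (zpow_ne_zero _ hπ0), hw.map_zpow hπ0, hπ]
      have := Int.emod_add_mul_ediv (w f) m
      linarith
    rw [Int.dvd_iff_emod_eq_zero]
    by_contra hne
    have hrpos : 0 < w f % m := lt_of_le_of_ne hr0 (Ne.symm hne)
    have := hmin (w f % m).toNat (by omega) ⟨_, hg0, by rw [hg]; omega⟩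
    omega
  -- the uniformizer
  have hπmem : π ∈ hw.valuationSubring := Or.inr (by rw [hπ]; exact hmZ.le)
  set p : hw.valuationSubring := ⟨π, hπmem⟩ with hp
  have hp0 : p ≠ 0 := fun h => hπ0 (congrArg Subtype.val h)
  have hpirr : Irreducible p := by
    rw [irreducible_iff]
    refine ⟨fun hu => ?_, fun a b hab => ?_⟩
    · have := hw.map_eq_zero_of_isUnit hu
      rw [hp] at this
      simp only at this
      omega
    · have ha0 : a ≠ 0 := fun h => hp0 (by rw [hab, h, zero_mul])
      have hb0 : b ≠ 0 := fun h => hp0 (by rw [hab, h, mul_zero])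
      have ha0' : (a : F) ≠ 0 := fun h => ha0 (Subtype.ext h)
      have hb0' : (b : F) ≠ 0 := fun h => hb0 (Subtype.ext h)
      have h1 : w ((a : F) * (b : F)) = m := by
        have := congrArg Subtype.val hab
        simp only [hp] at this
        rw [← hπ, this]
        rfl
      rw [hw.mul _ _ ha0' hb0'] at h1
      have ha1 : 0 ≤ w (a : F) := (a.2).resolve_left ha0'
      have hb1 : 0 ≤ w (b : F) := (b.2).resolve_left hb0'
      obtain ⟨ka, hka⟩ := hdvd _ ha0'
      obtain ⟨kb, hkb⟩ := hdvd _ hb0'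
      have hka0 : 0 ≤ ka := by
        by_contra h
        have : (m : ℤ) * ka < 0 := mul_neg_of_pos_of_neg hmZ (not_le.mp h)
        omega
      have hkb0 : 0 ≤ kb := by
        by_contra h
        have : (m : ℤ) * kb < 0 := mul_neg_of_pos_of_neg hmZ (not_le.mp h)
        omega
      have hsum : ka + kb = 1 := by
        have : (m : ℤ) * (ka + kb) = m * 1 := by rw [mul_add, ← hka, ← hkb, h1, mul_one]
        exact mul_left_cancel₀ hmZ.ne' this
      rcases (by omega : ka = 0 ∨ kb = 0) with h | h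
      · left
        exact hw.isUnit_of_map_eq_zero ha0 (by rw [hka, h, mul_zero])
      · right
        exact hw.isUnit_of_map_eq_zero hb0 (by rw [hkb, h, mul_zero])
  have hfact : IsDiscreteValuationRing.HasUnitMulPowIrreducibleFactorization hw.valuationSubring := by
    refine ⟨p, hpirr, ?_⟩
    intro x hx
    have hx0 : (x : F) ≠ 0 := fun h => hx (Subtype.ext h)
    have hx1 : 0 ≤ w (x : F) := (x.2).resolve_left hx0
    obtain ⟨k, hk⟩ := hdvd _ hx0
    have hk0 : 0 ≤ k := by
      by_contra h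
      have : (m : ℤ) * k < 0 := mul_neg_of_pos_of_neg hmZ (not_le.mp h)
      omega
    refine ⟨k.toNat, ?_⟩
    have hpn0 : (π : F) ^ k.toNat ≠ 0 := pow_ne_zero _ hπ0
    have hu0 : (x : F) / π ^ k.toNat ≠ 0 := div_ne_zero hx0 hpn0
    have hwu : w ((x : F) / π ^ k.toNat) = 0 := by
      rw [hw.map_div hx0 hpn0, hw.map_pow hπ0, hπ, hk]
      have : ((k.toNat : ℕ) : ℤ) = k := Int.toNat_of_nonneg hk0
      rw [this]; ring
    have humem : (x : F) / π ^ k.toNat ∈ hw.valuationSubring := Or.inr hwu.ge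
    have huu : IsUnit (⟨(x : F) / π ^ k.toNat, humem⟩ : hw.valuationSubring) :=
      hw.isUnit_of_map_eq_zero (fun h => hu0 (congrArg Subtype.val h)) hwu
    obtain ⟨u, hu⟩ := huu
    refine ⟨u, ?_⟩
    rw [hu]
    apply Subtype.ext
    show (π : F) ^ k.toNat * ((x : F) / π ^ k.toNat) = x
    field_simp
  have hdvr : IsDiscreteValuationRing hw.valuationSubring :=
    IsDiscreteValuationRing.ofHasUnitMulPowIrreducibleFactorization hfact
  -- the place
  have hKmem : ∀ a : K, algebraMap K F a ∈ hw.valuationSubring := by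
    intro a
    by_cases h : algebraMap K F a = 0
    · exact Or.inl h
    · exact Or.inr (hK a h).ge
  have hne_top : hw.valuationSubring ≠ ⊤ := by
    intro htop
    have : π⁻¹ ∈ hw.valuationSubring := by rw [htop]; exact ValuationSubring.mem_top _
    have h2 := this.resolve_left (inv_ne_zero hπ0)
    rw [hw.map_inv hπ0, hπ] at h2
    omega
  refine ⟨⟨hw.valuationSubring, hKmem, hne_top, inferInstance⟩, m, hm0, ?_⟩
  intro f hf
  set v : Place K F := ⟨hw.valuationSubring, hKmem, hne_top, inferInstance⟩ with hv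
  obtain ⟨u, hu⟩ := v.exists_unit_mul_zpow hf (π := p) hpirr
  have hu0 : ((u : v.toValuationSubring) : F) ≠ 0 := by
    intro h
    rw [h, zero_mul] at hu
    exact hf hu
  have hwu : w ((u : v.toValuationSubring) : F) = 0 :=
    hw.map_eq_zero_of_isUnit (a := (u : hw.valuationSubring)) u.isUnit
  conv_lhs => rw [hu]
  rw [hw.mul _ _ hu0 (zpow_ne_zero _ hπ0), hwu, zero_add]
  show w (π ^ v.ord f) = m * v.ord f
  rw [hw.map_zpow hπ0, hπ]
  ring

/-! ### Order functions on a domain with fraction field `F` -/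

section Fraction

variable {R : Type*} [CommRing R] [Algebra K R] [Algebra R F] [IsScalarTower K R F]
  [IsFractionRing R F]

/-- **(FF5), fraction form.** A place of `F = Frac R` from an integer-valued order function on the
nonzero elements of `R`. -/
theorem exists_place_of_ordFun_fraction (w₀ : R → ℤ)
    (hmul : ∀ a b, a ≠ 0 → b ≠ 0 → w₀ (a * b) = w₀ a + w₀ b)
    (hadd : ∀ a b, a ≠ 0 → b ≠ 0 → a + b ≠ 0 → min (w₀ a) (w₀ b) ≤ w₀ (a + b))
    (hK : ∀ c : K, algebraMap K R c ≠ 0 → w₀ (algebraMap K R c) = 0)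
    (hnt : ∃ a, a ≠ 0 ∧ w₀ a ≠ 0) :
    ∃ (v : Place K F) (m : ℕ), 0 < m ∧
      ∀ a : R, a ≠ 0 → w₀ a = m * v.ord (algebraMap R F a) := by
  classical
  have hinj : Function.Injective (algebraMap R F) := IsFractionRing.injective R F
  have : IsDomain R := Function.Injective.isDomain (algebraMap R F) hinj
  have hmap0 : ∀ {a : R}, a ≠ 0 → algebraMap R F a ≠ 0 := fun {a} ha h =>
    ha (hinj (by rw [h, map_zero]))
  have hone : w₀ 1 = 0 := by
    have := hmul 1 1 one_ne_zero one_ne_zero
    rw [mul_one] at this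
    omega
  -- representation as fractions
  have hrep : ∀ f : F, ∃ ab : R × R, ab.2 ≠ 0 ∧ algebraMap R F ab.1 / algebraMap R F ab.2 = f := by
    intro f
    obtain ⟨a, b, hb, hab⟩ := IsFractionRing.div_surjective (A := R) f
    exact ⟨(a, b), nonZeroDivisors.ne_zero hb, hab⟩
  choose nd hnd0 hnd using hrep
  set w : F → ℤ := fun f => w₀ (nd f).1 - w₀ (nd f).2 with hwdef
  -- independence of the representation
  have hwell : ∀ (f : F) (a b : R), a ≠ 0 → b ≠ 0 → algebraMap R F a / algebraMap R F b = f →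
      w f = w₀ a - w₀ b := by
    intro f a b ha hb hab
    have hf0 : f ≠ 0 := by
      rw [← hab]; exact div_ne_zero (hmap0 ha) (hmap0 hb)
    have hn0 : (nd f).1 ≠ 0 := by
      intro h
      have := hnd f
      rw [h, map_zero, zero_div] at this
      exact hf0 this.symm
    have hd0 := hnd0 f
    have hcross : (nd f).1 * b = a * (nd f).2 := by
      apply hinj
      rw [map_mul, map_mul]
      have h1 : algebraMap R F (nd f).1 / algebraMap R F (nd f).2 =
          algebraMap R F a / algebraMap R F b := (hnd f).trans hab.symm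
      rw [div_eq_div_iff (hmap0 hd0) (hmap0 hb)] at h1
      exact h1
    have h2 := congrArg w₀ hcross
    rw [hmul _ _ hn0 hb, hmul _ _ ha hd0] at h2
    simp only [hwdef]
    omega
  have hmulF : ∀ f g, f ≠ 0 → g ≠ 0 → w (f * g) = w f + w g := by
    intro f g hf hg
    have hfn : (nd f).1 ≠ 0 := by
      intro h; have := hnd f; rw [h, map_zero, zero_div] at this; exact hf this.symm
    have hgn : (nd g).1 ≠ 0 := by
      intro h; have := hnd g; rw [h, map_zero, zero_div] at this; exact hg this.symm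
    have h := hwell (f * g) ((nd f).1 * (nd g).1) ((nd f).2 * (nd g).2)
      (mul_ne_zero hfn hgn) (mul_ne_zero (hnd0 f) (hnd0 g))
      (by rw [map_mul, map_mul, mul_div_mul_comm, hnd f, hnd g])
    rw [h, hmul _ _ hfn hgn, hmul _ _ (hnd0 f) (hnd0 g)]
    simp only [hwdef]
    ring
  have haddF : ∀ f g, f ≠ 0 → g ≠ 0 → f + g ≠ 0 → min (w f) (w g) ≤ w (f + g) := by
    intro f g hf hg hfg
    have hfn : (nd f).1 ≠ 0 := by
      intro h; have := hnd f; rw [h, map_zero, zero_div] at this; exact hf this.symm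
    have hgn : (nd g).1 ≠ 0 := by
      intro h; have := hnd g; rw [h, map_zero, zero_div] at this; exact hg this.symm
    have hsum : algebraMap R F ((nd f).1 * (nd g).2 + (nd g).1 * (nd f).2) /
        algebraMap R F ((nd f).2 * (nd g).2) = f + g := by
      rw [map_add, map_mul, map_mul, map_mul]
      conv_rhs => rw [← hnd f, ← hnd g]
      rw [div_add_div _ _ (hmap0 (hnd0 f)) (hmap0 (hnd0 g)), mul_comm (algebraMap R F (nd f).2)
        (algebraMap R F (nd g).1)]
    have hnum0 : (nd f).1 * (nd g).2 + (nd g).1 * (nd f).2 ≠ 0 := by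
      intro h
      rw [h, map_zero, zero_div] at hsum
      exact hfg hsum.symm
    have h := hwell (f + g) _ _ hnum0 (mul_ne_zero (hnd0 f) (hnd0 g)) hsum
    have h1 := hadd _ _ (mul_ne_zero hfn (hnd0 g)) (mul_ne_zero hgn (hnd0 f)) hnum0
    rw [hmul _ _ hfn (hnd0 g), hmul _ _ hgn (hnd0 f)] at h1
    rw [h, hmul _ _ (hnd0 f) (hnd0 g)]
    simp only [hwdef]
    rcases le_total (w₀ (nd f).1 - w₀ (nd f).2) (w₀ (nd g).1 - w₀ (nd g).2) with h3 | h3
    · rw [min_eq_left h3]
      rcases le_total (w₀ (nd f).1 + w₀ (nd g).2) (w₀ (nd g).1 + w₀ (nd f).2) with h4 | h4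
      · rw [min_eq_left h4] at h1; omega
      · rw [min_eq_right h4] at h1; omega
    · rw [min_eq_right h3]
      rcases le_total (w₀ (nd f).1 + w₀ (nd g).2) (w₀ (nd g).1 + w₀ (nd f).2) with h4 | h4
      · rw [min_eq_left h4] at h1; omega
      · rw [min_eq_right h4] at h1; omega
  have hwR : ∀ a : R, a ≠ 0 → w (algebraMap R F a) = w₀ a := by
    intro a ha
    have := hwell (algebraMap R F a) a 1 ha one_ne_zero (by rw [map_one, div_one])
    rw [this, hone, sub_zero]
  have hKF : ∀ c : K, algebraMap K F c ≠ 0 → w (algebraMap K F c) = 0 := by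
    intro c hc
    rw [IsScalarTower.algebraMap_apply K R F] at hc ⊢
    have hc' : algebraMap K R c ≠ 0 := fun h => hc (by rw [h, map_zero])
    rw [hwR _ hc', hK c hc']
  have hntF : ∃ f, f ≠ 0 ∧ w f ≠ 0 := by
    obtain ⟨a, ha, hwa⟩ := hnt
    exact ⟨algebraMap R F a, hmap0 ha, by rw [hwR a ha]; exact hwa⟩
  obtain ⟨v, m, hm, hv⟩ := exists_place_of_ordFun (K := K) w hmulF haddF hKF hntF
  refine ⟨v, m, hm, fun a ha => ?_⟩
  rw [← hwR a ha]
  exact hv _ (hmap0 ha)

end Fraction

end Fermat.Agent.X0.FFOrd
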