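/-
C-N1 / C-P1d (helper20): numeric endgame for S24.  With `n = ψ(N)` the degree of `j`,
`r₀`, `r₁₇₂₈`, `r_∞` the numbers of places over `0`, `1728`, `∞` (given by orbit counts),
the Riemann–Hurwitz expression of `FF4` equals `genusFormula N`.
-/
import Mathlib
import Fermat.Prelude.Def_ModularCurve_GenusNumerics
import Fermat.Agent.X0.GNMain

set_option autoImplicit false

namespace Fermat.Agent.X0.GNFinal

open ModularCurve Fermat.Agent.X0.GNMain

/-- The Riemann–Hurwitz degree `(n - r₀) + (n - r₁₇₂₈) - n - r_∞` equals `2 g - 2`. -/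
theorem gnf_degree_eq (N : ℕ) (n r0 r1 rinf : ℕ) (hn : n = dedekindPsi N)
    (h0 : 3 * r0 = dedekindPsi N + 2 * nuThree N) (h1 : 2 * r1 = dedekindPsi N + nuTwo N)
    (hinf : rinf = cuspCount N) :
    (((((n : ℤ) - r0) + ((n : ℤ) - r1) - n - rinf : ℤ)) : ℚ) = 2 * genusFormula N - 2 := by
  have h0' : (3 : ℚ) * r0 = dedekindPsi N + 2 * nuThree N := by exact_mod_cast h0
  have h1' : (2 : ℚ) * r1 = dedekindPsi N + nuTwo N := by exact_mod_cast h1
  subst hn hinf
  unfold genusFormula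
  push_cast
  linarith

/-- Numeric endgame: the `toNat / 2` expression of `FF4` is `genusFormula N`. -/
theorem gnf_genus_eq (N : ℕ) [NeZero N] (n r0 r1 rinf : ℕ) (hn : n = dedekindPsi N)
    (h0 : 3 * r0 = dedekindPsi N + 2 * nuThree N) (h1 : 2 * r1 = dedekindPsi N + nuTwo N)
    (hinf : rinf = cuspCount N) :
    ((((((n : ℤ) - r0) + ((n : ℤ) - r1) - n - rinf) + 2).toNat / 2 : ℕ) : ℚ)
      = genusFormula N :=
  gn_toNat_div_two N _ (gnf_degree_eq N n r0 r1 rinf hn h0 h1 hinf)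

/-- The same with the sum over the finset `{a, b}` of branch values (`a ≠ b`), in the shape
produced by `FF4`: `∑ c ∈ {a, b}, (n - r c) - n - r_∞`. -/
theorem gnf_genus_eq_sum (N : ℕ) [NeZero N] {ι : Type*} [DecidableEq ι] (a b : ι) (hab : a ≠ b)
    (n : ℕ) (r : ι → ℕ) (rinf : ℕ) (hn : n = dedekindPsi N)
    (h0 : 3 * r a = dedekindPsi N + 2 * nuThree N) (h1 : 2 * r b = dedekindPsi N + nuTwo N)
    (hinf : rinf = cuspCount N) :
    ((((∑ c ∈ ({a, b} : Finset ι), ((n : ℤ) - r c)) - n - rinf + 2).toNat / 2 : ℕ) : ℚ)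
      = genusFormula N := by
  rw [Finset.sum_pair hab]
  exact gnf_genus_eq N n (r a) (r b) rinf hn h0 h1 hinf

end Fermat.Agent.X0.GNFinal
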