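/-
C-N1 (helper20): numerics of the genus formula, part 6: packaging against
`AlgebraicCurve.genus` (for the S24 assembly).
-/
import Mathlib
import Fermat.Prelude.Def_ModularCurve_GenusNumerics
import Fermat.Prelude.Def_AlgebraicCurve_CanonicalDivisor
import Fermat.Agent.X0.GNMain

set_option autoImplicit false

namespace Fermat.Agent.X0.GNGenus

open ModularCurve KaehlerDifferential Fermat.Agent.X0.GNMain

/-- (3) If every nonzero differential has canonical divisor of degree `2 g(N) - 2`,
where `g(N) = genusFormula N`, then `AlgebraicCurve.genus K F = genusFormula N`. -/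
theorem gn_genus_eq_genusFormula (N : ℕ) [NeZero N] {K F : Type*} [Field K] [Field F]
    [Algebra K F] [AlgebraicCurve.HasCanonicalDivisor (K := K) (F := F)]
    (hex : ∃ ω : Ω[F⁄K], ω ≠ 0)
    (hdeg : ∀ (ω : Ω[F⁄K]) (hω : ω ≠ 0),
      ((AlgebraicCurve.Divisor.degree (AlgebraicCurve.canonicalDivisorOf hω) : ℤ) : ℚ)
        = 2 * genusFormula N - 2) :
    (AlgebraicCurve.genus K F : ℚ) = genusFormula N := by
  unfold AlgebraicCurve.genus
  rw [dif_pos hex]
  exact gn_toNat_div_two N _ (hdeg _ hex.choose_spec)

end Fermat.Agent.X0.GNGenus
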