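/-
Program C, row 166 (C-F2d): complements to `X0/Hermite.lean` (helper16) for parts (4)-(6).

* `HermiteRel γ d γ' a e b` : the entrywise relation `diag(d, 1) · γ = γ' · [[a, b], [0, e]]`;
* `exists_hermiteRel` : existence with `a = gcd(d, γ₁₀)`, `0 ≤ b < e`, `gcd(a, b, e) = 1`;
* `HermiteRel.scaleH_smul`, `HermiteRel.jdFun_smul` : the consequences on `ℍ`
  (with `Hermite.affH` of `X0/Hermite.lean`);
* `HermiteRel.mem_Gamma0` : UNIQUENESS, if `diag(N, 1) γ₁` and `diag(N, 1) γ₂` have the same normal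
  form `(a, b, e)` then `γ₁ γ₂⁻¹ ∈ Γ₀(N)`  (input of DISTINCT, part (6)).
-/
import Fermat.Agent.X0.AnDefs
import Fermat.Agent.X0.JBasic
import Fermat.Agent.X0.Hermite

set_option autoImplicit false

open UpperHalfPlane ModularForm EisensteinSeries
open scoped MatrixGroups Manifold

noncomputable section

namespace Fermat.Agent.X0.HNF

open Fermat.Agent.X0.Hermite (affH coe_affH)

/-- **Hermite normal form** of an integer `2 × 2` matrix `[[p, q], [r, s]]` of determinant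
`d > 0`: it equals `γ' · [[a, b], [0, d'']]` with `γ' ∈ SL(2, ℤ)`, `a = gcd(p, r)`, `a d'' = d`
and `0 ≤ b < d''`. -/
theorem hermite_int (p q r s d : ℤ) (hd : 0 < d) (hdet : p * s - q * r = d) :
    ∃ (γ' : SL(2, ℤ)) (a d'' b : ℤ), 0 < a ∧ 0 < d'' ∧ a * d'' = d ∧ a = (Int.gcd p r : ℤ) ∧
      0 ≤ b ∧ b < d'' ∧
      γ' 0 0 * a = p ∧ γ' 1 0 * a = r ∧
      γ' 0 0 * b + γ' 0 1 * d'' = q ∧ γ' 1 0 * b + γ' 1 1 * d'' = s := by
  obtain ⟨g, hg⟩ : ∃ g : ℤ, g = (Int.gcd p r : ℤ) := ⟨_, rfl⟩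
  have hg0 : g ≠ 0 := by
    intro h0
    rw [hg] at h0
    have h1 : Int.gcd p r = 0 := by exact_mod_cast h0
    rw [Int.gcd_eq_zero_iff] at h1
    rw [h1.1, h1.2] at hdet
    simp at hdet
    omega
  have hgpos : 0 < g := lt_of_le_of_ne (by rw [hg]; positivity) (Ne.symm hg0)
  obtain ⟨p', hp'⟩ : g ∣ p := hg ▸ Int.gcd_dvd_left p r
  obtain ⟨r', hr'⟩ : g ∣ r := hg ▸ Int.gcd_dvd_right p r
  obtain ⟨A, hA⟩ : ∃ A : ℤ, A = Int.gcdA p r := ⟨_, rfl⟩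
  obtain ⟨B, hB⟩ : ∃ B : ℤ, B = Int.gcdB p r := ⟨_, rfl⟩
  have hbez : g = p * A + r * B := by
    rw [hg, hA, hB]
    exact Int.gcd_eq_gcd_ab p r
  have hbez' : p' * A + r' * B = 1 := by
    have : g * (p' * A + r' * B) = g * 1 := by
      calc g * (p' * A + r' * B) = (g * p') * A + (g * r') * B := by ring
        _ = p * A + r * B := by rw [← hp', ← hr']
        _ = g := hbez.symm
        _ = g * 1 := (mul_one g).symm
    exact mul_left_cancel₀ hg0 this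
  -- the preliminary solution
  obtain ⟨d'', hd''⟩ : ∃ d'' : ℤ, d'' = p' * s - q * r' := ⟨_, rfl⟩
  have hgd : g * d'' = d := by
    rw [hd'', ← hdet, hp', hr']
    ring
  have hd''pos : 0 < d'' := by
    by_contra hneg
    have : g * d'' ≤ 0 := mul_nonpos_of_nonneg_of_nonpos hgpos.le (not_lt.mp hneg)
    omega
  obtain ⟨b₀, hb₀⟩ : ∃ b₀ : ℤ, b₀ = A * q + B * s := ⟨_, rfl⟩
  -- reduce `b₀` modulo `d''`
  obtain ⟨k, hk⟩ : ∃ k : ℤ, k = b₀ / d'' := ⟨_, rfl⟩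
  obtain ⟨b, hb⟩ : ∃ b : ℤ, b = b₀ % d'' := ⟨_, rfl⟩
  have hbk : b₀ = b + d'' * k := by
    rw [hb, hk]
    exact (Int.emod_add_mul_ediv b₀ d'').symm
  have hb_nonneg : 0 ≤ b := hb ▸ Int.emod_nonneg _ hd''pos.ne'
  have hb_lt : b < d'' := hb ▸ Int.emod_lt_of_pos _ hd''pos
  -- `γ' = [[p', -B + p' k], [r', A + r' k]]`
  refine ⟨⟨!![p', p' * k - B; r', r' * k + A], ?_⟩, g, d'', b, hgpos, hd''pos, hgd, hg,
    hb_nonneg, hb_lt, ?_, ?_, ?_, ?_⟩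
  · rw [Matrix.det_fin_two_of]
    linear_combination hbez'
  · simp [hp', mul_comm]
  · simp [hr', mul_comm]
  · simp only [Matrix.of_apply, Matrix.cons_val', Matrix.cons_val_zero,
      Matrix.cons_val_one, Matrix.empty_val', Matrix.cons_val_fin_one]
    have hb' : b = b₀ - d'' * k := by linarith
    rw [hb', hb₀, hd'']
    linear_combination q * hbez'
  · simp only [Matrix.of_apply, Matrix.cons_val', Matrix.cons_val_zero,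
      Matrix.cons_val_one, Matrix.empty_val', Matrix.cons_val_fin_one]
    have hb' : b = b₀ - d'' * k := by linarith
    rw [hb', hb₀, hd'']
    linear_combination s * hbez'

/-- The relation `diag(d, 1) · γ = γ' · [[a, b], [0, e]]` between integer `2 × 2` matrices,
written entrywise. -/
def HermiteRel (γ : SL(2, ℤ)) (d : ℕ) (γ' : SL(2, ℤ)) (a e : ℕ) (b : ℤ) : Prop :=
  γ' 0 0 * (a : ℤ) = (d : ℤ) * γ 0 0 ∧ γ' 1 0 * (a : ℤ) = γ 1 0 ∧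
    γ' 0 0 * b + γ' 0 1 * (e : ℤ) = (d : ℤ) * γ 0 1 ∧ γ' 1 0 * b + γ' 1 1 * (e : ℤ) = γ 1 1

theorem det_entries (γ : SL(2, ℤ)) : γ 0 0 * γ 1 1 - γ 0 1 * γ 1 0 = 1 := by
  have h := γ.det_coe
  rw [Matrix.det_fin_two] at h
  exact h

/-- Determinants: `a e = d`. -/
theorem HermiteRel.mul_eq {γ : SL(2, ℤ)} {d : ℕ} {γ' : SL(2, ℤ)} {a e : ℕ} {b : ℤ}
    (h : HermiteRel γ d γ' a e b) : a * e = d := by
  obtain ⟨h00, h10, h01, h11⟩ := h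
  have h1 := det_entries γ
  have h2 := det_entries γ'
  have : ((a : ℤ) * (e : ℤ)) = (d : ℤ) := by
    have e1 : (a : ℤ) * (e : ℤ) = (a : ℤ) * (e : ℤ) * (γ' 0 0 * γ' 1 1 - γ' 0 1 * γ' 1 0) := by
      rw [h2, mul_one]
    have e2 : (d : ℤ) = (d : ℤ) * (γ 0 0 * γ 1 1 - γ 0 1 * γ 1 0) := by rw [h1, mul_one]
    rw [e1, e2]
    linear_combination (γ 1 1) * h00 + (γ' 0 0 * (a : ℤ)) * h11 + (-(γ 1 0)) * h01
      + (-(γ' 0 0 * b + γ' 0 1 * (e : ℤ))) * h10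
  exact_mod_cast this

/-- Existence of the Hermite normal form of `diag(d, 1) · γ`, with all the side information:
`a = gcd(d, γ₁₀)`, `0 ≤ b < e`, `gcd(a, b, e) = 1`. -/
theorem exists_hermiteRel (γ : SL(2, ℤ)) (d : ℕ) [NeZero d] :
    ∃ (γ' : SL(2, ℤ)) (a e : ℕ) (b : ℤ), 0 < a ∧ 0 < e ∧ a * e = d ∧
      a = Nat.gcd d (γ 1 0).natAbs ∧ 0 ≤ b ∧ b < e ∧
      Int.gcd (a : ℤ) (Int.gcd b (e : ℤ)) = 1 ∧ HermiteRel γ d γ' a e b := by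
  have hdpos : 0 < (d : ℤ) := by exact_mod_cast Nat.pos_of_ne_zero (NeZero.ne d)
  have hdetγ := det_entries γ
  have hdet : ((d : ℤ) * γ 0 0) * γ 1 1 - ((d : ℤ) * γ 0 1) * γ 1 0 = d := by
    linear_combination (d : ℤ) * hdetγ
  obtain ⟨γ', a, d'', b, ha, hd'', had, hag, hb0, hbd, h00, h10, h01, h11⟩ :=
    hermite_int ((d : ℤ) * γ 0 0) ((d : ℤ) * γ 0 1) (γ 1 0) (γ 1 1) d hdpos hdet
  -- move to natural numbers
  obtain ⟨a', rfl⟩ : ∃ a' : ℕ, a = (a' : ℤ) := ⟨a.toNat, (Int.toNat_of_nonneg ha.le).symm⟩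
  obtain ⟨e, rfl⟩ : ∃ e : ℕ, d'' = (e : ℤ) := ⟨d''.toNat, (Int.toNat_of_nonneg hd''.le).symm⟩
  have ha' : 0 < a' := by exact_mod_cast ha
  have he : 0 < e := by exact_mod_cast hd''
  refine ⟨γ', a', e, b, ha', he, by exact_mod_cast had, ?_, hb0, hbd, ?_, h00, h10, h01, h11⟩
  · -- `a = gcd (d γ₀₀) γ₁₀ = gcd d γ₁₀`
    have h1 : a' = Int.gcd ((d : ℤ) * γ 0 0) (γ 1 0) := by exact_mod_cast hag
    rw [h1, Int.gcd_def, Int.natAbs_mul, Int.natAbs_natCast]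
    have hcop : Nat.Coprime (γ 0 0).natAbs (γ 1 0).natAbs := by
      have : IsCoprime (γ 0 0) (γ 1 0) := ⟨γ 1 1, -γ 0 1, by linear_combination hdetγ⟩
      exact Int.isCoprime_iff_gcd_eq_one.mp this
    exact Nat.Coprime.gcd_mul_right_cancel d hcop
  · -- primitivity
    have hcop : IsCoprime (γ 1 0) (γ 1 1) := ⟨-γ 0 1, γ 0 0, by linear_combination hdetγ⟩
    have hdvd : ((Int.gcd (a' : ℤ) (Int.gcd b (e : ℤ)) : ℕ) : ℤ) ∣ 1 := by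
      obtain ⟨u, v, huv⟩ := hcop
      have h1 : ((Int.gcd (a' : ℤ) (Int.gcd b (e : ℤ)) : ℕ) : ℤ) ∣ (a' : ℤ) := Int.gcd_dvd_left _ _
      have h2 : ((Int.gcd (a' : ℤ) (Int.gcd b (e : ℤ)) : ℕ) : ℤ) ∣ b :=
        (Int.gcd_dvd_right _ _).trans (Int.gcd_dvd_left _ _)
      have h3 : ((Int.gcd (a' : ℤ) (Int.gcd b (e : ℤ)) : ℕ) : ℤ) ∣ (e : ℤ) :=
        (Int.gcd_dvd_right _ _).trans (Int.gcd_dvd_right _ _)
      rw [← huv, ← h10, ← h11]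
      exact dvd_add (Dvd.dvd.mul_left (Dvd.dvd.mul_left h1 _) _)
        (Dvd.dvd.mul_left (dvd_add (Dvd.dvd.mul_left h2 _) (Dvd.dvd.mul_left h3 _)) _)
    have := Int.eq_one_of_dvd_one (by positivity) hdvd
    exact_mod_cast this

/-- The Hermite relation on the upper half plane: `d · (γ • z) = γ' • ((a z + b) / e)`. -/
theorem HermiteRel.scaleH_smul {γ : SL(2, ℤ)} {d : ℕ} [NeZero d] {γ' : SL(2, ℤ)} {a e : ℕ} {b : ℤ}
    (h : HermiteRel γ d γ' a e b) (ha : 0 < a) (he : 0 < e) (z : ℍ) :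
    scaleH d (γ • z) = γ' • affH a e b ha he z := by
  obtain ⟨h00, h10, h01, h11⟩ := h
  apply UpperHalfPlane.ext
  rw [coe_scaleH, Hermite.coe_smul', Hermite.coe_smul', coe_affH]
  have hz := Hermite.denom_ne_zero' γ z
  have he' : (e : ℂ) ≠ 0 := by exact_mod_cast he.ne'
  have c00 : ((γ' 0 0 : ℤ) : ℂ) * (a : ℂ) = (d : ℂ) * ((γ 0 0 : ℤ) : ℂ) := by exact_mod_cast h00
  have c10 : ((γ' 1 0 : ℤ) : ℂ) * (a : ℂ) = ((γ 1 0 : ℤ) : ℂ) := by exact_mod_cast h10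
  have c01 : ((γ' 0 0 : ℤ) : ℂ) * (b : ℂ) + ((γ' 0 1 : ℤ) : ℂ) * (e : ℂ)
      = (d : ℂ) * ((γ 0 1 : ℤ) : ℂ) := by exact_mod_cast h01
  have c11 : ((γ' 1 0 : ℤ) : ℂ) * (b : ℂ) + ((γ' 1 1 : ℤ) : ℂ) * (e : ℂ)
      = ((γ 1 1 : ℤ) : ℂ) := by exact_mod_cast h11
  have hnum : ((γ' 0 0 : ℤ) : ℂ) * (((a : ℂ) * z + (b : ℂ)) / (e : ℂ)) + ((γ' 0 1 : ℤ) : ℂ)
      = (d : ℂ) * (((γ 0 0 : ℤ) : ℂ) * z + ((γ 0 1 : ℤ) : ℂ)) / (e : ℂ) := by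
    field_simp
    linear_combination (z : ℂ) * c00 + c01
  have hden : ((γ' 1 0 : ℤ) : ℂ) * (((a : ℂ) * z + (b : ℂ)) / (e : ℂ)) + ((γ' 1 1 : ℤ) : ℂ)
      = (((γ 1 0 : ℤ) : ℂ) * z + ((γ 1 1 : ℤ) : ℂ)) / (e : ℂ) := by
    field_simp
    linear_combination (z : ℂ) * c10 + c11
  rw [hnum, hden]
  field_simp

/-- `j(d · γ z) = j((a z + b) / e)` under the Hermite relation. -/
theorem HermiteRel.jdFun_smul {γ : SL(2, ℤ)} {d : ℕ} [NeZero d] {γ' : SL(2, ℤ)} {a e : ℕ} {b : ℤ}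
    (h : HermiteRel γ d γ' a e b) (ha : 0 < a) (he : 0 < e) (z : ℍ) :
    jdFun d (γ • z) = jFun (affH a e b ha he z) := by
  rw [jdFun, h.scaleH_smul ha he z, jFun_smul]

/-- **Uniqueness**: if `diag(N, 1) γ₁` and `diag(N, 1) γ₂` have the same Hermite normal form
`[[a, b], [0, e]]`, then `γ₁ γ₂⁻¹ ∈ Γ₀(N)`. -/
theorem HermiteRel.mem_Gamma0 {γ₁ γ₂ : SL(2, ℤ)} {N : ℕ} {γ₁' γ₂' : SL(2, ℤ)} {a e : ℕ} {b : ℤ}
    (h₁ : HermiteRel γ₁ N γ₁' a e b) (h₂ : HermiteRel γ₂ N γ₂' a e b) :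
    γ₁ * γ₂⁻¹ ∈ CongruenceSubgroup.Gamma0 N := by
  have hae : ((a : ℤ) * (e : ℤ)) = (N : ℤ) := by exact_mod_cast h₁.mul_eq
  obtain ⟨-, h10, -, h11⟩ := h₁
  obtain ⟨-, k10, -, k11⟩ := h₂
  rw [CongruenceSubgroup.Gamma0_mem]
  have hentry : (γ₁ * γ₂⁻¹) 1 0 = γ₁ 1 0 * γ₂ 1 1 - γ₁ 1 1 * γ₂ 1 0 := by
    rw [Matrix.SpecialLinearGroup.coe_mul, Matrix.SpecialLinearGroup.coe_inv,
      Matrix.adjugate_fin_two, Matrix.mul_apply, Fin.sum_univ_two]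
    simp
    ring
  have hdvd : (N : ℤ) ∣ (γ₁ * γ₂⁻¹) 1 0 := by
    refine ⟨γ₁' 1 0 * γ₂' 1 1 - γ₁' 1 1 * γ₂' 1 0, ?_⟩
    rw [hentry, ← hae, ← h10, ← h11, ← k10, ← k11]
    ring
  exact (ZMod.intCast_zmod_eq_zero_iff_dvd _ _).mpr hdvd

end Fermat.Agent.X0.HNF
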