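/-
C-J2b (helper7): period pairs of points of the upper half plane, scaling of period pairs,
`G_k(ℤ z + ℤ) = 2 ζ(k) E_k(z)`, and "homothetic lattices ⇒ `SL(2,ℤ)`-equivalent points".
Imports Mathlib only.
-/
import Mathlib

set_option autoImplicit false

open UpperHalfPlane Complex EisensteinSeries ModularForm Matrix MatrixGroups

namespace Fermat.Agent.X0.LatticeEis

noncomputable section

/-- The period pair `(z, 1)` attached to a point of the upper half plane. -/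
def pairOfUHP (z : ℍ) : PeriodPair where
  ω₁ := (z : ℂ)
  ω₂ := 1
  indep := by
    rw [LinearIndependent.pair_iff]
    intro s t h
    have him := congrArg Complex.im h
    simp only [real_smul, add_im, mul_im, ofReal_re, ofReal_im, zero_mul, add_zero, one_im,
      mul_zero, one_re, zero_im] at him
    have hs : s = 0 := by
      rcases mul_eq_zero.mp him with h' | h'
      · exact h'
      · exact absurd h' (ne_of_gt z.im_pos)
    subst hs
    simpa using h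

@[simp] lemma pairOfUHP_ω₁ (z : ℍ) : (pairOfUHP z).ω₁ = (z : ℂ) := rfl
@[simp] lemma pairOfUHP_ω₂ (z : ℍ) : (pairOfUHP z).ω₂ = 1 := rfl

/-- Scaling a period pair by a nonzero complex number. -/
def scalePair (c : ℂ) (hc : c ≠ 0) (L : PeriodPair) : PeriodPair where
  ω₁ := c * L.ω₁
  ω₂ := c * L.ω₂
  indep := by
    rw [LinearIndependent.pair_iff]
    intro s t h
    apply LinearIndependent.pair_iff.mp L.indep s t
    have h' : c * (s • L.ω₁ + t • L.ω₂) = 0 := by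
      rw [← h]; simp only [real_smul]; ring
    exact (mul_eq_zero.mp h').resolve_left hc

@[simp] lemma scalePair_ω₁ (c : ℂ) (hc : c ≠ 0) (L : PeriodPair) :
    (scalePair c hc L).ω₁ = c * L.ω₁ := rfl
@[simp] lemma scalePair_ω₂ (c : ℂ) (hc : c ≠ 0) (L : PeriodPair) :
    (scalePair c hc L).ω₂ = c * L.ω₂ := rfl

lemma mul_mem_lattice_scalePair (c : ℂ) (hc : c ≠ 0) (L : PeriodPair) {l : ℂ}
    (hl : l ∈ L.lattice) : c * l ∈ (scalePair c hc L).lattice := by
  obtain ⟨m, n, rfl⟩ := PeriodPair.mem_lattice.mp hl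
  exact PeriodPair.mem_lattice.mpr ⟨m, n, by simp only [scalePair_ω₁, scalePair_ω₂]; ring⟩

lemma inv_mul_mem_lattice_of_mem_scalePair (c : ℂ) (hc : c ≠ 0) (L : PeriodPair) {l : ℂ}
    (hl : l ∈ (scalePair c hc L).lattice) : c⁻¹ * l ∈ L.lattice := by
  obtain ⟨m, n, rfl⟩ := PeriodPair.mem_lattice.mp hl
  refine PeriodPair.mem_lattice.mpr ⟨m, n, ?_⟩
  simp only [scalePair_ω₁, scalePair_ω₂]
  field_simp

lemma mem_lattice_scalePair {c : ℂ} {hc : c ≠ 0} {L : PeriodPair} {x : ℂ} :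
    x ∈ (scalePair c hc L).lattice ↔ ∃ l ∈ L.lattice, x = c * l := by
  constructor
  · intro hx
    exact ⟨c⁻¹ * x, inv_mul_mem_lattice_of_mem_scalePair c hc L hx, by field_simp⟩
  · rintro ⟨l, hl, rfl⟩
    exact mul_mem_lattice_scalePair c hc L hl

/-- Multiplication by `c` as an equivalence of lattices. -/
def scaleEquiv (c : ℂ) (hc : c ≠ 0) (L : PeriodPair) :
    L.lattice ≃ (scalePair c hc L).lattice where
  toFun l := ⟨c * l, mul_mem_lattice_scalePair c hc L l.2⟩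
  invFun l := ⟨c⁻¹ * l, inv_mul_mem_lattice_of_mem_scalePair c hc L l.2⟩
  left_inv l := by
    apply Subtype.ext
    simp only
    field_simp
  right_inv l := by
    apply Subtype.ext
    simp only
    field_simp

@[simp] lemma coe_scaleEquiv (c : ℂ) (hc : c ≠ 0) (L : PeriodPair) (l : L.lattice) :
    ((scaleEquiv c hc L l : (scalePair c hc L).lattice) : ℂ) = c * l := rfl

theorem G_scalePair (c : ℂ) (hc : c ≠ 0) (L : PeriodPair) (k : ℕ) :
    (scalePair c hc L).G k = (c ^ k)⁻¹ * L.G k := by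
  unfold PeriodPair.G
  rw [← (scaleEquiv c hc L).tsum_eq, ← tsum_mul_left]
  refine tsum_congr fun l => ?_
  rw [coe_scaleEquiv, mul_pow, mul_inv]

theorem g₂_scalePair (c : ℂ) (hc : c ≠ 0) (L : PeriodPair) :
    (scalePair c hc L).g₂ = (c ^ 4)⁻¹ * L.g₂ := by
  unfold PeriodPair.g₂
  rw [G_scalePair]; ring

theorem g₃_scalePair (c : ℂ) (hc : c ≠ 0) (L : PeriodPair) :
    (scalePair c hc L).g₃ = (c ^ 6)⁻¹ * L.g₃ := by
  unfold PeriodPair.g₃
  rw [G_scalePair]; ring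


theorem G_pairOfUHP_eq_tsum (k : ℕ) (z : ℍ) :
    (pairOfUHP z).G k = ∑' v : Fin 2 → ℤ, eisSummand k v z := by
  unfold PeriodPair.G
  rw [← (pairOfUHP z).latticeEquivProd.symm.toEquiv.tsum_eq,
    ← (finTwoArrowEquiv ℤ).symm.tsum_eq (fun v : Fin 2 → ℤ => eisSummand k v z)]
  refine tsum_congr fun x => ?_
  have h1 : (((pairOfUHP z).latticeEquivProd.symm.toEquiv x : (pairOfUHP z).lattice) : ℂ)
      = x.1 * (z : ℂ) + x.2 := by
    have := (pairOfUHP z).latticeEquiv_symm_apply x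
    simpa using this
  rw [h1, eisSummand]
  simp [_root_.zpow_neg]

theorem E_apply_eq {k : ℕ} (hk : 3 ≤ k) (z : ℍ) :
    E hk z = (1 / 2 : ℂ) * eisensteinSeries (N := 1) 0 k z := by
  rw [show E hk z = (1 / 2 : ℂ) • eisensteinSeriesSIF (N := 1) 0 k z from rfl,
    eisensteinSeriesSIF_apply 0 k z, smul_eq_mul]

theorem G_pairOfUHP {k : ℕ} (hk : 3 ≤ k) (z : ℍ) :
    (pairOfUHP z).G k = 2 * riemannZeta k * E hk z := by
  rw [G_pairOfUHP_eq_tsum, tsum_eisSummand_eq_riemannZeta_mul_eisensteinSeries hk z, E_apply_eq]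
  ring

theorem g₂_pairOfUHP (z : ℍ) :
    (pairOfUHP z).g₂ = 120 * riemannZeta 4 * E₄ z := by
  unfold PeriodPair.g₂
  rw [G_pairOfUHP (by norm_num : 3 ≤ 4)]
  push_cast
  ring

theorem g₃_pairOfUHP (z : ℍ) :
    (pairOfUHP z).g₃ = 280 * riemannZeta 6 * E₆ z := by
  unfold PeriodPair.g₃
  rw [G_pairOfUHP (by norm_num : 3 ≤ 6)]
  push_cast
  ring


/-- integer linear relations between `z` and `1` are trivial -/
lemma int_rel_of_UHP (z : ℍ) (m n : ℤ) (h : (m : ℂ) * z + n = 0) : m = 0 ∧ n = 0 := by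
  have := LinearIndependent.pair_iff.mp (pairOfUHP z).indep (m : ℝ) (n : ℝ)
    (by simp only [pairOfUHP_ω₁, pairOfUHP_ω₂, real_smul]; push_cast; simpa using h)
  exact_mod_cast this

theorem exists_SL2_smul_eq_of_lattice_eq (z₁ z₂ : ℍ) (c : ℂ) (hc : c ≠ 0)
    (h : (pairOfUHP z₁).lattice = (scalePair c hc (pairOfUHP z₂)).lattice) :
    ∃ γ : SL(2, ℤ), γ • z₂ = z₁ := by
  -- z₁ and 1 in terms of c z₂, c
  have h1 : (z₁ : ℂ) ∈ (scalePair c hc (pairOfUHP z₂)).lattice := h ▸ (pairOfUHP z₁).ω₁_mem_lattice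
  have h2 : (1 : ℂ) ∈ (scalePair c hc (pairOfUHP z₂)).lattice := h ▸ (pairOfUHP z₁).ω₂_mem_lattice
  obtain ⟨a, b, hab⟩ := PeriodPair.mem_lattice.mp h1
  obtain ⟨c', d, hcd⟩ := PeriodPair.mem_lattice.mp h2
  -- c z₂ and c in terms of z₁, 1
  have h3 : c * (z₂ : ℂ) ∈ (pairOfUHP z₁).lattice := h ▸ (scalePair c hc (pairOfUHP z₂)).ω₁_mem_lattice
  have h4 : c * 1 ∈ (pairOfUHP z₁).lattice := h ▸ (scalePair c hc (pairOfUHP z₂)).ω₂_mem_lattice
  obtain ⟨p, q, hpq⟩ := PeriodPair.mem_lattice.mp h3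
  obtain ⟨r, s, hrs⟩ := PeriodPair.mem_lattice.mp h4
  simp only [scalePair_ω₁, scalePair_ω₂, pairOfUHP_ω₁, pairOfUHP_ω₂, mul_one] at hab hcd hpq hrs
  -- the integer relations
  have e1 : ((a * p + b * r - 1 : ℤ) : ℂ) * z₁ + ((a * q + b * s : ℤ) : ℂ) = 0 := by
    push_cast
    linear_combination (a : ℂ) * hpq + (b : ℂ) * hrs + hab
  have e2 : ((c' * p + d * r : ℤ) : ℂ) * z₁ + ((c' * q + d * s - 1 : ℤ) : ℂ) = 0 := by
    push_cast
    linear_combination (c' : ℂ) * hpq + (d : ℂ) * hrs + hcd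
  obtain ⟨f1, f2⟩ := int_rel_of_UHP z₁ _ _ e1
  obtain ⟨f3, f4⟩ := int_rel_of_UHP z₁ _ _ e2
  have hdet : (a * d - b * c') * (p * s - q * r) = 1 := by
    linear_combination (c' * q + d * s) * f1 + f4 - (c' * p + d * r) * f2
  -- the two complex numbers w₁ = a z₂ + b, w₂ = c' z₂ + d
  set w₁ : ℂ := (a : ℂ) * z₂ + b with hw₁
  set w₂ : ℂ := (c' : ℂ) * z₂ + d with hw₂
  have hcw₁ : c * w₁ = z₁ := by rw [hw₁, ← hab]; ring
  have hcw₂ : c * w₂ = 1 := by rw [hw₂, ← hcd]; ring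
  have hw₂0 : w₂ ≠ 0 := by
    intro h0; rw [h0, mul_zero] at hcw₂; exact zero_ne_one hcw₂
  have hz₁ : (z₁ : ℂ) * w₂ = w₁ := by
    calc (z₁ : ℂ) * w₂ = (c * w₁) * w₂ := by rw [hcw₁]
      _ = w₁ * (c * w₂) := by ring
      _ = w₁ := by rw [hcw₂, mul_one]
  -- positivity of the determinant
  have him : z₁.im * Complex.normSq w₂ = ((a * d - b * c' : ℤ) : ℝ) * z₂.im := by
    have key : (z₁ : ℂ) * (Complex.normSq w₂ : ℂ) = w₁ * (starRingEnd ℂ) w₂ := by
      rw [← Complex.mul_conj, ← mul_assoc, hz₁]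
    have := congrArg Complex.im key
    simp only [Complex.mul_im, Complex.ofReal_re, Complex.ofReal_im, mul_zero, zero_add] at this
    rw [coe_im] at this
    rw [this, hw₁, hw₂]
    simp only [Complex.mul_im, Complex.add_im, Complex.add_re, Complex.mul_re, Complex.conj_re,
      Complex.conj_im, Complex.intCast_re, Complex.intCast_im, coe_im, coe_re]
    push_cast
    ring
  have hpos : 0 < z₁.im * Complex.normSq w₂ :=
    mul_pos z₁.im_pos (Complex.normSq_pos.mpr hw₂0)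
  have hdetpos : 0 < a * d - b * c' := by
    rw [him] at hpos
    have := (mul_pos_iff_of_pos_right z₂.im_pos).mp hpos
    exact_mod_cast this
  have hdet1 : a * d - b * c' = 1 := by
    rcases Int.eq_one_or_neg_one_of_mul_eq_one' hdet with ⟨h1, _⟩ | ⟨h1, _⟩
    · exact h1
    · omega
  let γ : SL(2, ℤ) := ⟨!![a, b; c', d], by rw [Matrix.det_fin_two_of]; exact hdet1⟩
  refine ⟨γ, ?_⟩
  apply UpperHalfPlane.ext
  rw [UpperHalfPlane.coe_specialLinearGroup_apply]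
  simp only [γ, Matrix.cons_val', Matrix.cons_val_zero, Matrix.cons_val_one, Matrix.of_apply,
    Matrix.empty_val', Matrix.cons_val_fin_one, algebraMap_int_eq, Int.coe_castRingHom,
    Complex.ofReal_intCast]
  rw [div_eq_iff hw₂0, hz₁]

lemma riemannZeta_four_ne_zero : riemannZeta 4 ≠ 0 :=
  riemannZeta_ne_zero_of_one_lt_re (by norm_num)

lemma riemannZeta_six_ne_zero : riemannZeta 6 ≠ 0 :=
  riemannZeta_ne_zero_of_one_lt_re (by norm_num)

theorem g₂_scalePair_pairOfUHP (c : ℂ) (hc : c ≠ 0) (z : ℍ) :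
    (scalePair c hc (pairOfUHP z)).g₂ = (c ^ 4)⁻¹ * (120 * riemannZeta 4 * E₄ z) := by
  rw [g₂_scalePair, g₂_pairOfUHP]

theorem g₃_scalePair_pairOfUHP (c : ℂ) (hc : c ≠ 0) (z : ℍ) :
    (scalePair c hc (pairOfUHP z)).g₃ = (c ^ 6)⁻¹ * (280 * riemannZeta 6 * E₆ z) := by
  rw [g₃_scalePair, g₃_pairOfUHP]

end

end Fermat.Agent.X0.LatticeEis
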