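/-
Program C (helper17): the order at `z₀ ∈ ℍ` of a polynomial in the analytic `j`-function, and the
order of a finite product of holomorphic functions. Analytic half of C-P1c (SURJ).
-/
import Fermat.Agent.X0.HolOrder
import Fermat.Agent.X0.JOrderMain
import Fermat.Agent.X0.JInjective

set_option autoImplicit false

open UpperHalfPlane Polynomial
open scoped MatrixGroups

noncomputable section

namespace Fermat.Agent.X0.OrdPolyJ

open Fermat.Agent.X0 Fermat.Agent.X0.JOrderMain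

/-- `j` is injective modulo `SL(2, ℤ)` (C-J2), in the shape consumed by `JOrderMain`. -/
theorem jInj : JInj := fun _ _ h => exists_SL2_smul_eq_of_jFun_eq h

theorem jFun_mem_HolH : jFun ∈ HolH := jFun_mdifferentiable

/-- The order of `j - c` at `z₀` when `j z₀ = c`. -/
theorem ordH_jFun_sub_const (z₀ : ℍ) (c : ℂ) (hc : jFun z₀ = c) :
    ordH (fun z => jFun z - c) z₀ = ellOrder z₀ :=
  ordH_jFun_sub_const_of_inj jInj z₀ c hc

/-- A polynomial in `j` as a holomorphic function. -/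
def polyJ (P : ℂ[X]) : ℍ → ℂ := fun z => P.eval (jFun z)

theorem polyJ_eq_aeval (P : ℂ[X]) : polyJ P = aeval (R := ℂ) (A := ℍ → ℂ) jFun P := by
  funext z
  have h := Polynomial.aeval_algHom_apply (Pi.evalAlgHom ℂ (fun _ : ℍ => ℂ) z) jFun P
  simp only [Pi.evalAlgHom_apply, Polynomial.coe_aeval_eq_eval] at h
  rw [polyJ, h]

theorem polyJ_mem_HolH (P : ℂ[X]) : polyJ P ∈ HolH := by
  have h : aeval (R := ℂ) (A := ℍ → ℂ) jFun P = ((aeval (R := ℂ) (A := HolH)
      (⟨jFun, jFun_mem_HolH⟩ : HolH) P : HolH) : ℍ → ℂ) := by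
    have := Polynomial.aeval_algHom_apply HolH.val (⟨jFun, jFun_mem_HolH⟩ : HolH) P
    simp only [Subalgebra.coe_val] at this
    exact this
  rw [polyJ_eq_aeval, h]
  exact Subtype.property _

theorem polyJ_mul (P Q : ℂ[X]) : polyJ (P * Q) = polyJ P * polyJ Q := by
  funext z; simp [polyJ]

theorem polyJ_pow (P : ℂ[X]) (k : ℕ) : polyJ (P ^ k) = polyJ P ^ k := by
  funext z; simp [polyJ]

theorem polyJ_X_sub_C (a : ℂ) : polyJ (X - C a) = fun z => jFun z - a := by
  funext z; simp [polyJ]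

theorem ordH_pow {f : ℍ → ℂ} (hf : f ∈ HolH) (k : ℕ) (z₀ : ℍ) :
    ordH (f ^ k) z₀ = k • ordH f z₀ := by
  induction k with
  | zero =>
    rw [pow_zero, zero_smul]
    exact (ordH_eq_zero_iff (HolH.one_mem) z₀).mpr (by simp)
  | succ k ih =>
    rw [pow_succ, ordH_mul (HolH.pow_mem hf k) hf, ih, succ_nsmul]

/-- **Order of a polynomial in `j`.** -/
theorem ordH_polyJ {P : ℂ[X]} (hP : P ≠ 0) (z₀ : ℍ) :
    ordH (polyJ P) z₀ = ((P.rootMultiplicity (jFun z₀) * ellOrder z₀ : ℕ) : ℕ∞) := by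
  set a := jFun z₀ with ha
  obtain ⟨Q, hPQ, hQ⟩ := Polynomial.exists_eq_pow_rootMultiplicity_mul_and_not_dvd P hP a
  have hQa : Q.eval a ≠ 0 := by
    intro h
    exact hQ (dvd_iff_isRoot.mpr h)
  have h1 : ordH (polyJ Q) z₀ = 0 :=
    (ordH_eq_zero_iff (polyJ_mem_HolH Q) z₀).mpr (by simpa [polyJ, ← ha] using hQa)
  have h2 : ordH (polyJ (X - C a)) z₀ = ellOrder z₀ := by
    rw [polyJ_X_sub_C]
    exact ordH_jFun_sub_const z₀ a ha.symm
  conv_lhs => rw [hPQ]
  rw [polyJ_mul, ordH_mul (polyJ_mem_HolH _) (polyJ_mem_HolH _), h1, add_zero, polyJ_pow,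
    ordH_pow (polyJ_mem_HolH _), h2]
  simp [Nat.cast_mul]

/-- The order of a finite product of holomorphic functions is the sum of the orders. -/
theorem ordH_prod {ι : Type*} (s : Finset ι) (f : ι → ℍ → ℂ) (hf : ∀ i ∈ s, f i ∈ HolH)
    (z₀ : ℍ) : ordH (∏ i ∈ s, f i) z₀ = ∑ i ∈ s, ordH (f i) z₀ := by
  classical
  induction s using Finset.induction_on with
  | empty =>
    rw [Finset.prod_empty, Finset.sum_empty]
    exact (ordH_eq_zero_iff (HolH.one_mem) z₀).mpr (by simp)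
  | insert i s his ih =>
    rw [Finset.prod_insert his, Finset.sum_insert his,
      ordH_mul (hf i (Finset.mem_insert_self i s))
        (HolH.prod_mem fun j hj => hf j (Finset.mem_insert_of_mem hj)),
      ih fun j hj => hf j (Finset.mem_insert_of_mem hj)]

/-- Pointwise form of `ordH_prod`. -/
theorem ordH_fun_prod {ι : Type*} (s : Finset ι) (f : ι → ℍ → ℂ) (hf : ∀ i ∈ s, f i ∈ HolH)
    (z₀ : ℍ) : ordH (fun z => ∏ i ∈ s, f i z) z₀ = ∑ i ∈ s, ordH (f i) z₀ := by
  have : (fun z => ∏ i ∈ s, f i z) = ∏ i ∈ s, f i := by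
    funext z; simp [Finset.prod_apply]
  rw [this, ordH_prod s f hf]

/-- **Analytic norm count.** If `P(j) = ∏ᵢ fᵢ` on `ℍ` with `P ≠ 0`, then the orders of the `fᵢ` at
`z₀` add up to `ellOrder z₀` times the multiplicity of `j z₀` as a root of `P`. -/
theorem sum_ordH_eq_of_prod_eq {ι : Type*} [Fintype ι] (f : ι → ℍ → ℂ) (hf : ∀ i, f i ∈ HolH)
    {P : ℂ[X]} (hP : P ≠ 0) (h : ∀ z, P.eval (jFun z) = ∏ i, f i z) (z₀ : ℍ) :
    ∑ i, ordH (f i) z₀ = ((P.rootMultiplicity (jFun z₀) * ellOrder z₀ : ℕ) : ℕ∞) := by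
  rw [← ordH_polyJ hP z₀, ← ordH_fun_prod Finset.univ f (fun i _ => hf i) z₀]
  congr 1
  funext z
  exact (h z).symm

/-- Root multiplicities are preserved by the injective `ι : ℚbar → ℂ`. -/
theorem rootMultiplicity_map_iotaK (p : Polynomial Kbar) (c : Kbar) :
    (p.map iotaK).rootMultiplicity (iotaK c) = p.rootMultiplicity c :=
  (Polynomial.eq_rootMultiplicity_map iotaK_injective c).symm

end Fermat.Agent.X0.OrdPolyJ
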