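/-
Program C, piece C-F2e(2) analytic core (helper20): a holomorphic `SL(2, ℤ)`-invariant function on
`ℍ` which has a `q_h`-expansion with a finite pole (`IsQExp h f m P`) is a polynomial in `j`.
All auxiliary names are prefixed `qlo_`.
-/
import Mathlib
import Fermat.Agent.X0.AnDefs
import Fermat.Agent.X0.LevelOneFunctions

set_option autoImplicit false

open UpperHalfPlane ModularForm EisensteinSeries CongruenceSubgroup
open scoped MatrixGroups Manifold

noncomputable section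

namespace Fermat.Agent.X0.QExpLevelOne

open Fermat.Agent.X0

local notation "Δ" => ModularForm.discriminant

/-- The norm of `q_h(z)`. -/
theorem qlo_norm_qh (h : ℕ) (z : ℍ) :
    ‖qh h z‖ = Real.exp (-2 * Real.pi * z.im / h) := by
  unfold qh
  rw [Function.Periodic.norm_qParam]
  rfl

theorem qlo_qh_ne_zero (h : ℕ) (z : ℍ) : qh h z ≠ 0 := by
  unfold qh Function.Periodic.qParam
  exact Complex.exp_ne_zero _

/-- `f * q_h ^ m` is bounded at `i∞` if `f` has a `q_h`-expansion with pole order `≤ m`. -/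
theorem qlo_bounded_mul_qh {f : ℍ → ℂ} {h : ℕ} [NeZero h] {m : ℕ} {P : PowerSeries ℂ}
    (hq : IsQExp h f m P) :
    ∃ B : ℝ, ∀ z : ℍ, 1 ≤ z.im → ‖f z * qh h z ^ m‖ ≤ B := by
  have hh : (0 : ℝ) < h := by exact_mod_cast Nat.pos_of_ne_zero (NeZero.ne h)
  -- a reference point of imaginary part one
  let z₁ : ℍ := UpperHalfPlane.I
  have hz₁ : z₁.im = 1 := UpperHalfPlane.I_im
  have hsum₁ : Summable (fun n : ℕ => ‖PowerSeries.coeff n P * qh h z₁ ^ n‖) :=
    (hq z₁).summable.norm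
  refine ⟨∑' n : ℕ, ‖PowerSeries.coeff n P * qh h z₁ ^ n‖, fun z hz => ?_⟩
  have hle : ‖qh h z‖ ≤ ‖qh h z₁‖ := by
    rw [qlo_norm_qh, qlo_norm_qh, hz₁]
    apply Real.exp_le_exp.mpr
    have hpi := Real.pi_pos
    have h1 : -2 * Real.pi * z.im ≤ -2 * Real.pi * 1 := by nlinarith
    exact div_le_div_of_nonneg_right h1 hh.le
  have hterm : ∀ n : ℕ, ‖PowerSeries.coeff n P * qh h z ^ n‖
      ≤ ‖PowerSeries.coeff n P * qh h z₁ ^ n‖ := by
    intro n
    rw [norm_mul, norm_mul, norm_pow, norm_pow]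
    exact mul_le_mul_of_nonneg_left (pow_le_pow_left₀ (norm_nonneg _) hle n) (norm_nonneg _)
  have hsum : Summable (fun n : ℕ => ‖PowerSeries.coeff n P * qh h z ^ n‖) :=
    Summable.of_nonneg_of_le (fun _ => norm_nonneg _) hterm hsum₁
  rw [← (hq z).tsum_eq]
  exact (norm_tsum_le_tsum_norm hsum).trans (hsum.tsum_le_tsum hterm hsum₁)

/-- `Δ / q_h` is bounded at `i∞`. -/
theorem qlo_bounded_discriminant_div_qh (h : ℕ) [NeZero h] :
    ∃ C A : ℝ, ∀ z : ℍ, A ≤ z.im → ‖Δ z / qh h z‖ ≤ C := by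
  have hh : (1 : ℝ) ≤ h := by exact_mod_cast Nat.pos_of_ne_zero (NeZero.ne h)
  have hO := CuspFormClass.exp_decay_atImInfty (h := 1) CuspForm.discriminant one_pos
    one_mem_strictPeriods_SL
  rw [Asymptotics.isBigO_iff] at hO
  obtain ⟨C, hC⟩ := hO
  rw [Filter.Eventually, atImInfty_mem] at hC
  obtain ⟨A, hA⟩ := hC
  refine ⟨C, max A 0, fun z hz => ?_⟩
  have hzA : A ≤ z.im := le_trans (le_max_left _ _) hz
  have hz0 : 0 ≤ z.im := le_trans (le_max_right _ _) hz
  have h1 := hA z hzA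
  simp only [Set.mem_ofPred_eq, Real.norm_eq_abs, Real.abs_exp] at h1
  rw [norm_div, qlo_norm_qh, div_le_iff₀ (Real.exp_pos _)]
  refine le_trans h1 ?_
  have hC0 : 0 ≤ C := by
    by_contra hneg
    push Not at hneg
    have : ‖(CuspForm.discriminant : ℍ → ℂ) z‖ < 0 :=
      lt_of_le_of_lt h1 (mul_neg_of_neg_of_pos hneg (Real.exp_pos _))
    exact absurd (norm_nonneg _) (not_le.mpr this)
  apply mul_le_mul_of_nonneg_left _ hC0
  apply Real.exp_le_exp.mpr
  have hpi := Real.pi_pos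
  rw [div_one]
  have : -2 * Real.pi * z.im ≤ 0 := by nlinarith
  rw [le_div_iff₀ (by linarith)]
  nlinarith

/-- **Analytic core of INTEGRALITY.** A holomorphic `SL(2, ℤ)`-invariant function on `ℍ` having a
`q_h`-expansion with pole order at most `m` is a polynomial of degree at most `m` in `j`. -/
theorem exists_polynomial_of_isQExp {f : ℍ → ℂ} (hf : f ∈ HolH)
    (hinv : ∀ (γ : SL(2, ℤ)) z, f (γ • z) = f z) (h : ℕ) [NeZero h] (m : ℕ)
    (P : PowerSeries ℂ) (hq : IsQExp h f m P) :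
    ∃ p : Polynomial ℂ, p.natDegree ≤ m ∧ ∀ z, f z = p.eval (jFun z) := by
  apply exists_polynomial_jFun (mem_HolH.mp hf) hinv m
  rw [isBoundedAtImInfty_iff]
  obtain ⟨B, hB⟩ := qlo_bounded_mul_qh hq
  obtain ⟨C, A, hC⟩ := qlo_bounded_discriminant_div_qh h
  refine ⟨B * C ^ m, max A 1, fun z hz => ?_⟩
  have hzA : A ≤ z.im := le_trans (le_max_left _ _) hz
  have hz1 : 1 ≤ z.im := le_trans (le_max_right _ _) hz
  have hq0 : qh h z ≠ 0 := qlo_qh_ne_zero h z
  have e : f z * Δ z ^ m = (f z * qh h z ^ m) * (Δ z / qh h z) ^ m := by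
    rw [div_pow]
    field_simp
  rw [e, norm_mul, norm_pow]
  have h1 := hB z hz1
  have h2 := hC z hzA
  have hB0 : 0 ≤ B := le_trans (norm_nonneg _) h1
  exact mul_le_mul h1 (pow_le_pow_left₀ (norm_nonneg _) h2 m) (pow_nonneg (norm_nonneg _) m) hB0

end Fermat.Agent.X0.QExpLevelOne
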