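/-
C-S24 core (helper20): the genus of `F = FF N` over `ℚbar` equals `genusFormula N`, from
* the Riemann–Hurwitz package `FF.GenusHyp ℚbar (jF N)` (C-F1),
* the degree `[F : ℚbar(j)] = ψ(N)` (C-F2e),
* maps from the coset space `X = SL(2, ℤ) ⧸ Γ₀(N)` onto the places over `0`, `1728`, `∞`
  with the invariance / ramification bounds of C-P1a/b/c,
* unramifiedness over the other values.
Everything is an explicit hypothesis; the proof is pure bookkeeping
(`PlaceCountX0` + `GNFinal`).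
-/
import Mathlib
import Fermat.Agent.X0.AnDefs
import Fermat.Agent.X0.FFGenusCore
import Fermat.Agent.X0.PlaceCountX0
import Fermat.Agent.X0.GNFinal

set_option autoImplicit false

namespace Fermat.Agent.X0.S24Core

open AlgebraicCurve MulAction Subgroup Matrix MatrixGroups ModularGroup CongruenceSubgroup
open IntermediateField
open Fermat.Agent.X0 Fermat.Agent.X0.FF Fermat.Agent.X0.PlaceCountX0 Fermat.Agent.X0.GNFinal

variable (N : ℕ) [NeZero N]

/-- **S24 from the place data.** -/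
theorem genus_eq_genusFormula_of_data
    [HasCanonicalDivisor (K := Kbar) (F := FF N)]
    (H : GenusHyp Kbar (jF N))
    (hdeg : Module.finrank Kbar⟮jF N⟯ (FF N) = ModularCurve.dedekindPsi N)
    -- the fibre over `0`
    (γ₀ : SL(2, ℤ)) (pl₀ : SL(2, ℤ) ⧸ Gamma0 N → Place Kbar (FF N))
    (hpos₀ : ∀ a, 0 < (pl₀ a).ord (jF N - algebraMap Kbar (FF N) 0))
    (hsurj₀ : ∀ v : Place Kbar (FF N), 0 < v.ord (jF N - algebraMap Kbar (FF N) 0) →
      ∃ a, pl₀ a = v)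
    (hinv₀ : ∀ a, pl₀ ((γ₀ * (S * T) * γ₀⁻¹) • a) = pl₀ a)
    (hle₀ : ∀ a, (pl₀ a).ord (jF N - algebraMap Kbar (FF N) 0) ≤ 3)
    (hfix₀ : ∀ a, (γ₀ * (S * T) * γ₀⁻¹) • a = a →
      (pl₀ a).ord (jF N - algebraMap Kbar (FF N) 0) = 1)
    -- the fibre over `1728`
    (γ₁ : SL(2, ℤ)) (pl₁ : SL(2, ℤ) ⧸ Gamma0 N → Place Kbar (FF N))
    (hpos₁ : ∀ a, 0 < (pl₁ a).ord (jF N - algebraMap Kbar (FF N) 1728))
    (hsurj₁ : ∀ v : Place Kbar (FF N), 0 < v.ord (jF N - algebraMap Kbar (FF N) 1728) →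
      ∃ a, pl₁ a = v)
    (hinv₁ : ∀ a, pl₁ ((γ₁ * S * γ₁⁻¹) • a) = pl₁ a)
    (hle₁ : ∀ a, (pl₁ a).ord (jF N - algebraMap Kbar (FF N) 1728) ≤ 2)
    (hfix₁ : ∀ a, (γ₁ * S * γ₁⁻¹) • a = a →
      (pl₁ a).ord (jF N - algebraMap Kbar (FF N) 1728) = 1)
    -- the other finite values are unramified
    (hgen : ∀ c : Kbar, c ≠ 0 → c ≠ 1728 → ∀ v : Place Kbar (FF N),
      0 < v.ord (jF N - algebraMap Kbar (FF N) c) → v.ord (jF N - algebraMap Kbar (FF N) c) = 1)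
    -- the fibre over `∞`
    (plI : SL(2, ℤ) ⧸ Gamma0 N → Place Kbar (FF N))
    (hnegI : ∀ a, (plI a).ord (jF N) < 0)
    (hsurjI : ∀ v : Place Kbar (FF N), v.ord (jF N) < 0 → ∃ a, plI a = v)
    (hinvI : ∀ a, plI (T • a) = plI a)
    (hleI : ∀ a, -(plI a).ord (jF N) ≤ (Nat.card (orbit (zpowers T) a) : ℤ)) :
    (genus Kbar (FF N) : ℚ) = ModularCurve.genusFormula N := by
  classical
  have h1728 : (0 : Kbar) ≠ 1728 := by norm_num
  have hS : ∀ c ∉ ({0, 1728} : Finset Kbar), ∀ v : Place Kbar (FF N),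
      0 < v.ord (jF N - algebraMap Kbar (FF N) c) →
      v.ord (jF N - algebraMap Kbar (FF N) c) = 1 := by
    intro c hc v hv
    simp only [Finset.mem_insert, Finset.mem_singleton, not_or] at hc
    exact hgen c hc.1 hc.2 v hv
  rw [H.genus_eq ({0, 1728} : Finset Kbar) hS, hdeg]
  have hsum0 := H.sum_ord_fibre 0
  have hsum1 := H.sum_ord_fibre 1728
  have hsumInf := H.sum_ord_poles
  rw [hdeg] at hsum0 hsum1 hsumInf
  have c0 := pcx_count_conj_ST (K := Kbar) N (jF N - algebraMap Kbar (FF N) 0)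
    (H.finite_fibre 0) hsum0 γ₀ pl₀ hpos₀ hsurj₀ hinv₀ hle₀ hfix₀
  have c1 := pcx_count_conj_S (K := Kbar) N (jF N - algebraMap Kbar (FF N) 1728)
    (H.finite_fibre 1728) hsum1 γ₁ pl₁ hpos₁ hsurj₁ hinv₁ hle₁ hfix₁
  have cInf := (pcx_count_cusps (K := Kbar) N (jF N) H.finite_poles hsumInf plI hnegI hsurjI
    hinvI hleI).1
  exact gnf_genus_eq_sum N (0 : Kbar) 1728 h1728 (ModularCurve.dedekindPsi N)
    (fun c => Nat.card {v : Place Kbar (FF N) // 0 < v.ord (jF N - algebraMap Kbar (FF N) c)})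
    (Nat.card {v : Place Kbar (FF N) // v.ord (jF N) < 0}) rfl c0 c1 cInf

end Fermat.Agent.X0.S24Core
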